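import Fermat.Agent.GCFT.Mod

/-!
# Divisors and the diagonal embedding
-/

set_option autoImplicit false

namespace Fermat.Agent.GCFT

open Fermat.Agent.Coh

/-- The field of algebraic numbers. -/
local notation "Qb" => AlgebraicClosure ℚ
/-- The absolute Galois group. -/
local notation "GQ" => (AlgebraicClosure ℚ ≃ₐ[ℚ] AlgebraicClosure ℚ)

/-! ### valuations -/

/-- The normalised `l`-adic valuation as an integer valued function (floor of the real valued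
valuation). -/
noncomputable def ordl (l : Nat.Primes) (y : (Om l)ˣ) : ℤ := ⌊-Real.logb (l : ℕ) ‖(y : Om l)‖⌋

theorem ordl_eq {l : Nat.Primes} {y : (Om l)ˣ} {n : ℤ} (h : ‖(y : Om l)‖ = ((l : ℕ) : ℝ) ^ (-n)) :
    ordl l y = n := by
  have hl : 1 < ((l : ℕ) : ℝ) := by exact_mod_cast l.2.one_lt
  rw [ordl, h, ← Real.rpow_intCast, Real.logb_rpow (by linarith) (by linarith)]
  push_cast
  rw [neg_neg, Int.floor_intCast]

/-- the norm of a Galois conjugate -/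
theorem norm_gal {l : Nat.Primes} (δ : Gl l) (y : Om l) : ‖δ y‖ = ‖y‖ := by
  have h := nnnorm_padicAlgCl_algEquiv (l : ℕ) δ y
  exact congrArg NNReal.toReal h

theorem norm_nat (l : Nat.Primes) : ‖((l : ℕ) : Om l)‖ = ((l : ℕ) : ℝ)⁻¹ := by
  have h := PadicAlgCl.norm_extends (l : ℕ) ((l : ℕ) : ℚ_[(l : ℕ)])
  rw [map_natCast, Padic.norm_p] at h
  exact h

theorem nonunits_padicPlace (l : Nat.Primes) : (padicPlace (l : ℕ)).LiesOverPrime (l : ℕ) := by
  rw [ValuationSubring.LiesOverPrime, ValuationSubring.mem_nonunits_iff_exists_mem_maximalIdeal]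
  have hl : 1 < ((l : ℕ) : ℝ) := by exact_mod_cast l.2.one_lt
  have h1 : ‖il l ((l : ℕ) : Qb)‖ = ((l : ℕ) : ℝ)⁻¹ := by rw [map_natCast, norm_nat]
  have hmem : ((l : ℕ) : Qb) ∈ padicPlace (l : ℕ) := by
    rw [mem_padicPlace_iff, ← NNReal.coe_le_coe, coe_nnnorm, NNReal.coe_one, h1]
    exact inv_le_one_of_one_le₀ hl.le
  refine ⟨hmem, ?_⟩
  rw [IsLocalRing.mem_maximalIdeal, mem_nonunits_iff]
  intro hu
  obtain ⟨w, hw⟩ := hu.exists_right_inv
  have h2 : il l ((l : ℕ) : Qb) * il l (w : Qb) = 1 := by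
    rw [← map_mul, ← map_one (il l)]
    exact congrArg (il l) (congrArg Subtype.val hw)
  have h3 : ‖il l (w : Qb)‖ ≤ 1 := by
    have := (mem_padicPlace_iff (l : ℕ)).mp w.2
    exact_mod_cast this
  have h4 : ‖il l ((l : ℕ) : Qb)‖ * ‖il l (w : Qb)‖ = 1 := by
    rw [← norm_mul, h2, norm_one]
  rw [h1] at h4
  have h5 : ((l : ℕ) : ℝ)⁻¹ < 1 := inv_lt_one_of_one_lt₀ hl
  have h6 : ((l : ℕ) : ℝ)⁻¹ * ‖il l (w : Qb)‖ ≤ ((l : ℕ) : ℝ)⁻¹ :=
    mul_le_of_le_one_right (inv_nonneg.mpr (by linarith)) h3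
  linarith

theorem norm_le_one_iff {l : Nat.Primes} {x : Qb} :
    (padicPlace (l : ℕ)).valuation x ≤ 1 ↔ ‖il l x‖ ≤ 1 := by
  rw [ValuationSubring.valuation_le_one_iff, mem_padicPlace_iff]
  exact Iff.rfl

theorem norm_eq_one {l : Nat.Primes} {x : Qb} (hx : (padicPlace (l : ℕ)).valuation x = 1) :
    ‖il l x‖ = 1 := by
  apply le_antisymm (norm_le_one_iff.mp hx.le)
  have h1 : (padicPlace (l : ℕ)).valuation x⁻¹ ≤ 1 := by rw [map_inv₀, hx, inv_one]
  have h2 := norm_le_one_iff.mp h1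
  rw [map_inv₀, norm_inv] at h2
  have h0 : x ≠ 0 := by
    rintro rfl
    rw [map_zero] at hx
    exact zero_ne_one hx
  have h3 : 0 < ‖il l x‖ := norm_pos_iff.mpr (by rwa [Ne, map_eq_zero])
  exact (inv_le_one₀ h3).mp h2

/-- The valuations of elements unramified at `l` are integral. -/
theorem exists_norm_eq_zpow {S : Finset Nat.Primes} {l : Nat.Primes} (hl : l ∉ S) (x : KS S)
    (g : GQ) : ∃ n : ℤ, ‖il l (g ((x : Additive Qbˣ).toMul : Qb))‖ = ((l : ℕ) : ℝ) ^ (-n) := by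
  obtain ⟨U, hU, h⟩ := x.2
  set y : Qb := g ((x : Additive Qbˣ).toMul : Qb) with hy
  have hy0 : y ≠ 0 := by
    rw [hy, Ne, map_eq_zero]
    exact Units.ne_zero _
  have hxu : ∀ u ∈ U, u ((x : Additive Qbˣ).toMul : Qb) = ((x : Additive Qbˣ).toMul : Qb) := by
    intro u hu
    have := h u hu
    rw [← repQb_apply, this]
  have hyK : y ∈ LG.KI (padicPlace (l : ℕ)) := by
    rw [LG.mem_KI]
    intro σ hσ
    have h1 : σ ∈ U := hU.2.2 l hl _ (nonunits_padicPlace l) hσ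
    have h2 : g⁻¹ * σ * g ∈ U := by
      have := hU.1.conj_mem σ h1 g⁻¹
      simpa using this
    have h3 := hxu _ h2
    rw [hy]
    conv_rhs => rw [← h3]
    rw [AlgEquiv.mul_apply, AlgEquiv.mul_apply, ← AlgEquiv.mul_apply g g⁻¹, mul_inv_cancel,
      AlgEquiv.one_apply]
  obtain ⟨n, hn⟩ := LG.exists_zpow (padicPlace (l : ℕ)) l.2 (nonunits_padicPlace l) hyK hy0
  refine ⟨n, ?_⟩
  have hl0 : ((l : ℕ) : Qb) ≠ 0 := Nat.cast_ne_zero.mpr l.2.ne_zero
  have h1 : (padicPlace (l : ℕ)).valuation (y / ((l : ℕ) : Qb) ^ n) = 1 := by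
    rw [map_div₀, map_zpow₀, hn, div_self]
    apply zpow_ne_zero
    rwa [Ne, map_eq_zero]
  have h2 := norm_eq_one h1
  rw [map_div₀, map_zpow₀, map_natCast, norm_div, norm_zpow, norm_nat] at h2
  have hl' : 0 < ((l : ℕ) : ℝ) := by exact_mod_cast l.2.pos
  have h3 : (((l : ℕ) : ℝ)⁻¹) ^ n ≠ 0 := zpow_ne_zero _ (inv_ne_zero hl'.ne')
  rw [div_eq_one_iff_eq h3] at h2
  rw [h2, inv_zpow, zpow_neg]

/-- the divisor of an element of `KS S` at `l ∉ S` -/
noncomputable def divl (l : Nat.Primes) (x : Additive Qbˣ) (g : GQ) : ℤ :=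
  ordl l (Units.map (il l : Qb →* Om l) (Units.map (g : Qb →* Qb) x.toMul))

theorem divl_eq {l : Nat.Primes} {x : Additive Qbˣ} {g : GQ} {n : ℤ}
    (h : ‖il l (g (x.toMul : Qb))‖ = ((l : ℕ) : ℝ) ^ (-n)) : divl l x g = n :=
  ordl_eq (y := Units.map (il l : Qb →* Om l) (Units.map (g : Qb →* Qb) x.toMul)) h

theorem norm_eq_divl {S : Finset Nat.Primes} {l : Nat.Primes} (hl : l ∉ S) (x : KS S) (g : GQ) :
    ‖il l (g ((x : Additive Qbˣ).toMul : Qb))‖ =
      ((l : ℕ) : ℝ) ^ (-divl l (x : Additive Qbˣ) g) := by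
  obtain ⟨n, hn⟩ := exists_norm_eq_zpow hl x g
  have h1 := divl_eq hn
  rw [h1, hn]

end Fermat.Agent.GCFT
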