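import Fermat.Agent.GCFT.Basic
import Fermat.Agent.Coh.Shapiro
import Fermat.Agent.LG.InertField
import Fermat.Prelude.Def_ExtEndgame_ProductionDatum

/-!
# The modules of global class field theory at level `S`

`famS S` is the family of open normal subgroups of `Gal(ℚ̄/ℚ)` containing all inertia groups
outside `S`.  `KS S` is the multiplicative group of the maximal extension unramified outside `S`,
`IS S` is the group of ideles (genuine local components at `S`, divisors outside `S`) and
`CS S = IS S / KS S`.  All groups are written additively.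
-/

set_option autoImplicit false

namespace Fermat.Agent.GCFT

open Fermat.Agent.Coh

/-- The field of algebraic numbers. -/
local notation "Qb" => AlgebraicClosure ℚ
/-- The absolute Galois group. -/
local notation "GQ" => (AlgebraicClosure ℚ ≃ₐ[ℚ] AlgebraicClosure ℚ)

instance factPrime (l : Nat.Primes) : Fact (l : ℕ).Prime := ⟨l.2⟩

/-- the algebraic closure of `ℚ_l` -/
abbrev Om (l : Nat.Primes) : Type := PadicAlgCl (l : ℕ)

/-- the absolute Galois group of `ℚ_l` -/
abbrev Gl (l : Nat.Primes) : Type := PadicAlgCl (l : ℕ) ≃ₐ[ℚ_[(l : ℕ)]] PadicAlgCl (l : ℕ)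

/-- localisation of Galois groups -/
noncomputable abbrev rl (l : Nat.Primes) : Gl l →* GQ := localGaloisToGlobal (l : ℕ)

/-- the embedding of the algebraic numbers in the algebraic closure of `ℚ_l` -/
noncomputable abbrev il (l : Nat.Primes) : Qb →ₐ[ℚ] Om l := padicEmbedding (l : ℕ)

theorem il_rl (l : Nat.Primes) (δ : Gl l) (x : Qb) : il l (rl l δ x) = δ (il l x) :=
  padicEmbedding_localGaloisToGlobal (l : ℕ) δ x

instance galQ : IsGalois ℚ Qb := by
  have : IsAlgClosure ℚ Qb := ⟨inferInstance, inferInstance⟩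
  exact IsAlgClosure.isGalois ℚ Qb

theorem finiteIndex_of_isOpen {U : Subgroup GQ} (h : IsOpen (U : Set GQ)) : U.FiniteIndex := by
  have := Subgroup.quotient_finite_of_isOpen U h
  exact Subgroup.finiteIndex_of_finite_quotient

/-- open normal subgroups of level `S` -/
def famS (S : Finset Nat.Primes) : Fam GQ where
  carrier := {U | U.Normal ∧ IsOpen (U : Set GQ) ∧ ∀ q : Nat.Primes, q ∉ S →
    ∀ A : ValuationSubring Qb, A.LiesOverPrime (q : ℕ) → A.inertiaSubgroupIn ℚ ≤ U}
  nonempty := ⟨⊤, inferInstance, isOpen_univ, fun _ _ _ _ => le_top⟩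
  normal U hU := hU.1
  finiteIndex U hU := finiteIndex_of_isOpen hU.2.1
  inf_mem U hU V hV := ⟨by have := hU.1; have := hV.1; infer_instance, hU.2.1.inter hV.2.1,
    fun q hq A hA => le_inf (hU.2.2 q hq A hA) (hV.2.2 q hq A hA)⟩

theorem mem_famS {S : Finset Nat.Primes} {U : Subgroup GQ} : U ∈ famS S ↔ U.Normal ∧
    IsOpen (U : Set GQ) ∧ ∀ q : Nat.Primes, q ∉ S → ∀ A : ValuationSubring Qb,
      A.LiesOverPrime (q : ℕ) → A.inertiaSubgroupIn ℚ ≤ U := Iff.rfl

theorem famS_mono {S S' : Finset Nat.Primes} (h : S ⊆ S') {U : Subgroup GQ} (hU : U ∈ famS S) :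
    U ∈ famS S' := ⟨hU.1, hU.2.1, fun q hq => hU.2.2 q fun hq' => hq (h hq')⟩

theorem isOpen_of_famS {S : Finset Nat.Primes} {U : Subgroup GQ} (hU : (famS S).IsOpen U) :
    IsOpen (U : Set GQ) := by
  obtain ⟨W, hW, hWU⟩ := hU
  exact Subgroup.isOpen_mono hWU hW.2.1

/-- an open subgroup is the group of automorphisms fixing its fixed field -/
theorem mem_of_fixes {U : Subgroup GQ} (hU : IsOpen (U : Set GQ)) {g : GQ}
    (hg : ∀ x : Qb, (∀ u ∈ U, u x = x) → g x = x) : g ∈ U := by
  have hcl : IsClosed (U : Set GQ) := Subgroup.isClosed_of_isOpen U hU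
  have h1 := InfiniteGalois.fixingSubgroup_fixedField (k := ℚ) (K := Qb) ⟨U, hcl⟩
  have h2 : g ∈ (IntermediateField.fixedField (E := Qb) (F := ℚ)
      ((⟨U, hcl⟩ : ClosedSubgroup GQ) : Subgroup GQ)).fixingSubgroup := by
    rw [IntermediateField.mem_fixingSubgroup_iff]
    intro x hx
    exact hg x fun u hu => (IntermediateField.mem_fixedField_iff _ x).mp hx u hu
  rw [h1] at h2
  exact h2

/-- the representation of the Galois group on the multiplicative group -/
noncomputable abbrev repQb : Representation ℤ GQ (Additive Qbˣ) :=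
  Representation.ofMulDistribMulAction GQ Qbˣ

theorem repQb_apply (g : GQ) (x : Additive Qbˣ) :
    ((repQb g x).toMul : Qb) = g (x.toMul : Qb) := rfl

/-- the multiplicative group of the maximal extension unramified outside `S` -/
noncomputable abbrev KS (S : Finset Nat.Primes) : Submodule ℤ (Additive Qbˣ) := smVec (famS S) repQb

/-- its Galois representation -/
noncomputable abbrev repK (S : Finset Nat.Primes) : Representation ℤ GQ (KS S) :=
  smRep (famS S) repQb

/-- right translation on functions -/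
noncomputable def transl (A : Type*) [AddCommGroup A] : Representation ℤ GQ (GQ → A) where
  toFun g :=
    { toFun := fun f x => f (x * g)
      map_add' := fun _ _ => rfl
      map_smul' := fun _ _ => rfl }
  map_one' := by
    ext f x
    simp
  map_mul' g h := by
    ext f x
    simp [mul_assoc]

@[simp] theorem transl_apply {A : Type*} [AddCommGroup A] (g : GQ) (f : GQ → A) (x : GQ) :
    transl A g f x = f (x * g) := rfl

/-- the local multiplicative group -/
noncomputable abbrev repOm (l : Nat.Primes) : Representation ℤ (Gl l) (Additive (Om l)ˣ) :=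
  Representation.ofMulDistribMulAction (Gl l) (Om l)ˣ

theorem repOm_apply (l : Nat.Primes) (g : Gl l) (x : Additive (Om l)ˣ) :
    ((repOm l g x).toMul : Om l) = g (x.toMul : Om l) := rfl

/-- equivariant functions: the coinduced multiplicative group at `l` -/
def JE (l : Nat.Primes) : Submodule ℤ (GQ → Additive (Om l)ˣ) where
  carrier := {f | ∀ (δ : Gl l) (x : GQ), f (rl l δ * x) = repOm l δ (f x)}
  zero_mem' δ x := by simp
  add_mem' {f g} hf hg δ x := by simp only [Pi.add_apply, map_add, hf δ x, hg δ x]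
  smul_mem' c f hf δ x := by simp only [Pi.smul_apply, map_smul, hf δ x]

theorem mem_JE {l : Nat.Primes} {f : GQ → Additive (Om l)ˣ} :
    f ∈ JE l ↔ ∀ (δ : Gl l) (x : GQ), f (rl l δ * x) = repOm l δ (f x) := Iff.rfl

/-- invariant functions: the coinduced divisor group at `l` -/
def DE (l : Nat.Primes) : Submodule ℤ (GQ → ℤ) where
  carrier := {f | ∀ (δ : Gl l) (x : GQ), f (rl l δ * x) = f x}
  zero_mem' δ x := by simp
  add_mem' {f g} hf hg δ x := by simp only [Pi.add_apply, hf δ x, hg δ x]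
  smul_mem' c f hf δ x := by simp only [Pi.smul_apply, hf δ x]

theorem mem_DE {l : Nat.Primes} {f : GQ → ℤ} :
    f ∈ DE l ↔ ∀ (δ : Gl l) (x : GQ), f (rl l δ * x) = f x := Iff.rfl

/-- The ideles of level `S`: smooth families of equivariant functions. -/
def IS (S : Finset Nat.Primes) :
    Submodule ℤ ((∀ l : Nat.Primes, GQ → Additive (Om l)ˣ) × (Nat.Primes → GQ → ℤ)) where
  carrier := {a | (∀ l ∈ S, a.1 l ∈ JE l) ∧ (∀ l ∉ S, a.1 l = 0) ∧ (∀ l, a.2 l ∈ DE l) ∧
    (∀ l ∈ S, a.2 l = 0) ∧ {l | a.2 l ≠ 0}.Finite ∧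
    ∃ U ∈ famS S, ∀ u ∈ U, ∀ l x, a.1 l (x * u) = a.1 l x ∧ a.2 l (x * u) = a.2 l x}
  zero_mem' := by
    refine ⟨fun l _ => zero_mem _, fun l _ => rfl, fun l => zero_mem _, fun l _ => rfl, ?_, ?_⟩
    · simp
    · obtain ⟨U, hU⟩ := (famS S).nonempty
      exact ⟨U, hU, fun u _ l x => ⟨rfl, rfl⟩⟩
  add_mem' := by
    rintro a b ⟨h1, h2, h3, h4, h5, U, hU, h6⟩ ⟨h1', h2', h3', h4', h5', U', hU', h6'⟩
    refine ⟨fun l hl => add_mem (h1 l hl) (h1' l hl), fun l hl => ?_,
      fun l => add_mem (h3 l) (h3' l), fun l hl => ?_, ?_, U ⊓ U', (famS S).inf_mem _ hU _ hU',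
      fun u hu l x => ⟨?_, ?_⟩⟩
    · rw [Prod.fst_add, Pi.add_apply, h2 l hl, h2' l hl, add_zero]
    · rw [Prod.snd_add, Pi.add_apply, h4 l hl, h4' l hl, add_zero]
    · refine (h5.union h5').subset fun l hl => ?_
      by_contra hcon
      rw [Set.mem_union, not_or] at hcon
      simp only [Set.mem_ofPred_eq, not_not] at hcon hl
      exact hl (by rw [Prod.snd_add, Pi.add_apply, hcon.1, hcon.2, add_zero])
    · simp only [Prod.fst_add, Pi.add_apply, (h6 u hu.1 l x).1, (h6' u hu.2 l x).1]
    · simp only [Prod.snd_add, Pi.add_apply, (h6 u hu.1 l x).2, (h6' u hu.2 l x).2]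
  smul_mem' := by
    rintro c a ⟨h1, h2, h3, h4, h5, U, hU, h6⟩
    refine ⟨fun l hl => Submodule.smul_mem _ c (h1 l hl), fun l hl => ?_,
      fun l => Submodule.smul_mem _ c (h3 l), fun l hl => ?_, ?_, U, hU, fun u hu l x => ⟨?_, ?_⟩⟩
    · rw [Prod.smul_fst, Pi.smul_apply, h2 l hl, smul_zero]
    · rw [Prod.smul_snd, Pi.smul_apply, h4 l hl, smul_zero]
    · refine h5.subset fun l hl => ?_
      simp only [Set.mem_ofPred_eq] at hl ⊢
      intro h
      exact hl (by rw [Prod.smul_snd, Pi.smul_apply, h, smul_zero])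
    · simp only [Prod.smul_fst, Pi.smul_apply, (h6 u hu l x).1]
    · simp only [Prod.smul_snd, Pi.smul_apply, (h6 u hu l x).2]

theorem mem_IS {S : Finset Nat.Primes}
    {a : (∀ l : Nat.Primes, GQ → Additive (Om l)ˣ) × (Nat.Primes → GQ → ℤ)} :
    a ∈ IS S ↔ (∀ l ∈ S, a.1 l ∈ JE l) ∧ (∀ l ∉ S, a.1 l = 0) ∧ (∀ l, a.2 l ∈ DE l) ∧
    (∀ l ∈ S, a.2 l = 0) ∧ {l | a.2 l ≠ 0}.Finite ∧
    ∃ U ∈ famS S, ∀ u ∈ U, ∀ l x, a.1 l (x * u) = a.1 l x ∧ a.2 l (x * u) = a.2 l x := Iff.rfl

/-- right translation -/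
noncomputable def translI :
    Representation ℤ GQ ((∀ l : Nat.Primes, GQ → Additive (Om l)ˣ) × (Nat.Primes → GQ → ℤ)) where
  toFun g :=
    { toFun := fun a => (fun l x => a.1 l (x * g), fun l x => a.2 l (x * g))
      map_add' := fun _ _ => rfl
      map_smul' := fun _ _ => rfl }
  map_one' := by
    apply LinearMap.ext
    intro a
    apply Prod.ext
    · funext l x
      exact congrArg (a.1 l) (mul_one x)
    · funext l x
      exact congrArg (a.2 l) (mul_one x)
  map_mul' g h := by
    apply LinearMap.ext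
    intro a
    apply Prod.ext
    · funext l x
      exact congrArg (a.1 l) (mul_assoc x g h).symm
    · funext l x
      exact congrArg (a.2 l) (mul_assoc x g h).symm

@[simp] theorem translI_fst (g : GQ)
    (a : (∀ l : Nat.Primes, GQ → Additive (Om l)ˣ) × (Nat.Primes → GQ → ℤ)) (l : Nat.Primes)
    (x : GQ) : (translI g a).1 l x = a.1 l (x * g) := rfl

@[simp] theorem translI_snd (g : GQ)
    (a : (∀ l : Nat.Primes, GQ → Additive (Om l)ˣ) × (Nat.Primes → GQ → ℤ)) (l : Nat.Primes)
    (x : GQ) : (translI g a).2 l x = a.2 l (x * g) := rfl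

theorem IS_le_comap (S : Finset Nat.Primes) (g : GQ) : IS S ≤ (IS S).comap (translI g) := by
  rintro a ⟨h1, h2, h3, h4, h5, U, hU, h6⟩
  refine ⟨fun l hl δ x => ?_, fun l hl => ?_, fun l δ x => ?_, fun l hl => ?_, ?_, U, hU,
    fun u hu l x => ?_⟩
  · rw [translI_fst, translI_fst, mul_assoc, h1 l hl δ]
  · funext x
    rw [translI_fst, h2 l hl]
    rfl
  · rw [translI_snd, translI_snd, mul_assoc, h3 l δ]
  · funext x
    rw [translI_snd, h4 l hl]
    rfl
  · refine h5.subset fun l hl => ?_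
    simp only [Set.mem_ofPred_eq] at hl ⊢
    intro h
    refine hl ?_
    funext x
    rw [translI_snd, h]
    rfl
  · rw [translI_fst, translI_fst, translI_snd, translI_snd]
    have h7 : x * u * g = x * g * (g⁻¹ * u * g) := by group
    have h8 : g⁻¹ * u * g ∈ U := by
      have := ((famS S).normal U hU).conj_mem u hu g⁻¹
      simpa using this
    rw [h7]
    exact h6 _ h8 l (x * g)

/-- The Galois representation on the ideles of level `S`. -/
noncomputable def repI (S : Finset Nat.Primes) : Representation ℤ GQ (IS S) :=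
  subRep translI (IS S) (IS_le_comap S)

@[simp] theorem coe_repI (S : Finset Nat.Primes) (g : GQ) (a : IS S) :
    (repI S g a : (∀ l : Nat.Primes, GQ → Additive (Om l)ˣ) × (Nat.Primes → GQ → ℤ)) =
      translI g a := rfl

theorem repI_smooth (S : Finset Nat.Primes) : SmRep (famS S) (repI S) := by
  rintro ⟨a, h1, h2, h3, h4, h5, U, hU, h6⟩
  refine ⟨U, hU, fun u hu => Subtype.ext (Prod.ext ?_ ?_)⟩
  · funext l x
    exact (h6 u hu l x).1
  · funext l x
    exact (h6 u hu l x).2


end Fermat.Agent.GCFT
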