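import Fermat.Agent.GCFT.Rec

/-!
# Global reciprocity for `H²(G_S, μ_p)`, conclusion
-/

set_option autoImplicit false
set_option linter.style.haveILetI false
set_option linter.unusedSectionVars false

namespace Fermat.Agent.GCFT

open Fermat.Agent.Coh Fermat.Agent.LocalCFT Fermat.Agent.PLog Fermat.Agent.GalD
open Fermat.Agent.PT (muQ muL jl jZ toTor invL invU coe_toTor coe_jZ nsmul_jl jl_comm fr stabL
  stabHom mem_stabL)
open ExtCitation (cycloChar pPrime)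

/-- The field of algebraic numbers. -/
local notation "Qb" => AlgebraicClosure ℚ
/-- The absolute Galois group. -/
local notation "GQ" => (AlgebraicClosure ℚ ≃ₐ[ℚ] AlgebraicClosure ℚ)

variable {S : Finset Nat.Primes} {U V : Subgroup GQ} {p : ℕ} [hp : Fact p.Prime]

/-- The class is a symbol. -/
theorem exists_global_sym (hp2 : p ≠ 2) (hpS : pPrime p ∈ S) {f : GQ × GQ → ZMod p}
    (hf : f ∈ Z2 (famS S) (muQ p)) : ∃ N : ℕ, ∀ n ≥ N, 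
    ∃ (x₀ : ↥(FF (repK S) (⊤ : Subgroup GQ)))
      (c : ↥(⊤ : Subgroup GQ) → KS S), ((famS S).res ⊤).Sm1 c ∧
      ∀ g h : ↥(⊤ : Subgroup GQ), jK hpS (f (g, h)) =
        carry (psiD (gCF S hp2 hpS) ⊤ n g) (psiD (gCF S hp2 hpS) ⊤ n h) •
          (x₀ : KS S) + (repK S (g : GQ) (c h) - c (g * h) + c g) := by
  refine ⟨(gCF S hp2 hpS).f ⊤ + ∑ l ∈ S, ((cycCF ((l : Nat.Primes) : ℕ) p hp2).f ⊤ + 1),
    fun n hn => ?_⟩
  obtain ⟨j, hj⟩ : ∃ j, n = (gCF S hp2 hpS).f ⊤ + j := ⟨n - (gCF S hp2 hpS).f ⊤, by omega⟩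
  have hn' : ∀ l ∈ S, (cycCF ((l : Nat.Primes) : ℕ) p hp2).f ⊤ + 1 ≤ n := by
    intro l hl
    have := Finset.single_le_sum (f := fun l : Nat.Primes => (cycCF (l : ℕ) p hp2).f ⊤ + 1)
      (fun _ _ => Nat.zero_le _) hl
    omega
  have hT : (famS S).IsOpen (⊤ : Subgroup GQ) := Fam.isOpen_top _
  have h1 := kZ_lay hp2 hpS hf hn' ((gCF S hp2 hpS).lay_isOpen hT j) (fun v hv => by
    rw [hj]
    exact hv.2)
  have h2 : rs (famS S) (repK S) ((gCF S hp2 hpS).lay_le ⊤ j)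
      (H2.mk ((famS S).res ⊤) (rep (repK S) ⊤) (kZ hpS ⊤ hf)) = 0 := h1
  have hpx : p ^ 1 • H2.mk ((famS S).res ⊤) (rep (repK S) ⊤) (kZ hpS ⊤ hf) = 0 := by
    rw [pow_one, ← map_nsmul]
    have : p • kZ hpS ⊤ hf = 0 := Subtype.ext (funext fun q => nsmul_jK hpS _)
    rw [this, map_zero]
  obtain ⟨x₀, hx⟩ := exists_sym_K (gCF S hp2 hpS) hT j _ h2 hpx
  rw [← hj] at hx
  obtain ⟨c, hc, h⟩ := H2.mk_eq_mk.mp hx.symm
  exact ⟨x₀, c, hc, fun g h' => h g h'⟩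

/-- the local component of an invariant element of `KS` -/
noncomputable def lx (l : Nat.Primes) (x₀ : ↥(FF (repK S) (⊤ : Subgroup GQ))) :
    ↥(FF (LU (l : ℕ)) (⊤ : Subgroup (Gl l))) :=
  ⟨lK S l 1 x₀, by
    rw [mem_FF]
    intro δ _
    rw [← lK_repK, (mem_FF (repK S)).mp x₀.2 _ (Subgroup.mem_top _)]⟩

/-- the principal idele of an invariant element -/
noncomputable def px (x₀ : ↥(FF (repK S) (⊤ : Subgroup GQ))) :
    ↥(FF (repI S) (⊤ : Subgroup GQ)) :=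
  ⟨iKS S x₀, by
    rw [mem_FF]
    intro g hg
    rw [← iKS_comm, (mem_FF (repK S)).mp x₀.2 _ hg]⟩

theorem lc_px {l : Nat.Primes} (hl : l ∈ S) (x₀ : ↥(FF (repK S) (⊤ : Subgroup GQ))) :
    lc (px x₀) hl = lx l x₀ := Subtype.ext (iKS_fst hl 1 _)

theorem local_of_global (hp2 : p ≠ 2) (hpS : pPrime p ∈ S) {f : GQ × GQ → ZMod p}
    (hf : f ∈ Z2 (famS S) (muQ p)) {n : ℕ} (x₀ : ↥(FF (repK S) (⊤ : Subgroup GQ)))
    (c : ↥(⊤ : Subgroup GQ) → KS S) (hc : ((famS S).res ⊤).Sm1 c)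
    (hcob : ∀ g h : ↥(⊤ : Subgroup GQ), jK hpS (f (g, h)) =
        carry (psiD (gCF S hp2 hpS) ⊤ n g) (psiD (gCF S hp2 hpS) ⊤ n h) •
          (x₀ : KS S) + (repK S (g : GQ) (c h) - c (g * h) + c g)) (l : Nat.Primes)
    (hf' : (fun q : Gl l × Gl l => f (rl l q.1, rl l q.2)) ∈ Z2 (LF (l : ℕ)) (muL p l)) :
    H2.mk ((LF (l : ℕ)).res ⊤) (rep (LU (l : ℕ)) ⊤)
      (jZ ((Mor.res (LF (l : ℕ)) (muL p l) ⊤).mapZ2 ⟨_, hf'⟩)) =
        sym (rep (LU (l : ℕ)) ⊤) (psiD (cycCF (l : ℕ) p hp2) ⊤ n) (lx l x₀) := by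
  rw [sym_apply, H2.mk_eq_mk]
  refine ⟨fun δ => lK S l 1 (c ⟨rl l δ, Subgroup.mem_top _⟩), ?_, fun δ ε => ?_⟩
  · obtain ⟨_, ⟨W, hW, rfl⟩, hcW⟩ := hc
    obtain ⟨W', hW', hle⟩ := PT.rl_cont (l := l) hW.2.1
    refine ⟨_, ⟨W', hW', rfl⟩, fun g u hu => ?_⟩
    have h1 := hcW ⟨rl l g, Subgroup.mem_top _⟩ ⟨rl l u, Subgroup.mem_top _⟩ (hle hu)
    have h2 : (⟨rl l ((g * u : ↥(⊤ : Subgroup (Gl l))) : Gl l), Subgroup.mem_top _⟩ :
        ↥(⊤ : Subgroup GQ)) = ⟨rl l g, Subgroup.mem_top _⟩ * ⟨rl l u, Subgroup.mem_top _⟩ :=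
      Subtype.ext (map_mul (rl l) _ _)
    exact congrArg (lK S l 1) ((congrArg c h2).trans h1)
  · have h1 := hcob ⟨rl l δ, Subgroup.mem_top _⟩ ⟨rl l ε, Subgroup.mem_top _⟩
    have h2 : (⟨rl l δ, Subgroup.mem_top _⟩ : ↥(⊤ : Subgroup GQ)) * ⟨rl l ε, Subgroup.mem_top _⟩ =
        ⟨rl l ((δ * ε : ↥(⊤ : Subgroup (Gl l))) : Gl l), Subgroup.mem_top _⟩ :=
      Subtype.ext (map_mul (rl l) _ _).symm
    have h3 := congrArg (lK S l 1) h1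
    rw [lK_jK_one, map_add, map_add, map_sub, map_nsmul, lK_repK, h2] at h3
    have h4 : ∀ δ : ↥(⊤ : Subgroup (Gl l)), psiD (gCF S hp2 hpS) ⊤ n
        (⟨rl l δ, Subgroup.mem_top _⟩ : ↥(⊤ : Subgroup GQ)) =
          psiD (cycCF (l : ℕ) p hp2) ⊤ n δ := by
      intro δ
      rw [psiD_apply]
      rfl
    rw [h4, h4] at h3
    exact h3

/-- The contribution of the places outside `S`. -/
theorem dvd_outside (hp2 : p ≠ 2) (hpS : pPrime p ∈ S) {f : GQ × GQ → ZMod p} {n : ℕ}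
    (x₀ : ↥(FF (repK S) (⊤ : Subgroup GQ)))
    (c : ↥(⊤ : Subgroup GQ) → KS S) (hc : ((famS S).res ⊤).Sm1 c)
    (hcob : ∀ g h : ↥(⊤ : Subgroup GQ), jK hpS (f (g, h)) =
        carry (psiD (gCF S hp2 hpS) ⊤ n g) (psiD (gCF S hp2 hpS) ⊤ n h) •
          (x₀ : KS S) + (repK S (g : GQ) (c h) - c (g * h) + c g)) {l : Nat.Primes} (hl : l ∉ S) :
    (p : ℤ_[p]) ^ n ∣ (cD (px x₀) l 1 : ℤ_[p]) * lamP p l := by
  have hlp : (l : ℕ) ≠ p := by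
    rintro h
    apply hl
    have : l = pPrime p := Subtype.ext h
    rw [this]
    exact hpS
  apply dvd_lamP hp2 hlp
  intro δ
  have hcD : cD (px x₀) l 1 = dvh hl 1 (x₀ : KS S) := diagFun_snd_not hl _ _
  set X : Chr (LF (l : ℕ)) (ZMod (p ^ n)) :=
    (psiD (gCF S hp2 hpS) ⊤ n).pull ((rl l).codRestrict ⊤ fun _ => Subgroup.mem_top _) (by
      rintro _ ⟨W, hW, rfl⟩
      obtain ⟨W', hW', hle⟩ := PT.rl_cont (l := l) hW.2.1
      exact ⟨W', hW', hle⟩) with hX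
  have hXa : ∀ δ, X δ = PadicInt.toZModPow n (dQ p (rl l δ)) := fun δ => rfl
  have h1 := dvd_of_carry X (dvh hl 1 (x₀ : KS S))
    (fun δ => dvh hl 1 (c ⟨rl l δ, Subgroup.mem_top _⟩)) (by
      obtain ⟨_, ⟨W, hW, rfl⟩, hcW⟩ := hc
      obtain ⟨W', hW', hle⟩ := PT.rl_cont (l := l) hW.2.1
      refine ⟨W', hW', fun g u hu => ?_⟩
      have h1 := hcW ⟨rl l g, Subgroup.mem_top _⟩ ⟨rl l u, Subgroup.mem_top _⟩ (hle hu)
      have h2 : (⟨rl l (g * u), Subgroup.mem_top _⟩ :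
          ↥(⊤ : Subgroup GQ)) = ⟨rl l g, Subgroup.mem_top _⟩ * ⟨rl l u, Subgroup.mem_top _⟩ :=
        Subtype.ext (map_mul (rl l) _ _)
      exact congrArg (dvh hl 1) ((congrArg c h2).trans h1)) (fun g h => by
      have h1 := hcob ⟨rl l g, Subgroup.mem_top _⟩ ⟨rl l h, Subgroup.mem_top _⟩
      have h2 : (⟨rl l g, Subgroup.mem_top _⟩ : ↥(⊤ : Subgroup GQ)) * ⟨rl l h, Subgroup.mem_top _⟩ =
          ⟨rl l (g * h), Subgroup.mem_top _⟩ := Subtype.ext (map_mul (rl l) _ _).symm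
      have h3 := congrArg (dvh hl 1) h1
      have h4 : dvh hl 1 (jK hpS (f (rl l g, rl l h))) = 0 := divl_jK hpS hl _ _
      have h5 : ∀ z : KS S, dvh hl 1 (repK S (rl l g) z) = dvh hl 1 z := by
        intro z
        rw [dvh_apply, dvh_apply]
        change divl l (repQb (rl l g) (z : Additive Qbˣ)) 1 = _
        rw [divl_translate, one_mul, ← mul_one (rl l g), divl_rl]
      rw [map_add, map_add, map_sub, map_nsmul, h2, nsmul_eq_mul] at h3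
      change dvh hl 1 (jK hpS (f (rl l g, rl l h))) = _ + (dvh hl 1 (repK S (rl l g) _) - _ + _) at h3
      rw [h4, h5] at h3
      exact h3) δ
  obtain ⟨k, hk⟩ := h1
  have h2 : (p : ℤ_[p]) ^ n ∣ dQ p (rl l δ) - ((X δ).val : ℤ_[p]) := by
    rw [← CFData.toZModPow_eq_zero_iff, map_sub, map_natCast, ZMod.natCast_zmod_val, hXa, sub_self]
  have h3 : (dvh hl 1 (x₀ : KS S) : ℤ_[p]) * dQ p (rl l δ) =
      (dvh hl 1 (x₀ : KS S) : ℤ_[p]) * (dQ p (rl l δ) - ((X δ).val : ℤ_[p])) +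
        (p : ℤ_[p]) ^ n * (k : ℤ_[p]) := by
    have h4 := congrArg (Int.cast : ℤ → ℤ_[p]) hk
    push_cast at h4
    rw [← h4]
    ring
  rw [hcD, h3]
  exact dvd_add (h2.mul_left _) (Dvd.intro _ rfl)

/-- **Global reciprocity.** -/
theorem rec_fr (hp2 : p ≠ 2) (hpS : pPrime p ∈ S) : (fr p hp2 S hpS).Rec := by
  intro f hf
  obtain ⟨N, hN⟩ := exists_global_sym hp2 hpS hf
  set n := N + ∑ l ∈ S, ((cycCF ((l : Nat.Primes) : ℕ) p hp2).f ⊤ + 1) with hn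
  have hn' : ∀ l ∈ S, (cycCF ((l : Nat.Primes) : ℕ) p hp2).f ⊤ + 1 ≤ n := by
    intro l hl
    have := Finset.single_le_sum (f := fun l : Nat.Primes => (cycCF (l : ℕ) p hp2).f ⊤ + 1)
      (fun _ _ => Nat.zero_le _) hl
    omega
  have hn1 : 1 ≤ n := by have := hn' _ hpS; omega
  obtain ⟨x₀, c, hc, hcob⟩ := hN n (by omega)
  have h1 : ∀ l : S, ∃ w : ℤ_[p], v0 ((l.1 : Nat.Primes) : ℕ) p hp2 (lc (px x₀) l.2) =
      (p : ℤ_[p]) ^ (n - 1) * w ∧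
      (fr p hp2 S hpS).iv l ((fr p hp2 S hpS).r2 l f) = PadicInt.toZMod w := by
    intro l
    have hf' : (fr p hp2 S hpS).r2 l f ∈ Z2 (LF ((l.1 : Nat.Primes) : ℕ)) (muL p l.1) :=
      (fr p hp2 S hpS).r2_mem hf
    obtain ⟨r, hr⟩ : ∃ r, n = (cycCF ((l.1 : Nat.Primes) : ℕ) p hp2).f ⊤ + (r + 1) :=
      ⟨n - (cycCF ((l.1 : Nat.Primes) : ℕ) p hp2).f ⊤ - 1, by have := hn' _ l.2; omega⟩
    obtain ⟨w, hw, hi⟩ := invL_of_sym hp2 ⟨_, hf'⟩ hr (lx l.1 x₀)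
      (local_of_global hp2 hpS hf x₀ c hc hcob l.1 hf')
    refine ⟨w, ?_, ?_⟩
    · rw [lc_px l.2, hw]
    · rw [PT.Frame.iv_eq hf']
      exact hi
  choose w hw hi using h1
  refine (Finset.sum_congr rfl fun l _ => hi l).trans ?_
  rw [← map_sum, CFData.toZMod_eq_zero_iff]
  have h2 : V0 S hp2 (px x₀) = 0 := V0_principal hp2 hpS ⟨_, rfl⟩
  rw [V0_apply, Finset.sum_congr rfl fun l _ => hw l, ← Finset.mul_sum] at h2
  have h3 : (p : ℤ_[p]) ^ n ∣ V0d S (px x₀) := by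
    rw [V0d_apply]
    refine finsum_induction (fun x => (p : ℤ_[p]) ^ n ∣ x) (dvd_zero _) (fun _ _ => dvd_add) ?_
    intro l
    by_cases hl : l ∈ S
    · have h0 : cD (px x₀) l 1 = 0 := congrFun ((px x₀).1.2.2.2.2.1 l hl) 1
      rw [h0, Int.cast_zero, zero_mul]
      exact dvd_zero _
    · exact dvd_outside hp2 hpS x₀ c hc hcob hl
  have h4 : (p : ℤ_[p]) ^ n ∣ (p : ℤ_[p]) ^ (n - 1) * ∑ l : S, w l := by
    rw [eq_neg_of_add_eq_zero_left h2, dvd_neg]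
    exact h3
  have h5 : (p : ℤ_[p]) ^ n = (p : ℤ_[p]) ^ (n - 1) * p := by
    rw [← pow_succ, Nat.sub_add_cancel hn1]
  rw [h5, mul_dvd_mul_iff_left (CFData.pow_ne (p := p) _)] at h4
  exact h4

end Fermat.Agent.GCFT
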