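import Fermat.Agent.Coh.Cochains
import Mathlib.LinearAlgebra.LinearIndependent.Basic

/-!
# Smooth vectors, subrepresentations, Hilbert 90 for a family of subgroups
-/

set_option autoImplicit false

namespace Fermat.Agent.GCFT

open Fermat.Agent.Coh

section Sub

variable {k : Type*} [CommRing k] {Γ : Type*} [Group Γ] {V W : Type*} [AddCommGroup V] [Module k V]
  [AddCommGroup W] [Module k W]

/-- a subrepresentation -/
def subRep (ρ : Representation k Γ V) (S : Submodule k V) (hS : ∀ g, S ≤ S.comap (ρ g)) :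
    Representation k Γ S where
  toFun g := (ρ g).restrict (fun v hv => hS g hv)
  map_one' := by
    ext v
    simp
  map_mul' g h := by
    ext v
    simp

@[simp] theorem coe_subRep (ρ : Representation k Γ V) (S : Submodule k V)
    (hS : ∀ g, S ≤ S.comap (ρ g)) (g : Γ) (v : S) : (subRep ρ S hS g v : V) = ρ g v := rfl

/-- smooth vectors -/
def smVec (𝓤 : Fam Γ) (ρ : Representation k Γ V) : Submodule k V where
  carrier := {v | ∃ U ∈ 𝓤, ∀ u ∈ U, ρ u v = v}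
  zero_mem' := by
    obtain ⟨U, hU⟩ := 𝓤.nonempty
    exact ⟨U, hU, fun u _ => map_zero _⟩
  add_mem' := by
    rintro v w ⟨U, hU, h⟩ ⟨U', hU', h'⟩
    exact ⟨U ⊓ U', 𝓤.inf_mem _ hU _ hU', fun u hu => by rw [map_add, h u hu.1, h' u hu.2]⟩
  smul_mem' := by
    rintro c v ⟨U, hU, h⟩
    exact ⟨U, hU, fun u hu => by rw [map_smul, h u hu]⟩

theorem mem_smVec {𝓤 : Fam Γ} {ρ : Representation k Γ V} {v : V} :
    v ∈ smVec 𝓤 ρ ↔ ∃ U ∈ 𝓤, ∀ u ∈ U, ρ u v = v := Iff.rfl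

theorem smVec_le (𝓤 : Fam Γ) (ρ : Representation k Γ V) (g : Γ) :
    smVec 𝓤 ρ ≤ (smVec 𝓤 ρ).comap (ρ g) := by
  rintro v ⟨U, hU, h⟩
  refine ⟨U, hU, fun u hu => ?_⟩
  rw [← Module.End.mul_apply, ← map_mul]
  have h1 : u * g = g * (g⁻¹ * u * g) := by group
  have h2 : g⁻¹ * u * g ∈ U := by
    have := (𝓤.normal U hU).conj_mem u hu g⁻¹
    simpa using this
  rw [h1, map_mul, Module.End.mul_apply, h _ h2]

/-- the smooth part of a representation -/
def smRep (𝓤 : Fam Γ) (ρ : Representation k Γ V) : Representation k Γ (smVec 𝓤 ρ) :=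
  subRep ρ (smVec 𝓤 ρ) (smVec_le 𝓤 ρ)

@[simp] theorem coe_smRep (𝓤 : Fam Γ) (ρ : Representation k Γ V) (g : Γ) (v : smVec 𝓤 ρ) :
    (smRep 𝓤 ρ g v : V) = ρ g v := rfl

theorem smRep_smooth (𝓤 : Fam Γ) (ρ : Representation k Γ V) : SmRep 𝓤 (smRep 𝓤 ρ) := by
  rintro ⟨v, U, hU, h⟩
  exact ⟨U, hU, fun u hu => Subtype.ext (h u hu)⟩

end Sub

section H90

variable {Γ Ω : Type*} [Group Γ] [Field Ω]

/-- Hilbert 90 for smooth cocycles. -/
theorem h90 (𝓤 : Fam Γ) (a : Γ →* (Ω ≃+* Ω))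
    (hW : ∀ W ∈ 𝓤, ∀ g : Γ, (∀ x : Ω, (∀ w ∈ W, a w x = x) → a g x = x) → g ∈ W)
    (f : Γ → Ωˣ) (hsm : 𝓤.Sm1 f) (hf : ∀ g h, (f (g * h) : Ω) = a g (f h) * f g) :
    ∃ b : Ωˣ, ∀ g, (f g : Ω) = a g b / b := by
  classical
  obtain ⟨W, hWU, hW1⟩ := hsm
  have := 𝓤.finiteIndex W hWU
  have hn := 𝓤.normal W hWU
  have hfin : Fintype (Γ ⧸ W) := Fintype.ofFinite _
  -- the fixed field as a monoid
  let M : Submonoid Ω :=
    { carrier := {x | ∀ w ∈ W, a w x = x}
      one_mem' := fun w _ => map_one _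
      mul_mem' := fun {x y} hx hy w hw => by rw [map_mul, hx w hw, hy w hw] }
  -- characters
  let χ : Γ ⧸ W → (M →* Ω) := fun c =>
    { toFun := fun x => a c.out (x : Ω)
      map_one' := map_one _
      map_mul' := fun x y => by rw [Submonoid.coe_mul, map_mul] }
  have hχ : ∀ (g : Γ) (x : M), χ (g : Γ ⧸ W) x = a g (x : Ω) := by
    intro g x
    obtain ⟨w, hw⟩ := QuotientGroup.mk_out_eq_mul W g
    change a ((g : Γ ⧸ W).out) (x : Ω) = _
    rw [hw, map_mul, RingAut.mul_apply, x.2 w w.2]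
  have hχinj : Function.Injective χ := by
    intro c d hcd
    obtain ⟨g, rfl⟩ := QuotientGroup.mk_surjective c
    obtain ⟨h, rfl⟩ := QuotientGroup.mk_surjective d
    rw [QuotientGroup.eq]
    apply hW W hWU
    intro x hx
    have h1 : χ (g : Γ ⧸ W) ⟨x, hx⟩ = χ (h : Γ ⧸ W) ⟨x, hx⟩ := by rw [hcd]
    rw [hχ, hχ] at h1
    rw [map_mul, RingAut.mul_apply, ← h1, ← RingAut.mul_apply, ← map_mul, inv_mul_cancel, map_one,
      RingAut.one_apply]
  have hli := linearIndependent_monoidHom M Ω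
  have hli2 : LinearIndependent Ω (fun c : Γ ⧸ W => (χ c : M → Ω)) :=
    hli.comp χ hχinj
  -- nonvanishing of the resolvent
  have hne : ∃ x : M, ∑ c : Γ ⧸ W, (f c.out : Ω) * χ c x ≠ 0 := by
    by_contra hcon
    push Not at hcon
    have h1 := Fintype.linearIndependent_iff.mp hli2 (fun c => (f c.out : Ω)) (by
      funext x
      have := hcon x
      simp only [Finset.sum_apply, Pi.smul_apply, smul_eq_mul, Pi.zero_apply]
      exact this)
    exact (f ((1 : Γ) : Γ ⧸ W).out).ne_zero (h1 _)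
  obtain ⟨c₀, ha⟩ := hne
  set b := ∑ c : Γ ⧸ W, (f c.out : Ω) * χ c c₀ with hb
  have hfout : ∀ g : Γ, f (g : Γ ⧸ W).out = f g := by
    intro g
    obtain ⟨w, hw⟩ := QuotientGroup.mk_out_eq_mul W g
    rw [hw, hW1 g w w.2]
  have hgb : ∀ g : Γ, a g b = (f g : Ω)⁻¹ * b := by
    intro g
    rw [hb, map_sum, Finset.mul_sum]
    refine Fintype.sum_equiv (MulAction.toPerm g) _ _ fun c => ?_
    obtain ⟨h, rfl⟩ := QuotientGroup.mk_surjective c
    rw [MulAction.toPerm_apply, MulAction.Quotient.smul_coe, smul_eq_mul, hfout, hfout, hχ, hχ,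
      map_mul, hf, map_mul a, RingAut.mul_apply]
    field_simp
  refine ⟨(Units.mk0 b ha)⁻¹, fun g => ?_⟩
  rw [Units.val_inv_eq_inv_val, Units.val_mk0, map_inv₀, hgb]
  field_simp

end H90

end Fermat.Agent.GCFT
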