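import Fermat.Agent.GCFT.Field

/-!
# Simultaneous approximation of equivariant functions
-/

set_option autoImplicit false

namespace Fermat.Agent.GCFT

open Fermat.Agent.Coh NumberField IsDedekindDomain Module

/-- The field of algebraic numbers. -/
local notation "Qb" => AlgebraicClosure ℚ
/-- The absolute Galois group. -/
local notation "GQ" => (AlgebraicClosure ℚ ≃ₐ[ℚ] AlgebraicClosure ℚ)

theorem exists_rat_near (l : Nat.Primes) (c : ℚ_[(l : ℕ)]) {η : ℝ} (hη : 0 < η) :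
    ∃ s : ℚ, ‖(s : ℚ_[(l : ℕ)]) - c‖ < η ∧ ∀ q : Nat.Primes, q ≠ l → ‖(s : ℚ_[(q : ℕ)])‖ ≤ 1 := by
  have hl : 1 < ((l : ℕ) : ℝ) := by exact_mod_cast l.2.one_lt
  have hl0 : (0 : ℝ) < ((l : ℕ) : ℝ) := by linarith
  obtain ⟨m, hm⟩ := pow_unbounded_of_one_lt ‖c‖ hl
  have hpow : ‖(((l : ℕ) : ℚ_[(l : ℕ)])) ^ m‖ = (((l : ℕ) : ℝ) ^ m)⁻¹ := by
    rw [norm_pow, Padic.norm_p, inv_pow]
  have hint : ‖c * ((l : ℕ) : ℚ_[(l : ℕ)]) ^ m‖ ≤ 1 := by
    rw [norm_mul, hpow]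
    rw [← div_eq_mul_inv, div_le_one (by positivity)]
    exact hm.le
  obtain ⟨n, hn⟩ := (PadicInt.denseRange_natCast (p := (l : ℕ))).exists_dist_lt
    (⟨c * ((l : ℕ) : ℚ_[(l : ℕ)]) ^ m, hint⟩ : ℤ_[(l : ℕ)])
    (ε := η * (((l : ℕ) : ℝ) ^ m)⁻¹) (by positivity)
  rw [dist_eq_norm, PadicInt.norm_def] at hn
  have hn' : ‖c * ((l : ℕ) : ℚ_[(l : ℕ)]) ^ m - (n : ℚ_[(l : ℕ)])‖ < η * (((l : ℕ) : ℝ) ^ m)⁻¹ := by
    exact_mod_cast hn
  have hl1 : ((l : ℕ) : ℚ_[(l : ℕ)]) ^ m ≠ 0 := pow_ne_zero _ (Nat.cast_ne_zero.mpr l.2.ne_zero)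
  refine ⟨(n : ℚ) / ((l : ℕ) : ℚ) ^ m, ?_, fun q hq => ?_⟩
  · have h1 : (((n : ℚ) / ((l : ℕ) : ℚ) ^ m : ℚ) : ℚ_[(l : ℕ)]) - c =
        -(c * ((l : ℕ) : ℚ_[(l : ℕ)]) ^ m - (n : ℚ_[(l : ℕ)])) / ((l : ℕ) : ℚ_[(l : ℕ)]) ^ m := by
      push_cast
      field_simp
      ring
    rw [h1, norm_div, norm_neg, hpow, div_inv_eq_mul]
    calc _ < η * (((l : ℕ) : ℝ) ^ m)⁻¹ * ((l : ℕ) : ℝ) ^ m :=
          mul_lt_mul_of_pos_right hn' (by positivity)
      _ = η := by
        rw [mul_assoc, inv_mul_cancel₀ (by positivity), mul_one]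
  · push_cast
    rw [norm_div, norm_pow]
    have h1 : ‖((l : ℕ) : ℚ_[(q : ℕ)])‖ = 1 := by
      have h2 : ¬ ‖(((l : ℕ) : ℤ) : ℚ_[(q : ℕ)])‖ < 1 := by
        rw [Padic.norm_intCast_lt_one_iff]
        intro h
        have h3 : (q : ℕ) ∣ (l : ℕ) := by exact_mod_cast h
        exact hq (Subtype.ext ((Nat.prime_dvd_prime_iff_eq q.2 l.2).mp h3))
      have h3 : ‖(((l : ℕ) : ℤ) : ℚ_[(q : ℕ)])‖ ≤ 1 := Padic.norm_int_le_one _
      have h4 := le_antisymm h3 (not_lt.mp h2)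
      exact_mod_cast h4
    rw [h1, one_pow, div_one]
    have h2 : ‖(((n : ℕ) : ℤ) : ℚ_[(q : ℕ)])‖ ≤ 1 := Padic.norm_int_le_one _
    exact_mod_cast h2

theorem exists_rat_near_all (S : Finset Nat.Primes) (c : ∀ l : Nat.Primes, ℚ_[(l : ℕ)]) {η : ℝ}
    (hη : 0 < η) : ∃ r : ℚ, ∀ l ∈ S, ‖(r : ℚ_[(l : ℕ)]) - c l‖ < η := by
  classical
  induction S using Finset.induction_on with
  | empty => exact ⟨0, by simp⟩
  | insert l S hlS ih =>
    obtain ⟨r₀, hr₀⟩ := ih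
    -- a common exponent
    obtain ⟨k, hk⟩ : ∃ k : ℕ, ((2 : ℝ)⁻¹) ^ k < η :=
      exists_pow_lt_of_lt_one hη (by norm_num)
    set P : ℕ := ∏ q ∈ S, (q : ℕ) ^ k with hP
    have hPl : ‖(P : ℚ_[(l : ℕ)])‖ = 1 := by
      have h2 : ¬ ‖((P : ℤ) : ℚ_[(l : ℕ)])‖ < 1 := by
        rw [Padic.norm_intCast_lt_one_iff]
        intro h
        have h3 : (l : ℕ) ∣ P := by exact_mod_cast h
        rw [hP, Prime.dvd_finsetProd_iff l.2.prime] at h3
        obtain ⟨q, hq, hlq⟩ := h3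
        have h4 := (Nat.prime_dvd_prime_iff_eq l.2 q.2).mp (l.2.dvd_of_dvd_pow hlq)
        exact hlS (by rwa [Subtype.ext h4])
      have h3 : ‖((P : ℤ) : ℚ_[(l : ℕ)])‖ ≤ 1 := Padic.norm_int_le_one _
      have h4 := le_antisymm h3 (not_lt.mp h2)
      exact_mod_cast h4
    have hP0 : (P : ℚ_[(l : ℕ)]) ≠ 0 := by
      rw [← norm_ne_zero_iff, hPl]
      exact one_ne_zero
    obtain ⟨s, hs1, hs2⟩ := exists_rat_near l ((c l - (r₀ : ℚ_[(l : ℕ)])) / (P : ℚ_[(l : ℕ)])) hη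
    refine ⟨r₀ + P * s, fun q hq => ?_⟩
    rcases Finset.mem_insert.mp hq with rfl | hqS
    · have h1 : ((r₀ + P * s : ℚ) : ℚ_[(q : ℕ)]) - c q =
          (P : ℚ_[(q : ℕ)]) * ((s : ℚ_[(q : ℕ)]) - (c q - (r₀ : ℚ_[(q : ℕ)])) / (P : ℚ_[(q : ℕ)])) := by
        push_cast
        field_simp
        ring
      rw [h1, norm_mul, hPl, one_mul]
      exact hs1
    · have hql : q ≠ l := fun h => hlS (h ▸ hqS)
      have h1 : ((r₀ + P * s : ℚ) : ℚ_[(q : ℕ)]) - c q =
          ((r₀ : ℚ_[(q : ℕ)]) - c q) + (P : ℚ_[(q : ℕ)]) * (s : ℚ_[(q : ℕ)]) := by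
        push_cast
        ring
      rw [h1]
      refine (IsUltrametricDist.norm_add_le_max _ _).trans_lt (max_lt (hr₀ q hqS) ?_)
      rw [norm_mul]
      have h2 : ‖(P : ℚ_[(q : ℕ)])‖ ≤ ((2 : ℝ)⁻¹) ^ k := by
        have h3 : (q : ℕ) ^ k ∣ P := Finset.dvd_prod_of_mem _ hqS
        obtain ⟨b, hb⟩ := h3
        rw [hb]
        push_cast
        rw [norm_mul, norm_pow, Padic.norm_p]
        have h4 : ‖((b : ℤ) : ℚ_[(q : ℕ)])‖ ≤ 1 := Padic.norm_int_le_one _
        have h5 : ‖(b : ℚ_[(q : ℕ)])‖ ≤ 1 := by exact_mod_cast h4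
        have h6 : (((q : ℕ) : ℝ)⁻¹) ^ k ≤ ((2 : ℝ)⁻¹) ^ k := by
          refine pow_le_pow_left₀ (by positivity) ?_ k
          exact inv_anti₀ (by norm_num) (by exact_mod_cast q.2.two_le)
        calc _ ≤ (((q : ℕ) : ℝ)⁻¹) ^ k * 1 := mul_le_mul_of_nonneg_left h5 (by positivity)
          _ ≤ _ := by rw [mul_one]; exact h6
      calc _ ≤ ((2 : ℝ)⁻¹) ^ k * 1 :=
            mul_le_mul h2 (hs2 q hql) (norm_nonneg _) (by positivity)
        _ < η := by rw [mul_one]; exact hk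

/-- the fixed elements of the local Galois group -/
theorem mem_range_of_fixed {l : Nat.Primes} {y : Om l} (hy : ∀ δ : Gl l, δ y = y) :
    ∃ c : ℚ_[(l : ℕ)], algebraMap ℚ_[(l : ℕ)] (Om l) c = y := by
  have h := (InfiniteGalois.mem_bot_iff_fixed (k := ℚ_[(l : ℕ)]) (K := Om l) y).mpr hy
  exact IntermediateField.mem_bot.mp h

/-- Equivariant functions are `ℚ_l`-linear combinations of the functions attached to a basis. -/
theorem exists_expansion {U : Subgroup GQ} (hU : IsOpen (U : Set GQ)) :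
    ∃ (d : ℕ) (e : Fin d → Qb), (∀ i, e i ∈ fld U) ∧
      ∀ (l : Nat.Primes) (a : GQ → Om l), (∀ (δ : Gl l) g, a (rl l δ * g) = δ (a g)) →
        (∀ g, ∀ u ∈ U, a (g * u) = a g) →
        ∃ c : Fin d → ℚ_[(l : ℕ)], ∀ g,
          a g = ∑ i, algebraMap ℚ_[(l : ℕ)] (Om l) (c i) * il l (g (e i)) := by
  classical
  have hfd := finiteDimensional_fld hU
  have hfi := finiteIndex_of_isOpen hU
  set d := finrank ℚ (fld U) with hd
  let b : Basis (Fin d) ℚ (fld U) := finBasis ℚ (fld U)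
  have hcard : Nat.card (GQ ⧸ U) = d := by
    rw [hd, finrank_fld hU]
    rfl
  have : Finite (GQ ⧸ U) := Nat.finite_of_card_ne_zero (by
    rw [hcard]; exact finrank_pos.ne')
  let ε : Fin d ≃ GQ ⧸ U := (Finite.equivFinOfCardEq hcard).symm
  refine ⟨d, fun i => (b i : Qb), fun i => (b i).2, fun l a ha hu => ?_⟩
  -- the matrix
  let M : Matrix (Fin d) (Fin d) (Om l) := fun j i => il l ((ε j).out (b i : Qb))
  -- characters of the field
  let χ : Fin d → (fld U →* Om l) := fun j =>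
    { toFun := fun x => il l ((ε j).out (x : Qb))
      map_one' := by simp
      map_mul' := fun x y => by simp }
  have hχinj : Function.Injective χ := by
    intro j j' hjj
    apply ε.injective
    rw [← QuotientGroup.out_eq' (ε j), ← QuotientGroup.out_eq' (ε j'), QuotientGroup.eq]
    apply mem_of_fixes hU
    intro x hx
    have h1 : χ j ⟨x, mem_fld.mpr hx⟩ = χ j' ⟨x, mem_fld.mpr hx⟩ := by rw [hjj]
    have h2 : (ε j).out x = (ε j').out x := (il l).toRingHom.injective h1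
    rw [AlgEquiv.mul_apply, ← h2, ← AlgEquiv.mul_apply, inv_mul_cancel, AlgEquiv.one_apply]
  have hli : LinearIndependent (Om l) (fun j : Fin d => (χ j : fld U → Om l)) :=
    (linearIndependent_monoidHom (fld U) (Om l)).comp χ hχinj
  have hrows : LinearIndependent (Om l) M.row := by
    rw [Fintype.linearIndependent_iff]
    intro w hw
    rw [Fintype.linearIndependent_iff] at hli
    apply hli w
    funext x
    have hx : x = ∑ i, b.repr x i • b i := (b.sum_repr x).symm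
    have h1 : ∀ j, χ j x = ∑ i, ((b.repr x i : ℚ) : Om l) * M j i := by
      intro j
      change il l ((ε j).out (x : Qb)) = _
      conv_lhs => rw [hx]
      rw [IntermediateField.coe_sum, map_sum, map_sum]
      refine Finset.sum_congr rfl fun i _ => ?_
      rw [IntermediateField.coe_smul, Algebra.smul_def, map_mul, map_mul, AlgEquiv.commutes]
      congr 1
      rw [eq_ratCast, map_ratCast]
    rw [Finset.sum_apply]
    simp only [Pi.smul_apply, smul_eq_mul, Pi.zero_apply]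
    have h2 : ∀ i, ∑ j, w j * M j i = 0 := by
      intro i
      have := congrFun hw i
      rw [Finset.sum_apply] at this
      exact this
    calc ∑ j, w j * χ j x = ∑ j, ∑ i, ((b.repr x i : ℚ) : Om l) * (w j * M j i) := by
          refine Finset.sum_congr rfl fun j _ => ?_
          rw [h1, Finset.mul_sum]
          refine Finset.sum_congr rfl fun i _ => ?_
          ring
      _ = ∑ i, ((b.repr x i : ℚ) : Om l) * ∑ j, w j * M j i := by
          rw [Finset.sum_comm]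
          refine Finset.sum_congr rfl fun i _ => ?_
          rw [Finset.mul_sum]
      _ = 0 := by simp only [h2, mul_zero, Finset.sum_const_zero]
  have hunit : IsUnit M := Matrix.linearIndependent_rows_iff_isUnit.mp hrows
  have hMinv : M * M⁻¹ = 1 := Matrix.mul_nonsing_inv M ((Matrix.isUnit_iff_isUnit_det M).mp hunit)
  have hMinv' : M⁻¹ * M = 1 := Matrix.nonsing_inv_mul M ((Matrix.isUnit_iff_isUnit_det M).mp hunit)
  let c : Fin d → Om l := M⁻¹.mulVec fun j => a (ε j).out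
  have hc : M.mulVec c = fun j => a (ε j).out := by
    rw [Matrix.mulVec_mulVec, hMinv, Matrix.one_mulVec]
  have hall : ∀ g, a g = ∑ i, c i * il l (g (b i : Qb)) := by
    intro g
    obtain ⟨j, hj⟩ := ε.surjective (g : GQ ⧸ U)
    obtain ⟨u, hu'⟩ := QuotientGroup.mk_out_eq_mul U g
    rw [← hj] at hu'
    have h1 := congrFun hc j
    simp only [Matrix.mulVec, dotProduct] at h1
    have h2 : a g = a (ε j).out := by rw [hu', hu g u u.2]
    rw [h2, ← h1]
    refine Finset.sum_congr rfl fun i _ => ?_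
    have h3 : M j i = il l (g (b i : Qb)) := by
      change il l ((ε j).out (b i : Qb)) = _
      rw [hu', AlgEquiv.mul_apply, mem_fld.mp (b i).2 u u.2]
    rw [h3, mul_comm]
  have hfix : ∀ (δ : Gl l) i, δ (c i) = c i := by
    intro δ i
    have h1 : M.mulVec (fun i => δ (c i)) = M.mulVec c := by
      rw [hc]
      funext j
      simp only [Matrix.mulVec, dotProduct]
      have h2 := ha δ (rl l δ⁻¹ * (ε j).out)
      rw [← mul_assoc, ← map_mul, mul_inv_cancel, map_one, one_mul] at h2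
      rw [h2, hall, map_sum]
      refine Finset.sum_congr rfl fun i _ => ?_
      rw [map_mul, AlgEquiv.mul_apply, il_rl, ← AlgEquiv.mul_apply δ δ⁻¹, mul_inv_cancel,
        AlgEquiv.one_apply, mul_comm]
    have h3 := congrArg M⁻¹.mulVec h1
    rw [Matrix.mulVec_mulVec, Matrix.mulVec_mulVec, hMinv', Matrix.one_mulVec,
      Matrix.one_mulVec] at h3
    exact congrFun h3 i
  choose c' hc' using fun i => mem_range_of_fixed fun δ => hfix δ i
  refine ⟨c', fun g => ?_⟩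
  rw [hall g]
  refine Finset.sum_congr rfl fun i _ => ?_
  rw [hc']

/-- **Simultaneous approximation.** -/
theorem exists_approx {U : Subgroup GQ} (hU : IsOpen (U : Set GQ)) (S : Finset Nat.Primes)
    (a : ∀ l : Nat.Primes, GQ → Om l)
    (ha : ∀ l ∈ S, ∀ (δ : Gl l) g, a l (rl l δ * g) = δ (a l g))
    (hu : ∀ l ∈ S, ∀ g, ∀ u ∈ U, a l (g * u) = a l g) {η : ℝ} (hη : 0 < η) :
    ∃ x : Qb, (∀ u ∈ U, u x = x) ∧ ∀ l ∈ S, ∀ g : GQ, ‖il l (g x) - a l g‖ < η := by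
  classical
  obtain ⟨d, e, he, hexp⟩ := exists_expansion hU
  have hfi := finiteIndex_of_isOpen hU
  have : Fintype (GQ ⧸ U) := Fintype.ofFinite _
  -- coefficients
  have hc : ∀ l : Nat.Primes, ∃ c : Fin d → ℚ_[(l : ℕ)], l ∈ S → ∀ g,
      a l g = ∑ i, algebraMap ℚ_[(l : ℕ)] (Om l) (c i) * il l (g (e i)) := by
    intro l
    by_cases hl : l ∈ S
    · obtain ⟨c, hc⟩ := hexp l (a l) (ha l hl) (hu l hl)
      exact ⟨c, fun _ => hc⟩
    · exact ⟨0, fun h => absurd h hl⟩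
  choose c hc using hc
  -- a bound
  obtain ⟨B, hB0, hB⟩ : ∃ B : ℝ, 0 < B ∧ ∀ l ∈ S, ∀ g : GQ, ∀ i, ‖il l (g (e i))‖ ≤ B := by
    refine ⟨1 + ∑ l ∈ S, ∑ q : GQ ⧸ U, ∑ i, ‖il l (q.out (e i))‖, by positivity, fun l hl g i => ?_⟩
    obtain ⟨u, hu'⟩ := QuotientGroup.mk_out_eq_mul U g
    have h1 : g (e i) = ((g : GQ ⧸ U).out) (e i) := by
      rw [hu', AlgEquiv.mul_apply, mem_fld.mp (he i) u u.2]
    rw [h1]
    have h2 : ‖il l ((g : GQ ⧸ U).out (e i))‖ ≤ ∑ i, ‖il l ((g : GQ ⧸ U).out (e i))‖ :=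
      Finset.single_le_sum (f := fun i => ‖il l ((g : GQ ⧸ U).out (e i))‖)
        (fun _ _ => norm_nonneg _) (Finset.mem_univ i)
    have h3 : ∑ i, ‖il l ((g : GQ ⧸ U).out (e i))‖ ≤
        ∑ q : GQ ⧸ U, ∑ i, ‖il l (q.out (e i))‖ :=
      Finset.single_le_sum (f := fun q : GQ ⧸ U => ∑ i, ‖il l (q.out (e i))‖)
        (fun _ _ => Finset.sum_nonneg fun _ _ => norm_nonneg _) (Finset.mem_univ _)
    have h4 : ∑ q : GQ ⧸ U, ∑ i, ‖il l (q.out (e i))‖ ≤
        ∑ l ∈ S, ∑ q : GQ ⧸ U, ∑ i, ‖il l (q.out (e i))‖ :=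
      Finset.single_le_sum (f := fun l : Nat.Primes => ∑ q : GQ ⧸ U, ∑ i, ‖il l (q.out (e i))‖)
        (fun _ _ => Finset.sum_nonneg fun _ _ => Finset.sum_nonneg fun _ _ => norm_nonneg _) hl
    linarith
  -- approximate the coefficients
  choose r hr using fun i : Fin d => exists_rat_near_all S (fun l => c l i)
    (η := η / B) (by positivity)
  refine ⟨∑ i, ((r i : ℚ) : Qb) * e i, fun u hu' => ?_, fun l hl g => ?_⟩
  · rw [map_sum]
    refine Finset.sum_congr rfl fun i _ => ?_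
    rw [map_mul, map_ratCast, mem_fld.mp (he i) u hu']
  · rw [hc l hl g, map_sum, map_sum, ← Finset.sum_sub_distrib]
    have h1 : ∀ i, ‖il l (g (((r i : ℚ) : Qb) * e i)) -
        algebraMap ℚ_[(l : ℕ)] (Om l) (c l i) * il l (g (e i))‖ < η := by
      intro i
      rw [map_mul, map_mul, map_ratCast, map_ratCast, ← sub_mul, norm_mul]
      have h2 : ((r i : ℚ) : Om l) - algebraMap ℚ_[(l : ℕ)] (Om l) (c l i) =
          algebraMap ℚ_[(l : ℕ)] (Om l) (((r i : ℚ) : ℚ_[(l : ℕ)]) - c l i) := by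
        rw [map_sub, map_ratCast]
      rw [h2, PadicAlgCl.norm_extends]
      calc _ ≤ ‖((r i : ℚ) : ℚ_[(l : ℕ)]) - c l i‖ * B :=
            mul_le_mul_of_nonneg_left (hB l hl g i) (norm_nonneg _)
        _ < η / B * B := mul_lt_mul_of_pos_right (hr i l hl) hB0
        _ = η := div_mul_cancel₀ _ hB0.ne'
    refine Finset.sum_induction _ (fun y : Om l => ‖y‖ < η) (fun x y hx hy => ?_) (by simpa using hη)
      (fun i _ => h1 i)
    exact (norm_add_le_max' x y).trans_lt (max_lt hx hy)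

end Fermat.Agent.GCFT
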