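import Mathlib

/-!
# Products over the characters of a finite abelian group
-/

set_option autoImplicit false

namespace Fermat.Agent.GCFT

open Finset

variable {Q : Type*} [CommGroup Q] [Finite Q]

instance finiteDual : Finite (Q →* ℂˣ) := by
  obtain ⟨e⟩ := CommGroup.monoidHom_mulEquiv_of_hasEnoughRootsOfUnity Q ℂ
  exact Finite.of_equiv _ e.symm.toEquiv

theorem card_dual : Nat.card (Q →* ℂˣ) = Nat.card Q := by
  obtain ⟨e⟩ := CommGroup.monoidHom_mulEquiv_of_hasEnoughRootsOfUnity Q ℂ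
  exact Nat.card_congr e.toEquiv

theorem exists_char_ne_one {q : Q} (hq : q ≠ 1) : ∃ ψ : Q →* ℂˣ, ψ q ≠ 1 :=
  CommGroup.exists_apply_ne_one_of_hasEnoughRootsOfUnity Q ℂ hq

theorem norm_char (ψ : Q →* ℂˣ) (q : Q) : ‖(ψ q : ℂ)‖ = 1 := by
  have h1 : (ψ q) ^ Nat.card Q = 1 := by rw [← map_pow, pow_card_eq_one', map_one]
  have h2 : ((ψ q : ℂ)) ^ Nat.card Q = 1 := by
    rw [← Units.val_pow_eq_pow_val, h1, Units.val_one]
  exact Complex.norm_eq_one_of_pow_eq_one h2 Nat.card_pos.ne'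

variable [Fintype (Q →* ℂˣ)]

theorem sum_char_eq_zero {q : Q} (hq : q ≠ 1) : ∑ ψ : Q →* ℂˣ, (ψ q : ℂ) = 0 := by
  obtain ⟨ψ₀, h0⟩ := exists_char_ne_one hq
  have h1 : (ψ₀ q : ℂ) * ∑ ψ : Q →* ℂˣ, (ψ q : ℂ) = ∑ ψ : Q →* ℂˣ, (ψ q : ℂ) := by
    rw [Finset.mul_sum]
    refine Fintype.sum_equiv (Equiv.mulLeft ψ₀) _ _ fun ψ => ?_
    rw [Equiv.coe_mulLeft, MonoidHom.mul_apply, Units.val_mul]
  have h2 : ((ψ₀ q : ℂ) - 1) * ∑ ψ : Q →* ℂˣ, (ψ q : ℂ) = 0 := by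
    rw [sub_mul, h1, one_mul, sub_self]
  rcases mul_eq_zero.mp h2 with h3 | h3
  · exact absurd (Units.ext (sub_eq_zero.mp h3)) h0
  · exact h3

theorem sum_char_re_nonneg (q : Q) : 0 ≤ (∑ ψ : Q →* ℂˣ, (ψ q : ℂ)).re := by
  by_cases hq : q = 1
  · subst hq
    simp
  · rw [sum_char_eq_zero hq, Complex.zero_re]

/-- the local factor of the product over all characters is at most one -/
theorem prod_norm_le_one (q : Q) {t : ℝ} (ht0 : 0 ≤ t) (ht1 : t < 1) :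
    ∏ ψ : Q →* ℂˣ, ‖1 - (ψ q : ℂ) * t‖ ≤ 1 := by
  have hz : ∀ ψ : Q →* ℂˣ, ‖(ψ q : ℂ) * t‖ < 1 := by
    intro ψ
    rw [norm_mul, norm_char, one_mul, Complex.norm_real, Real.norm_eq_abs, abs_of_nonneg ht0]
    exact ht1
  have hpos : ∀ ψ : Q →* ℂˣ, 0 < ‖1 - (ψ q : ℂ) * t‖ := by
    intro ψ
    rw [norm_pos_iff, sub_ne_zero]
    intro h
    have := hz ψ
    rw [← h, norm_one] at this
    exact lt_irrefl _ this
  have h1 : HasSum (fun n : ℕ => ∑ ψ : Q →* ℂˣ, (((ψ q : ℂ) * t) ^ n / n).re)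
      (∑ ψ : Q →* ℂˣ, (-Complex.log (1 - (ψ q : ℂ) * t)).re) := by
    refine hasSum_sum fun ψ _ => ?_
    exact Complex.hasSum_re (Complex.hasSum_taylorSeries_neg_log (hz ψ))
  have h2 : ∀ n : ℕ, 0 ≤ ∑ ψ : Q →* ℂˣ, (((ψ q : ℂ) * t) ^ n / n).re := by
    intro n
    have h3 : ∑ ψ : Q →* ℂˣ, (((ψ q : ℂ) * t) ^ n / n).re =
        (t ^ n / n) * (∑ ψ : Q →* ℂˣ, (ψ (q ^ n) : ℂ)).re := by
      rw [Complex.re_sum, Finset.mul_sum]
      refine Finset.sum_congr rfl fun ψ _ => ?_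
      have h4 : ((ψ q : ℂ) * t) ^ n / n = ((t ^ n / n : ℝ) : ℂ) * (ψ (q ^ n) : ℂ) := by
        rw [map_pow, Units.val_pow_eq_pow_val, mul_pow]
        push_cast
        ring
      rw [h4, Complex.re_ofReal_mul]
    rw [h3]
    exact mul_nonneg (by positivity) (sum_char_re_nonneg _)
  have h3 : 0 ≤ ∑ ψ : Q →* ℂˣ, (-Complex.log (1 - (ψ q : ℂ) * t)).re := h1.nonneg h2
  have h4 : ∑ ψ : Q →* ℂˣ, (-Complex.log (1 - (ψ q : ℂ) * t)).re =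
      -Real.log (∏ ψ : Q →* ℂˣ, ‖1 - (ψ q : ℂ) * t‖) := by
    rw [Real.log_prod (fun ψ _ => (hpos ψ).ne'), ← Finset.sum_neg_distrib]
    refine Finset.sum_congr rfl fun ψ _ => ?_
    rw [Complex.neg_re, Complex.log_re]
  rw [h4] at h3
  have h5 : Real.log (∏ ψ : Q →* ℂˣ, ‖1 - (ψ q : ℂ) * t‖) ≤ 0 := by linarith
  have h6 : 0 < ∏ ψ : Q →* ℂˣ, ‖1 - (ψ q : ℂ) * t‖ := Finset.prod_pos fun ψ _ => hpos ψ
  exact (Real.log_nonpos_iff h6.le).mp h5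

end Fermat.Agent.GCFT
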