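import Fermat.Agent.Coh.AltD

/-!
# Symbols of the unnormalised characters of the `ℤ_p`-extension
-/

set_option autoImplicit false
set_option linter.unusedSectionVars false
set_option linter.style.haveILetI false

namespace Fermat.Agent.GCFT

open Fermat.Agent.Coh

variable {p : ℕ} [hp : Fact p.Prime] {Γ : Type*} [Group Γ] {𝓤 : Fam Γ} {A : Type*}
    [AddCommGroup A] {α : Representation ℤ Γ A} (D : CFData p 𝓤 α) {T : Subgroup Γ}
    (hT : 𝓤.IsOpen T)

/-- the characters `d mod p ^ n` -/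
noncomputable abbrev psiD (T : Subgroup Γ) (n : ℕ) : Chr (𝓤.res T) (ZMod (p ^ n)) :=
  AltD.psi D.d D.d_mul D.d_sm T n

theorem sym_psi_level (r : ℕ) (b : ↥(FF α T)) :
    sym (rep α T) (psiD D T (D.f T + r)) b = sym (rep α T) (D.chi hT r) b := by
  refine sym_level (pow_add p (D.f T) r) (pow_pos hp.out.pos _) (D.chi hT r) _ (fun g => ?_) b
  rw [AltD.psi_apply, CFData.chi_apply, ← CFData.val_toZModPow_mul, ← CFData.q_spec]

include hT in
theorem sym_psi_eq_zero_iff (n : ℕ) (b : ↥(FF α T)) :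
    sym (rep α T) (psiD D T n) b = 0 ↔ (p : ℤ_[p]) ^ n ∣ (p : ℤ_[p]) ^ (D.f T) * D.v T b := by
  rcases le_total (D.f T) n with h | h
  · obtain ⟨r, rfl⟩ := Nat.exists_eq_add_of_le h
    rw [sym_psi_level D hT, D.sy_eq_zero_iff hT, pow_add,
      mul_dvd_mul_iff_left (CFData.pow_ne (p := p) (D.f T))]
  · have h0 : psiD D T n = 0 := Chr.ext fun g => by
      rw [AltD.psi_apply, Chr.zero_apply, CFData.toZModPow_eq_zero_iff]
      exact (pow_dvd_pow _ h).trans (D.f_dvd T hT g g.2)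
    rw [h0, sym_zero_left]
    exact ⟨fun _ => (pow_dvd_pow _ h).trans (Dvd.intro _ rfl), fun _ => rfl⟩

theorem pow_nsmul_chi (r : ℕ) (a : ↥(FF α T)) :
    sym (rep α T) (D.chi hT (r + 1)) (p ^ r • a) = sym (rep α T) (D.chi hT 1) a := by
  rw [map_nsmul, ← sym_nsmul_left]
  refine sym_level (pow_add p r 1) (pow_pos hp.out.pos r) (D.chi hT 1) _ (fun g => ?_) a
  rw [Chr.nsmul_apply, CFData.chi_apply, CFData.chi_apply, ← CFData.val_toZModPow_mul, map_mul,
    nsmul_eq_mul]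
  congr 2
  push_cast
  rw [map_pow, map_natCast]

include hT in
/-- every `p`-torsion class is a symbol with any sufficiently deep character -/
theorem exists_sy_psi (r : ℕ) (x : HH 𝓤 α T) (hx : p • x = 0) :
    ∃ a, sym (rep α T) (psiD D T (D.f T + (r + 1))) a = x := by
  obtain ⟨a, ha⟩ := D.exists_sy hT x hx
  exact ⟨p ^ r • a, by rw [sym_psi_level D hT, pow_nsmul_chi D hT, ha]⟩

/-- the invariant of a `p`-torsion symbol -/
theorem inv_sym_psi (r : ℕ) (b : ↥(FF α T))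
    (hx : p • sym (rep α T) (psiD D T (D.f T + (r + 1))) b = 0) :
    ∃ w : ℤ_[p], D.v T b = (p : ℤ_[p]) ^ r * w ∧ D.inv hT ⟨_, hx⟩ = PadicInt.toZMod w := by
  rw [← map_nsmul, sym_psi_level D hT, D.sy_eq_zero_iff hT, map_nsmul, nsmul_eq_mul,
    pow_succ', mul_dvd_mul_iff_left CFData.p_ne_zero] at hx
  obtain ⟨w, hw⟩ := hx
  obtain ⟨a₀, ha₀⟩ := D.exists_v hT w
  refine ⟨w, hw, ?_⟩
  rw [D.inv_eq hT _ a₀, ← sub_eq_zero, ← map_sub, CFData.toZMod_eq_zero_iff]
  · exact ha₀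
  · change _ = sym (rep α T) (psiD D T (D.f T + (r + 1))) b
    rw [sym_psi_level D hT]
    exact (D.sy_succ_aux hT (fun n b hb => (D.sy_eq_zero_iff hT n b).mpr hb) r b a₀ w hw
      ha₀).symm

end Fermat.Agent.GCFT
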