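import Fermat.Agent.GCFT.H1C
import Fermat.Agent.GCFT.SymPsi
import Fermat.Agent.PT.Conc

/-!
# The cyclotomic `ℤ_p`-extension of `ℚ`
-/

set_option autoImplicit false
set_option linter.style.haveILetI false

namespace Fermat.Agent.GCFT

open Fermat.Agent.Coh Fermat.Agent.LocalCFT Fermat.Agent.PLog

/-- The field of algebraic numbers. -/
local notation "Qb" => AlgebraicClosure ℚ
/-- The absolute Galois group. -/
local notation "GQ" => (AlgebraicClosure ℚ ≃ₐ[ℚ] AlgebraicClosure ℚ)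

variable {p : ℕ} [hp : Fact p.Prime]

variable (p) in
/-- the cyclotomic character -/
noncomputable def cycQ : GQ →* ℤ_[p]ˣ where
  toFun g := cyclotomicCharacter Qb p g.toRingEquiv
  map_one' := by
    exact map_one (cyclotomicCharacter Qb p)
  map_mul' g h := by
    exact map_mul (cyclotomicCharacter Qb p) g.toRingEquiv h.toRingEquiv

theorem cycQ_iff {n : ℕ} {ζ : Qb} (hζ : IsPrimitiveRoot ζ (p ^ n)) (g : GQ) (a : ℕ) :
    g ζ = ζ ^ a ↔ (p : ℤ_[p]) ^ n ∣ (cycQ p g : ℤ_[p]) - a := cyc_iff hζ g.toRingEquiv a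

theorem cycQ_rl (l : Nat.Primes) (δ : Gl l) : cycQ p (rl l δ) = LocalCFT.cyc p δ := by
  apply Units.ext
  apply PLog.eq_of_forall_dvd
  intro n
  obtain ⟨ζ, hζ⟩ := exists_prim (p := p) (Ω := Qb) n
  have hζ' : IsPrimitiveRoot (il l ζ) (p ^ n) := hζ.map_of_injective (il l).toRingHom.injective
  set a := (PadicInt.toZModPow n (LocalCFT.cyc p δ : ℤ_[p])).val with ha
  have : NeZero (p ^ n) := ⟨pow_ne_zero _ hp.out.ne_zero⟩
  have h1 : (p : ℤ_[p]) ^ n ∣ (LocalCFT.cyc p δ : ℤ_[p]) - a := by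
    rw [← CFData.toZModPow_eq_zero_iff, map_sub, map_natCast, ha, ZMod.natCast_zmod_val, sub_self]
  have h2 := (cyc_apply_iff hζ' δ a).mpr h1
  rw [← il_rl, ← map_pow] at h2
  have h3 := (cycQ_iff hζ (rl l δ) a).mp ((il l).toRingHom.injective h2)
  have h4 : (cycQ p (rl l δ) : ℤ_[p]) - LocalCFT.cyc p δ =
      ((cycQ p (rl l δ) : ℤ_[p]) - a) - ((LocalCFT.cyc p δ : ℤ_[p]) - a) := by ring
  rw [h4]
  exact dvd_sub h3 h1

variable (p) in
/-- the cyclotomic `ℤ_p`-extension -/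
noncomputable def dQ (g : GQ) : ℤ_[p] := lam (cycQ p g)

theorem dQ_mul (hp2 : p ≠ 2) (g h : GQ) : dQ p (g * h) = dQ p g + dQ p h := by
  rw [dQ, map_mul, lam_mul hp2]
  rfl

theorem dQ_rl (l : Nat.Primes) (δ : Gl l) : dQ p (rl l δ) = dc p δ := by
  rw [dQ, cycQ_rl, dc]

theorem dQ_inv (hp2 : p ≠ 2) (g : GQ) : dQ p g⁻¹ = - dQ p g := by
  rw [dQ, map_inv, lam_inv hp2]
  rfl

theorem dQ_conj (hp2 : p ≠ 2) (x g : GQ) : dQ p (x⁻¹ * g * x) = dQ p g := by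
  rw [dQ_mul hp2, dQ_mul hp2, dQ_inv hp2]
  ring

theorem dQ_sm (hp2 : p ≠ 2) {S : Finset Nat.Primes} (hpS : ⟨p, hp.out⟩ ∈ S) (n : ℕ) :
    ∃ U ∈ famS S, ∀ u ∈ U, (p : ℤ_[p]) ^ n ∣ dQ p u := by
  have : NeZero (p ^ (n + 1)) := ⟨pow_ne_zero _ hp.out.ne_zero⟩
  obtain ⟨ζ, hζ⟩ := exists_prim (p := p) (Ω := Qb) (n + 1)
  refine ⟨(ESCore.cyc (p ^ (n + 1))).ker, ⟨inferInstance, ?_, ?_⟩, ?_⟩
  · obtain ⟨L, hL, h⟩ := ESCore.cyc_finite (p ^ (n + 1))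
    refine Subgroup.isOpen_mono (H₁ := L.fixingSubgroup) (fun g hg => ?_)
      (IntermediateField.fixingSubgroup_isOpen L)
    rw [MonoidHom.mem_ker]
    rw [IntermediateField.mem_fixingSubgroup_iff] at hg
    exact h g hg
  · intro q hq A hA g hg
    rw [MonoidHom.mem_ker]
    refine ESCore.cyc_inertia hA q.2 hg fun h => hq ?_
    have h1 := (Nat.prime_dvd_prime_iff_eq q.2 hp.out).mp (q.2.dvd_of_dvd_pow h)
    have : q = ⟨p, hp.out⟩ := Subtype.ext h1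
    rw [this]
    exact hpS
  · intro g hg
    have h1 : g ζ = ζ ^ 1 := by
      rw [ESCore.cyc_spec g hζ.pow_eq_one, MonoidHom.mem_ker.mp hg, Units.val_one]
      have : Fact (1 < p ^ (n + 1)) := ⟨Nat.one_lt_pow (Nat.succ_ne_zero n) hp.out.one_lt⟩
      rw [ZMod.val_one]
    have h2 := (cycQ_iff hζ g 1).mp h1
    rw [Nat.cast_one] at h2
    rw [dQ, pow_dvd_lam_iff hp2]
    exact h2.trans (sub_one_dvd_pow_sub_one _ _)

theorem exists_dQ (hp2 : p ≠ 2) : ∃ g : GQ, ¬ (p : ℤ_[p]) ∣ dQ p g := by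
  obtain ⟨g, hg⟩ := exists_dc (p := p) hp2
  exact ⟨rl ⟨p, hp.out⟩ g, by rw [dQ_rl]; exact hg⟩

end Fermat.Agent.GCFT
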