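import Fermat.Agent.GCFT.Val

/-!
# The diagonal embedding and the idele class module
-/

set_option autoImplicit false

namespace Fermat.Agent.GCFT

open Fermat.Agent.Coh

/-- The field of algebraic numbers. -/
local notation "Qb" => AlgebraicClosure ℚ
/-- The absolute Galois group. -/
local notation "GQ" => (AlgebraicClosure ℚ ≃ₐ[ℚ] AlgebraicClosure ℚ)

theorem divl_add {S : Finset Nat.Primes} {l : Nat.Primes} (hl : l ∉ S) (x y : KS S) (g : GQ) :
    divl l ((x : Additive Qbˣ) + (y : Additive Qbˣ)) g =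
      divl l (x : Additive Qbˣ) g + divl l (y : Additive Qbˣ) g := by
  apply divl_eq
  have hl0 : ((l : ℕ) : ℝ) ≠ 0 := by exact_mod_cast l.2.ne_zero
  rw [toMul_add, Units.val_mul, map_mul, map_mul, norm_mul, norm_eq_divl hl x g,
    norm_eq_divl hl y g, ← zpow_add₀ hl0]
  congr 1
  ring

theorem divl_rl (l : Nat.Primes) (x : Additive Qbˣ) (δ : Gl l) (g : GQ) :
    divl l x (rl l δ * g) = divl l x g := by
  unfold divl ordl
  congr 3
  rw [Units.coe_map, Units.coe_map, Units.coe_map, Units.coe_map]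
  change ‖il l ((rl l δ * g) (x.toMul : Qb))‖ = ‖il l (g (x.toMul : Qb))‖
  rw [AlgEquiv.mul_apply, il_rl, norm_gal]

theorem norm_il_le_one {l : Nat.Primes} {y : Qb} (hy : IsIntegral ℤ y) : ‖il l y‖ ≤ 1 := by
  have h1 : y ∈ padicPlace (l : ℕ) :=
    GaloisBasics.integralClosure_le_valuationSubring (padicPlace (l : ℕ)) hy
  exact_mod_cast (mem_padicPlace_iff (l : ℕ)).mp h1

theorem finite_divl (x : Additive Qbˣ) : {l : Nat.Primes | divl l x ≠ 0}.Finite := by
  have key : ∀ y : Qb, ∃ N : ℕ, N ≠ 0 ∧ IsIntegral ℤ ((N : Qb) * y) := by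
    intro y
    obtain ⟨a, ha, h⟩ := (GaloisBasics.isAlgebraic_int_Qbar y).exists_integral_multiple
    refine ⟨a.natAbs, Int.natAbs_ne_zero.mpr ha, ?_⟩
    have h3 : ∀ n : ℤ, ((n : ℤ) : Qb) * y = n • y := fun n => (zsmul_eq_mul y n).symm
    rcases Int.natAbs_eq a with h1 | h1
    · have h2 : ((a.natAbs : ℕ) : Qb) = ((a : ℤ) : Qb) := by
        conv_rhs => rw [h1]
        rw [Int.cast_natCast]
      rw [h2, h3]
      exact h
    · have h2 : ((a.natAbs : ℕ) : Qb) = -((a : ℤ) : Qb) := by
        conv_rhs => rw [h1]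
        rw [Int.cast_neg, Int.cast_natCast, neg_neg]
      rw [h2, neg_mul, h3]
      exact h.neg
  obtain ⟨N, hN, h1⟩ := key (x.toMul : Qb)
  obtain ⟨M, hM, h2⟩ := key ((x.toMul : Qb)⁻¹)
  have hfin : {l : Nat.Primes | (l : ℕ) ∣ N * M}.Finite := by
    have h3 : ((N * M).primeFactors : Set ℕ).Finite := Finset.finite_toSet _
    refine Set.Finite.of_finite_image (f := fun l : Nat.Primes => (l : ℕ)) (h3.subset ?_)
      (fun a _ b _ h => Subtype.ext h)
    rintro _ ⟨l, hl, rfl⟩
    exact Nat.mem_primeFactors.mpr ⟨l.2, hl, mul_ne_zero hN hM⟩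
  refine hfin.subset fun l hl => ?_
  by_contra hcon
  apply hl
  funext g
  apply divl_eq
  have hnorm : ∀ n : ℕ, ¬ (l : ℕ) ∣ n → ‖il l (n : Qb)‖ = 1 := by
    intro n hn
    rw [map_natCast]
    have h3 := PadicAlgCl.norm_extends (l : ℕ) (n : ℚ_[(l : ℕ)])
    rw [map_natCast] at h3
    rw [h3]
    have h4 : ¬ ‖(n : ℚ_[(l : ℕ)])‖ < 1 := by
      intro h5
      apply hn
      have := (Padic.norm_intCast_lt_one_iff (p := (l : ℕ)) (k := (n : ℤ))).mp (by exact_mod_cast h5)
      exact_mod_cast this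
    have h5 : ‖((n : ℤ) : ℚ_[(l : ℕ)])‖ ≤ 1 := Padic.norm_int_le_one _
    have h6 : ‖(n : ℚ_[(l : ℕ)])‖ ≤ 1 := by exact_mod_cast h5
    exact le_antisymm h6 (not_lt.mp h4)
  have hNl : ¬ (l : ℕ) ∣ N := fun h => hcon (Dvd.dvd.mul_right h M)
  have hMl : ¬ (l : ℕ) ∣ M := fun h => hcon (Dvd.dvd.mul_left h N)
  have e1 := norm_il_le_one (l := l) (h1.map (g : Qb →ₐ[ℚ] Qb).toRingHom.toIntAlgHom)
  have e2 := norm_il_le_one (l := l) (h2.map (g : Qb →ₐ[ℚ] Qb).toRingHom.toIntAlgHom)
  change ‖il l (g ((N : Qb) * (x.toMul : Qb)))‖ ≤ 1 at e1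
  change ‖il l (g ((M : Qb) * (x.toMul : Qb)⁻¹))‖ ≤ 1 at e2
  rw [map_mul, map_mul, norm_mul, map_natCast g, hnorm N hNl, one_mul] at e1
  rw [map_mul, map_mul, norm_mul, map_natCast g, hnorm M hMl, one_mul, map_inv₀, map_inv₀,
    norm_inv] at e2
  have h0 : 0 < ‖il l (g (x.toMul : Qb))‖ := norm_pos_iff.mpr (by
    rw [Ne, map_eq_zero, map_eq_zero]; exact Units.ne_zero _)
  change ‖il l (g (x.toMul : Qb))‖ = ((l : ℕ) : ℝ) ^ (-(0 : ℤ))
  rw [neg_zero, zpow_zero]
  exact le_antisymm e1 ((inv_le_one₀ h0).mp e2)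

open Classical in
/-- the underlying pair of functions of a principal idele -/
noncomputable def diagFun (S : Finset Nat.Primes) (x : Additive Qbˣ) :
    (∀ l : Nat.Primes, GQ → Additive (Om l)ˣ) × (Nat.Primes → GQ → ℤ) :=
  (fun l g => if l ∈ S then
      Additive.ofMul (Units.map (il l : Qb →* Om l) (Units.map (g : Qb →* Qb) x.toMul)) else 0,
    fun l g => if l ∈ S then 0 else divl l x g)

theorem diagFun_fst {S : Finset Nat.Primes} {l : Nat.Primes} (hl : l ∈ S) (x : Additive Qbˣ)
    (g : GQ) : (diagFun S x).1 l g =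
      Additive.ofMul (Units.map (il l : Qb →* Om l) (Units.map (g : Qb →* Qb) x.toMul)) := if_pos hl

theorem diagFun_fst_not {S : Finset Nat.Primes} {l : Nat.Primes} (hl : l ∉ S) (x : Additive Qbˣ)
    (g : GQ) : (diagFun S x).1 l g = 0 := if_neg hl

theorem diagFun_snd {S : Finset Nat.Primes} {l : Nat.Primes} (hl : l ∈ S) (x : Additive Qbˣ)
    (g : GQ) : (diagFun S x).2 l g = 0 := if_pos hl

theorem diagFun_snd_not {S : Finset Nat.Primes} {l : Nat.Primes} (hl : l ∉ S) (x : Additive Qbˣ)
    (g : GQ) : (diagFun S x).2 l g = divl l x g := if_neg hl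

theorem diagFun_translate (S : Finset Nat.Primes) (x : Additive Qbˣ) (g h : GQ)
    (l : Nat.Primes) : (diagFun S x).1 l (g * h) = (diagFun S (repQb h x)).1 l g ∧
      (diagFun S x).2 l (g * h) = (diagFun S (repQb h x)).2 l g := by
  by_cases hl : l ∈ S
  · rw [diagFun_fst hl, diagFun_fst hl, diagFun_snd hl, diagFun_snd hl]
    exact ⟨rfl, rfl⟩
  · rw [diagFun_fst_not hl, diagFun_fst_not hl, diagFun_snd_not hl, diagFun_snd_not hl]
    exact ⟨rfl, rfl⟩

theorem diagFun_mem (S : Finset Nat.Primes) (x : KS S) : diagFun S (x : Additive Qbˣ) ∈ IS S := by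
  refine ⟨fun l hl δ g => ?_, fun l hl => ?_, fun l δ g => ?_, fun l hl => ?_, ?_, ?_⟩
  · rw [diagFun_fst hl, diagFun_fst hl]
    apply Additive.toMul.injective
    apply Units.ext
    change il l ((rl l δ * g) ((x : Additive Qbˣ).toMul : Qb)) =
      δ (il l (g ((x : Additive Qbˣ).toMul : Qb)))
    rw [AlgEquiv.mul_apply, il_rl]
  · funext g
    rw [diagFun_fst_not hl]
    rfl
  · by_cases hl : l ∈ S
    · rw [diagFun_snd hl, diagFun_snd hl]
    · rw [diagFun_snd_not hl, diagFun_snd_not hl, divl_rl]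
  · funext g
    rw [diagFun_snd hl]
    rfl
  · refine (finite_divl (x : Additive Qbˣ)).subset fun l hl => ?_
    simp only [Set.mem_ofPred_eq] at hl ⊢
    intro h
    apply hl
    funext g
    by_cases hlS : l ∈ S
    · rw [diagFun_snd hlS]
      rfl
    · rw [diagFun_snd_not hlS, h]
  · obtain ⟨U, hU, h⟩ := x.2
    refine ⟨U, hU, fun u hu l g => ?_⟩
    have := diagFun_translate S (x : Additive Qbˣ) g u l
    rw [h u hu] at this
    exact this

/-- The diagonal embedding. -/
noncomputable def iKS (S : Finset Nat.Primes) : KS S →ₗ[ℤ] IS S :=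
  AddMonoidHom.toIntLinearMap
    { toFun := fun x => ⟨diagFun S x, diagFun_mem S x⟩
      map_zero' := by
        apply Subtype.ext
        apply Prod.ext
        · funext l g
          by_cases hl : l ∈ S
          · change (diagFun S 0).1 l g = 0
            rw [diagFun_fst hl, toMul_zero, map_one, map_one, ofMul_one]
          · exact diagFun_fst_not hl _ _
        · funext l g
          by_cases hl : l ∈ S
          · exact diagFun_snd hl _ _
          · change (diagFun S 0).2 l g = 0
            rw [diagFun_snd_not hl]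
            have := divl_add hl (0 : KS S) 0 g
            rw [ZeroMemClass.coe_zero, add_zero] at this
            omega
      map_add' := fun x y => by
        apply Subtype.ext
        apply Prod.ext
        · funext l g
          change (diagFun S ((x : Additive Qbˣ) + y)).1 l g =
            (diagFun S (x : Additive Qbˣ)).1 l g + (diagFun S (y : Additive Qbˣ)).1 l g
          by_cases hl : l ∈ S
          · rw [diagFun_fst hl, diagFun_fst hl, diagFun_fst hl, toMul_add, map_mul, map_mul,
              ofMul_mul]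
          · rw [diagFun_fst_not hl, diagFun_fst_not hl, diagFun_fst_not hl, add_zero]
        · funext l g
          change (diagFun S ((x : Additive Qbˣ) + y)).2 l g =
            (diagFun S (x : Additive Qbˣ)).2 l g + (diagFun S (y : Additive Qbˣ)).2 l g
          by_cases hl : l ∈ S
          · rw [diagFun_snd hl, diagFun_snd hl, diagFun_snd hl, add_zero]
          · rw [diagFun_snd_not hl, diagFun_snd_not hl, diagFun_snd_not hl, divl_add hl] }

theorem coe_iKS (S : Finset Nat.Primes) (x : KS S) :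
    (iKS S x : (∀ l : Nat.Primes, GQ → Additive (Om l)ˣ) × (Nat.Primes → GQ → ℤ)) =
      diagFun S x := rfl

theorem iKS_comm (S : Finset Nat.Primes) (g : GQ) (x : KS S) :
    iKS S (repK S g x) = repI S g (iKS S x) := by
  apply Subtype.ext
  apply Prod.ext
  · funext l y
    exact (diagFun_translate S x y g l).1.symm
  · funext l y
    exact (diagFun_translate S x y g l).2.symm

/-- `S` nonempty: the diagonal map is injective. -/
theorem iKS_injective {S : Finset Nat.Primes} (hS : S.Nonempty) : Function.Injective (iKS S) := by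
  obtain ⟨l, hl⟩ := hS
  intro x y hxy
  have h1 : (diagFun S (x : Additive Qbˣ)).1 l 1 = (diagFun S (y : Additive Qbˣ)).1 l 1 := by
    rw [← coe_iKS, ← coe_iKS, hxy]
  rw [diagFun_fst hl, diagFun_fst hl] at h1
  have h2 := congrArg (fun a => ((Additive.toMul a : (Om l)ˣ) : Om l)) h1
  change il l (((x : Additive Qbˣ).toMul : Qb)) = il l (((y : Additive Qbˣ).toMul : Qb)) at h2
  apply Subtype.ext
  apply Additive.toMul.injective
  exact Units.ext ((il l).toRingHom.injective h2)

theorem range_iKS_le (S : Finset Nat.Primes) (g : GQ) :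
    LinearMap.range (iKS S) ≤ (LinearMap.range (iKS S)).comap (repI S g) := by
  rintro _ ⟨x, rfl⟩
  exact ⟨repK S g x, iKS_comm S g x⟩

/-- The idele class module of level `S`. -/
abbrev CS (S : Finset Nat.Primes) : Type := IS S ⧸ LinearMap.range (iKS S)

/-- its Galois representation -/
noncomputable abbrev repC (S : Finset Nat.Primes) : Representation ℤ GQ (CS S) :=
  quotRep (repI S) (LinearMap.range (iKS S)) (range_iKS_le S)

/-- `0 → KS → IS → CS → 0` -/
noncomputable def sesC {S : Finset Nat.Primes} (hS : S.Nonempty) :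
    SES (repK S) (repI S) (repC S) :=
  SES.ofInjective (iKS S) (iKS_injective hS) (iKS_comm S) (range_iKS_le S)

end Fermat.Agent.GCFT
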