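import Fermat.Agent.GCFT.Root

/-!
# Divisors modulo `p` are principal in `KS`
-/

set_option autoImplicit false
set_option linter.style.haveILetI false

namespace Fermat.Agent.GCFT

open Fermat.Agent.Coh NumberField IsDedekindDomain Module

/-- The field of algebraic numbers. -/
local notation "Qb" => AlgebraicClosure ℚ
/-- The absolute Galois group. -/
local notation "GQ" => (AlgebraicClosure ℚ ≃ₐ[ℚ] AlgebraicClosure ℚ)

variable {S : Finset Nat.Primes}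

/-- the divisor as a homomorphism -/
noncomputable def dvh {l : Nat.Primes} (hl : l ∉ S) (g : GQ) : KS S →+ ℤ where
  toFun x := divl l (x : Additive Qbˣ) g
  map_zero' := by
    have := divl_add hl (0 : KS S) 0 g
    rw [ZeroMemClass.coe_zero, add_zero] at this
    rw [ZeroMemClass.coe_zero]
    omega
  map_add' x y := divl_add hl x y g

theorem dvh_apply {l : Nat.Primes} (hl : l ∉ S) (g : GQ) (x : KS S) :
    dvh hl g x = divl l (x : Additive Qbˣ) g := rfl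

theorem exists_root_pow {p : ℕ} (hp : p.Prime) (hpS : ⟨p, hp⟩ ∈ S) (s : ℕ) : ∀ (z : KS S)
    (E : Nat.Primes → GQ → ℤ) (_ : ∀ l, l ∉ S → ∀ g, divl l (z : Additive Qbˣ) g = p ^ s * E l g),
    ∃ k : KS S, ∀ l, l ∉ S → ∀ g, divl l (k : Additive Qbˣ) g = E l g := by
  induction s with
  | zero => intro z E h; exact ⟨z, fun l hl g => by rw [h l hl g, pow_zero, one_mul]⟩
  | succ s ih =>
    intro z E h
    obtain ⟨y, hy⟩ := exists_root hp hpS z (fun l hl g => by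
      rw [h l hl g, pow_succ', mul_assoc]
      exact Dvd.intro _ rfl)
    refine ih y E fun l hl g => ?_
    have h1 : dvh hl g z = p * dvh hl g y := by rw [← hy, map_nsmul, nsmul_eq_mul]
    rw [dvh_apply, dvh_apply, h l hl g, pow_succ', mul_assoc] at h1
    exact (mul_left_cancel₀ (by exact_mod_cast hp.ne_zero) h1).symm

theorem exists_pow_principal {K : Type*} [Field K] [NumberField K] {J : Ideal (𝓞 K)}
    (hJ : J ≠ 0) : ∃ α : 𝓞 K, α ≠ 0 ∧ J ^ Fintype.card (ClassGroup (𝓞 K)) = Ideal.span {α} := by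
  obtain ⟨h, hh⟩ : ∃ h, h = Fintype.card (ClassGroup (𝓞 K)) := ⟨_, rfl⟩
  rw [← hh]
  have hJm : J ∈ nonZeroDivisors (Ideal (𝓞 K)) := mem_nonZeroDivisors_of_ne_zero hJ
  have hJh : J ^ h ∈ nonZeroDivisors (Ideal (𝓞 K)) := pow_mem hJm h
  have h1 : ClassGroup.mk0 (⟨J ^ h, hJh⟩ : nonZeroDivisors (Ideal (𝓞 K))) = 1 := by
    have h2 : (⟨J ^ h, hJh⟩ : nonZeroDivisors (Ideal (𝓞 K))) = ⟨J, hJm⟩ ^ h := rfl
    rw [h2, map_pow, hh]
    exact pow_card_eq_one
  obtain ⟨α, hα⟩ := (ClassGroup.mk0_eq_one_iff hJh).mp h1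
  have h3 : J ^ h = Ideal.span {α} := hα
  refine ⟨α, ?_, h3⟩
  intro h0
  rw [h0, Ideal.span_singleton_eq_bot.mpr rfl] at h3
  exact pow_ne_zero h hJ h3

theorem exists_ideals {U : Subgroup GQ} [NumberField (fld U)] (hU : (famS S).IsOpen U)
    (a : ↥(FF (repI S) U)) : ∃ J₁ J₂ : Ideal (𝓞 (fld U)), J₁ ≠ 0 ∧ J₂ ≠ 0 ∧
      ∀ l, l ∉ S → ∀ g, mulI U J₁ l g - mulI U J₂ l g = cD a l g := by
  have hfin1 : {l : Nat.Primes | ∃ g, |cD a l g| ≠ 0}.Finite := by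
    refine (finite_cD a).subset ?_
    rintro l ⟨g, hg⟩
    exact ⟨g, fun h => hg (by rw [h, abs_zero])⟩
  have hfin2 : {l : Nat.Primes | ∃ g, cD a l g + |cD a l g| ≠ 0}.Finite := by
    refine (finite_cD a).subset ?_
    rintro l ⟨g, hg⟩
    exact ⟨g, fun h => hg (by rw [h, abs_zero, add_zero])⟩
  have hpos : ∀ z : ℤ, 0 ≤ z + |z| := fun z => by
    have := neg_abs_le z
    omega
  obtain ⟨J₁, hJ₁0, -, hJ₁⟩ := exists_ideal_of_divisor hU
    (fun l g => cD a l g + |cD a l g|) (fun l _ δ g => by rw [cD_rl])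
    (fun l _ g u hu => by rw [cD_mul a l g hu]) hfin2 (fun l _ g => hpos _)
  obtain ⟨J₂, hJ₂0, -, hJ₂⟩ := exists_ideal_of_divisor hU
    (fun l g => |cD a l g|) (fun l _ δ g => by rw [cD_rl])
    (fun l _ g u hu => by rw [cD_mul a l g hu]) hfin1 (fun l _ g => abs_nonneg _)
  refine ⟨J₁, J₂, hJ₁0, hJ₂0, fun l hl g => ?_⟩
  rw [hJ₁ l hl g, hJ₂ l hl g, add_sub_cancel_right]

theorem exists_toKS_ideal {U : Subgroup GQ} [NumberField (fld U)] (hU : (famS S).IsOpen U)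
    {J : Ideal (𝓞 (fld U))} (hJ : J ≠ 0) : ∃ z : KS S, ∀ l (hl : l ∉ S) g,
      dvh hl g z = Fintype.card (ClassGroup (𝓞 (fld U))) * mulI U J l g := by
  obtain ⟨α, hα, h⟩ := exists_pow_principal hJ
  have e : (α : fld U) ≠ 0 := by rwa [Ne, RingOfIntegers.coe_eq_zero_iff]
  refine ⟨toKS hU (α : fld U).2 (fun h => e (Subtype.ext h)), fun l hl g => ?_⟩
  rw [← mulI_pow U hJ, h, ← cD_kI_int hU α hα e hl g]
  change divl l _ g = (diagFun S _).2 l g
  rw [diagFun_snd_not hl]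

/-- some nonzero multiple of an invariant divisor is principal -/
theorem exists_divl_eq_mul {U : Subgroup GQ} (hU : (famS S).IsOpen U) (a : ↥(FF (repI S) U)) :
    ∃ (N : ℕ) (z : KS S), N ≠ 0 ∧ ∀ l, l ∉ S → ∀ g, divl l (z : Additive Qbˣ) g = N * cD a l g := by
  haveI := numberField_fld (isOpen_of_famS hU)
  obtain ⟨J₁, J₂, hJ₁, hJ₂, hJ⟩ := exists_ideals hU a
  obtain ⟨z₁, h₁⟩ := exists_toKS_ideal hU hJ₁
  obtain ⟨z₂, h₂⟩ := exists_toKS_ideal hU hJ₂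
  refine ⟨Fintype.card (ClassGroup (𝓞 (fld U))), z₁ - z₂, Fintype.card_ne_zero,
    fun l hl g => ?_⟩
  rw [← dvh_apply hl, map_sub, h₁ l hl g, h₂ l hl g, ← mul_sub, hJ l hl g]

/-- Every divisor is principal modulo `p`. -/
theorem exists_divl_congr {p : ℕ} (hp : p.Prime) (hpS : ⟨p, hp⟩ ∈ S) {U : Subgroup GQ}
    (hU : (famS S).IsOpen U) (a : ↥(FF (repI S) U)) :
    ∃ k : KS S, ∀ l, l ∉ S → ∀ g, (p : ℤ) ∣ cD a l g - divl l (k : Additive Qbˣ) g := by
  obtain ⟨N, z, hN, hz⟩ := exists_divl_eq_mul hU a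
  obtain ⟨s, m, hm, rfl⟩ := Nat.exists_eq_pow_mul_and_not_dvd hN p hp.ne_one
  obtain ⟨k, hk⟩ := exists_root_pow hp hpS s z (fun l g => m * cD a l g) (fun l hl g => by
    rw [hz l hl g]; push_cast; ring)
  obtain ⟨u, v, huv⟩ := Nat.isCoprime_iff_coprime.mpr
    ((Nat.coprime_comm.mp (hp.coprime_iff_not_dvd.mpr hm)))
  refine ⟨u • k, fun l hl g => ?_⟩
  rw [← dvh_apply hl, map_zsmul, dvh_apply hl, hk l hl g, smul_eq_mul]
  refine ⟨v * cD a l g, ?_⟩
  linear_combination (-(cD a l g)) * huv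

end Fermat.Agent.GCFT
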