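import Fermat.Agent.GCFT.Place

/-!
# Fixed fields of open subgroups; approximation of equivariant functions
-/

set_option autoImplicit false

namespace Fermat.Agent.GCFT

open Fermat.Agent.Coh NumberField IsDedekindDomain Module

/-- The field of algebraic numbers. -/
local notation "Qb" => AlgebraicClosure ℚ
/-- The absolute Galois group. -/
local notation "GQ" => (AlgebraicClosure ℚ ≃ₐ[ℚ] AlgebraicClosure ℚ)

/-- the fixed field of a subgroup of the Galois group -/
noncomputable def fld (U : Subgroup GQ) : IntermediateField ℚ Qb := IntermediateField.fixedField U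

theorem mem_fld {U : Subgroup GQ} {x : Qb} : x ∈ fld U ↔ ∀ u ∈ U, u x = x := by
  rw [fld, IntermediateField.mem_fixedField_iff]

theorem fixing_fld {U : Subgroup GQ} (hU : IsOpen (U : Set GQ)) : (fld U).fixingSubgroup = U :=
  InfiniteGalois.fixingSubgroup_fixedField (k := ℚ) (K := Qb)
    ⟨U, Subgroup.isClosed_of_isOpen U hU⟩

theorem finiteDimensional_fld {U : Subgroup GQ} (hU : IsOpen (U : Set GQ)) :
    FiniteDimensional ℚ (fld U) := by
  rw [← InfiniteGalois.isOpen_iff_finite]
  have h : (fld U).fixingSubgroup.carrier = (U : Set GQ) := by rw [fixing_fld hU]; rfl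
  rw [h]
  exact hU

theorem finrank_fld {U : Subgroup GQ} (hU : IsOpen (U : Set GQ)) :
    finrank ℚ (fld U) = U.index := by
  rw [IntermediateField.finrank_eq_fixingSubgroup_index, fixing_fld hU]

theorem numberField_fld {U : Subgroup GQ} (hU : IsOpen (U : Set GQ)) : NumberField (fld U) := by
  have h := finiteDimensional_fld hU
  refine { to_charZero := inferInstance, to_finiteDimensional := ?_ }
  have halg : (DivisionRing.toRatAlgebra : Algebra ℚ (fld U)) = (fld U).algebra' :=
    Subsingleton.elim _ _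
  rw [halg]
  exact h

/-! ### roots near one -/

theorem exists_near_root (l : Nat.Primes) {n : ℕ} (hn : 0 < n) : ∃ r : ℝ, 0 < r ∧ r ≤ 1 ∧
    (∀ h h' : Om l, ‖h - 1‖ < r → ‖h' - 1‖ < r → h ^ n = h' ^ n → h = h') ∧
    ∀ u : Om l, ‖u - 1‖ < r ^ n → ∃ h : Om l, h ^ n = u ∧ ‖h - 1‖ < r := by
  classical
  have : NeZero n := ⟨hn.ne'⟩
  obtain ⟨ζ, hζ⟩ := (HasEnoughRootsOfUnity.prim : ∃ ζ : Om l, IsPrimitiveRoot ζ n)
  -- the minimal distance
  obtain ⟨r, hr0, hr1, hr⟩ : ∃ r : ℝ, 0 < r ∧ r ≤ 1 ∧ ∀ z ∈ Polynomial.nthRootsFinset n (1 : Om l),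
      z ≠ 1 → r ≤ ‖z - 1‖ := by
    set S := (Polynomial.nthRootsFinset n (1 : Om l)).erase 1 with hS
    rcases S.eq_empty_or_nonempty with h | h
    · refine ⟨1, one_pos, le_rfl, fun z hz hz1 => ?_⟩
      have : z ∈ S := Finset.mem_erase.mpr ⟨hz1, hz⟩
      rw [h] at this
      exact absurd this (Finset.notMem_empty z)
    · obtain ⟨z₀, hz₀, hmin⟩ := S.exists_min_image (fun z => ‖z - 1‖) h
      refine ⟨min 1 ‖z₀ - 1‖, lt_min one_pos ?_, min_le_left _ _, fun z hz hz1 => ?_⟩
      · rw [norm_pos_iff, sub_ne_zero]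
        exact (Finset.mem_erase.mp hz₀).1
      · exact (min_le_right _ _).trans (hmin z (Finset.mem_erase.mpr ⟨hz1, hz⟩))
  refine ⟨r, hr0, hr1, fun h h' hh hh' he => ?_, fun u hu => ?_⟩
  · have hone : ∀ y : Om l, ‖y - 1‖ < r → ‖y‖ = 1 := by
      intro y hy
      have h1 : ‖y - 1‖ < ‖(1 : Om l)‖ := by rw [norm_one]; exact hy.trans_le hr1
      have h2 := IsUltrametricDist.norm_add_eq_max_of_norm_ne_norm h1.ne
      rw [sub_add_cancel, max_eq_right h1.le, norm_one] at h2
      exact h2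
    have hn' := hone h' hh'
    have h0 : h' ≠ 0 := by rw [← norm_ne_zero_iff, hn']; exact one_ne_zero
    by_contra hne
    have hz : h / h' ∈ Polynomial.nthRootsFinset n (1 : Om l) := by
      rw [Polynomial.mem_nthRootsFinset hn, div_pow, he, div_self (pow_ne_zero _ h0)]
    have hz1 : h / h' ≠ 1 := fun h2 => hne ((div_eq_one_iff_eq h0).mp h2)
    have h3 := hr _ hz hz1
    have h4 : ‖h / h' - 1‖ < r := by
      have h5 : h / h' - 1 = ((h - 1) + (1 - h')) / h' := by field_simp; ring
      rw [h5, norm_div, hn', div_one]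
      refine (norm_add_le_max' _ _).trans_lt (max_lt hh ?_)
      rwa [norm_sub_rev]
    linarith
  · obtain ⟨y, hy⟩ := IsAlgClosed.exists_pow_nat_eq u hn
    have h1 := hζ.pow_sub_pow_eq_prod_sub_mul (1 : Om l) y hn
    rw [one_pow, hy] at h1
    by_contra hcon
    push Not at hcon
    have h2 : ∀ z ∈ Polynomial.nthRootsFinset n (1 : Om l), r ≤ ‖1 - z * y‖ := by
      intro z hz
      rw [norm_sub_rev]
      refine hcon _ ?_
      rw [mul_pow, (Polynomial.mem_nthRootsFinset hn _).mp hz, one_mul, hy]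
    have h3 : r ^ n ≤ ‖1 - u‖ := by
      rw [h1, norm_prod]
      calc r ^ n = ∏ z ∈ Polynomial.nthRootsFinset n (1 : Om l), r := by
            rw [Finset.prod_const, hζ.card_nthRootsFinset]
        _ ≤ _ := Finset.prod_le_prod (fun _ _ => hr0.le) h2
    rw [norm_sub_rev] at h3
    linarith

end Fermat.Agent.GCFT
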