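import Fermat.Agent.GCFT.NonSplit

/-!
# The class formation of idele classes with the cyclotomic `ℤ_p`-extension
-/

set_option autoImplicit false
set_option linter.style.haveILetI false
set_option linter.unusedSectionVars false

namespace Fermat.Agent.GCFT

open Fermat.Agent.Coh Fermat.Agent.LocalCFT Fermat.Agent.PLog Fermat.Agent.GalD
open Fermat.Agent.GlobalCFT (XV Cyc NonSplit)

/-- The field of algebraic numbers. -/
local notation "Qb" => AlgebraicClosure ℚ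
/-- The absolute Galois group. -/
local notation "GQ" => (AlgebraicClosure ℚ ≃ₐ[ℚ] AlgebraicClosure ℚ)

variable {S : Finset Nat.Primes} {U V : Subgroup GQ} {p : ℕ} [hp : Fact p.Prime]

theorem nonempty_of_pS (hpS : ⟨p, hp.out⟩ ∈ S) : S.Nonempty := ⟨_, hpS⟩

theorem exists_descend {A B C : Type*} [AddCommGroup A] [AddCommGroup B] [AddCommGroup C]
    (π : A →+ B) (hπ : Function.Surjective π) (φ : A →+ C) (h : ∀ a, π a = 0 → φ a = 0) :
    ∃ ψ : B →+ C, ∀ a, ψ (π a) = φ a := by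
  choose s hs using hπ
  have key : ∀ a, φ (s (π a)) = φ a := by
    intro a
    rw [← sub_eq_zero, ← map_sub]
    exact h _ (by rw [map_sub, hs, sub_self])
  refine ⟨AddMonoidHom.mk' (fun b => φ (s b)) fun b c => ?_, key⟩
  rw [← map_add, ← sub_eq_zero, ← map_sub]
  exact h _ (by rw [map_sub, map_add, hs, hs, hs, sub_self])

theorem exists_vC (hp2 : p ≠ 2) (hpS : ⟨p, hp.out⟩ ∈ S) :
    ∃ ψ : ↥(FF (repC S) (⊤ : Subgroup GQ)) →+ ℤ_[p], ∀ a, ψ (mkC S ⊤ a) = V0 S hp2 a :=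
  exists_descend (mkC S ⊤) (mkC_surjective (nonempty_of_pS hpS) (Fam.isOpen_top _)) (V0 S hp2)
    fun _ ha => V0_principal hp2 hpS (mkC_eq_zero.mp ha)

/-- the valuation of idele classes of `ℚ` -/
noncomputable def vC (hp2 : p ≠ 2) (hpS : ⟨p, hp.out⟩ ∈ S) :
    ↥(FF (repC S) (⊤ : Subgroup GQ)) →+ ℤ_[p] := (exists_vC hp2 hpS).choose

theorem vC_mkC (hp2 : p ≠ 2) (hpS : ⟨p, hp.out⟩ ∈ S) (a : ↥(FF (repI S) (⊤ : Subgroup GQ))) :
    vC hp2 hpS (mkC S ⊤ a) = V0 S hp2 a := (exists_vC hp2 hpS).choose_spec a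

theorem exists_dQ_ne (hp2 : p ≠ 2) : ∃ g : GQ, dQ p g ≠ 0 := by
  obtain ⟨g, hg⟩ := exists_dQ (p := p) hp2
  exact ⟨g, fun h => hg (by rw [h]; exact dvd_zero _)⟩

theorem dvd_vC_nmr (hp2 : p ≠ 2) (hpS : ⟨p, hp.out⟩ ∈ S) (U : Subgroup GQ)
    (hU : (famS S).IsOpen U) (a : ↥(FF (repC S) U)) :
    (p : ℤ_[p]) ^ fOf (dQ p) U ∣ vC hp2 hpS (nmr (repC S) le_top hU a) := by
  obtain ⟨b, rfl⟩ := mkC_surjective (nonempty_of_pS hpS) hU a
  rw [nmr_mkC, vC_mkC]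
  exact dvd_V0_nmr hp2 hpS hU (fun u hu => fOf_dvd (dQ p) (dQ_mul hp2) (exists_dQ_ne hp2) hU u hu) b

/-- the next layer of the cyclotomic `ℤ_p`-extension -/
def layQ (hp2 : p ≠ 2) (U : Subgroup GQ) (n : ℕ) : Subgroup GQ where
  carrier := {g | g ∈ U ∧ (p : ℤ_[p]) ^ n ∣ dQ p g}
  one_mem' := ⟨U.one_mem, by
    have : dQ p (1 : GQ) = 0 := by
      have := dQ_mul hp2 (1 : GQ) 1
      rw [mul_one] at this
      exact left_eq_add.mp this
    rw [this]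
    exact dvd_zero _⟩
  mul_mem' {a b} ha hb := ⟨U.mul_mem ha.1 hb.1, by
    rw [dQ_mul hp2]
    exact dvd_add ha.2 hb.2⟩
  inv_mem' {a} ha := ⟨U.inv_mem ha.1, by
    rw [dQ_inv hp2]
    exact (dvd_neg).mpr ha.2⟩

theorem mem_layQ {hp2 : p ≠ 2} {n : ℕ} {g : GQ} :
    g ∈ layQ hp2 U n ↔ g ∈ U ∧ (p : ℤ_[p]) ^ n ∣ dQ p g := Iff.rfl

theorem layQ_le (hp2 : p ≠ 2) (U : Subgroup GQ) (n : ℕ) : layQ hp2 U n ≤ U := fun _ h => h.1

theorem layQ_open (hp2 : p ≠ 2) (hpS : ⟨p, hp.out⟩ ∈ S) (hU : (famS S).IsOpen U) (n : ℕ) :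
    (famS S).IsOpen (layQ hp2 U n) := by
  obtain ⟨W, hW, hWU⟩ := hU
  obtain ⟨W', hW', h⟩ := dQ_sm hp2 hpS n
  exact ⟨W ⊓ W', (famS S).inf_mem _ hW _ hW', fun g hg => ⟨hWU hg.1, h g hg.2⟩⟩

instance layQ_normal (hp2 : p ≠ 2) (n : ℕ) : ((layQ hp2 U n).subgroupOf U).Normal := by
  refine ⟨fun v hv u => ?_⟩
  rw [Subgroup.mem_subgroupOf] at hv ⊢
  refine ⟨(u * v * u⁻¹).2, ?_⟩
  have h1 : dQ p (((u * v * u⁻¹ : U) : GQ)) = dQ p (v : GQ) := by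
    have := dQ_conj hp2 ((u : GQ)⁻¹) (v : GQ)
    rw [inv_inv] at this
    exact this
  rw [h1]
  exact hv.2

theorem relIndex_layQ (hp2 : p ≠ 2) (hU : (famS S).IsOpen U) :
    (layQ hp2 U (fOf (dQ p) U + 1)).relIndex U = p := by
  have hd := exists_dQ_ne (p := p) hp2
  have hq : ∀ g : U, ∃ q : ℤ_[p], dQ p (g : GQ) = (p : ℤ_[p]) ^ fOf (dQ p) U * q := fun g =>
    fOf_dvd (dQ p) (dQ_mul hp2) hd hU g g.2
  choose q hq using hq
  have q_mul : ∀ g h, q (g * h) = q g + q h := by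
    intro g h
    apply mul_left_cancel₀ (CFData.pow_ne (p := p) (fOf (dQ p) U))
    rw [mul_add, ← hq, ← hq, ← hq]
    exact dQ_mul hp2 _ _
  let φ : U →* Multiplicative (ZMod p) := MonoidHom.mk' (fun g => Multiplicative.ofAdd
    (PadicInt.toZMod (q g))) (fun g h => by rw [q_mul, map_add, ofAdd_add])
  have hφ : ∀ g, φ g = Multiplicative.ofAdd (PadicInt.toZMod (q g)) := fun _ => rfl
  have hker : φ.ker = (layQ hp2 U (fOf (dQ p) U + 1)).subgroupOf U := by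
    ext g
    rw [MonoidHom.mem_ker, Subgroup.mem_subgroupOf, mem_layQ, hφ, ofAdd_eq_one,
      CFData.toZMod_eq_zero_iff, hq, pow_succ,
      mul_dvd_mul_iff_left (CFData.pow_ne (p := p) (fOf (dQ p) U))]
    exact ⟨fun h => ⟨g.2, h⟩, fun h => h.2⟩
  have hsurj : Function.Surjective φ := by
    obtain ⟨u, hu, hu'⟩ := fOf_ex (dQ p) (dQ_mul hp2) hd hU
    have h1 : φ ⟨u, hu⟩ ≠ 1 := by
      rw [Ne, hφ, ofAdd_eq_one, CFData.toZMod_eq_zero_iff]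
      intro h
      apply hu'
      rw [show dQ p u = _ from hq ⟨u, hu⟩, pow_succ]
      exact mul_dvd_mul_left _ h
    have hcard : Nat.card (Multiplicative (ZMod p)) = p := by
      rw [Nat.card_eq_fintype_card, Fintype.card_multiplicative, ZMod.card]
    intro y
    obtain ⟨n, hn⟩ := mem_powers_of_prime_card hcard h1 (g' := y)
    exact ⟨⟨u, hu⟩ ^ n, by rw [map_pow]; exact hn⟩
  have h2 : φ.ker.index = p := by
    rw [Subgroup.index_ker, MonoidHom.range_eq_top.mpr hsurj, Subgroup.card_top,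
      Nat.card_eq_fintype_card, Fintype.card_multiplicative, ZMod.card]
  rw [Subgroup.relIndex, ← hker, h2]

theorem exists_not_dvd_vC (hp2 : p ≠ 2) (hpS : ⟨p, hp.out⟩ ∈ S) (U : Subgroup GQ)
    (hU : (famS S).IsOpen U) : ∃ a : ↥(FF (repC S) U), ¬ (p : ℤ_[p]) ^ (fOf (dQ p) U + 1) ∣
      vC hp2 hpS (nmr (repC S) le_top hU a) := by
  by_contra hcon
  push Not at hcon
  have hV := layQ_open hp2 hpS hU (fOf (dQ p) U + 1)
  have hi := relIndex_layQ hp2 hU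
  obtain ⟨σ, C⟩ := exists_cyc (layQ_le hp2 U (fOf (dQ p) U + 1)) (layQ_normal hp2 _) hi
  obtain ⟨l, hl, x, δ, v, hv, hδ⟩ := exists_nonsplit C (hp.out.odd_of_ne_two hp2)
    (nonempty_of_pS hpS) hV (layQ_le hp2 U _) hi
  have h1 : x⁻¹ * rl l δ * x = σ * v := by
    rw [mul_assoc, hδ]
    group
  have h2 : δ ∈ stb (rl l) U x := by
    rw [mem_stb, h1]
    exact U.mul_mem C.mem (C.le hv)
  have h3 := hcon (mkC S U (eP hU l x))
  rw [nmr_mkC, vC_mkC, V0_eP hp2 hU hl] at h3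
  have hlp : (l : ℕ) ≠ p := by
    rintro h
    apply hl
    have : l = ⟨p, hp.out⟩ := Subtype.ext h
    rw [this]
    exact hpS
  have h4 := dvd_dQ_of_stb hp2 hU hl hlp x h3 h2
  rw [← dQ_conj hp2 x, h1] at h4
  have h5 : σ * v ∈ layQ hp2 U (fOf (dQ p) U + 1) := ⟨U.mul_mem C.mem (C.le hv), h4⟩
  have h6 : σ ^ 1 ∈ layQ hp2 U (fOf (dQ p) U + 1) := by
    rw [pow_one]
    exact (Subgroup.mul_mem_cancel_right _ hv).mp h5
  exact hp.out.one_lt.ne' (Nat.dvd_one.mp ((C.pow 1).mp h6))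

variable (S) in
/-- **The class formation of idele classes.** -/
noncomputable def gCF (hp2 : p ≠ 2) (hpS : ⟨p, hp.out⟩ ∈ S) : CFData p (famS S) (repC S) :=
  CFData.ofTop (dQ p) (dQ_mul hp2) (repC S) (vC hp2 hpS) (dvd_vC_nmr hp2 hpS) (repC_smooth S)
    (dQ_sm hp2 hpS) (exists_dQ_ne hp2) (exists_not_dvd_vC hp2 hpS)
    (fun U hU y => weak_h1_C (hp.out.odd_of_ne_two hp2) (nonempty_of_pS hpS) U hU y)
    ⊤ (Fam.isOpen_top _) inferInstance (by rw [Subgroup.index_top]; exact Nat.coprime_one_left p)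
    (fun U₁ U₂ h hU₁ _ hn hi => by
      obtain ⟨σ, C⟩ := exists_cyc h hn hi
      exact (index_eq C (hp.out.odd_of_ne_two hp2) (nonempty_of_pS hpS) hU₁ h hi).1)

theorem gCF_d (hp2 : p ≠ 2) (hpS : ⟨p, hp.out⟩ ∈ S) : (gCF S hp2 hpS).d = dQ p := rfl

theorem gCF_v (hp2 : p ≠ 2) (hpS : ⟨p, hp.out⟩ ∈ S) (U : Subgroup GQ)
    (hU : (famS S).IsOpen U) (a : ↥(FF (repC S) U)) :
    (p : ℤ_[p]) ^ (gCF S hp2 hpS).f U * (gCF S hp2 hpS).v U a =
      vC hp2 hpS (nmr (repC S) le_top hU a) :=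
  CFData.ofTop_v (dQ p) (dQ_mul hp2) (repC S) (vC hp2 hpS) _ _ _ _ _ _ _ _ _ _ _ U hU a

/-- the global criterion -/
theorem sym_C_iff (hp2 : p ≠ 2) (hpS : ⟨p, hp.out⟩ ∈ S) (hU : (famS S).IsOpen U) (n : ℕ)
    (a : ↥(FF (repI S) U)) :
    sym (rep (repC S) U) (psiD (gCF S hp2 hpS) U n) (mkC S U a) = 0 ↔
      (p : ℤ_[p]) ^ n ∣ V0 S hp2 (nmr (repI S) le_top hU a) := by
  rw [sym_psi_eq_zero_iff _ hU, gCF_v hp2 hpS U hU, nmr_mkC, vC_mkC]

end Fermat.Agent.GCFT
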