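import Fermat.Agent.GCFT.Idx2

/-!
# The `p`-part of `H¹` of idele classes vanishes
-/

set_option autoImplicit false
set_option linter.style.haveILetI false

namespace Fermat.Agent.GCFT

open Fermat.Agent.Coh

/-- The absolute Galois group. -/
local notation "GQ" => (AlgebraicClosure ℚ ≃ₐ[ℚ] AlgebraicClosure ℚ)

variable {S : Finset Nat.Primes} {p : ℕ} [hp : Fact p.Prime]

theorem smRep_quot {k : Type*} [CommRing k] {Γ : Type*} [Group Γ] {M : Type*} [AddCommGroup M]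
    [Module k M] {𝓤 : Fam Γ} {ρ : Representation k Γ M} (hρ : SmRep 𝓤 ρ) (N : Submodule k M)
    (hN : ∀ g, N ≤ N.comap (ρ g)) : SmRep 𝓤 (quotRep ρ N hN) := by
  intro c
  obtain ⟨a, rfl⟩ := Submodule.Quotient.mk_surjective _ c
  obtain ⟨U, hU, h⟩ := hρ a
  refine ⟨U, hU, fun u hu => ?_⟩
  change (Submodule.Quotient.mk (ρ u a) : M ⧸ N) = _
  rw [h u hu]

theorem repC_smooth (S : Finset Nat.Primes) : SmRep (famS S) (repC S) :=
  smRep_quot (repI_smooth S) _ _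

/-- The `p`-part of `H¹(U, CS)` vanishes. -/
theorem weak_h1_C (hodd : Odd p) (hS : S.Nonempty) (U : Subgroup GQ) (hU : (famS S).IsOpen U)
    (y : HI (famS S) (repC S) U) : ∃ c : ℕ, c.Coprime p ∧ c • y = 0 := by
  refine weak_h1 (repC_smooth S) ⊤ (Fam.isOpen_top _) inferInstance
    (by rw [Subgroup.index_top]; exact Nat.coprime_one_left p) ?_ U hU y
  intro U₁ U₂ h hU₁ _ hn hi
  obtain ⟨σ, C⟩ := exists_cyc h hn hi
  refine ⟨⟨σ, C.mem⟩, fun g => ?_, fun a ha => h90_C C hodd hS hU₁ h hi a ha⟩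
  obtain ⟨j, -, v, hv, hg⟩ := C.gen g g.2
  refine ⟨j, ?_⟩
  rw [Subgroup.mem_subgroupOf]
  change (σ ^ (j : ℤ))⁻¹ * (g : GQ) ∈ U₁
  rw [hg, zpow_natCast, inv_mul_cancel_left]
  exact hv

end Fermat.Agent.GCFT
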