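import Fermat.Agent.GCFT.RayFinal
import Fermat.Agent.GlobalCFT.First
import Fermat.Agent.Coh.H1Weak

/-!
# Idele classes: norm index in cyclic layers of degree `p`, Hilbert 90
-/

set_option autoImplicit false
set_option linter.style.haveILetI false

namespace Fermat.Agent.GCFT

open Fermat.Agent.Coh NumberField IsDedekindDomain Module
open Fermat.Agent.GlobalCFT (Cyc AA HV EV dfA nmA)

/-- The field of algebraic numbers. -/
local notation "Qb" => AlgebraicClosure ℚ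
/-- The absolute Galois group. -/
local notation "GQ" => (AlgebraicClosure ℚ ≃ₐ[ℚ] AlgebraicClosure ℚ)

/-- cyclic layers -/
theorem exists_cyc {Γ : Type*} [Group Γ] {p : ℕ} [hp : Fact p.Prime] {U₁ U₂ : Subgroup Γ}
    (h : U₁ ≤ U₂) (hn : (U₁.subgroupOf U₂).Normal) (hi : U₁.relIndex U₂ = p) :
    ∃ σ : Γ, Cyc U₁ U₂ σ p := by
  have hcard : Nat.card (U₂ ⧸ U₁.subgroupOf U₂) = p := hi
  have hfin : Finite (U₂ ⧸ U₁.subgroupOf U₂) := Nat.finite_of_card_ne_zero (by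
    rw [hcard]; exact hp.out.ne_zero)
  have hnt : Nontrivial (U₂ ⧸ U₁.subgroupOf U₂) := by
    rw [← Finite.one_lt_card_iff_nontrivial, hcard]
    exact hp.out.one_lt
  obtain ⟨x, hx⟩ := exists_ne (1 : U₂ ⧸ U₁.subgroupOf U₂)
  obtain ⟨σ, rfl⟩ := QuotientGroup.mk_surjective x
  have hord : orderOf (σ : U₂ ⧸ U₁.subgroupOf U₂) = p := by
    have h1 : orderOf (σ : U₂ ⧸ U₁.subgroupOf U₂) ∣ p := hcard ▸ orderOf_dvd_natCard _
    rcases (Nat.dvd_prime hp.out).mp h1 with h2 | h2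
    · exact absurd (orderOf_eq_one_iff.mp h2) hx
    · exact h2
  refine ⟨σ, h, σ.2, hp.out, fun u hu v hv => ?_, fun u hu => ?_, fun j => ?_⟩
  · exact hn.conj_mem ⟨v, h hv⟩ (Subgroup.mem_subgroupOf.mpr hv) ⟨u, hu⟩
  · obtain ⟨j, hj⟩ := mem_powers_of_prime_card hcard hx
      (g' := ((⟨u, hu⟩ : U₂) : U₂ ⧸ U₁.subgroupOf U₂))
    refine ⟨j % p, Nat.mod_lt _ hp.out.pos, ((σ : Γ) ^ (j % p))⁻¹ * u, ?_, by group⟩
    have h2 : (σ : U₂ ⧸ U₁.subgroupOf U₂) ^ (j % p) = ((⟨u, hu⟩ : U₂) : U₂ ⧸ U₁.subgroupOf U₂) := by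
      rw [← hj, ← hord]
      exact pow_mod_orderOf _ _
    rw [← QuotientGroup.mk_pow, QuotientGroup.eq, Subgroup.mem_subgroupOf] at h2
    exact h2
  · rw [← hord, orderOf_dvd_iff_pow_eq_one, ← QuotientGroup.mk_pow, QuotientGroup.eq_one_iff,
      Subgroup.mem_subgroupOf]
    rfl

/-- the norm in a cyclic layer -/
theorem coe_nmr_cyc {k : Type*} [CommRing k] {Γ : Type*} [Group Γ] {M : Type*} [AddCommGroup M]
    [Module k M] {𝓤 : Fam Γ} {ρ : Representation k Γ M} {V U : Subgroup Γ} {σ : Γ} {p : ℕ}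
    (C : Cyc V U σ p) (h : V ≤ U) (hV : 𝓤.IsOpen V) (b : ↥(FF ρ V)) :
    (nmr ρ h hV b : M) = ∑ j ∈ Finset.range p, ρ (σ ^ j) b := by
  classical
  letI := relFintype hV U
  have hex : ∀ x : U ⧸ V.subgroupOf U, ∃ j < p, ∃ hx : σ ^ j ∈ U,
      (((⟨σ ^ j, hx⟩ : U) : U ⧸ V.subgroupOf U)) = x := by
    intro x
    obtain ⟨u, rfl⟩ := QuotientGroup.mk_surjective x
    obtain ⟨j, hj, v, hv, hu⟩ := C.gen u u.2
    refine ⟨j, hj, C.pow_mem j, ?_⟩
    rw [QuotientGroup.eq, Subgroup.mem_subgroupOf]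
    change (σ ^ j)⁻¹ * (u : Γ) ∈ V
    rw [hu, inv_mul_cancel_left]
    exact hv
  choose j hj hmem hmk using hex
  rw [coe_nmr ρ h hV b (fun x => σ ^ j x) fun x => ⟨hmem x, hmk x⟩]
  refine Finset.sum_bij (fun x _ => j x) (fun x _ => Finset.mem_range.mpr (hj x)) ?_ ?_
    (fun x _ => rfl)
  · intro x _ y _ hxy
    have h5 : j x = j y := hxy
    have h6 : ∀ n m (hn : σ ^ n ∈ U) (hm : σ ^ m ∈ U), n = m →
        (((⟨σ ^ n, hn⟩ : U) : U ⧸ V.subgroupOf U)) = ((⟨σ ^ m, hm⟩ : U) : U ⧸ V.subgroupOf U) := by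
      rintro n m hn hm rfl
      rfl
    rw [← hmk x, ← hmk y]
    exact h6 _ _ _ _ h5
  · intro n hn
    refine ⟨((⟨σ ^ n, C.pow_mem n⟩ : U) : U ⧸ V.subgroupOf U), Finset.mem_univ _, ?_⟩
    set x : U ⧸ V.subgroupOf U := ((⟨σ ^ n, C.pow_mem n⟩ : U) : U ⧸ V.subgroupOf U) with hx
    have h5 := hmk x
    rw [hx, QuotientGroup.eq, Subgroup.mem_subgroupOf] at h5
    change (σ ^ j x)⁻¹ * σ ^ n ∈ V at h5
    have hjx := hj x
    have hnp := Finset.mem_range.mp hn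
    change j x = n
    rcases le_total (j x) n with hle | hle
    · have h6 : (σ ^ j x)⁻¹ * σ ^ n = σ ^ (n - j x) := by
        rw [inv_mul_eq_iff_eq_mul, ← pow_add, Nat.add_sub_cancel' hle]
      rw [h6, C.pow] at h5
      have := Nat.eq_zero_of_dvd_of_lt h5 (by omega)
      omega
    · have h6 : (σ ^ j x)⁻¹ * σ ^ n = (σ ^ (j x - n))⁻¹ := by
        rw [inv_mul_eq_iff_eq_mul, eq_mul_inv_iff_mul_eq, ← pow_add, Nat.add_sub_cancel' hle]
      rw [h6, inv_mem_iff, C.pow] at h5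
      have := Nat.eq_zero_of_dvd_of_lt h5 (by omega)
      omega

variable {S : Finset Nat.Primes}

/-- Hilbert 90 for `KS` -/
theorem exists_of_cocycle {U : Subgroup GQ} (hU : (famS S).IsOpen U) (z : GQ → KS S)
    (hz : ∀ g ∈ U, ∀ h ∈ U, z (g * h) = repK S g (z h) + z g)
    (hsm : ∃ W ∈ famS S, ∀ g ∈ U, ∀ w ∈ U, w ∈ W → z (g * w) = z g) :
    ∃ b : KS S, ∀ g ∈ U, z g = repK S g b - b := by
  obtain ⟨W₀, hW₀, hW₀U⟩ := hU
  obtain ⟨W₁, hW₁, hsm⟩ := hsm
  have hW := (famS S).inf_mem _ hW₀ _ hW₁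
  set W := W₀ ⊓ W₁ with hWdef
  let a : U →* (Qb ≃+* Qb) :=
    { toFun := fun g => ((g : GQ) : Qb ≃+* Qb)
      map_one' := rfl
      map_mul' := fun _ _ => rfl }
  have hUo : IsOpen (U : Set GQ) := Subgroup.isOpen_mono hW₀U hW₀.2.1
  obtain ⟨b, hb⟩ := h90 ((famS S).res U) a (by
    rintro _ ⟨W', hW', rfl⟩ g hg
    apply mem_of_fixes hW'.2.1
    intro x hx
    by_cases hgx : (g : GQ) x = x
    · exact hgx
    · -- `x` is fixed by `W'`, so in particular by its intersection with `U`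
      exact hg x fun w hw => hx w hw)
    (fun g => ((z g : Additive Qbˣ)).toMul) (by
      refine ⟨_, ⟨W, hW, rfl⟩, fun g w hw => ?_⟩
      change ((z ((g : GQ) * (w : GQ)) : Additive Qbˣ)).toMul = ((z g : Additive Qbˣ)).toMul
      rw [hsm g g.2 w w.2 hw.2]) (by
      intro g h
      change ((((z ((g : GQ) * (h : GQ)) : Additive Qbˣ)).toMul : Qbˣ) : Qb) = _
      rw [hz g g.2 h h.2]
      rfl)
  -- the element `b` is smooth
  have hz1 : z 1 = 0 := by
    have := hz 1 U.one_mem 1 U.one_mem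
    rw [mul_one, map_one, Module.End.one_apply] at this
    exact left_eq_add.mp this
  have hbm : Additive.ofMul b ∈ KS S := by
    refine ⟨W, hW, fun w hw => ?_⟩
    have hwU : w ∈ U := hW₀U hw.1
    have h1 := hb ⟨w, hwU⟩
    have h2 : z w = 0 := by
      have := hsm 1 U.one_mem w hwU hw.2
      rw [one_mul, hz1] at this
      exact this
    have h3 : (1 : Qb) = w (b : Qb) / b := by
      rw [← show ((((z w : KS S) : Additive Qbˣ).toMul : Qbˣ) : Qb) = 1 by rw [h2]; rfl]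
      exact h1
    apply Additive.toMul.injective
    apply Units.ext
    change w (b : Qb) = b
    rw [eq_comm, div_eq_one_iff_eq b.ne_zero] at h3
    exact h3
  refine ⟨⟨_, hbm⟩, fun g hg => ?_⟩
  apply Subtype.ext
  apply Additive.toMul.injective
  apply Units.ext
  have h1 := hb ⟨g, hg⟩
  refine h1.trans ?_
  change g (b : Qb) / b = ((Units.map (g : Qb →* Qb) b * b⁻¹ : Qbˣ) : Qb)
  rw [Units.val_mul, Units.val_inv_eq_inv_val, div_eq_mul_inv]
  rfl

/-- invariant idele classes come from invariant ideles -/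
theorem exists_lift (hS : S.Nonempty) {U : Subgroup GQ} (hU : (famS S).IsOpen U)
    (c : ↥(FF (repC S) U)) : ∃ a : ↥(FF (repI S) U),
      (Submodule.Quotient.mk (a : IS S) : CS S) = c := by
  obtain ⟨a₀, ha₀⟩ := Submodule.Quotient.mk_surjective _ (c : CS S)
  have h1 : ∀ g ∈ U, ∃ z : KS S, iKS S z = repI S g a₀ - a₀ := by
    intro g hg
    have h2 : (Submodule.Quotient.mk (repI S g a₀ - a₀) : CS S) = 0 := by
      rw [Submodule.Quotient.mk_sub, ha₀]
      have h3 := (mem_FF (repC S)).mp c.2 g hg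
      rw [← ha₀] at h3
      change (Submodule.Quotient.mk (repI S g a₀) : CS S) = _ at h3
      rw [h3, ha₀, sub_self]
    rw [Submodule.Quotient.mk_eq_zero] at h2
    exact h2
  have h2 : ∀ g, ∃ z : KS S, g ∈ U → iKS S z = repI S g a₀ - a₀ := by
    intro g
    by_cases hg : g ∈ U
    · obtain ⟨z, hz⟩ := h1 g hg
      exact ⟨z, fun _ => hz⟩
    · exact ⟨0, fun h => absurd h hg⟩
  choose z hz using h2
  obtain ⟨b, hb⟩ := exists_of_cocycle hU z (by
    intro g hg h hh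
    apply iKS_injective hS
    rw [map_add, iKS_comm, hz _ (U.mul_mem hg hh), hz g hg, hz h hh, map_mul,
      Module.End.mul_apply, map_sub]
    abel) (by
    obtain ⟨W, hW, hWa⟩ := repI_smooth S a₀
    refine ⟨W, hW, fun g hg w hw hwW => ?_⟩
    apply iKS_injective hS
    rw [hz _ (U.mul_mem hg hw), hz g hg, map_mul, Module.End.mul_apply, hWa w hwW])
  refine ⟨⟨a₀ - iKS S b, ?_⟩, ?_⟩
  · rw [mem_FF]
    intro g hg
    rw [map_sub, ← iKS_comm, ← sub_eq_zero]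
    have h3 := hz g hg
    rw [hb g hg, map_sub] at h3
    rw [show repI S g a₀ - (iKS S) (repK S g b) - (a₀ - (iKS S) b) =
      (repI S g a₀ - a₀) - ((iKS S) (repK S g b) - (iKS S) b) by abel, ← h3, sub_self]
  · rw [Submodule.Quotient.mk_sub, ha₀, (Submodule.Quotient.mk_eq_zero
      (LinearMap.range (iKS S))).mpr (LinearMap.mem_range_self _ b), sub_zero]

/-- classes of invariant ideles -/
noncomputable def mkC (S : Finset Nat.Primes) (U : Subgroup GQ) :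
    ↥(FF (repI S) U) →+ ↥(FF (repC S) U) where
  toFun a := ⟨Submodule.Quotient.mk (a : IS S), by
    rw [mem_FF]
    intro g hg
    change (Submodule.Quotient.mk (repI S g (a : IS S)) : CS S) = _
    rw [(mem_FF (repI S)).mp a.2 g hg]⟩
  map_zero' := rfl
  map_add' _ _ := rfl

theorem coe_mkC {U : Subgroup GQ} (a : ↥(FF (repI S) U)) :
    (mkC S U a : CS S) = Submodule.Quotient.mk (a : IS S) := rfl

theorem mkC_surjective (hS : S.Nonempty) {U : Subgroup GQ} (hU : (famS S).IsOpen U) :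
    Function.Surjective (mkC S U) := fun c => by
  obtain ⟨a, ha⟩ := exists_lift hS hU c
  exact ⟨a, Subtype.ext ha⟩

theorem mkC_eq_zero {U : Subgroup GQ} {a : ↥(FF (repI S) U)} :
    mkC S U a = 0 ↔ (a : IS S) ∈ LinearMap.range (iKS S) := by
  rw [← Submodule.Quotient.mk_eq_zero]
  exact ⟨fun h => congrArg Subtype.val h, fun h => Subtype.ext h⟩

theorem nmr_mkC {U₁ U₂ : Subgroup GQ} (h : U₁ ≤ U₂) (hU₁ : (famS S).IsOpen U₁)
    (b : ↥(FF (repI S) U₁)) :
    nmr (repC S) h hU₁ (mkC S U₁ b) = mkC S U₂ (nmr (repI S) h hU₁ b) := by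
  letI := relFintype hU₁ U₂
  apply Subtype.ext
  rw [coe_nmr (repC S) h hU₁ _ (secr U₁ U₂) fun x => ⟨secr_mem x, mk_secr x⟩, coe_mkC, coe_mkC,
    coe_nmr (repI S) h hU₁ _ (secr U₁ U₂) fun x => ⟨secr_mem x, mk_secr x⟩]
  exact (map_sum (Submodule.mkQ (LinearMap.range (iKS S)))
    (fun x => repI S (secr U₁ U₂ x) (b : IS S)) Finset.univ).symm

theorem index_le_aux {U₁ U₂ : Subgroup GQ} (h : U₁ ≤ U₂)
    (hU₁ : (famS S).IsOpen U₁) (hU₂ : (famS S).IsOpen U₂) {B : Type*} [AddCommGroup B]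
    (N : AddSubgroup B) (π : ↥(FF (repI S) U₂) →+ B) (hπ : Function.Surjective π)
    (h0 : N.index ≠ 0)
    (hK : ∀ a : ↥(FF (repI S) U₂), (a : IS S) ∈ LinearMap.range (iKS S) → π a = 0)
    (hN : ∀ b, π (nmr (repI S) h hU₁ b) ∈ N) : N.index ≤ U₁.relIndex U₂ := by
  have hfin : Finite (B ⧸ N) := Nat.finite_of_card_ne_zero h0
  refine card_le_relIndex (A := B ⧸ N) h hU₁ hU₂
    ((QuotientAddGroup.mk' N).comp π) (fun a ha => ?_) (fun b => ?_)
    ((QuotientAddGroup.mk'_surjective N).comp hπ)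
  · rw [AddMonoidHom.comp_apply, hK a ha, map_zero]
  · rw [AddMonoidHom.comp_apply, QuotientAddGroup.mk'_apply, QuotientAddGroup.eq_zero_iff]
    exact hN b

/-- the second inequality for idele classes -/
theorem index_le {U₁ U₂ : Subgroup GQ} (hS : S.Nonempty) (h : U₁ ≤ U₂)
    (hU₁ : (famS S).IsOpen U₁) (hU₂ : (famS S).IsOpen U₂)
    (h0 : (LinearMap.range (nmr (repC S) h hU₁)).toAddSubgroup.index ≠ 0) :
    (LinearMap.range (nmr (repC S) h hU₁)).toAddSubgroup.index ≤ U₁.relIndex U₂ :=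
  index_le_aux h hU₁ hU₂ _ (mkC S U₂) (mkC_surjective hS hU₂) h0
    (fun _ ha => mkC_eq_zero.mpr ha) (fun b => ⟨mkC S U₁ b, nmr_mkC h hU₁ b⟩)

end Fermat.Agent.GCFT
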