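import Fermat.Agent.GCFT.Idx

/-!
# Idele classes: norm index in cyclic layers of degree `p`, Hilbert 90 (conclusion)
-/

set_option autoImplicit false
set_option linter.style.haveILetI false

namespace Fermat.Agent.GCFT

open Fermat.Agent.Coh NumberField IsDedekindDomain Module
open Fermat.Agent.GlobalCFT (Cyc AA HV EV dfA nmA)

/-- The field of algebraic numbers. -/
local notation "Qb" => AlgebraicClosure ℚ
/-- The absolute Galois group. -/
local notation "GQ" => (AlgebraicClosure ℚ ≃ₐ[ℚ] AlgebraicClosure ℚ)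

variable {S : Finset Nat.Primes} {U V : Subgroup GQ} {σ : GQ} {p : ℕ}

theorem mem_EV_of {a : AA} (hS : S.Nonempty) (ha : a ∈ HV S V)
    (h : (⟨a, ha.1⟩ : IS S) ∈ LinearMap.range (iKS S)) : a ∈ EV S V := by
  obtain ⟨x, hx⟩ := h
  refine ⟨x, fun v hv => ?_, congrArg Subtype.val hx⟩
  apply iKS_injective hS
  rw [iKS_comm, hx]
  exact Subtype.ext (ha.2 v hv)

/-- from invariant ideles as pairs -/
noncomputable def toFF (a : AA) (ha : a ∈ HV S V) : ↥(FF (repI S) V) :=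
  ⟨⟨a, ha.1⟩, (mem_FF (repI S)).mpr fun v hv => Subtype.ext (ha.2 v hv)⟩

theorem mem_HV_of (b : ↥(FF (repI S) V)) : ((b : IS S) : AA) ∈ HV S V :=
  ⟨b.1.2, fun v hv => congrArg Subtype.val ((mem_FF (repI S)).mp b.2 v hv)⟩

theorem coe_nmr_repI (C : Cyc V U σ p) (h : V ≤ U) (hV : (famS S).IsOpen V)
    (b : ↥(FF (repI S) V)) :
    (((nmr (repI S) h hV b : ↥(FF (repI S) U)) : IS S) : AA) = nmA σ p ((b : IS S) : AA) := by
  rw [coe_nmr_cyc C h hV b, GlobalCFT.nmA_apply]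
  exact map_sum (IS S).subtype (fun j => repI S (σ ^ j) (b : IS S)) (Finset.range p)

section

variable (S)

/-- the classes fixed by `U` -/
noncomputable def KC (V : Subgroup GQ) (σ : GQ) : AddSubgroup AA := HV S V ⊓ (EV S V).comap (dfA σ)

variable {S}

theorem KC_aux (C : Cyc V U σ p) {a : AA} (ha : a ∈ KC S V σ) :
    (Submodule.Quotient.mk (⟨a, ha.1.1⟩ : IS S) : CS S) ∈ FF (repC S) U := by
  rw [mem_FF]
  intro u hu
  have hV : ∀ v ∈ V, repC S v (Submodule.Quotient.mk (⟨a, ha.1.1⟩ : IS S) : CS S) =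
      Submodule.Quotient.mk (⟨a, ha.1.1⟩ : IS S) := by
    intro v hv
    change (Submodule.Quotient.mk (repI S v ⟨a, ha.1.1⟩) : CS S) = _
    congr 1
    exact Subtype.ext (ha.1.2 v hv)
  have hσ : repC S σ (Submodule.Quotient.mk (⟨a, ha.1.1⟩ : IS S) : CS S) =
      Submodule.Quotient.mk (⟨a, ha.1.1⟩ : IS S) := by
    change (Submodule.Quotient.mk (repI S σ ⟨a, ha.1.1⟩) : CS S) = _
    rw [← sub_eq_zero, ← Submodule.Quotient.mk_sub, Submodule.Quotient.mk_eq_zero]
    obtain ⟨x, -, hx⟩ := ha.2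
    exact ⟨x, Subtype.ext hx⟩
  have hσj : ∀ j : ℕ, repC S (σ ^ j) (Submodule.Quotient.mk (⟨a, ha.1.1⟩ : IS S) : CS S) =
      Submodule.Quotient.mk (⟨a, ha.1.1⟩ : IS S) := by
    intro j
    induction j with
    | zero => rw [pow_zero, map_one]; rfl
    | succ j ih => rw [pow_succ, map_mul, Module.End.mul_apply, hσ, ih]
  obtain ⟨j, -, v, hv, rfl⟩ := C.gen u hu
  rw [map_mul, Module.End.mul_apply, hV v hv, hσj]

/-- the class map -/
noncomputable def psiC (C : Cyc V U σ p) : ↥(KC S V σ) →+ ↥(FF (repC S) U) where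
  toFun a := ⟨Submodule.Quotient.mk (⟨a.1, a.2.1.1⟩ : IS S), KC_aux C a.2⟩
  map_zero' := rfl
  map_add' _ _ := rfl

theorem coe_psiC (C : Cyc V U σ p) (a : ↥(KC S V σ)) :
    (psiC C a : CS S) = Submodule.Quotient.mk (⟨a.1, a.2.1.1⟩ : IS S) := rfl

theorem psiC_surjective (C : Cyc V U σ p) (hS : S.Nonempty) (hV : (famS S).IsOpen V) :
    Function.Surjective (psiC (S := S) C) := by
  intro c
  have hcV : (c : CS S) ∈ FF (repC S) V := by
    rw [mem_FF]
    intro v hv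
    exact (mem_FF (repC S)).mp c.2 v (C.le hv)
  obtain ⟨a, ha⟩ := exists_lift hS hV ⟨c, hcV⟩
  have ha' : (Submodule.Quotient.mk (a : IS S) : CS S) = c := ha
  have h1 : dfA σ ((a : IS S) : AA) ∈ HV S V := by
    refine ⟨(repI S σ a - (a : IS S)).2, fun v hv => ?_⟩
    have h2 : v * σ = σ * (σ⁻¹ * v * σ) := by group
    rw [GlobalCFT.dfA_apply, map_sub, ← Module.End.mul_apply, ← map_mul, h2, map_mul,
      Module.End.mul_apply, (mem_HV_of a).2 _ (C.conj' C.mem hv), (mem_HV_of a).2 v hv]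
  have h2 : dfA σ ((a : IS S) : AA) ∈ EV S V := by
    apply mem_EV_of hS h1
    have h3 : (Submodule.Quotient.mk (repI S σ (a : IS S) - (a : IS S)) : CS S) = 0 := by
      rw [Submodule.Quotient.mk_sub, ha']
      have h4 := (mem_FF (repC S)).mp c.2 σ C.mem
      rw [← ha'] at h4
      change (Submodule.Quotient.mk (repI S σ (a : IS S)) : CS S) = _ at h4
      rw [h4, ha', sub_self]
    rw [Submodule.Quotient.mk_eq_zero] at h3
    exact h3
  exact ⟨⟨((a : IS S) : AA), mem_HV_of a, h2⟩, Subtype.ext ha'⟩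

theorem comap_psiC (C : Cyc V U σ p) (hS : S.Nonempty) (hV : (famS S).IsOpen V) (h : V ≤ U) :
    (LinearMap.range (nmr (repC S) h hV)).toAddSubgroup.comap (psiC C) =
      ((HV S V).map (nmA σ p) ⊔ EV S V).addSubgroupOf (KC S V σ) := by
  ext a
  rw [AddSubgroup.mem_comap, AddSubgroup.mem_addSubgroupOf]
  constructor
  · rintro ⟨c, hc⟩
    obtain ⟨b, rfl⟩ := mkC_surjective hS hV c
    rw [nmr_mkC h hV b] at hc
    have h1 : (Submodule.Quotient.mk ((nmr (repI S) h hV b : ↥(FF (repI S) U)) : IS S) : CS S) =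
        Submodule.Quotient.mk (⟨a.1, a.2.1.1⟩ : IS S) := congrArg Subtype.val hc
    have h2 : (a : AA) - nmA σ p ((b : IS S) : AA) ∈ HV S V := by
      refine sub_mem a.2.1 ?_
      rw [← coe_nmr_repI C h hV b]
      exact GlobalCFT.HV_mono C (mem_HV_of _)
    have h3 : (a : AA) - nmA σ p ((b : IS S) : AA) ∈ EV S V := by
      apply mem_EV_of hS h2
      have h4 : (⟨(a : AA) - nmA σ p ((b : IS S) : AA), h2.1⟩ : IS S) =
          (⟨a.1, a.2.1.1⟩ : IS S) - ((nmr (repI S) h hV b : ↥(FF (repI S) U)) : IS S) := by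
        apply Subtype.ext
        change (a : AA) - nmA σ p ((b : IS S) : AA) = (a : AA) -
          (((nmr (repI S) h hV b : ↥(FF (repI S) U)) : IS S) : AA)
        rw [coe_nmr_repI C h hV b]
      rw [h4, ← Submodule.Quotient.mk_eq_zero, Submodule.Quotient.mk_sub, h1, sub_self]
    rw [AddSubgroup.mem_sup]
    exact ⟨_, ⟨_, mem_HV_of b, rfl⟩, _, h3, by abel⟩
  · intro ha
    rw [AddSubgroup.mem_sup] at ha
    obtain ⟨_, ⟨b, hb, rfl⟩, e, he, hsum⟩ := ha
    refine ⟨mkC S V (toFF b hb), ?_⟩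
    rw [nmr_mkC h hV]
    apply Subtype.ext
    rw [coe_psiC, coe_mkC]
    obtain ⟨x, -, hx⟩ := he
    have h4 : (⟨a.1, a.2.1.1⟩ : IS S) =
        ((nmr (repI S) h hV (toFF b hb) : ↥(FF (repI S) U)) : IS S) + iKS S x := by
      apply Subtype.ext
      change (a : AA) = (((nmr (repI S) h hV (toFF b hb) : ↥(FF (repI S) U)) : IS S) : AA) +
        ((iKS S x : IS S) : AA)
      rw [coe_nmr_repI C h hV, hx]
      exact hsum.symm
    rw [h4, Submodule.Quotient.mk_add, (Submodule.Quotient.mk_eq_zero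
      (LinearMap.range (iKS S))).mpr (LinearMap.mem_range_self _ x), add_zero]

end

theorem index_eq_relIndex (C : Cyc V U σ p) (hS : S.Nonempty) (hV : (famS S).IsOpen V)
    (h : V ≤ U) :
    (LinearMap.range (nmr (repC S) h hV)).toAddSubgroup.index =
      ((HV S V).map (nmA σ p) ⊔ EV S V).relIndex (HV S V ⊓ (EV S V).comap (dfA σ)) := by
  rw [← AddSubgroup.index_comap_of_surjective _ (psiC_surjective C hS hV), comap_psiC C hS hV h]
  rfl

/-- **Norm index of idele classes in cyclic layers of degree `p`**, and Hilbert 90. -/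
theorem index_eq (C : Cyc V U σ p) (hodd : Odd p) (hS : S.Nonempty) (hV : (famS S).IsOpen V)
    (h : V ≤ U) (hi : V.relIndex U = p) :
    (LinearMap.range (nmr (repC S) h hV)).toAddSubgroup.index = p ∧
    ((HV S V).map (dfA σ) ⊔ EV S V).relIndex (HV S V ⊓ (EV S V).comap (nmA σ p)) = 1 := by
  obtain ⟨h1, h2, h3⟩ := GlobalCFT.first_inequality C hodd hS hV
  have h4 := index_eq_relIndex C hS hV h
  have h5 := index_le hS h hV (hV.mono h) (by rw [h4]; exact h2)
  rw [h4, h1, hi] at h5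
  have hp := C.prime.pos
  have h6 : ((HV S V).map (dfA σ) ⊔ EV S V).relIndex (HV S V ⊓ (EV S V).comap (nmA σ p)) = 1 := by
    have h7 := Nat.le_of_mul_le_mul_left (h5.trans (mul_one p).ge) hp
    omega
  refine ⟨?_, h6⟩
  rw [h4, h1, h6, mul_one]

theorem h90_aux
    (h2 : ((HV S V).map (dfA σ) ⊔ EV S V).relIndex (HV S V ⊓ (EV S V).comap (nmA σ p)) = 1)
    (a : ↥(FF (repI S) V)) (ha : nmA σ p ((a : IS S) : AA) ∈ EV S V) :
    ∃ (b : ↥(FF (repI S) V)) (x : KS S), (a : IS S) = (repI S σ (b : IS S) - (b : IS S)) + iKS S x := by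
  have h3 : ((a : IS S) : AA) ∈ HV S V ⊓ (EV S V).comap (nmA σ p) := ⟨mem_HV_of a, ha⟩
  have h4 := AddSubgroup.relIndex_eq_one.mp h2 h3
  rw [AddSubgroup.mem_sup] at h4
  obtain ⟨_, ⟨b, hb, rfl⟩, e, ⟨x, -, rfl⟩, hsum⟩ := h4
  exact ⟨toFF b hb, x, Subtype.ext hsum.symm⟩

theorem h90_aux2 (hV : (famS S).IsOpen V) (a : ↥(FF (repI S) V)) (C : Cyc V U σ p)
    (hS : S.Nonempty) (h : V ≤ U)
    (hc : ((nmr (repI S) h hV a : ↥(FF (repI S) U)) : IS S) ∈ LinearMap.range (iKS S)) :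
    nmA σ p ((a : IS S) : AA) ∈ EV S V := by
  rw [← coe_nmr_repI C h hV a]
  exact mem_EV_of hS (GlobalCFT.HV_mono C (mem_HV_of _)) hc

theorem h90_aux3 (a b : ↥(FF (repI S) V)) (x : KS S)
    (h5 : (a : IS S) = (repI S σ (b : IS S) - (b : IS S)) + iKS S x) :
    (mkC S V a : CS S) = repC S σ (mkC S V b) - (mkC S V b : CS S) := by
  have h6 : (Submodule.Quotient.mk (a : IS S) : CS S) =
      Submodule.Quotient.mk (repI S σ (b : IS S) - (b : IS S)) := by
    rw [h5, Submodule.Quotient.mk_add, (Submodule.Quotient.mk_eq_zero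
      (LinearMap.range (iKS S))).mpr (LinearMap.mem_range_self _ x), add_zero]
  exact h6

theorem h90_C (C : Cyc V U σ p) (hodd : Odd p) (hS : S.Nonempty) (hV : (famS S).IsOpen V)
    (h : V ≤ U) (hi : V.relIndex U = p) (c : ↥(FF (repC S) V)) (hc : nmr (repC S) h hV c = 0) :
    ∃ b : ↥(FF (repC S) V), (c : CS S) = repC S σ b - b := by
  obtain ⟨a, rfl⟩ := mkC_surjective hS hV c
  rw [nmr_mkC h hV, mkC_eq_zero] at hc
  obtain ⟨b, x, h5⟩ := h90_aux (index_eq C hodd hS hV h hi).2 a (h90_aux2 hV a C hS h hc)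
  exact ⟨mkC S V b, h90_aux3 a b x h5⟩

end Fermat.Agent.GCFT
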