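import Fermat.Agent.GCFT.KInj

/-!
# Local invariants and symbols
-/

set_option autoImplicit false
set_option linter.style.haveILetI false
set_option linter.unusedSectionVars false

namespace Fermat.Agent.GCFT

open Fermat.Agent.Coh Fermat.Agent.LocalCFT Fermat.Agent.PLog Fermat.Agent.GalD
open Fermat.Agent.PT (muQ muL jl jZ toTor invL invU coe_toTor coe_jZ nsmul_jl jl_comm)
open ExtCitation (cycloChar pPrime)

/-- The field of algebraic numbers. -/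
local notation "Qb" => AlgebraicClosure ℚ
/-- The absolute Galois group. -/
local notation "GQ" => (AlgebraicClosure ℚ ≃ₐ[ℚ] AlgebraicClosure ℚ)

variable {S : Finset Nat.Primes} {U V : Subgroup GQ} {p : ℕ} [hp : Fact p.Prime]

theorem v_top (hp2 : p ≠ 2) {l : Nat.Primes} (b : ↥(FF (LU (l : ℕ)) (⊤ : Subgroup (Gl l)))) :
    (p : ℤ_[p]) ^ (cycCF (l : ℕ) p hp2).f ⊤ * (cycCF (l : ℕ) p hp2).v ⊤ b =
      v0 (l : ℕ) p hp2 b := by
  rw [cycCF_v hp2 ⊤ top_open, nmr_top]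

/-- the invariant of a class which is a symbol -/
theorem invL_of_sym (hp2 : p ≠ 2) {l : Nat.Primes} (f : ↥(Z2 (LF (l : ℕ)) (muL p l))) {n r : ℕ}
    (hn : n = (cycCF (l : ℕ) p hp2).f ⊤ + (r + 1)) (b : ↥(FF (LU (l : ℕ)) (⊤ : Subgroup (Gl l))))
    (hx : H2.mk ((LF (l : ℕ)).res ⊤) (rep (LU (l : ℕ)) ⊤)
      (jZ ((Mor.res (LF (l : ℕ)) (muL p l) ⊤).mapZ2 f)) =
        sym (rep (LU (l : ℕ)) ⊤) (psiD (cycCF (l : ℕ) p hp2) ⊤ n) b) :
    ∃ w : ℤ_[p], v0 (l : ℕ) p hp2 b = (p : ℤ_[p]) ^ (n - 1) * w ∧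
      invL hp2 l (H2.mk (LF (l : ℕ)) (muL p l) f) = PadicInt.toZMod w := by
  subst hn
  have ht : p • sym (rep (LU (l : ℕ)) ⊤) (psiD (cycCF (l : ℕ) p hp2) ⊤
      ((cycCF (l : ℕ) p hp2).f ⊤ + (r + 1))) b = 0 := by
    rw [← hx]
    exact (PT.mk_jZ_mem _)
  obtain ⟨w, hw, hi⟩ := inv_sym_psi (cycCF (l : ℕ) p hp2) (Fam.isOpen_top _) r b ht
  refine ⟨w, ?_, ?_⟩
  · rw [← v_top hp2 b, hw, ← mul_assoc, ← pow_add]
    rfl
  · have h1 : invL hp2 l (H2.mk (LF (l : ℕ)) (muL p l) f) =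
        (cycCF (l : ℕ) p hp2).inv (Fam.isOpen_top _)
          (toTor ((Mor.res (LF (l : ℕ)) (muL p l) ⊤).mapZ2 f)) := rfl
    have h2 : toTor ((Mor.res (LF (l : ℕ)) (muL p l) ⊤).mapZ2 f) =
        (⟨_, ht⟩ : ↥(CFData.tor (LF (l : ℕ)) (LU (l : ℕ)) p ⊤)) := Subtype.ext hx
    exact h1.trans ((congrArg ((cycCF (l : ℕ) p hp2).inv (Fam.isOpen_top _)) h2).trans hi)

/-- homomorphisms with finite image to the integers vanish -/
theorem hom_zero {G : Type*} [Group G] {𝓥 : Fam G} {θ : G → ℤ}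
    (hθ : ∀ g h, θ (g * h) = θ g + θ h) (hsm : 𝓥.Sm1 θ) (g : G) : θ g = 0 := by
  obtain ⟨W, hW, h⟩ := hsm
  have hfi := 𝓥.finiteIndex W hW
  have hn := 𝓥.normal W hW
  have h1 : θ 1 = 0 := by
    have := hθ 1 1
    rw [mul_one] at this
    omega
  have hpow : ∀ k : ℕ, θ (g ^ k) = k * θ g := by
    intro k
    induction k with
    | zero => rw [pow_zero, h1]; simp
    | succ k ih => rw [pow_succ, hθ, ih]; push_cast; ring
  have h2 := hpow W.index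
  have h3 := h 1 _ (Subgroup.pow_index_mem W g)
  rw [one_mul, h1] at h3
  rw [h3] at h2
  have h4 : (W.index : ℤ) ≠ 0 := by exact_mod_cast hfi.index_ne_zero
  exact (mul_eq_zero.mp h2.symm).resolve_left h4

/-- integrality from the vanishing of an integral symbol -/
theorem dvd_of_carry {G : Type*} [Group G] {𝓥 : Fam G} {m : ℕ} [NeZero m] (X : Chr 𝓥 (ZMod m))
    (N : ℤ) (c : G → ℤ) (hc : 𝓥.Sm1 c)
    (h : ∀ g h, 0 = (carry (X g) (X h) : ℤ) * N + (c h - c (g * h) + c g)) (g : G) :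
    (m : ℤ) ∣ N * ((X g).val : ℤ) := by
  have h1 := hom_zero (𝓥 := 𝓥) (θ := fun g => N * ((X g).val : ℤ) + m * c g) (fun g h' => by
    have e1 := carry_spec (X g) (X h')
    rw [← X.map_mul] at e1
    have e2 : (((X g).val : ℤ) + ((X h').val : ℤ)) = ((X (g * h')).val : ℤ) +
        (m : ℤ) * (carry (X g) (X h') : ℤ) := by exact_mod_cast e1
    have e3 := h g h'
    change N * ((X (g * h')).val : ℤ) + m * c (g * h') = N * ((X g).val : ℤ) + m * c g +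
      (N * ((X h').val : ℤ) + m * c h')
    linear_combination (-N) * e2 + (m : ℤ) * e3) ((X.2.1.post fun i => (N * (i.val : ℤ))).post₂
      (hc.post fun i => (m : ℤ) * i) (· + ·)) g
  exact ⟨- c g, by linear_combination h1⟩

theorem dvd_lamP (hp2 : p ≠ 2) {l : Nat.Primes} (hlp : (l : ℕ) ≠ p) {n : ℕ} {N : ℤ_[p]}
    (h : ∀ δ : Gl l, (p : ℤ_[p]) ^ n ∣ N * dQ p (rl l δ)) : (p : ℤ_[p]) ^ n ∣ N * lamP p l := by
  obtain ⟨δ, -, hδ⟩ := (cycCF (l : ℕ) p hp2).f_ex ⊤ (Fam.isOpen_top _)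
  have h1 := (cycCF (l : ℕ) p hp2).f_dvd ⊤ (Fam.isOpen_top _) δ (Subgroup.mem_top _)
  obtain ⟨u, hu⟩ := h1
  have h2 : IsUnit u := by
    apply CFData.isUnit_of_not_dvd
    intro h3
    apply hδ
    rw [hu, pow_succ]
    exact mul_dvd_mul_left _ h3
  have h3 := h δ
  rw [cycCF_d] at hu
  rw [dQ_rl, hu, ← mul_assoc] at h3
  have h4 : (p : ℤ_[p]) ^ n ∣ N * (p : ℤ_[p]) ^ (cycCF (l : ℕ) p hp2).f ⊤ :=
    (h2.dvd_mul_right).mp h3
  have h5 := v_top hp2 (l := l) (Pl (l : ℕ))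
  rw [v0_of_ne hp2 hlp, VU_Pl, Int.cast_one, one_mul] at h5
  rw [lamP, dif_pos (coprime_of_ne hlp), ← h5, ← mul_assoc]
  exact h4.mul_right _

end Fermat.Agent.GCFT
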