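import Fermat.Agent.GCFT.GCF
import Fermat.Agent.GlobalCFT.Semi
import Fermat.Agent.GlobalCFT.KumKS
import Fermat.Agent.GCFT.DivSurj

/-!
# The `p`-th roots of unity in `KS S` and the Kummer sequence
-/

set_option autoImplicit false
set_option linter.style.haveILetI false
set_option linter.unusedSectionVars false

namespace Fermat.Agent.GCFT

open Fermat.Agent.Coh Fermat.Agent.LocalCFT Fermat.Agent.PLog Fermat.Agent.GalD
open Fermat.Agent.PT (zt zt_spec zt_ne_zero cycloChar_spec muQ muL jl uval_jl jl_comm exists_jl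
  jl_injective nsmul_jl cycloChar_open mem_ker_cycloChar ztl_spec uval_jl_natCast)
open ExtCitation (cycloChar pPrime)

/-- The field of algebraic numbers. -/
local notation "Qb" => AlgebraicClosure ℚ
/-- The absolute Galois group. -/
local notation "GQ" => (AlgebraicClosure ℚ ≃ₐ[ℚ] AlgebraicClosure ℚ)

variable {S : Finset Nat.Primes} {U V : Subgroup GQ} {p : ℕ} [hp : Fact p.Prime]

/-- post-composition of cocycles with additive maps (over different rings) -/
theorem post_Z2 {k k' Γ V W : Type*} [CommRing k] [CommRing k'] [Group Γ] [AddCommGroup V]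
    [Module k V] [AddCommGroup W] [Module k' W] {𝓤 : Fam Γ} {ρ : Representation k Γ V}
    {τ : Representation k' Γ W} (T : V →+ W) (hT : ∀ g v, T (ρ g v) = τ g (T v))
    {f : Γ × Γ → V} (hf : f ∈ Z2 𝓤 ρ) : (fun q => T (f q)) ∈ Z2 𝓤 τ := by
  refine ⟨hf.1.post _, fun g h j => ?_⟩
  rw [← map_add, hf.2, map_add, hT]

/-- the root of unity as an element of `KS` -/
noncomputable def ztK (hpS : pPrime p ∈ S) : KS S :=
  ⟨Additive.ofMul (Units.mk0 (zt p) (zt_ne_zero p)), by
    refine ⟨_, cycloChar_open hpS, fun u hu => ?_⟩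
    apply Additive.toMul.injective
    apply Units.ext
    rw [repQb_apply]
    exact (mem_ker_cycloChar p).mp hu⟩

theorem nsmul_coe_KS (n : ℕ) (x : KS S) : (((((n • x : KS S) : Additive Qbˣ)).toMul : Qbˣ) : Qb) =
    ((((x : Additive Qbˣ)).toMul : Qbˣ) : Qb) ^ n := by
  rw [← Units.val_pow_eq_pow_val]
  rfl

/-- the value of an element of `KS` -/
noncomputable def kv (x : KS S) : Qb := ((((x : Additive Qbˣ)).toMul : Qbˣ) : Qb)

theorem kv_injective : Function.Injective (kv (S := S)) := fun _ _ h =>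
  Subtype.ext (Additive.toMul.injective (Units.ext h))

@[simp] theorem kv_nsmul (n : ℕ) (x : KS S) : kv (n • x) = kv x ^ n := nsmul_coe_KS n x

@[simp] theorem kv_zero : kv (0 : KS S) = 1 := rfl

@[simp] theorem kv_add (x y : KS S) : kv (x + y) = kv x * kv y := rfl

theorem kv_ne_zero (x : KS S) : kv x ≠ 0 := Units.ne_zero _

@[simp] theorem kv_repK (g : GQ) (x : KS S) : kv (repK S g x) = g (kv x) := rfl

@[simp] theorem kv_ztK (hpS : pPrime p ∈ S) : kv (ztK hpS) = zt p := rfl

/-- the `p`-th roots of unity in `KS` -/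
noncomputable def jK (hpS : pPrime p ∈ S) : ZMod p →+ KS S :=
  ZMod.lift p ⟨zmultiplesHom _ (ztK hpS), by
    rw [zmultiplesHom_apply, natCast_zsmul]
    apply kv_injective
    rw [kv_nsmul, kv_ztK, (zt_spec p).pow_eq_one, kv_zero]⟩

theorem jK_natCast (hpS : pPrime p ∈ S) (n : ℕ) : jK hpS (n : ZMod p) = n • ztK hpS := by
  have h1 : ((n : ℤ) : ZMod p) = (n : ZMod p) := Int.cast_natCast n
  rw [jK, ← h1, ZMod.lift_coe]
  exact natCast_zsmul _ _

theorem kv_jK (hpS : pPrime p ∈ S) (a : ZMod p) : kv (jK hpS a) = zt p ^ a.val := by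
  have : NeZero p := ⟨hp.out.ne_zero⟩
  conv_lhs => rw [← ZMod.natCast_zmod_val a]
  rw [jK_natCast, kv_nsmul, kv_ztK]

theorem jK_injective (hpS : pPrime p ∈ S) : Function.Injective (jK hpS) := by
  have : NeZero p := ⟨hp.out.ne_zero⟩
  intro a b h
  have h1 := congrArg kv h
  rw [kv_jK, kv_jK] at h1
  exact ZMod.val_injective p ((zt_spec p).pow_inj (ZMod.val_lt a) (ZMod.val_lt b) h1)

theorem exists_jK (hpS : pPrime p ∈ S) (x : KS S) (hx : p • x = 0) : ∃ a, jK hpS a = x := by
  have : NeZero p := ⟨hp.out.ne_zero⟩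
  have h1 := congrArg kv hx
  rw [kv_nsmul, kv_zero] at h1
  obtain ⟨i, _, hi⟩ := (zt_spec p).eq_pow_of_pow_eq_one h1
  refine ⟨(i : ZMod p), kv_injective ?_⟩
  rw [jK_natCast, kv_nsmul, kv_ztK, hi]

theorem nsmul_jK (hpS : pPrime p ∈ S) (a : ZMod p) : p • jK hpS a = 0 := by
  rw [← map_nsmul, nsmul_eq_mul, ZMod.natCast_self, zero_mul, map_zero]

theorem jK_comm (hpS : pPrime p ∈ S) (g : GQ) (a : ZMod p) :
    jK hpS (muQ p g a) = repK S g (jK hpS a) := by
  have : NeZero p := ⟨hp.out.ne_zero⟩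
  have h1 : muQ p g a = (cycloChar p g : ZMod p).val • a := by
    rw [nsmul_eq_mul, ZMod.natCast_zmod_val]
    rfl
  apply kv_injective
  rw [h1, map_nsmul, kv_nsmul, kv_repK, kv_jK, map_pow, cycloChar_spec, ← pow_mul, ← pow_mul,
    mul_comm]

/-- the local embedding at `(l, x)` -/
noncomputable def lK (S : Finset Nat.Primes) (l : Nat.Primes) (x : GQ) : KS S →+ Additive (Om l)ˣ where
  toFun z := umk (il l (x (kv z))) (by
    rw [Ne, map_eq_zero, map_eq_zero]
    exact kv_ne_zero z)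
  map_zero' := by
    apply uval_injective
    rw [uval_umk, kv_zero, map_one, map_one, uval_zero]
  map_add' z w := by
    apply uval_injective
    rw [uval_add, uval_umk, uval_umk, uval_umk, kv_add, map_mul, map_mul]

@[simp] theorem uval_lK (l : Nat.Primes) (x : GQ) (z : KS S) :
    uval (lK S l x z) = il l (x (kv z)) := uval_umk _ _

theorem iKS_fst {l : Nat.Primes} (hl : l ∈ S) (x : GQ) (z : KS S) :
    (iKS S z).1.1 l x = lK S l x z := by
  change (diagFun S (z : Additive Qbˣ)).1 l x = _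
  rw [diagFun_fst hl]
  apply uval_injective
  rw [uval_lK]
  rfl

theorem lK_rl (l : Nat.Primes) (δ : Gl l) (x : GQ) (z : KS S) :
    lK S l (rl l δ * x) z = LU (l : ℕ) δ (lK S l x z) := by
  apply uval_injective
  rw [uval_unitsRep, uval_lK, uval_lK, AlgEquiv.mul_apply, il_rl]

theorem lK_mul (l : Nat.Primes) (x g : GQ) (z : KS S) :
    lK S l (x * g) z = lK S l x (repK S g z) := rfl

theorem lK_repK (l : Nat.Primes) (δ : Gl l) (z : KS S) :
    lK S l 1 (repK S (rl l δ) z) = LU (l : ℕ) δ (lK S l 1 z) := by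
  rw [← lK_mul, one_mul, ← lK_rl, mul_one]

theorem lK_jK (hpS : pPrime p ∈ S) (l : Nat.Primes) (x : GQ) (a : ZMod p) :
    lK S l x (jK hpS a) = jl p l (muQ p x a) := by
  have : NeZero p := ⟨hp.out.ne_zero⟩
  have h1 : muQ p x a = (cycloChar p x : ZMod p).val • a := by
    rw [nsmul_eq_mul, ZMod.natCast_zmod_val]
    rfl
  apply uval_injective
  rw [h1, map_nsmul, uval_nsmul, uval_lK, uval_jl, kv_jK, map_pow, cycloChar_spec, map_pow,
    map_pow, ← pow_mul, ← pow_mul, mul_comm]

theorem lK_jK_one (hpS : pPrime p ∈ S) (l : Nat.Primes) (a : ZMod p) :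
    lK S l 1 (jK hpS a) = jl p l a := by
  rw [lK_jK, map_one]
  rfl

theorem divl_jK (hpS : pPrime p ∈ S) {l : Nat.Primes} (hl : l ∉ S) (g : GQ) (a : ZMod p) :
    divl l (jK hpS a : Additive Qbˣ) g = 0 := by
  have h1 : p • dvh hl g (jK hpS a) = 0 := by
    rw [← map_nsmul, nsmul_jK, map_zero]
  rw [nsmul_eq_mul] at h1
  rw [← dvh_apply hl]
  exact (mul_eq_zero.mp h1).resolve_left (by exact_mod_cast hp.out.ne_zero)

theorem iKS_jK_snd (hpS : pPrime p ∈ S) (a : ZMod p) : (iKS S (jK hpS a)).1.2 = 0 := by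
  funext l g
  change (diagFun S _).2 l g = 0
  by_cases hl : l ∈ S
  · exact diagFun_snd hl _ _
  · rw [diagFun_snd_not hl]
    exact divl_jK hpS hl g a

end Fermat.Agent.GCFT
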