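import Fermat.Agent.GCFT.JK

/-!
# `H²` of `KS` injects into `H²` of the ideles; symbols in `H²` of `KS`
-/

set_option autoImplicit false
set_option linter.style.haveILetI false
set_option linter.unusedSectionVars false

namespace Fermat.Agent.GCFT

open Fermat.Agent.Coh Fermat.Agent.LocalCFT Fermat.Agent.PLog Fermat.Agent.GalD
open ExtCitation (cycloChar pPrime)

/-- The field of algebraic numbers. -/
local notation "Qb" => AlgebraicClosure ℚ
/-- The absolute Galois group. -/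
local notation "GQ" => (AlgebraicClosure ℚ ≃ₐ[ℚ] AlgebraicClosure ℚ)

variable {S : Finset Nat.Primes} {U V : Subgroup GQ} {p : ℕ} [hp : Fact p.Prime]

theorem repK_smooth (S : Finset Nat.Primes) : SmRep (famS S) (repK S) := smRep_smooth _ _

theorem eq_zero_of_coprime {A : Type*} [AddCommGroup A] {x : A} {c m : ℕ} (h : c.Coprime m)
    (h1 : c • x = 0) (h2 : m • x = 0) : x = 0 := by
  obtain ⟨u, v, huv⟩ : IsCoprime (c : ℤ) (m : ℤ) := Nat.isCoprime_iff_coprime.mpr h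
  have h3 : (u * (c : ℤ) + v * (m : ℤ)) • x = x := by rw [huv, one_smul]
  rw [add_smul, mul_smul, mul_smul, natCast_zsmul, natCast_zsmul, h1, h2, smul_zero, smul_zero,
    add_zero] at h3
  exact h3.symm

/-- Hilbert 90 -/
theorem h1_K (hU : (famS S).IsOpen U) (y : HI (famS S) (repK S) U) : y = 0 := by
  classical
  obtain ⟨z, rfl⟩ := H1.mk_surjective y
  rw [H1.mk_eq_zero]
  obtain ⟨_, ⟨W, hW, rfl⟩, hsm⟩ := z.2.1
  set Z : GQ → KS S := fun g => if h : g ∈ U then (z : U → KS S) ⟨g, h⟩ else 0 with hZ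
  have hZU : ∀ g (h : g ∈ U), Z g = (z : U → KS S) ⟨g, h⟩ := fun g h => dif_pos h
  obtain ⟨b, hb⟩ := exists_of_cocycle hU Z (fun g hg h hh => by
      rw [hZU _ (U.mul_mem hg hh), hZU _ hg, hZU _ hh]
      exact z.2.2 ⟨g, hg⟩ ⟨h, hh⟩) ⟨W, hW, fun g hg w hw hwW => by
      rw [hZU _ (U.mul_mem hg hw), hZU _ hg]
      exact hsm ⟨g, hg⟩ ⟨w, hw⟩ hwW⟩
  exact ⟨b, fun g => (hZU g g.2).symm.trans (hb g g.2)⟩

/-- restriction of exact sequences to subgroups -/
def SESres {k : Type*} [CommRing k] {Γ V' V V'' : Type*} [Group Γ] [AddCommGroup V'] [Module k V']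
    [AddCommGroup V] [Module k V] [AddCommGroup V''] [Module k V''] {ρ' : Representation k Γ V'}
    {ρ : Representation k Γ V} {ρ'' : Representation k Γ V''} (E : SES ρ' ρ ρ'') (U : Subgroup Γ) :
    SES (rep ρ' U) (rep ρ U) (rep ρ'' U) where
  i := E.i
  π := E.π
  i_comm g v := E.i_comm g v
  π_comm g v := E.π_comm g v
  inj := E.inj
  surj := E.surj
  exact := E.exact
  comp := E.comp

/-- `H²(U, KS) → H²(U, IS)` is injective on the `p`-primary part -/
theorem inj_K (hodd : Odd p) (hS : S.Nonempty) (hU : (famS S).IsOpen U)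
    (y : HH (famS S) (repK S) U) {n : ℕ} (hy : p ^ n • y = 0)
    (h0 : ((SESres (sesC hS) U).iMor ((famS S).res U)).mapH2 y = 0) : y = 0 := by
  obtain ⟨w, hw⟩ := ((SESres (sesC hS) U).exact_delta1_H2 ((repI_smooth S).comp U.subtype) y).mp h0
  obtain ⟨c, hc, hcw⟩ := weak_h1_C hodd hS U hU w
  have h1 : c • y = 0 := by
    rw [← hw, ← map_nsmul, hcw, map_zero]
  exact eq_zero_of_coprime (hc.pow_right n) h1 hy

/-- classes of `H²(U, KS)` killed by a layer of the `ℤ_p`-extension are symbols -/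
theorem exists_sym_K (D : CFData p (famS S) (repC S)) (hU : (famS S).IsOpen U) (j : ℕ)
    (x : HH (famS S) (repK S) U) (hx : rs (famS S) (repK S) (D.lay_le U j) x = 0) {i : ℕ}
    (hpx : p ^ i • x = 0) :
    ∃ a : ↥(FF (repK S) U), sym (rep (repK S) U) (psiD D U (D.f U + j)) a = x := by
  obtain ⟨σ, hσ⟩ := D.exists_chi_eq_one hU j
  obtain ⟨a, ha⟩ := exists_cycr_eq (D.lay_le U j) (D.lay_isOpen hU j) σ (D.zpowers_lay hU σ hσ)
    (repK_smooth S) (fun y => ⟨1, Nat.coprime_one_left p, by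
      rw [h1_K (D.lay_isOpen hU j) y, smul_zero]⟩) x hx hpx
  rw [cycr_eq_neg_sym (D.lay_le U j) (D.lay_isOpen hU j) σ (D.zpowers_lay hU σ hσ) (repK_smooth S)
    (D.chi hU j) (D.chi_eq_zero_iff_lay hU j) hσ a] at ha
  refine ⟨-a, ?_⟩
  rw [map_neg, ← ha]
  congr 1
  refine sym_level (pow_add p (D.f U) j) (pow_pos hp.out.pos _) (D.chi hU j) _ (fun g => ?_) a
  rw [AltD.psi_apply, CFData.chi_apply, ← CFData.val_toZModPow_mul, ← CFData.q_spec]

/-- a class whose symbol vanishes is a norm -/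
theorem exists_nmr_of_sym {Γ : Type*} [Group Γ] {𝓤 : Fam Γ} {A : Type*} [AddCommGroup A]
    {α : Representation ℤ Γ A} (D : CFData p 𝓤 α) {T : Subgroup Γ} (hT : 𝓤.IsOpen T) (j : ℕ)
    (a : ↥(FF α T)) (ha : sym (rep α T) (psiD D T (D.f T + j)) a = 0) :
    ∃ b, nmr α (D.lay_le T j) (D.lay_isOpen hT j) b = a := by
  rw [sym_psi_level D hT] at ha
  obtain ⟨σ, hσ⟩ := D.exists_chi_eq_one hT j
  have h1 := cycr_eq_neg_sym (D.lay_le T j) (D.lay_isOpen hT j) σ (D.zpowers_lay hT σ hσ) D.sm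
    (D.chi hT j) (D.chi_eq_zero_iff_lay hT j) hσ a
  rw [ha, neg_zero] at h1
  exact exists_nmr_eq (D.lay_le T j) (D.lay_isOpen hT j) σ (D.zpowers_lay hT σ hσ)
    D.sm (D.h1 _ (D.lay_isOpen hT j)) (D.relIndex_lay hT j) a h1

/-- symbols of the `ℤ_p`-extension on the layers vanish -/
theorem psiD_lay {Γ : Type*} [Group Γ] {𝓤 : Fam Γ} {A : Type*} [AddCommGroup A]
    {α : Representation ℤ Γ A} (D : CFData p 𝓤 α) {T : Subgroup Γ} (j : ℕ) :
    psiD D (D.lay T j) (D.f T + j) = 0 := Chr.ext fun g => by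
  rw [AltD.psi_apply, Chr.zero_apply, CFData.toZModPow_eq_zero_iff]
  exact g.2.2

/-- symbols of norms from the layers vanish -/
theorem sym_nmr_eq_zero {Γ : Type*} [Group Γ] {𝓤 : Fam Γ} {A : Type*} [AddCommGroup A]
    {α : Representation ℤ Γ A} (D : CFData p 𝓤 α) {T : Subgroup Γ} (hT : 𝓤.IsOpen T) (j : ℕ)
    {B : Type*} [AddCommGroup B] (β : Representation ℤ Γ B) (b : ↥(FF β (D.lay T j))) :
    sym (rep β T) (psiD D T (D.f T + j)) (nmr β (D.lay_le T j) (D.lay_isOpen hT j) b) = 0 := by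
  rw [← cr_sym β (D.lay_le T j) (D.lay_isOpen hT j) (psiD D T (D.f T + j))
    (psiD D (D.lay T j) (D.f T + j)) (fun _ => rfl), psiD_lay, sym_zero_left, map_zero]

end Fermat.Agent.GCFT
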