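import Fermat.Agent.GCFT.Rec2

/-!
# Lifting `p`-torsion classes of `H²(U, KS)` to `μ_p`
-/

set_option autoImplicit false
set_option linter.style.haveILetI false
set_option linter.unusedSectionVars false

namespace Fermat.Agent.GCFT

open Fermat.Agent.Coh Fermat.Agent.LocalCFT Fermat.Agent.PLog Fermat.Agent.GalD
open Fermat.Agent.PT (muQ muL)
open ExtCitation (cycloChar pPrime)

/-- The field of algebraic numbers. -/
local notation "Qb" => AlgebraicClosure ℚ
/-- The absolute Galois group. -/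
local notation "GQ" => (AlgebraicClosure ℚ ≃ₐ[ℚ] AlgebraicClosure ℚ)

variable {S : Finset Nat.Primes} {U V : Subgroup GQ} {p : ℕ} [hp : Fact p.Prime]

variable (S) in
/-- the divisor part of an idele -/
noncomputable def PP : IS S →ₗ[ℤ] IS S :=
  AddMonoidHom.toIntLinearMap
    { toFun := fun a => ⟨(0, a.1.2), by
        obtain ⟨h1, h2, h3, h4, h5, W, hW, h6⟩ := a.2
        exact ⟨fun l _ => zero_mem _, fun l _ => rfl, h3, h4, h5, W, hW,
          fun u hu l x => ⟨rfl, (h6 u hu l x).2⟩⟩⟩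
      map_zero' := rfl
      map_add' := fun a b => Subtype.ext (Prod.ext (add_zero _).symm rfl) }

theorem PP_fst (a : IS S) : (PP S a).1.1 = 0 := rfl

theorem PP_snd (a : IS S) : (PP S a).1.2 = a.1.2 := rfl

theorem PP_comm (g : GQ) (a : IS S) : PP S (repI S g a) = repI S g (PP S a) :=
  Subtype.ext (Prod.ext rfl rfl)

theorem PP_ext {a b : IS S} (h : a.1.2 = b.1.2) : PP S a = PP S b :=
  Subtype.ext (Prod.ext rfl h)

theorem iKS_snd_dvh {l : Nat.Primes} (hl : l ∉ S) (x : KS S) (y : GQ) :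
    (iKS S x).1.2 l y = dvh hl y x := diagFun_snd_not hl _ _

theorem dvh_repK {l : Nat.Primes} (hl : l ∉ S) (x : KS S) (y g : GQ) :
    dvh hl y (repK S g x) = dvh hl (y * g) x := by
  rw [dvh_apply, dvh_apply]
  exact divl_translate l (x : Additive Qbˣ) y g

/-- **Lifting to `μ_p`.** -/
theorem exists_mu_lift (hpS : pPrime p ∈ S) (hU : (famS S).IsOpen U)
    (f : ↥(Z2 ((famS S).res U) (rep (repK S) U))) (e : U → IS S) (he : ((famS S).res U).Sm1 e)
    (hdiv : ∀ g h : U, (iKS S ((f : U × U → KS S) (g, h))).1.2 =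
      (repI S (g : GQ) (e h) - e (g * h) + e g).1.2)
    (hpf : p • H2.mk ((famS S).res U) (rep (repK S) U) f = 0) :
    ∃ (m : ↥(Z2 ((famS S).res U) (rep (muQ p) U))) (r : U → KS S), ((famS S).res U).Sm1 r ∧
      ∀ g h : U, (f : U × U → KS S) (g, h) = jK hpS ((m : U × U → ZMod p) (g, h)) +
        (repK S (g : GQ) (r h) - r (g * h) + r g) := by
  classical
  rw [← map_nsmul, H2.mk_eq_zero] at hpf
  obtain ⟨c, hc, hcf⟩ := hpf
  have hcf' : ∀ g h : U, p • (f : U × U → KS S) (g, h) =
      repK S (g : GQ) (c h) - c (g * h) + c g := hcf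
  -- the divisor cocycle
  set z : U → IS S := fun g => PP S (iKS S (c g)) - p • PP S (e g) with hz
  have hzZ : z ∈ Z1 ((famS S).res U) (rep (repI S) U) := by
    refine ⟨(hc.post fun a => PP S (iKS S a)).post₂ (he.post fun a => p • PP S a) (· - ·),
      fun g h => ?_⟩
    have e1 := congrArg (fun a => PP S (iKS S a)) (hcf' g h)
    simp only [map_nsmul, map_add, map_sub, iKS_comm, PP_comm] at e1
    have e2 := PP_ext (hdiv g h)
    rw [map_add, map_sub, PP_comm] at e2
    rw [e2] at e1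
    simp only [hz]
    change _ = repI S (g : GQ) (PP S (iKS S (c h)) - p • PP S (e h)) + _
    rw [map_sub, map_nsmul, ← sub_eq_zero]
    have e3 : PP S (iKS S (c (g * h))) - p • PP S (e (g * h)) -
        (repI S (g : GQ) (PP S (iKS S (c h))) - p • repI S (g : GQ) (PP S (e h)) +
          (PP S (iKS S (c g)) - p • PP S (e g))) =
        p • (repI S (g : GQ) (PP S (e h)) - PP S (e (g * h)) + PP S (e g)) -
        (repI S (g : GQ) (PP S (iKS S (c h))) - PP S (iKS S (c (g * h))) + PP S (iKS S (c g))) := by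
      rw [smul_add, smul_sub]
      abel
    rw [e3, e1, sub_self]
  obtain ⟨D, hD1, hD⟩ := GlobalCFT.div_one hU ⟨z, hzZ⟩ (fun g => by
    change (PP S (iKS S (c g)) - p • PP S (e g)).1.1 = 0
    have h1 : (p • PP S (e g)).1.1 = 0 := by
      rw [← map_nsmul]
      exact PP_fst _
    change (PP S (iKS S (c g))).1.1 - (p • PP S (e g)).1.1 = 0
    rw [h1, PP_fst, sub_zero])
  obtain ⟨W, hW, hWD⟩ := repI_smooth S D
  have hWo : (famS S).IsOpen W := ⟨W, hW, le_rfl⟩
  obtain ⟨k, hk⟩ := exists_divl_congr hp.out hpS hWo ⟨D, (mem_FF (repI S)).mpr hWD⟩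
  -- the modified cochain
  set c' : U → KS S := fun g => c g - (repK S (g : GQ) k - k) with hc'
  have hc's : ((famS S).res U).Sm1 c' := by
    have h1 := (d0_mem_Z1 ((repK_smooth S).comp U.subtype) k).1
    exact hc.post₂ h1 (· - ·)
  have hroot : ∀ g : U, ∃ y : KS S, p • y = c' g := by
    intro g
    refine GlobalCFT.exists_root_KS hp.out (pp := pPrime p) rfl hpS (c' g) fun l hl y => ?_
    have h1 := congrArg (fun a : IS S => a.1.2 l y) (hD g)
    change (iKS S (c g)).1.2 l y - (p • PP S (e g)).1.2 l y = D.1.2 l (y * g) - D.1.2 l y at h1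
    have h2 : (p • PP S (e g)).1.2 l y = p * (e g).1.2 l y := by
      rw [← nsmul_eq_mul]
      rfl
    rw [h2, iKS_snd_dvh hl] at h1
    rw [← dvh_apply hl]
    have h3 : dvh hl y (c' g) = p * (e g).1.2 l y + (D.1.2 l (y * g) - dvh hl (y * g) k) -
        (D.1.2 l y - dvh hl y k) := by
      simp only [hc']
      rw [map_sub, map_sub, dvh_repK]
      linear_combination h1
    rw [h3]
    exact dvd_sub (dvd_add (Dvd.intro _ rfl) (hk l hl (y * g))) (hk l hl y)
  have hR : ∀ x : KS S, ∃ y : KS S, (∃ y' : KS S, p • y' = x) → p • y = x := by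
    intro x
    by_cases h : ∃ y' : KS S, p • y' = x
    · obtain ⟨y, hy⟩ := h
      exact ⟨y, fun _ => hy⟩
    · exact ⟨0, fun h' => absurd h' h⟩
  choose R hR using hR
  set r : U → KS S := fun g => R (c' g) with hr
  have hrs : ((famS S).res U).Sm1 r := hc's.post R
  have hpr : ∀ g, p • r g = c' g := fun g => hR _ (hroot g)
  have hJ : ∀ x : KS S, ∃ a : ZMod p, p • x = 0 → jK hpS a = x := by
    intro x
    by_cases h : p • x = 0
    · obtain ⟨a, ha⟩ := exists_jK hpS x h
      exact ⟨a, fun _ => ha⟩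
    · exact ⟨0, fun h' => absurd h' h⟩
  choose J hJ using hJ
  have hm' := sub_mem f.2 (d1_mem_Z2 ((repK_smooth S).comp U.subtype) hrs)
  set m' : U × U → KS S := (f : U × U → KS S) - d1 ((repK S).comp U.subtype) r with hm'def
  have hm'v : ∀ g h : U, m' (g, h) = (f : U × U → KS S) (g, h) -
      (repK S (g : GQ) (r h) - r (g * h) + r g) := fun g h => rfl
  have hpm : ∀ q, p • m' q = 0 := by
    rintro ⟨g, h⟩
    rw [hm'v, smul_sub, smul_add, smul_sub, ← map_nsmul, hpr, hpr, hpr, hcf']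
    have hgk : repK S ((g * h : U) : GQ) k = repK S (g : GQ) (repK S (h : GQ) k) := by
      rw [Subgroup.coe_mul, map_mul]
      rfl
    simp only [hc']
    rw [map_sub, map_sub, hgk]
    abel
  have hJm : ∀ q, jK hpS (J (m' q)) = m' q := fun q => hJ _ (hpm q)
  refine ⟨⟨fun q => J (m' q), hm'.1.post J, fun g h j => ?_⟩, r, hrs, fun g h => ?_⟩
  · apply jK_injective hpS
    have h1 := hm'.2 g h j
    rw [map_add, map_add, hJm, hJm, hJm, h1]
    congr 1
    change repK S (g : GQ) (m' (h, j)) = jK hpS (muQ p (g : GQ) (J (m' (h, j))))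
    rw [jK_comm, hJm]
  · change _ = jK hpS (J (m' (g, h))) + _
    rw [hJm, hm'v, sub_add_cancel]

end Fermat.Agent.GCFT
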