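import Fermat.Agent.GCFT.Lift

/-!
# Local triviality at a coset, and local symbols
-/

set_option autoImplicit false
set_option linter.style.haveILetI false
set_option linter.unusedSectionVars false

namespace Fermat.Agent.GCFT

open Fermat.Agent.Coh Fermat.Agent.LocalCFT Fermat.Agent.PLog Fermat.Agent.GalD
open Fermat.Agent.GlobalCFT (XV)
open Fermat.Agent.PT (muQ muL jl jZ toTor invL invU coe_toTor coe_jZ nsmul_jl jl_comm fr)
open ExtCitation (cycloChar pPrime)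

/-- The field of algebraic numbers. -/
local notation "Qb" => AlgebraicClosure ℚ
/-- The absolute Galois group. -/
local notation "GQ" => (AlgebraicClosure ℚ ≃ₐ[ℚ] AlgebraicClosure ℚ)

section general

variable {k : Type*} [CommRing k] {G Γ : Type*} [Group G] [Group Γ] {M : Type*} [AddCommGroup M]
  [Module k M] (𝓥 : Fam G) (r : G →* Γ) (U : Subgroup Γ) (ρ : Representation k G M)

/-- local triviality at a coset -/
def LocB (f : G × G → (Γ ⧸ U → M)) (c : Γ ⧸ U) : Prop :=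
  ∃ b : G → M, (∃ W ∈ 𝓥, ∀ g, r g • c = c → ∀ w ∈ W, r w • c = c → b (g * w) = b g) ∧
    ∀ g h, r g • c = c → r h • c = c → f (g, h) c = ρ g (b h) - b (g * h) + b g

variable {𝓥 r U ρ}

theorem LocB.smul {f : G × G → (Γ ⧸ U → M)} (hf : f ∈ Z2 𝓥 (indL r U ρ)) {c : Γ ⧸ U}
    (h : LocB 𝓥 r U ρ f c) (δ : G) : LocB 𝓥 r U ρ f (r δ • c) := by
  obtain ⟨b, ⟨W, hW, hbW⟩, hb⟩ := h
  obtain ⟨W', hW', hfW⟩ := hf.1
  have hinv : (r δ)⁻¹ • (r δ • c) = c := inv_smul_smul _ _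
  have hst : ∀ g, r g • (r δ • c) = r δ • c → r (δ⁻¹ * g * δ) • c = c := by
    intro g hg
    rw [map_mul, map_mul, mul_smul, mul_smul, hg, map_inv, hinv]
  have hcoc : ∀ g h j x, ρ g (f (h, j) ((r g)⁻¹ • x)) =
      f (g * h, j) x + f (g, h) x - f (g, h * j) x := by
    intro g h j x
    have := congrFun (hf.2 g h j) x
    simp only [Pi.add_apply, indL_apply] at this
    rw [this]; abel
  refine ⟨fun g => ρ δ (b (δ⁻¹ * g * δ)) - (f (δ, δ⁻¹ * g * δ) (r δ • c) - f (g, δ) (r δ • c)),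
    ⟨W ⊓ W', 𝓥.inf_mem _ hW _ hW', fun g hg w hw hwc => ?_⟩, fun g h hg hh => ?_⟩
  · have hnW := 𝓥.normal _ hW
    have hnW' := 𝓥.normal _ hW'
    have e1 : δ⁻¹ * (g * w) * δ = (δ⁻¹ * g * δ) * (δ⁻¹ * w * δ) := by group
    have hw1 : δ⁻¹ * w * δ ∈ W := by
      have := hnW.conj_mem w hw.1 δ⁻¹
      rwa [inv_inv] at this
    have hw2 : δ⁻¹ * w * δ ∈ W' := by
      have := hnW'.conj_mem w hw.2 δ⁻¹
      rwa [inv_inv] at this
    simp only
    rw [e1, hbW _ (hst g hg) _ hw1 (hst w hwc)]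
    have e2 := hfW δ (δ⁻¹ * g * δ) 1 W'.one_mem _ hw2
    have e3 := hfW g δ w hw.2 1 W'.one_mem
    rw [mul_one] at e2 e3
    rw [e2, e3]
  · set g₁ := δ⁻¹ * g * δ with hg₁
    set h₁ := δ⁻¹ * h * δ with hh₁
    have e0 : δ⁻¹ * (g * h) * δ = g₁ * h₁ := by rw [hg₁, hh₁]; group
    have eg : g * δ = δ * g₁ := by rw [hg₁]; group
    have eh : h * δ = δ * h₁ := by rw [hh₁]; group
    have hgi : (r g)⁻¹ • (r δ • c) = r δ • c := by rw [inv_smul_eq_iff, hg]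
    have c1 := hcoc g δ h₁ (r δ • c)
    have c2 := hcoc g h δ (r δ • c)
    have c3 := hcoc δ g₁ h₁ (r δ • c)
    rw [hgi] at c1 c2
    rw [hinv, hb g₁ h₁ (hst g hg) (hst h hh)] at c3
    rw [eg] at c1
    rw [eh] at c2
    simp only
    rw [e0, map_sub, map_sub, c1, c2]
    have e4 : ρ g (ρ δ (b h₁)) = ρ δ (ρ g₁ (b h₁)) := by
      rw [← Module.End.mul_apply, ← Module.End.mul_apply, ← map_mul, ← map_mul, eg]
    rw [e4]
    rw [map_add, map_sub] at c3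
    have e5 : ρ δ (ρ g₁ (b h₁)) = f (δ * g₁, h₁) (r δ • c) + f (δ, g₁) (r δ • c) -
        f (δ, g₁ * h₁) (r δ • c) + ρ δ (b (g₁ * h₁)) - ρ δ (b g₁) := by
      rw [← c3]; abel
    rw [e5]
    abel

/-- Semilocal vanishing in degree two, with representatives. -/
theorem semi2r [Finite (Γ ⧸ U)] (hr : ∃ W ∈ 𝓥, ∀ w ∈ W, ∀ c : Γ ⧸ U, r w • c = c)
    {f : G × G → (Γ ⧸ U → M)} (hf : f ∈ Z2 𝓥 (indL r U ρ)) (X : Set (Γ ⧸ U))
    (hX : ∀ c : Γ ⧸ U, ∃ x ∈ X, ∃ δ : G, c = r δ • x) (hloc : ∀ x ∈ X, LocB 𝓥 r U ρ f x) :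
    ∃ a : G → (Γ ⧸ U → M), 𝓥.Sm1 a ∧ ∀ g h, f (g, h) = indL r U ρ g (a h) - a (g * h) + a g := by
  refine semi2 r U hr ρ f hf fun y => ?_
  obtain ⟨x, hx, δ, hc⟩ := hX (y : Γ ⧸ U)
  obtain ⟨b, ⟨W, hW, hbW⟩, hb⟩ := (hloc x hx).smul hf δ
  rw [← hc] at hbW hb
  refine ⟨b, ⟨W, hW, fun g hg w hw hwW => ?_⟩, fun g hg h hh => ?_⟩
  · exact hbW g (mem_stb_iff.mp hg) w hwW (mem_stb_iff.mp hw)
  · exact hb g h (mem_stb_iff.mp hg) (mem_stb_iff.mp hh)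

end general

end Fermat.Agent.GCFT
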