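import Fermat.Agent.Coh.Shapiro

/-!
# Functions on finite sets of cosets: semilocal vanishing in degree two
-/

set_option autoImplicit false
set_option linter.unusedSectionVars false

namespace Fermat.Agent.GCFT

open Fermat.Agent.Coh

variable {k : Type*} [CommRing k] {G Γ : Type*} [Group G] [Group Γ] {V : Type*} [AddCommGroup V]
  [Module k V]

/-- The representation of `G` on functions on the cosets of a subgroup of `Γ`, `G` acting through
a homomorphism. -/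
def indL (r : G →* Γ) (U : Subgroup Γ) (ρ : Representation k G V) :
    Representation k G (Γ ⧸ U → V) where
  toFun g :=
    { toFun := fun φ x => ρ g (φ ((r g)⁻¹ • x))
      map_add' := fun φ ψ => by
        funext x
        simp
      map_smul' := fun c φ => by
        funext x
        simp }
  map_one' := by
    ext φ x
    simp
  map_mul' g h := by
    ext φ x
    simp [mul_smul]

@[simp] theorem indL_apply (r : G →* Γ) (U : Subgroup Γ) (ρ : Representation k G V) (g : G)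
    (φ : Γ ⧸ U → V) (x : Γ ⧸ U) : indL r U ρ g φ x = ρ g (φ ((r g)⁻¹ • x)) := rfl

/-- the stabilizer -/
def stb (r : G →* Γ) (U : Subgroup Γ) (x : Γ) : Subgroup G where
  carrier := {g | x⁻¹ * r g * x ∈ U}
  one_mem' := by
    change x⁻¹ * r 1 * x ∈ U
    rw [map_one, mul_one, inv_mul_cancel]
    exact U.one_mem
  mul_mem' {a b} ha hb := by
    change x⁻¹ * r (a * b) * x ∈ U
    have : x⁻¹ * r (a * b) * x = (x⁻¹ * r a * x) * (x⁻¹ * r b * x) := by rw [map_mul]; group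
    rw [this]
    exact U.mul_mem ha hb
  inv_mem' {a} ha := by
    change x⁻¹ * r a⁻¹ * x ∈ U
    have : x⁻¹ * r a⁻¹ * x = (x⁻¹ * r a * x)⁻¹ := by rw [map_inv]; group
    rw [this]
    exact U.inv_mem ha

theorem mem_stb {r : G →* Γ} {U : Subgroup Γ} {x : Γ} {g : G} :
    g ∈ stb r U x ↔ x⁻¹ * r g * x ∈ U := Iff.rfl

theorem mem_stb_iff {r : G →* Γ} {U : Subgroup Γ} {x : Γ} {g : G} :
    g ∈ stb r U x ↔ r g • (x : Γ ⧸ U) = x := by
  rw [mem_stb, MulAction.Quotient.smul_coe, smul_eq_mul, eq_comm, QuotientGroup.eq, ← mul_assoc]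

/-- compatible representatives -/
theorem exists_reps (r : G →* Γ) (U : Subgroup Γ) : ∃ (s : Γ ⧸ U → G) (x₀ : Γ ⧸ U → Γ),
    (∀ c, r (s c) • ((x₀ c : Γ) : Γ ⧸ U) = c) ∧ ∀ g c, x₀ (r g • c) = x₀ c := by
  classical
  let S : Setoid (Γ ⧸ U) :=
    { r := fun c c' => ∃ g : G, r g • c = c'
      iseqv := ⟨fun c => ⟨1, by simp⟩, fun {c c'} ⟨g, hg⟩ => ⟨g⁻¹, by
          rw [← hg, map_inv, inv_smul_smul]⟩,
        fun {c c' c''} ⟨g, hg⟩ ⟨h, hh⟩ => ⟨h * g, by rw [map_mul, mul_smul, hg, hh]⟩⟩ }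
  let x₀ : Γ ⧸ U → Γ := fun c => ((Quotient.mk S c).out).out
  have h1 : ∀ c, ∃ g : G, r g • ((x₀ c : Γ) : Γ ⧸ U) = c := by
    intro c
    have h2 : S ((Quotient.mk S c).out) c := Quotient.exact (Quotient.out_eq (Quotient.mk S c))
    obtain ⟨g, hg⟩ := h2
    refine ⟨g, ?_⟩
    have h3 : ((x₀ c : Γ) : Γ ⧸ U) = (Quotient.mk S c).out := Quotient.out_eq _
    rw [h3, hg]
  choose s hs using h1
  refine ⟨s, x₀, hs, fun g c => ?_⟩
  have h2 : Quotient.mk S (r g • c) = Quotient.mk S c := by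
    apply Quotient.sound
    exact ⟨g⁻¹, by rw [map_inv, inv_smul_smul]⟩
  change ((Quotient.mk S (r g • c)).out).out = ((Quotient.mk S c).out).out
  rw [h2]

/-- Semilocal vanishing in degree two. -/
theorem semi2 {𝓥 : Fam G} (r : G →* Γ) (U : Subgroup Γ) [Finite (Γ ⧸ U)]
    (hr : ∃ W ∈ 𝓥, ∀ w ∈ W, ∀ c : Γ ⧸ U, r w • c = c) (ρ : Representation k G V)
    (f : G × G → (Γ ⧸ U → V)) (hf : f ∈ Z2 𝓥 (indL r U ρ))
    (hloc : ∀ x : Γ, ∃ b : G → V, (∃ W ∈ 𝓥, ∀ g ∈ stb r U x, ∀ w ∈ stb r U x, w ∈ W →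
      b (g * w) = b g) ∧ ∀ g ∈ stb r U x, ∀ h ∈ stb r U x,
        f (g, h) (x : Γ ⧸ U) = ρ g (b h) - b (g * h) + b g) :
    ∃ a : G → (Γ ⧸ U → V), 𝓥.Sm1 a ∧ ∀ g h, f (g, h) = indL r U ρ g (a h) - a (g * h) + a g := by
  obtain ⟨s, x₀, hs, hx₀⟩ := exists_reps r U
  choose b hb hbz using hloc
  choose Wb hWb hbW using hb
  -- the factor set
  let fac : G → Γ ⧸ U → G := fun g c => (s c)⁻¹ * g * s ((r g)⁻¹ • c)
  have hx₀' : ∀ g c, x₀ ((r g)⁻¹ • c) = x₀ c := fun g c => by rw [← map_inv, hx₀]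
  have hfac : ∀ g c, s c * fac g c = g * s ((r g)⁻¹ • c) := fun g c => by
    simp only [fac]; group
  have hfacm : ∀ g c, fac g c ∈ stb r U (x₀ c) := by
    intro g c
    rw [mem_stb_iff]
    simp only [fac]
    rw [map_mul, map_mul, mul_smul, mul_smul, map_inv]
    have h1 : ((x₀ c : Γ) : Γ ⧸ U) = ((x₀ ((r g)⁻¹ • c) : Γ) : Γ ⧸ U) := by rw [hx₀']
    conv_lhs => rw [h1]
    rw [hs, smul_inv_smul, inv_smul_eq_iff, hs]
  have hfacmul : ∀ g h c, fac (g * h) c = fac g c * fac h ((r g)⁻¹ • c) := by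
    intro g h c
    simp only [fac]
    rw [map_mul, mul_inv_rev, mul_smul]
    group
  have hsinv : ∀ c, (r (s c))⁻¹ • c = ((x₀ c : Γ) : Γ ⧸ U) := fun c => by
    rw [inv_smul_eq_iff, hs]
  have hcoc : ∀ g h j c, ρ g (f (h, j) ((r g)⁻¹ • c)) =
      f (g * h, j) c + f (g, h) c - f (g, h * j) c := by
    intro g h j c
    have := congrFun (hf.2 g h j) c
    simp only [Pi.add_apply, indL_apply] at this
    rw [this]; abel
  refine ⟨fun g c => f (g, s ((r g)⁻¹ • c)) c - f (s c, fac g c) c +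
    ρ (s c) (b (x₀ c) (fac g c)), ?_, fun g h => ?_⟩
  · obtain ⟨W, hW, hWf⟩ := hf.1
    obtain ⟨W', hW', hWr⟩ := hr
    -- a common level for the finitely many `b (x₀ c)`
    have hall : ∃ W'' ∈ 𝓥, ∀ c : Γ ⧸ U, W'' ≤ Wb (x₀ c) := by
      have key : ∀ T : Set (Γ ⧸ U), T.Finite → ∃ W'' ∈ 𝓥, ∀ c ∈ T, W'' ≤ Wb (x₀ c) := by
        intro T hT
        induction T, hT using Set.Finite.induction_on with
        | empty =>
          obtain ⟨W, hW⟩ := 𝓥.nonempty
          exact ⟨W, hW, fun c hc => absurd hc (Set.notMem_empty c)⟩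
        | insert _ _ ih =>
          rename_i a T' _ _
          obtain ⟨W, hW, h⟩ := ih
          refine ⟨W ⊓ Wb (x₀ a), 𝓥.inf_mem _ hW _ (hWb _), fun c hc => ?_⟩
          rcases Set.mem_insert_iff.mp hc with rfl | hc
          · exact inf_le_right
          · exact inf_le_left.trans (h c hc)
      obtain ⟨W'', hW'', h⟩ := key Set.univ Set.finite_univ
      exact ⟨W'', hW'', fun c => h c (Set.mem_univ c)⟩
    obtain ⟨W'', hW'', hWb'⟩ := hall
    have hN := 𝓥.inf_mem _ (𝓥.inf_mem _ hW _ hW'') _ hW'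
    have hNn := 𝓥.normal _ hN
    refine ⟨W ⊓ W'' ⊓ W', hN, fun g u hu => ?_⟩
    funext c
    have hu' : (r u)⁻¹ • ((r g)⁻¹ • c) = (r g)⁻¹ • c := by
      rw [inv_smul_eq_iff, hWr u hu.2]
    have h1 : (r (g * u))⁻¹ • c = (r g)⁻¹ • c := by
      rw [map_mul, mul_inv_rev, mul_smul, hu']
    have hfac1 : fac (g * u) c = fac g c * fac u ((r g)⁻¹ • c) := hfacmul g u c
    set w' := fac u ((r g)⁻¹ • c) with hw'
    have hw'N : w' ∈ W ⊓ W'' ⊓ W' := by
      simp only [hw', fac]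
      rw [hu']
      have := hNn.conj_mem u hu (s ((r g)⁻¹ • c))⁻¹
      simpa using this
    have hw's : w' ∈ stb r U (x₀ c) := by
      have := hfacm u ((r g)⁻¹ • c)
      rwa [hx₀'] at this
    simp only
    rw [h1, hfac1, hbW (x₀ c) _ (hfacm g c) w' hw's (hWb' c hw'N.1.2)]
    have h2 := hWf g (s ((r g)⁻¹ • c)) u hu.1.1 1 W.one_mem
    rw [mul_one] at h2
    have h3 := hWf (s c) (fac g c) 1 W.one_mem w' hw'N.1.1
    rw [mul_one] at h3
    rw [h2, h3]
  · funext c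
    simp only [Pi.add_apply, Pi.sub_apply, indL_apply, map_add, map_sub]
    set y := (r g)⁻¹ • c with hy
    have hyx : (r (g * h))⁻¹ • c = (r h)⁻¹ • y := by rw [map_mul, mul_inv_rev, mul_smul]
    rw [hyx, hx₀' g c]
    have e1 := hcoc g (s y) (fac h y) c
    have e2 := hcoc g h (s ((r h)⁻¹ • y)) c
    rw [← hy, hfac] at e1
    rw [← hy] at e2
    have e3 := hcoc (s c) (fac g c) (fac h y) c
    have hfm : fac h y ∈ stb r U (x₀ c) := by
      have := hfacm h y
      rwa [hy, hx₀'] at this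
    rw [hsinv, hbz (x₀ c) _ (hfacm g c) _ hfm] at e3
    have e4 : fac (g * h) c = fac g c * fac h y := hfacmul g h c
    rw [e4]
    have e5 : ρ g (ρ (s y) (b (x₀ c) (fac h y))) =
        ρ (s c) (ρ (fac g c) (b (x₀ c) (fac h y))) := by
      rw [← Module.End.mul_apply, ← Module.End.mul_apply, ← map_mul, ← map_mul, hfac]
    rw [e1, e2, e5]
    rw [hfac, map_add, map_sub, ← hy] at e3
    have e6 : ρ (s c) (ρ (fac g c) (b (x₀ c) (fac h y))) =
      f (g * s y, fac h y) c + f (s c, fac g c) c -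
        f (s c, fac g c * fac h y) c + ρ (s c) (b (x₀ c) (fac g c * fac h y)) -
        ρ (s c) (b (x₀ c) (fac g c)) := by
      rw [← e3]; abel
    rw [e6]
    abel

end Fermat.Agent.GCFT
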