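import Fermat.Agent.GCFT.CycQ
import Fermat.Agent.GCFT.Semi

/-!
# Local traces of induced invariants and the cyclotomic valuation
-/

set_option autoImplicit false
set_option linter.style.haveILetI false

namespace Fermat.Agent.GCFT

open Fermat.Agent.Coh Fermat.Agent.LocalCFT Fermat.Agent.PLog Fermat.Agent.GalD
open Fermat.Agent.GlobalCFT (XV)

/-- The field of algebraic numbers. -/
local notation "Qb" => AlgebraicClosure ℚ
/-- The absolute Galois group. -/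
local notation "GQ" => (AlgebraicClosure ℚ ≃ₐ[ℚ] AlgebraicClosure ℚ)

section general

variable {k : Type*} [CommRing k] {G Γ : Type*} [Group G] [Group Γ] {V : Type*} [AddCommGroup V]
  [Module k V] (r : G →* Γ) (U : Subgroup Γ) (ρ : Representation k G V)

/-- the sum of the values -/
noncomputable def sumL [Fintype (Γ ⧸ U)] : (Γ ⧸ U → V) →ₗ[k] V where
  toFun φ := ∑ c, φ c
  map_add' φ ψ := Finset.sum_add_distrib
  map_smul' a φ := by
    simp only [Pi.smul_apply, RingHom.id_apply]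
    exact (Finset.smul_sum).symm

theorem sumL_apply [Fintype (Γ ⧸ U)] (φ : Γ ⧸ U → V) : sumL (k := k) U φ = ∑ c, φ c := rfl

theorem sumL_act [Fintype (Γ ⧸ U)] (g : G) (φ : Γ ⧸ U → V) :
    sumL (k := k) U (indL r U ρ g φ) = ρ g (sumL (k := k) U φ) := by
  rw [sumL_apply, sumL_apply, map_sum]
  exact Fintype.sum_equiv (MulAction.toPerm (r g)⁻¹) _ _ fun c => rfl

/-- a symbol with a character trivial on all stabilizers vanishes -/
theorem sym_indL_eq_zero {𝓥 : Fam G} [Finite (Γ ⧸ U)]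
    (hr : ∃ W ∈ 𝓥, ∀ w ∈ W, ∀ c : Γ ⧸ U, r w • c = c) {m : ℕ} [NeZero m] (χ : Chr 𝓥 (ZMod m))
    (hχ : ∀ x : Γ, ∀ g ∈ stb r U x, χ g = 0) (φ : ↥(H0 (indL r U ρ))) :
    sym (indL r U ρ) χ φ = 0 := by
  rw [sym_apply, H2.mk_eq_zero]
  obtain ⟨a, ha, h⟩ := semi2 r U hr ρ _ (symZ χ φ).2 (fun x => by
    refine ⟨0, ?_, fun g hg h hh => ?_⟩
    · obtain ⟨W, hW⟩ := 𝓥.nonempty
      exact ⟨W, hW, fun _ _ _ _ _ => rfl⟩
    · rw [symZ_apply, hχ x g hg, hχ x h hh]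
      simp [carry])
  exact ⟨a, ha, h⟩

end general

variable {l : Nat.Primes} {U : Subgroup GQ}

/-- a function as an element of the induced module -/
noncomputable def toInd (f : GQ → Additive (Om l)ˣ) : GQ ⧸ U → Additive (Om l)ˣ :=
  fun c => f c.out

theorem toInd_mk {f : GQ → Additive (Om l)ˣ} (hf : f ∈ XV (rl l) (LU (l : ℕ)) U) (x : GQ) :
    toInd (U := U) f (x : GQ ⧸ U) = f x := by
  obtain ⟨u, hu⟩ := QuotientGroup.mk_out_eq_mul U x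
  change f ((x : GQ ⧸ U).out) = _
  rw [hu, hf.2 u u.2]

/-- the homomorphism from the trivial subgroup structure -/
noncomputable abbrev rlT (l : Nat.Primes) : ↥(⊤ : Subgroup (Gl l)) →* GQ :=
  (rl l).comp (⊤ : Subgroup (Gl l)).subtype

theorem toInd_mem {f : GQ → Additive (Om l)ˣ} (hf : f ∈ XV (rl l) (LU (l : ℕ)) U) :
    toInd (U := U) f ∈ H0 (indL (rlT l) U (rep (LU (l : ℕ)) ⊤)) := by
  intro δ
  funext c
  obtain ⟨x, rfl⟩ := QuotientGroup.mk_surjective c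
  rw [indL_apply, MulAction.Quotient.smul_coe, smul_eq_mul, toInd_mk hf, toInd_mk hf]
  change LU (l : ℕ) (δ : Gl l) (f ((rl l (δ : Gl l))⁻¹ * x)) = f x
  rw [← hf.1, mul_inv_cancel_left]

/-- the trace of an invariant function -/
noncomputable def trL [Fintype (GQ ⧸ U)] (f : GQ → Additive (Om l)ˣ)
    (hf : f ∈ XV (rl l) (LU (l : ℕ)) U) : ↥(FF (LU (l : ℕ)) (⊤ : Subgroup (Gl l))) :=
  ⟨∑ c : GQ ⧸ U, f c.out, by
    intro δ
    have h1 := toInd_mem hf δ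
    have h2 := sumL_act (rlT l) U (rep (LU (l : ℕ)) ⊤) δ (toInd f)
    rw [h1] at h2
    exact h2.symm⟩

theorem coe_trL [Fintype (GQ ⧸ U)] (f : GQ → Additive (Om l)ˣ)
    (hf : f ∈ XV (rl l) (LU (l : ℕ)) U) :
    (trL f hf : Additive (Om l)ˣ) = ∑ c : GQ ⧸ U, f c.out := rfl

theorem rlT_level (hU : IsOpen (U : Set GQ)) :
    ∃ W ∈ (LF (l : ℕ)).res (⊤ : Subgroup (Gl l)), ∀ w ∈ W, ∀ c : GQ ⧸ U, rlT l w • c = c := by
  have hfi := finiteIndex_of_isOpen hU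
  have hcore : IsOpen (U.normalCore : Set GQ) := Subgroup.isOpen_of_isClosed_of_finiteIndex _
      (U.normalCore_isClosed (Subgroup.isClosed_of_isOpen U hU))
  obtain ⟨W, hW, hle⟩ := PT.rl_cont (l := l) hcore
  refine ⟨_, ⟨W, hW, rfl⟩, fun w hw c => ?_⟩
  obtain ⟨x, rfl⟩ := QuotientGroup.mk_surjective c
  have h1 : rl l (w : Gl l) ∈ U.normalCore := hle hw
  rw [MulAction.Quotient.smul_coe, smul_eq_mul, eq_comm, QuotientGroup.eq, ← mul_assoc]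
  have h2 := h1 x⁻¹
  rwa [inv_inv] at h2

variable {p : ℕ} [hp : Fact p.Prime]

theorem nmr_top (b : ↥(FF (LU (l : ℕ)) (⊤ : Subgroup (Gl l)))) :
    nmr (LU (l : ℕ)) (le_top : (⊤ : Subgroup (Gl l)) ≤ ⊤) top_open b = b := by
  rw [nmr_of_mem (LU (l : ℕ)) le_top top_open b b rfl, Subgroup.relIndex_self, one_smul]

/-- the local criterion on the top level -/
theorem sym_top_iff (hp2 : p ≠ 2) (n : ℕ) (b : ↥(FF (LU (l : ℕ)) (⊤ : Subgroup (Gl l)))) :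
    sym (rep (LU (l : ℕ)) ⊤) (psiD (cycCF (l : ℕ) p hp2) ⊤ n) b = 0 ↔
      (p : ℤ_[p]) ^ n ∣ v0 (l : ℕ) p hp2 b := by
  rw [sym_psi_eq_zero_iff _ top_open, cycCF_v hp2 ⊤ top_open, nmr_top]

theorem psiD_apply (hp2 : p ≠ 2) (T : Subgroup (Gl l)) (n : ℕ) (δ : T) :
    psiD (cycCF (l : ℕ) p hp2) T n δ = PadicInt.toZModPow n (dQ p (rl l (δ : Gl l))) := by
  rw [AltD.psi_apply, cycCF_d, dQ_rl]

/-- Divisibility of the local trace. -/
theorem dvd_v0_trL (hp2 : p ≠ 2) (hU : IsOpen (U : Set GQ)) [Fintype (GQ ⧸ U)] {n : ℕ}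
    (hn : ∀ u ∈ U, (p : ℤ_[p]) ^ n ∣ dQ p u) (f : GQ → Additive (Om l)ˣ)
    (hf : f ∈ XV (rl l) (LU (l : ℕ)) U) : (p : ℤ_[p]) ^ n ∣ v0 (l : ℕ) p hp2 (trL f hf) := by
  rw [← sym_top_iff]
  have h1 := sym_indL_eq_zero (rlT l) U (rep (LU (l : ℕ)) ⊤) (rlT_level hU)
    (psiD (cycCF (l : ℕ) p hp2) ⊤ n) (fun x δ hδ => by
      rw [psiD_apply, CFData.toZModPow_eq_zero_iff, ← dQ_conj hp2 x]
      exact hn _ (mem_stb.mp hδ)) ⟨toInd f, toInd_mem hf⟩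
  let m : Mor ((LF (l : ℕ)).res (⊤ : Subgroup (Gl l))) ((LF (l : ℕ)).res (⊤ : Subgroup (Gl l)))
      (indL (rlT l) U (rep (LU (l : ℕ)) ⊤)) (rep (LU (l : ℕ)) ⊤) :=
    Mor.coeff (sumL U) (fun g φ => sumL_act (rlT l) U (rep (LU (l : ℕ)) ⊤) g φ)
  have h2 := m.mapH2_sym (psiD (cycCF (l : ℕ) p hp2) ⊤ n) (psiD (cycCF (l : ℕ) p hp2) ⊤ n)
    (fun _ => rfl) ⟨toInd f, toInd_mem hf⟩ (trL f hf) rfl
  rw [← h2, h1, map_zero]

end Fermat.Agent.GCFT
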