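import Fermat.Agent.GCFT.Single

/-!
# Existence of nonsplit places and the image of the global valuation
-/

set_option autoImplicit false
set_option linter.style.haveILetI false
set_option linter.unusedSectionVars false

namespace Fermat.Agent.GCFT

open Fermat.Agent.Coh Fermat.Agent.LocalCFT Fermat.Agent.PLog Fermat.Agent.GalD
open Fermat.Agent.GlobalCFT (XV Cyc NonSplit)

/-- The field of algebraic numbers. -/
local notation "Qb" => AlgebraicClosure ℚ
/-- The absolute Galois group. -/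
local notation "GQ" => (AlgebraicClosure ℚ ≃ₐ[ℚ] AlgebraicClosure ℚ)

open Classical in
/-- orbit lengths -/
theorem sum_orbit {G Γ : Type*} [Group G] [Group Γ] (r : G →* Γ) (U : Subgroup Γ)
    [Fintype (Γ ⧸ U)] (x : Γ) :
    (∑ c : Γ ⧸ U, if ∃ δ : G, r δ • (x : Γ ⧸ U) = c then (1 : ℤ) else 0) =
      (stb r U x).index := by
  letI : MulAction G (Γ ⧸ U) := MulAction.compHom (Γ ⧸ U) r
  have h1 : MulAction.stabilizer G (x : Γ ⧸ U) = stb r U x := by
    ext δ
    rw [MulAction.mem_stabilizer_iff, mem_stb_iff]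
    rfl
  have h2 := MulAction.index_stabilizer G (x : Γ ⧸ U)
  rw [h1] at h2
  rw [h2, ← Finset.sum_filter, Finset.sum_const, nsmul_one, Set.ncard_eq_toFinset_card']
  congr 2
  ext c
  rw [Finset.mem_filter, Set.mem_toFinset, MulAction.mem_orbit_iff]
  exact ⟨fun h => h.2, fun h => ⟨Finset.mem_univ _, h⟩⟩

variable {S : Finset Nat.Primes} {U V : Subgroup GQ} {p : ℕ} [hp : Fact p.Prime]

open Classical in
/-- the indicator of one place -/
noncomputable def indP (U : Subgroup GQ) (l : Nat.Primes) (x : GQ) (l' : Nat.Primes) (g : GQ) : ℤ :=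
  if l' = l ∧ ∃ δ : Gl l, ∃ u ∈ U, g = rl l δ * x * u then 1 else 0

theorem indP_self {l : Nat.Primes} {x : GQ} {δ : Gl l} {u : GQ} (hu : u ∈ U) :
    indP U l x l (rl l δ * x * u) = 1 := if_pos ⟨rfl, δ, u, hu, rfl⟩

theorem indP_rl (l : Nat.Primes) (x : GQ) (l' : Nat.Primes) (δ : Gl l') (g : GQ) :
    indP U l x l' (rl l' δ * g) = indP U l x l' g := by
  unfold indP
  congr 1
  apply propext
  constructor
  · rintro ⟨rfl, ε, u, hu, h⟩
    refine ⟨rfl, δ⁻¹ * ε, u, hu, ?_⟩
    rw [map_mul, map_inv, mul_assoc, mul_assoc, ← mul_assoc (rl l' ε), ← h, inv_mul_cancel_left]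
  · rintro ⟨rfl, ε, u, hu, rfl⟩
    refine ⟨rfl, δ * ε, u, hu, ?_⟩
    rw [map_mul]
    group

theorem indP_mul (l : Nat.Primes) (x : GQ) (l' : Nat.Primes) (g : GQ) {u : GQ} (hu : u ∈ U) :
    indP U l x l' (g * u) = indP U l x l' g := by
  unfold indP
  congr 1
  apply propext
  constructor
  · rintro ⟨rfl, ε, u', hu', h⟩
    refine ⟨rfl, ε, u' * u⁻¹, U.mul_mem hu' (U.inv_mem hu), ?_⟩
    rw [← mul_assoc, ← h, mul_inv_cancel_right]
  · rintro ⟨rfl, ε, u', hu', rfl⟩
    exact ⟨rfl, ε, u' * u, U.mul_mem hu' hu, by group⟩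

theorem indP_ne {l l' : Nat.Primes} (h : l' ≠ l) (x g : GQ) : indP U l x l' g = 0 :=
  if_neg fun h' => h h'.1

open Classical in
theorem indP_out (l : Nat.Primes) (x : GQ) (c : GQ ⧸ U) :
    indP U l x l c.out = if ∃ δ : Gl l, rl l δ • (x : GQ ⧸ U) = c then 1 else 0 := by
  unfold indP
  congr 1
  apply propext
  constructor
  · rintro ⟨-, δ, u, hu, h⟩
    refine ⟨δ, ?_⟩
    conv_rhs => rw [← QuotientGroup.out_eq' c]
    rw [h, MulAction.Quotient.smul_coe, smul_eq_mul, QuotientGroup.eq, inv_mul_cancel_left]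
    exact hu
  · rintro ⟨δ, h⟩
    rw [← QuotientGroup.out_eq' c, MulAction.Quotient.smul_coe, smul_eq_mul,
      QuotientGroup.eq] at h
    exact ⟨rfl, δ, _, h, by group⟩

/-- the pure idele of one place -/
noncomputable def eP (hU : (famS S).IsOpen U) (l : Nat.Primes) (x : GQ) : ↥(FF (repI S) U) :=
  pD hU (indP U l x) (fun l' _ δ g => indP_rl l x l' δ g) (fun l' _ g _ hu => indP_mul l x l' g hu)
    ((Set.finite_singleton l).subset (by
      rintro l' ⟨g, hg⟩
      by_contra h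
      exact hg (indP_ne h x g)))

theorem V0_eP (hp2 : p ≠ 2) (hU : (famS S).IsOpen U) {l : Nat.Primes} (hl : l ∉ S) (x : GQ) :
    V0 S hp2 (nmr (repI S) le_top hU (eP hU l x)) =
      ((stb (rl l) U x).index : ℤ_[p]) * lamP p l := by
  classical
  have hfi := hU.finiteIndex
  letI : Fintype (GQ ⧸ U) := Fintype.ofFinite _
  have h1 : ∀ l' : S, v0 (l'.1 : ℕ) p hp2 (lc (nmr (repI S) le_top hU (eP hU l x)) l'.2) = 0 := by
    intro l'
    have h2 : lc (nmr (repI S) le_top hU (eP hU l x)) l'.2 = 0 := by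
      rw [lc_nmr hU _ l'.2]
      apply Subtype.ext
      rw [coe_trL]
      refine Finset.sum_eq_zero fun c _ => ?_
      apply uval_injective
      exact (cS_pD hU _ _ _ _ l'.2 c.out).trans uval_zero.symm
    rw [h2, map_zero]
  rw [V0_apply, Finset.sum_eq_zero fun l' _ => h1 l', zero_add, V0d_apply, finsum_eq_single _ l]
  · have hsum : (∑ c : GQ ⧸ U, cD (eP hU l x) l c.out) = ((stb (rl l) U x).index : ℤ) :=
      (Finset.sum_congr rfl fun c _ => (cD_pD hU _ _ _ _ hl c.out).trans (indP_out l x c)).trans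
        (sum_orbit (rl l) U x)
    rw [cD_nmr_top hU]
    congr 1
    exact (congrArg (Int.cast : ℤ → ℤ_[p]) hsum).trans (Int.cast_natCast _)
  · intro l' hl'
    have h3 : cD (nmr (repI S) le_top hU (eP hU l x)) l' 1 = 0 := by
      by_cases hS : l' ∈ S
      · exact congrFun ((nmr (repI S) (le_top : U ≤ ⊤) hU (eP hU l x)).1.2.2.2.2.1 l' hS) 1
      · rw [cD_nmr_top hU]
        refine Finset.sum_eq_zero fun c _ => ?_
        exact (cD_pD hU _ _ _ _ hS c.out).trans (indP_ne hl' x _)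
    rw [h3, Int.cast_zero, zero_mul]

/-- In a layer split at all places outside `S` pure ideles are norms. -/
theorem exists_pure_norm {σ : GQ} (C : Cyc V U σ p) (h : V ≤ U) (hV : (famS S).IsOpen V)
    (hns : ∀ l, l ∉ S → ∀ x, ¬ NonSplit (rl l) V σ x) (a : ↥(FF (repI S) U)) :
    ∃ b : ↥(FF (repI S) V), nmr (repI S) h hV b = pureI (hV.mono h) a := by
  classical
  have hU := hV.mono h
  have key : ∀ l : Nat.Primes, ∃ g : GQ → ℤ, l ∉ S → ((∀ (δ : Gl l) y, g (rl l δ * y) = g y) ∧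
      (∀ v ∈ V, ∀ y, g (y * v) = g y) ∧
      (∀ y, ∑ j ∈ Finset.range p, g (y * σ ^ j) = cD a l y) ∧ ((∀ y, cD a l y = 0) → g = 0)) := by
    intro l
    by_cases hl : l ∉ S
    · by_cases h0 : ∀ y, cD a l y = 0
      · exact ⟨0, fun _ => ⟨fun _ _ => rfl, fun _ _ _ => rfl, fun y => by simp [h0 y],
          fun _ => rfl⟩⟩
      · have hmem : cD a l ∈ XV (rl l) (1 : Representation ℤ (Gl l) ℤ) U :=
          ⟨fun δ y => cD_rl a δ y, fun u hu y => cD_mul a l y hu⟩
        obtain ⟨g, hg, hgs⟩ := C.semilocal_norm hmem fun c hc => absurd hc (hns l hl _)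
        exact ⟨g, fun _ => ⟨fun δ y => hg.1 δ y, hg.2, hgs, fun h => absurd h h0⟩⟩
    · exact ⟨0, fun h => absurd h hl⟩
  choose g hg using key
  refine ⟨pD hV (fun l y => if l ∈ S then 0 else g l y) (fun l hl δ y => ?_)
    (fun l hl y v hv => ?_) ((finite_cD a).subset ?_), ?_⟩
  · simp only [if_neg hl]
    exact (hg l hl).1 δ y
  · simp only [if_neg hl]
    exact (hg l hl).2.1 v hv y
  · rintro l ⟨y, hy⟩
    by_contra hcon
    apply hy
    by_cases hl : l ∈ S
    · exact if_pos hl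
    · simp only [if_neg hl]
      have h0 : ∀ y, cD a l y = 0 := by
        intro y
        by_contra h
        exact hcon ⟨y, h⟩
      rw [(hg l hl).2.2.2 h0]
      rfl
  · have hcyc : ∀ (b : ↥(FF (repI S) V)) (l : Nat.Primes) (y : GQ),
        cD (nmr (repI S) h hV b) l y = ∑ j ∈ Finset.range p, cD b l (y * σ ^ j) ∧
        cS (nmr (repI S) h hV b) l y = ∏ j ∈ Finset.range p, cS b l (y * σ ^ j) := by
      intro b l y
      have h1 := coe_nmr_cyc C h hV b
      constructor
      · change ((nmr (repI S) h hV b : ↥(FF (repI S) U)) : IS S).1.2 l y = _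
        rw [h1]
        have h2 : ∀ s : Finset ℕ, (∑ j ∈ s, repI S (σ ^ j) (b : IS S) : IS S).1.2 l y =
            ∑ j ∈ s, cD b l (y * σ ^ j) := by
          intro s
          induction s using Finset.induction_on with
          | empty => rfl
          | insert i s hi ih => rw [Finset.sum_insert hi, Finset.sum_insert hi, ← ih]; rfl
        exact h2 _
      · change ((((nmr (repI S) h hV b : ↥(FF (repI S) U)) : IS S).1.1 l y).toMul : Om l) = _
        rw [h1]
        have h2 : ∀ s : Finset ℕ, (((∑ j ∈ s, repI S (σ ^ j) (b : IS S) : IS S).1.1 l y).toMul :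
            Om l) = ∏ j ∈ s, cS b l (y * σ ^ j) := by
          intro s
          induction s using Finset.induction_on with
          | empty => rfl
          | insert i s hi ih => rw [Finset.sum_insert hi, Finset.prod_insert hi, ← ih]; rfl
        exact h2 _
    apply ext_FF
    · intro l hl y
      rw [(hcyc _ l y).2, cS_pureI _ _ hl]
      exact Finset.prod_eq_one fun j _ => cS_pD _ _ _ _ _ hl _
    · intro l hl y
      rw [(hcyc _ l y).1, cD_pureI _ _ hl, ← (hg l hl).2.2.1 y]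
      refine Finset.sum_congr rfl fun j _ => ?_
      rw [cD_pD _ _ _ _ _ hl, if_neg hl]

theorem top_of_split {σ : GQ} (C : Cyc V U σ p) (h : V ≤ U) (hV : (famS S).IsOpen V)
    (hns : ∀ l, l ∉ S → ∀ x, ¬ NonSplit (rl l) V σ x) {B : Type*} [AddCommGroup B]
    (N : AddSubgroup B) (π : ↥(FF (repI S) U) →+ B) (hπ : Function.Surjective π)
    (hK : ∀ a : ↥(FF (repI S) U), (a : IS S) ∈ LinearMap.range (iKS S) → π a = 0)
    (hN : ∀ b, π (nmr (repI S) h hV b) ∈ N) : N = ⊤ := by
  have hU := hV.mono h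
  rw [eq_top_iff]
  intro c _
  obtain ⟨a, rfl⟩ := hπ c
  obtain ⟨θ, hθ⟩ : ∃ θ : ↥(FF (repI S) U) →+ B ⧸ N, ∀ a, θ a = QuotientAddGroup.mk' N (π a) :=
    ⟨(QuotientAddGroup.mk' N).comp π, fun _ => rfl⟩
  have hK' : ∀ a : ↥(FF (repI S) U), (a : IS S) ∈ LinearMap.range (iKS S) → θ a = 0 := by
    intro a ha
    rw [hθ, hK a ha, map_zero]
  have hN' : ∀ b, θ (nmr (repI S) h hV b) = 0 := by
    intro b
    rw [hθ, QuotientAddGroup.mk'_apply, QuotientAddGroup.eq_zero_iff]
    exact hN b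
  obtain ⟨η, hη, H⟩ := theta_near h hV hU θ hN'
  obtain ⟨x, hx, hxa⟩ := exists_kI_near hU a η hη
  obtain ⟨a', ha'⟩ : ∃ a', a' = a - kI hU x hx := ⟨_, rfl⟩
  have h3 : θ a' = θ a := by rw [ha', map_sub, theta_kI hU θ hK', sub_zero]
  have h4 : θ a' = θ (pureI hU a') := by
    apply H
    intro l hl g
    rw [ha', cS_sub, cS_kI hU x hx hl]
    exact hxa l hl g
  obtain ⟨b, hb⟩ := exists_pure_norm C h hV hns a'
  have h5 : θ a = 0 := by
    rw [← h3, h4]
    change θ (pureI (hV.mono h) a') = 0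
    rw [← hb, hN']
  rw [hθ, QuotientAddGroup.mk'_apply, QuotientAddGroup.eq_zero_iff] at h5
  exact h5

/-- **Existence of nonsplit places outside `S`.** -/
theorem exists_nonsplit {σ : GQ} (C : Cyc V U σ p) (hodd : Odd p) (hS : S.Nonempty)
    (hV : (famS S).IsOpen V) (h : V ≤ U) (hi : V.relIndex U = p) :
    ∃ l, l ∉ S ∧ ∃ x, NonSplit (rl l) V σ x := by
  by_contra hcon
  push Not at hcon
  have h1 := (index_eq C hodd hS hV h hi).1
  have h2 : (LinearMap.range (nmr (repC S) h hV)).toAddSubgroup = ⊤ :=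
    top_of_split C h hV hcon _ (mkC S U) (mkC_surjective hS (hV.mono h))
      (fun _ ha => mkC_eq_zero.mpr ha) (fun b => ⟨mkC S V b, nmr_mkC h hV b⟩)
  rw [h2, AddSubgroup.index_top] at h1
  exact hp.out.one_lt.ne h1

end Fermat.Agent.GCFT
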