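import Fermat.Agent.GCFT.V0

/-!
# The product formula for the cyclotomic valuation
-/

set_option autoImplicit false
set_option linter.style.haveILetI false

namespace Fermat.Agent.GCFT

open Fermat.Agent.Coh Fermat.Agent.LocalCFT Fermat.Agent.PLog Fermat.Agent.GalD

/-- The field of algebraic numbers. -/
local notation "Qb" => AlgebraicClosure ℚ
/-- The absolute Galois group. -/
local notation "GQ" => (AlgebraicClosure ℚ ≃ₐ[ℚ] AlgebraicClosure ℚ)

variable {S : Finset Nat.Primes} {p : ℕ} [hp : Fact p.Prime]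

theorem q_fixed (y : ℚˣ) (g : GQ) : repQb g (Additive.ofMul (Units.map (algebraMap ℚ Qb : ℚ →* Qb) y)) =
    Additive.ofMul (Units.map (algebraMap ℚ Qb : ℚ →* Qb) y) := by
  apply Additive.toMul.injective
  apply Units.ext
  rw [repQb_apply]
  exact AlgEquiv.commutes g (y : ℚ)

variable (S) in
/-- rational numbers as elements of `KS` -/
noncomputable def qS (y : ℚˣ) : KS S :=
  ⟨Additive.ofMul (Units.map (algebraMap ℚ Qb : ℚ →* Qb) y), by
    obtain ⟨W, hW⟩ := (famS S).nonempty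
    exact ⟨W, hW, fun u _ => q_fixed y u⟩⟩

theorem qS_fixed (y : ℚˣ) (g : GQ) : repK S g (qS S y) = qS S y := Subtype.ext (q_fixed y g)

variable (S) in
/-- rational numbers as ideles -/
noncomputable def qK : Additive ℚˣ →+ ↥(FF (repI S) (⊤ : Subgroup GQ)) where
  toFun y := ⟨iKS S (qS S y.toMul), by
    rw [mem_FF]
    intro g _
    rw [← iKS_comm, qS_fixed]⟩
  map_zero' := by
    apply Subtype.ext
    change iKS S (qS S 1) = 0
    have : qS S 1 = 0 := by
      apply Subtype.ext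
      change Additive.ofMul (Units.map (algebraMap ℚ Qb : ℚ →* Qb) 1) = 0
      rw [map_one]
      rfl
    rw [this, map_zero]
  map_add' x y := by
    apply Subtype.ext
    change iKS S (qS S (x.toMul * y.toMul)) = iKS S (qS S x.toMul) + iKS S (qS S y.toMul)
    rw [← map_add]
    congr 1
    apply Subtype.ext
    change Additive.ofMul (Units.map (algebraMap ℚ Qb : ℚ →* Qb) (x.toMul * y.toMul)) = _
    rw [map_mul]
    rfl

/-- every invariant principal idele is rational -/
theorem exists_qS {x : KS S} (hx : ∀ g, repK S g x = x) : ∃ y : ℚˣ, qS S y = x := by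
  have h1 : (((x : Additive Qbˣ).toMul : Qbˣ) : Qb) ∈ (⊥ : IntermediateField ℚ Qb) := by
    rw [← InfiniteGalois.fixedField_bot (k := ℚ) (K := Qb), IntermediateField.mem_fixedField_iff]
    intro g _
    have h2 := congrArg (fun z : KS S => (((z : Additive Qbˣ).toMul : Qbˣ) : Qb)) (hx g)
    exact h2
  rw [IntermediateField.mem_bot] at h1
  obtain ⟨y, hy⟩ := h1
  have hy0 : y ≠ 0 := by
    rintro rfl
    rw [map_zero] at hy
    exact Units.ne_zero _ hy.symm
  refine ⟨Units.mk0 y hy0, Subtype.ext (Additive.toMul.injective (Units.ext ?_))⟩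
  exact hy

theorem uval_lc_qK (y : ℚˣ) {l : Nat.Primes} (hl : l ∈ S) :
    uval (lc (qK S (Additive.ofMul y)) hl : Additive (Om l)ˣ) = ((y : ℚ) : Om l) := by
  change (((diagFun S _).1 l 1).toMul : Om l) = _
  rw [diagFun_fst hl]
  change il l ((1 : GQ) (algebraMap ℚ Qb (y : ℚ))) = _
  rw [AlgEquiv.one_apply, AlgHom.commutes]
  rfl

theorem cD_qK (y : ℚˣ) {l : Nat.Primes} (hl : l ∉ S) {n : ℤ}
    (hn : ‖((y : ℚ) : Om l)‖ = ((l : ℕ) : ℝ) ^ (-n)) :
    cD (qK S (Additive.ofMul y)) l 1 = n := by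
  change ((diagFun S _).2 l 1) = _
  rw [diagFun_snd_not hl]
  apply divl_eq
  rw [← hn]
  change ‖il l ((1 : GQ) (algebraMap ℚ Qb (y : ℚ)))‖ = _
  rw [AlgEquiv.one_apply, AlgHom.commutes]
  rfl

theorem norm_prime_ne {l : Nat.Primes} {q : ℕ} (hq : q.Prime) (h : (l : ℕ) ≠ q) :
    ‖((q : ℚ) : Om l)‖ = 1 := by
  have h3 := PadicAlgCl.norm_extends (l : ℕ) (q : ℚ_[(l : ℕ)])
  rw [map_natCast] at h3
  rw [Rat.cast_natCast]
  rw [h3]
  have h4 : ‖((q : ℤ) : ℚ_[(l : ℕ)])‖ = 1 := by
    refine le_antisymm (Padic.norm_int_le_one _) (not_lt.mp fun h5 => h ?_)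
    have := (Padic.norm_intCast_lt_one_iff (p := (l : ℕ)) (k := (q : ℤ))).mp h5
    exact (Nat.prime_dvd_prime_iff_eq l.2 hq).mp (by exact_mod_cast this)
  exact_mod_cast h4

theorem lamP_self : lamP p ⟨p, hp.out⟩ = 0 := by
  rw [lamP, dif_neg]
  rw [Nat.coprime_self]
  exact hp.out.one_lt.ne'

theorem v0_self_of_uval (hp2 : p ≠ 2) {q : ℕ} (hqp : q.Coprime p)
    (b : ↥(FF (LU p) (⊤ : Subgroup (PadicAlgCl p ≃ₐ[ℚ_[p]] PadicAlgCl p))))
    (hb : uval (b : Additive (PadicAlgCl p)ˣ) = ((q : ℚ) : PadicAlgCl p)) :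
    v0 p p hp2 b = - lam (unitNat hqp) := by
  have h5 : b = fu (unitNat hqp) := by
    apply Subtype.ext
    apply uval_injective
    rw [hb, uval_fu, coe_unitNat, Rat.cast_natCast, PadicInt.coe_natCast, map_natCast]
  rw [v0_self, h5, upart_fu]

/-- the value at a prime number -/
theorem V0_prime (hp2 : p ≠ 2) (hpS : ⟨p, hp.out⟩ ∈ S) {q : ℕ} (hq : q.Prime) (h0 : (q : ℚ) ≠ 0) :
    V0 S hp2 (qK S (Additive.ofMul (Units.mk0 (q : ℚ) h0))) = 0 := by
  classical
  set y : ℚˣ := Units.mk0 (q : ℚ) h0 with hy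
  set Q : Nat.Primes := ⟨q, hq⟩ with hQ
  set P : Nat.Primes := ⟨p, hp.out⟩ with hP
  have h1 : ∀ l : S, v0 (l.1 : ℕ) p hp2 (lc (qK S (Additive.ofMul y)) l.2) =
      (if l.1 = P then - lamP p Q else 0) + (if l.1 = Q then lamP p Q else 0) := by
    rintro ⟨l, hl⟩
    change v0 (l : ℕ) p hp2 (lc (qK S (Additive.ofMul y)) hl) = (if l = P then - lamP p Q else 0) +
      (if l = Q then lamP p Q else 0)
    have hu := uval_lc_qK y hl
    by_cases hlQ : l = Q
    · have hPl : lc (qK S (Additive.ofMul y)) hl = Pl (l : ℕ) := by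
        apply Subtype.ext
        apply uval_injective
        rw [hu, uval_Pl, hlQ]
        change ((q : ℚ) : Om _) = ((q : ℕ) : Om _)
        rw [Rat.cast_natCast]
      rw [hPl]
      by_cases hlP : l = P
      · have hQP : Q = P := hlQ.symm.trans hlP
        rw [if_pos hlP, if_pos hlQ, hQP, lamP_self, neg_zero, add_zero]
        subst hlP
        change v0 p p hp2 (Pl p) = 0
        rw [v0_self, upart_Pl, lam_one hp2, neg_zero]
      · have hne : (l : ℕ) ≠ p := fun h => hlP (Subtype.ext h)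
        rw [if_neg hlP, if_pos hlQ, zero_add, v0_of_ne hp2 hne, VU_Pl, Int.cast_one, one_mul,
          ← hlQ, lamP, dif_pos (coprime_of_ne hne)]
    · have hneq : (l : ℕ) ≠ q := fun h => hlQ (Subtype.ext h)
      rw [if_neg hlQ, add_zero]
      by_cases hlP : l = P
      · rw [if_pos hlP]
        subst hlP
        have hqp : q.Coprime p := (Nat.coprime_primes hq hp.out).mpr (Ne.symm hneq)
        rw [lamP, dif_pos hqp]
        exact v0_self_of_uval hp2 hqp _ hu
      · have hne : (l : ℕ) ≠ p := fun h => hlP (Subtype.ext h)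
        have h5 : VU top_open (lc (qK S (Additive.ofMul y)) hl) = 0 := by
          rw [← norm_eq_one_iff_VU, hu]
          exact norm_prime_ne hq hneq
        rw [if_neg hlP, v0_of_ne hp2 hne, h5, Int.cast_zero, zero_mul]
  have h2 : V0d (p := p) S (qK S (Additive.ofMul y)) = if Q ∈ S then 0 else lamP p Q := by
    rw [V0d_apply, finsum_eq_single _ Q]
    · by_cases hQS : Q ∈ S
      · rw [if_pos hQS]
        have h5 : cD (qK S (Additive.ofMul y)) Q 1 = 0 :=
          congrFun ((qK S (Additive.ofMul y)).1.2.2.2.2.1 Q hQS) 1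
        rw [h5, Int.cast_zero, zero_mul]
      · rw [if_neg hQS, cD_qK y hQS (n := 1), Int.cast_one, one_mul]
        change ‖((q : ℚ) : Om Q)‖ = _
        rw [zpow_neg, zpow_one, Rat.cast_natCast]
        exact norm_nat Q
    · intro l hlQ
      by_cases hlS : l ∈ S
      · have h5 : cD (qK S (Additive.ofMul y)) l 1 = 0 :=
          congrFun ((qK S (Additive.ofMul y)).1.2.2.2.2.1 l hlS) 1
        rw [h5, Int.cast_zero, zero_mul]
      · have hneq : (l : ℕ) ≠ q := fun h => hlQ (Subtype.ext h)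
        rw [cD_qK y hlS (n := 0), Int.cast_zero, zero_mul]
        rw [neg_zero, zpow_zero]
        exact norm_prime_ne hq hneq
  rw [V0_apply, Finset.sum_congr rfl fun l _ => h1 l, h2]
  have h3 := Finset.sum_coe_sort S (fun l : Nat.Primes =>
    (if l = P then - lamP p Q else 0) + (if l = Q then lamP p Q else 0))
  rw [h3, Finset.sum_add_distrib, Finset.sum_ite_eq' S P, Finset.sum_ite_eq' S Q, if_pos hpS]
  by_cases hQS : Q ∈ S
  · rw [if_pos hQS, if_pos hQS]
    ring
  · rw [if_neg hQS, if_neg hQS]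
    ring

theorem V0_nat (hp2 : p ≠ 2) (hpS : ⟨p, hp.out⟩ ∈ S) (n : ℕ) : ∀ (h0 : (n : ℚ) ≠ 0),
    V0 S hp2 (qK S (Additive.ofMul (Units.mk0 (n : ℚ) h0))) = 0 := by
  induction n using Nat.recOnMul with
  | zero => intro h0; exact absurd Nat.cast_zero h0
  | one =>
    intro h0
    have : Units.mk0 ((1 : ℕ) : ℚ) h0 = 1 := Units.ext Nat.cast_one
    rw [this, ofMul_one, map_zero, map_zero]
  | prime q hq => exact V0_prime hp2 hpS hq
  | mul a b ha hb =>
    intro h0
    have h0' := h0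
    rw [Nat.cast_mul] at h0'
    have e : Units.mk0 ((a * b : ℕ) : ℚ) h0 = Units.mk0 (a : ℚ) (left_ne_zero_of_mul h0') *
        Units.mk0 (b : ℚ) (right_ne_zero_of_mul h0') := Units.ext (Nat.cast_mul a b)
    rw [e, ofMul_mul, map_add, map_add, ha, hb, add_zero]

/-- **The product formula.** -/
theorem V0_qK (hp2 : p ≠ 2) (hpS : ⟨p, hp.out⟩ ∈ S) (y : ℚˣ) :
    V0 S hp2 (qK S (Additive.ofMul y)) = 0 := by
  have h2 : V0 S hp2 (qK S (Additive.ofMul (-1))) = 0 := by
    have h3 : V0 S hp2 (qK S (Additive.ofMul ((-1) * (-1)))) = 0 := by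
      rw [neg_mul_neg, one_mul, ofMul_one, map_zero, map_zero]
    rw [ofMul_mul, map_add, map_add, ← two_mul] at h3
    exact (mul_eq_zero.mp h3).resolve_left two_ne_zero
  have hd : (((y : ℚ).den : ℕ) : ℚ) ≠ 0 := Nat.cast_ne_zero.mpr (y : ℚ).den_nz
  have hn : (((y : ℚ).num.natAbs : ℕ) : ℚ) ≠ 0 := by
    rw [Nat.cast_ne_zero, Int.natAbs_ne_zero, Rat.num_ne_zero]
    exact y.ne_zero
  have h' : (((y : ℚ).num.natAbs : ℕ) : ℚ) = (((y : ℚ).num.natAbs : ℤ) : ℚ) :=
    (Int.cast_natCast _).symm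
  have h3 : y * Units.mk0 _ hd = Units.mk0 _ hn ∨ y * Units.mk0 _ hd = (-1) * Units.mk0 _ hn := by
    rcases Int.natAbs_eq (y : ℚ).num with h | h
    · left
      apply Units.ext
      rw [Units.val_mul, Units.val_mk0, Units.val_mk0, Rat.mul_den_eq_num]
      rw [h']
      exact congrArg (Int.cast : ℤ → ℚ) h
    · right
      apply Units.ext
      rw [Units.val_mul, Units.val_mul, Units.val_mk0, Units.val_mk0, Rat.mul_den_eq_num,
        Units.val_neg, Units.val_one, neg_one_mul]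
      rw [h', ← Int.cast_neg]
      exact congrArg (Int.cast : ℤ → ℚ) h
  have h4 : V0 S hp2 (qK S (Additive.ofMul (y * Units.mk0 _ hd))) = 0 := by
    rcases h3 with h | h
    · rw [h, V0_nat hp2 hpS]
    · rw [h, ofMul_mul, map_add, map_add, h2, V0_nat hp2 hpS, add_zero]
  rw [ofMul_mul, map_add, map_add, V0_nat hp2 hpS, add_zero] at h4
  exact h4

/-- principal ideles have valuation zero -/
theorem V0_principal (hp2 : p ≠ 2) (hpS : ⟨p, hp.out⟩ ∈ S)
    {a : ↥(FF (repI S) (⊤ : Subgroup GQ))} (ha : (a : IS S) ∈ LinearMap.range (iKS S)) :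
    V0 S hp2 a = 0 := by
  obtain ⟨x, hx⟩ := ha
  have h1 : ∀ g, repK S g x = x := by
    intro g
    apply iKS_injective ⟨_, hpS⟩
    rw [iKS_comm, hx, (mem_FF (repI S)).mp a.2 g (Subgroup.mem_top g)]
  obtain ⟨y, rfl⟩ := exists_qS h1
  have : a = qK S (Additive.ofMul y) := Subtype.ext hx.symm
  rw [this, V0_qK hp2 hpS]

end Fermat.Agent.GCFT
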