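import Fermat.Agent.GCFT.Diag

/-!
# The prime of a number field attached to an embedding in the algebraic closure of `ℚ_l`
-/

set_option autoImplicit false

namespace Fermat.Agent.GCFT

open Fermat.Agent.Coh NumberField IsDedekindDomain
open scoped WithZero

variable {K : Type*} [Field K] [NumberField K] {l : Nat.Primes}

theorem norm_add_le_max' (x y : Om l) : ‖x + y‖ ≤ max ‖x‖ ‖y‖ :=
  IsUltrametricDist.norm_add_le_max x y

/-- algebraic integers have norm at most one -/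
theorem norm_int_le_one {x : Om l} (hx : IsIntegral ℤ x) : ‖x‖ ≤ 1 := by
  have h1 : x ∈ padicIntegers (l : ℕ) :=
    GaloisBasics.integralClosure_le_valuationSubring (padicIntegers (l : ℕ)) hx
  exact_mod_cast (mem_padicIntegers_iff (l : ℕ)).mp h1

omit [NumberField K] in
theorem norm_emb_int_le (ι : K →+* Om l) (a : 𝓞 K) : ‖ι (a : K)‖ ≤ 1 :=
  norm_int_le_one (a.2.map ι.toIntAlgHom)

/-- the prime attached to an embedding -/
def pr (ι : K →+* Om l) : HeightOneSpectrum (𝓞 K) where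
  asIdeal :=
    { carrier := {a | ‖ι (a : K)‖ < 1}
      zero_mem' := by simp
      add_mem' := by
        intro a b ha hb
        change ‖ι ((a + b : 𝓞 K) : K)‖ < 1
        have : ((a + b : 𝓞 K) : K) = (a : K) + (b : K) := rfl
        rw [this, map_add]
        exact (norm_add_le_max' _ _).trans_lt (max_lt ha hb)
      smul_mem' := by
        intro c a ha
        change ‖ι ((c * a : 𝓞 K) : K)‖ < 1
        have : ((c * a : 𝓞 K) : K) = (c : K) * (a : K) := rfl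
        rw [this, map_mul, norm_mul]
        exact (mul_le_of_le_one_left (norm_nonneg _) (norm_emb_int_le ι c)).trans_lt ha }
  isPrime := by
    refine ⟨fun h => ?_, fun {a b} hab => ?_⟩
    · have h1 : (1 : 𝓞 K) ∈ (⊤ : Ideal (𝓞 K)) := trivial
      rw [← h] at h1
      change ‖ι ((1 : 𝓞 K) : K)‖ < 1 at h1
      have : ((1 : 𝓞 K) : K) = 1 := rfl
      rw [this, map_one, norm_one] at h1
      exact lt_irrefl _ h1
    · change ‖ι ((a * b : 𝓞 K) : K)‖ < 1 at hab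
      have : ((a * b : 𝓞 K) : K) = (a : K) * (b : K) := rfl
      rw [this, map_mul, norm_mul] at hab
      by_contra hcon
      rw [not_or] at hcon
      have h1 : ¬ ‖ι (a : K)‖ < 1 := hcon.1
      have h2 : ¬ ‖ι (b : K)‖ < 1 := hcon.2
      have := one_le_mul_of_one_le_of_one_le (not_lt.mp h1) (not_lt.mp h2)
      linarith
  ne_bot := by
    intro h
    have hl : 1 < ((l : ℕ) : ℝ) := by exact_mod_cast l.2.one_lt
    have h1 : ((l : ℕ) : 𝓞 K) ∈ (⊥ : Ideal (𝓞 K)) := by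
      rw [← h]
      change ‖ι (((l : ℕ) : 𝓞 K) : K)‖ < 1
      have : (((l : ℕ) : 𝓞 K) : K) = ((l : ℕ) : K) := by simp
      rw [this, map_natCast, norm_nat]
      exact inv_lt_one_of_one_lt₀ hl
    rw [Ideal.mem_bot] at h1
    exact Nat.cast_ne_zero.mpr l.2.ne_zero h1

theorem mem_pr {ι : K →+* Om l} {a : 𝓞 K} : a ∈ (pr ι).asIdeal ↔ ‖ι (a : K)‖ < 1 := Iff.rfl

theorem notMem_pr {ι : K →+* Om l} {a : 𝓞 K} : a ∉ (pr ι).asIdeal ↔ ‖ι (a : K)‖ = 1 := by
  rw [mem_pr, not_lt]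
  exact ⟨fun h => le_antisymm (norm_emb_int_le ι a) h, fun h => h.ge⟩

theorem norm_le_of_val_le {ι : K →+* Om l} {x : K} (hx : (pr ι).valuation K x ≤ 1) :
    ‖ι x‖ ≤ 1 := by
  obtain ⟨a, b, hab⟩ := (pr ι).exists_primeCompl_mul_eq_of_integer x hx
  have h1 : ‖ι ((b : 𝓞 K) : K)‖ = 1 := notMem_pr.mp b.2
  have h2 := congrArg (fun y => ‖ι y‖) hab
  simp only [map_mul, norm_mul] at h2
  have h3 : ‖ι x‖ = ‖ι (a : K)‖ := by
    rw [← h2]
    change ‖ι x‖ = ‖ι x‖ * ‖ι ((b : 𝓞 K) : K)‖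
    rw [h1, mul_one]
  rw [h3]
  exact norm_emb_int_le ι a

theorem norm_of_val_one {ι : K →+* Om l} {x : K} (hx : (pr ι).valuation K x = 1) :
    ‖ι x‖ = 1 := by
  apply le_antisymm (norm_le_of_val_le hx.le)
  have h0 : x ≠ 0 := by
    rintro rfl
    rw [map_zero] at hx
    exact zero_ne_one hx
  have h1 : (pr ι).valuation K x⁻¹ ≤ 1 := by rw [map_inv₀, hx, inv_one]
  have h2 := norm_le_of_val_le h1
  rw [map_inv₀, norm_inv] at h2
  have h3 : 0 < ‖ι x‖ := norm_pos_iff.mpr (by rwa [Ne, map_eq_zero])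
  exact (inv_le_one₀ h3).mp h2

/-- the additive valuation -/
noncomputable def oi (v : HeightOneSpectrum (𝓞 K)) (x : K) : ℤ := -WithZero.log (v.valuation K x)

theorem val_eq_exp (v : HeightOneSpectrum (𝓞 K)) {x : K} (hx : x ≠ 0) :
    v.valuation K x = WithZero.exp (-oi v x) := by
  rw [oi, neg_neg, WithZero.exp_log]
  rwa [Ne, map_eq_zero]

theorem oi_mul (v : HeightOneSpectrum (𝓞 K)) {x y : K} (hx : x ≠ 0) (hy : y ≠ 0) :
    oi v (x * y) = oi v x + oi v y := by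
  rw [oi, oi, oi, map_mul, WithZero.log_mul (by rwa [Ne, map_eq_zero]) (by rwa [Ne, map_eq_zero])]
  ring

theorem oi_eq_of_exp {v : HeightOneSpectrum (𝓞 K)} {x : K} {n : ℤ}
    (h : v.valuation K x = WithZero.exp (-n)) : oi v x = n := by
  rw [oi, h, WithZero.log_exp, neg_neg]

/-- the norm in terms of a uniformizer -/
theorem norm_eq_pow {ι : K →+* Om l} {π : K} (hπ : (pr ι).valuation K π = WithZero.exp (-1 : ℤ))
    {x : K} (hx : x ≠ 0) : ‖ι x‖ = ‖ι π‖ ^ oi (pr ι) x := by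
  have hπ0 : π ≠ 0 := by
    rintro rfl
    rw [map_zero] at hπ
    exact WithZero.exp_ne_zero hπ.symm
  have h1 : (pr ι).valuation K (x / π ^ oi (pr ι) x) = 1 := by
    rw [map_div₀, map_zpow₀, hπ, val_eq_exp _ hx, ← WithZero.exp_zsmul, smul_neg, smul_eq_mul,
      mul_one, div_self WithZero.exp_ne_zero]
  have h2 := norm_of_val_one h1
  rw [map_div₀, map_zpow₀, norm_div, norm_zpow] at h2
  have h3 : ‖ι π‖ ^ oi (pr ι) x ≠ 0 := zpow_ne_zero _ (by
    rw [Ne, norm_eq_zero, map_eq_zero]; exact hπ0)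
  rwa [div_eq_one_iff_eq h3] at h2

/-- the unramified case -/
theorem norm_eq_of_unramified {ι : K →+* Om l}
    (hι : ∀ x : K, x ≠ 0 → ∃ n : ℤ, ‖ι x‖ = ((l : ℕ) : ℝ) ^ (-n)) {x : K} (hx : x ≠ 0) :
    ‖ι x‖ = ((l : ℕ) : ℝ) ^ (-oi (pr ι) x) := by
  have hl : 1 < ((l : ℕ) : ℝ) := by exact_mod_cast l.2.one_lt
  have hl0 : (0 : ℝ) < ((l : ℕ) : ℝ) := by linarith
  obtain ⟨π, hπ⟩ := (pr ι).valuation_exists_uniformizer K
  have hπ0 : π ≠ 0 := by
    rintro rfl
    rw [map_zero] at hπ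
    exact WithZero.exp_ne_zero hπ.symm
  obtain ⟨m, hm⟩ := hι π hπ0
  have h1 := norm_eq_pow hπ (x := ((l : ℕ) : K)) (Nat.cast_ne_zero.mpr l.2.ne_zero)
  rw [map_natCast, norm_nat, hm, ← zpow_mul, ← zpow_neg_one] at h1
  have h2 : (-1 : ℤ) = -m * oi (pr ι) ((l : ℕ) : K) :=
    zpow_right_injective₀ hl0 hl.ne' h1
  have h3 : m = 1 ∨ m = -1 := by
    have : IsUnit m := by
      apply isUnit_of_dvd_one
      refine ⟨oi (pr ι) ((l : ℕ) : K), ?_⟩
      linarith
    exact Int.isUnit_iff.mp this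
  have h4 : ‖ι π‖ ≤ 1 := by
    apply norm_le_of_val_le
    rw [hπ, ← WithZero.exp_zero, WithZero.exp_le_exp]
    norm_num
  have h5 : m = 1 := by
    rcases h3 with h | h
    · exact h
    · exfalso
      rw [hm, h, neg_neg, zpow_one] at h4
      linarith
  rw [norm_eq_pow hπ hx, hm, h5, ← zpow_mul]
  congr 1
  ring

theorem norm_lt_one_of_val_lt {ι : K →+* Om l} {x : K} (hx : (pr ι).valuation K x < 1) :
    ‖ι x‖ < 1 := by
  by_cases h0 : x = 0
  · subst h0
    simp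
  obtain ⟨a, b, hab⟩ := (pr ι).exists_primeCompl_mul_eq_of_integer x hx.le
  have h1 : ‖ι ((b : 𝓞 K) : K)‖ = 1 := notMem_pr.mp b.2
  have h2 := congrArg (fun y => ‖ι y‖) hab
  simp only [map_mul, norm_mul] at h2
  have h3 : ‖ι x‖ = ‖ι (a : K)‖ := by
    rw [← h2]
    change ‖ι x‖ = ‖ι x‖ * ‖ι ((b : 𝓞 K) : K)‖
    rw [h1, mul_one]
  rw [h3]
  have h4 : (pr ι).valuation K ((a : 𝓞 K) : K) < 1 := by
    have h5 : (pr ι).valuation K ((b : 𝓞 K) : K) = 1 :=
      (pr ι).valuation_eq_one_iff_notMem.mpr b.2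
    have h6 := congrArg ((pr ι).valuation K) hab
    rw [map_mul] at h6
    change (pr ι).valuation K x * (pr ι).valuation K ((b : 𝓞 K) : K) =
      (pr ι).valuation K ((a : 𝓞 K) : K) at h6
    rw [h5, mul_one] at h6
    rwa [← h6]
  exact ((pr ι).valuation_lt_one_iff_mem (K := K) a).mp h4

end Fermat.Agent.GCFT
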