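import Fermat.Agent.GCFT.Approx
import Fermat.Agent.GlobalCFT.Places

/-!
# Places of fixed fields and double cosets
-/

set_option autoImplicit false

namespace Fermat.Agent.GCFT

open Fermat.Agent.Coh NumberField IsDedekindDomain Module

/-- The field of algebraic numbers. -/
local notation "Qb" => AlgebraicClosure ℚ
/-- The absolute Galois group. -/
local notation "GQ" => (AlgebraicClosure ℚ ≃ₐ[ℚ] AlgebraicClosure ℚ)

theorem pr_eq_primeOf {K : Type*} [Field K] [NumberField K] {l : Nat.Primes} (ι : K →+* Om l) :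
    pr ι = GlobalCFT.primeOf ι := by
  apply HeightOneSpectrum.ext
  ext a
  exact Iff.rfl

/-- the embedding of a subfield attached to a Galois element -/
noncomputable def emb (F : IntermediateField ℚ Qb) (l : Nat.Primes) (g : GQ) : F →+* Om l :=
  ((il l : Qb →+* Om l).comp (g : Qb →+* Qb)).comp F.val.toRingHom

theorem emb_apply (F : IntermediateField ℚ Qb) (l : Nat.Primes) (g : GQ) (x : F) :
    emb F l g x = il l (g (x : Qb)) := rfl

theorem norm_emb_rl (F : IntermediateField ℚ Qb) (l : Nat.Primes) (δ : Gl l) (g : GQ) (x : F) :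
    ‖emb F l (rl l δ * g) x‖ = ‖emb F l g x‖ := by
  rw [emb_apply, emb_apply, AlgEquiv.mul_apply, il_rl, norm_gal]

theorem emb_mul {U : Subgroup GQ} (l : Nat.Primes) (g : GQ) {u : GQ} (hu : u ∈ U) :
    emb (fld U) l (g * u) = emb (fld U) l g := by
  ext x
  rw [emb_apply, emb_apply, AlgEquiv.mul_apply, mem_fld.mp x.2 u hu]

theorem pr_congr {K : Type*} [Field K] [NumberField K] {l : Nat.Primes} {ι ι' : K →+* Om l}
    (h : ∀ x, ‖ι x‖ = ‖ι' x‖) : pr ι = pr ι' := by
  apply HeightOneSpectrum.ext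
  ext a
  rw [mem_pr, mem_pr, h]

theorem pr_emb_rl (F : IntermediateField ℚ Qb) [NumberField F] (l : Nat.Primes) (δ : Gl l)
    (g : GQ) : pr (emb F l (rl l δ * g)) = pr (emb F l g) :=
  pr_congr fun x => norm_emb_rl F l δ g x

theorem pr_emb_mul {U : Subgroup GQ} [NumberField (fld U)] (l : Nat.Primes) (g : GQ) {u : GQ}
    (hu : u ∈ U) : pr (emb (fld U) l (g * u)) = pr (emb (fld U) l g) := by rw [emb_mul l g hu]

/-- (T1) two Galois elements inducing the same place -/
theorem exists_eq_of_pr_eq {U : Subgroup GQ} (hU : IsOpen (U : Set GQ)) [NumberField (fld U)]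
    {l : Nat.Primes} {g g' : GQ} (h : pr (emb (fld U) l g) = pr (emb (fld U) l g')) :
    ∃ (δ : Gl l) (u : GQ), u ∈ U ∧ g' = rl l δ * g * u := by
  rw [pr_eq_primeOf, pr_eq_primeOf] at h
  obtain ⟨δ, hδ⟩ := GlobalCFT.exists_algEquiv_of_primeOf_eq h
  refine ⟨δ, (rl l δ * g)⁻¹ * g', ?_, by group⟩
  apply mem_of_fixes hU
  intro x hx
  have h1 := hδ ⟨x, mem_fld.mpr hx⟩
  rw [emb_apply, emb_apply, ← il_rl] at h1
  have h2 : g' x = rl l δ (g x) := (il l).toRingHom.injective h1
  rw [AlgEquiv.mul_apply, h2, ← AlgEquiv.mul_apply (rl l δ) g, ← AlgEquiv.mul_apply,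
    inv_mul_cancel, AlgEquiv.one_apply]

/-- (T2) every place comes from a Galois element -/
theorem exists_pr_eq {F : IntermediateField ℚ Qb} [NumberField F] {l : Nat.Primes}
    (v : HeightOneSpectrum (𝓞 F)) (hv : ((l : ℕ) : 𝓞 F) ∈ v.asIdeal) :
    ∃ g : GQ, pr (emb F l g) = v := by
  obtain ⟨φ, hφ⟩ := GlobalCFT.exists_primeOf_eq v hv
  -- lift `φ` through the embedding of the algebraic numbers
  have halg : Algebra.IsAlgebraic ℚ F := by
    have : Algebra.IsAlgebraic ℚ Qb := AlgebraicClosure.isAlgebraic ℚ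
    infer_instance
  have hrange : ∀ x : F, ∃ y : Qb, il l y = φ x := by
    intro x
    obtain ⟨p, hp0, hp⟩ := halg.isAlgebraic x
    have h1 : Polynomial.eval₂ (algebraMap ℚ (Om l)) (φ x) p = 0 := by
      have h2 := congrArg φ hp
      rw [Polynomial.aeval_def, Polynomial.hom_eval₂, map_zero] at h2
      rw [← h2]
      congr 1
      exact Subsingleton.elim _ _
    have h3 : (p.map (algebraMap ℚ Qb)).Splits := IsAlgClosed.splits _
    have h4 : φ x ∈ (p.map (algebraMap ℚ (Om l))).roots := by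
      rw [Polynomial.mem_roots (by
        rw [Ne, Polynomial.map_eq_zero]; exact hp0), Polynomial.IsRoot.def, Polynomial.eval_map]
      exact h1
    have h5 : p.map (algebraMap ℚ (Om l)) =
        (p.map (algebraMap ℚ Qb)).map ((il l : Qb →ₐ[ℚ] Om l) : Qb →+* Om l) := by
      rw [Polynomial.map_map]
      congr 1
      exact Subsingleton.elim _ _
    rw [h5, h3.roots_map] at h4
    obtain ⟨y, -, hy⟩ := Multiset.mem_map.mp h4
    exact ⟨y, hy⟩
  choose ψ hψ using hrange
  let Ψ : F →ₐ[ℚ] Qb :=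
    { toFun := ψ
      map_one' := (il l).toRingHom.injective (by
        change il l (ψ 1) = il l 1
        rw [hψ, map_one, map_one])
      map_mul' := fun x y => (il l).toRingHom.injective (by
        change il l (ψ (x * y)) = il l (ψ x * ψ y)
        rw [hψ, map_mul, map_mul, hψ, hψ])
      map_zero' := (il l).toRingHom.injective (by
        change il l (ψ 0) = il l 0
        rw [hψ, map_zero, map_zero])
      map_add' := fun x y => (il l).toRingHom.injective (by
        change il l (ψ (x + y)) = il l (ψ x + ψ y)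
        rw [hψ, map_add, map_add, hψ, hψ])
      commutes' := fun r => (il l).toRingHom.injective (by
        change il l (ψ (algebraMap ℚ F r)) = il l (algebraMap ℚ Qb r)
        rw [hψ, AlgHom.commutes, eq_ratCast, eq_ratCast, map_ratCast]) }
  have hnorm : Normal ℚ Qb := inferInstance
  have hbij : Function.Bijective (Ψ.liftNormal Qb) :=
    Algebra.IsAlgebraic.algHom_bijective (Ψ.liftNormal Qb)
  let g : GQ := AlgEquiv.ofBijective (Ψ.liftNormal Qb) hbij
  have hg : ∀ x : F, g (x : Qb) = ψ x := fun x => Ψ.liftNormal_commutes Qb x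
  refine ⟨g, ?_⟩
  rw [← hφ, ← pr_eq_primeOf]
  apply pr_congr
  intro x
  rw [emb_apply, hg, hψ]

/-- (T2') the places above a place of a subfield -/
theorem exists_pr_eq_of_below {U V : Subgroup GQ} (hVU : V ≤ U) (hU : IsOpen (U : Set GQ))
    [NumberField (fld U)] [NumberField (fld V)] {l : Nat.Primes} (g : GQ)
    (w : HeightOneSpectrum (𝓞 (fld V))) (hw : ((l : ℕ) : 𝓞 (fld V)) ∈ w.asIdeal)
    (hwg : ∀ g' : GQ, pr (emb (fld V) l g') = w → pr (emb (fld U) l g') = pr (emb (fld U) l g)) :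
    ∃ u ∈ U, pr (emb (fld V) l (g * u)) = w := by
  obtain ⟨g', hg'⟩ := exists_pr_eq w hw
  obtain ⟨δ, u, hu, h⟩ := exists_eq_of_pr_eq hU (hwg g' hg')
  refine ⟨u⁻¹, U.inv_mem hu, ?_⟩
  have h1 : g * u⁻¹ = rl l δ * g' := by rw [h, mul_inv_cancel_right]
  rw [h1, pr_emb_rl, hg']

/-- elements of the fixed field of an open subgroup of level `S` -/
noncomputable def toKS {S : Finset Nat.Primes} {V : Subgroup GQ} (hV : (famS S).IsOpen V) {x : Qb}
    (hx : x ∈ fld V) (hx0 : x ≠ 0) : KS S :=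
  ⟨Additive.ofMul (Units.mk0 x hx0), by
    obtain ⟨W, hW, hWV⟩ := hV
    refine ⟨W, hW, fun u hu => ?_⟩
    apply Additive.toMul.injective
    apply Units.ext
    exact mem_fld.mp hx u (hWV hu)⟩

theorem coe_toKS {S : Finset Nat.Primes} {V : Subgroup GQ} (hV : (famS S).IsOpen V) {x : Qb}
    (hx : x ∈ fld V) (hx0 : x ≠ 0) :
    (((toKS hV hx hx0 : KS S) : Additive Qbˣ).toMul : Qb) = x := rfl

theorem exists_norm_emb {S : Finset Nat.Primes} {V : Subgroup GQ} (hV : (famS S).IsOpen V)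
    {l : Nat.Primes} (hl : l ∉ S) (g : GQ) (x : fld V) (hx : x ≠ 0) :
    ∃ n : ℤ, ‖emb (fld V) l g x‖ = ((l : ℕ) : ℝ) ^ (-n) := by
  have hx0 : (x : Qb) ≠ 0 := fun h => hx (Subtype.ext h)
  exact exists_norm_eq_zpow hl (toKS hV x.2 hx0) g

theorem val_le_iff {K : Type*} [Field K] [NumberField K] {l : Nat.Primes} {ι : K →+* Om l}
    {x : K} : (pr ι).valuation K x ≤ 1 ↔ ‖ι x‖ ≤ 1 := by
  refine ⟨norm_le_of_val_le, fun h => ?_⟩
  by_contra hcon
  rw [not_le] at hcon
  have h0 : x ≠ 0 := by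
    rintro rfl
    rw [map_zero] at hcon
    exact not_lt_zero hcon
  have h1 : (pr ι).valuation K x⁻¹ < 1 := by
    rw [map_inv₀]
    exact inv_lt_one_of_one_lt₀ hcon
  have h2 := norm_lt_one_of_val_lt h1
  rw [map_inv₀, norm_inv] at h2
  have h3 : 0 < ‖ι x‖ := norm_pos_iff.mpr (by rwa [Ne, map_eq_zero])
  have h4 := (inv_lt_one₀ h3).mp h2
  linarith

/-- residues at a place of prime norm -/
theorem exists_int_near {K : Type*} [Field K] [NumberField K] {l : Nat.Primes} {ι : K →+* Om l}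
    (hN : Ideal.absNorm (pr ι).asIdeal = (l : ℕ)) {y : K} (hy : ‖ι y‖ ≤ 1) :
    ∃ m : ℤ, ‖ι (y - m)‖ < 1 := by
  obtain ⟨a, s, has⟩ := (pr ι).exists_primeCompl_mul_eq_of_integer y (val_le_iff.mpr hy)
  have hmax := (pr ι).isMaximal
  have hcard : Nat.card (𝓞 K ⧸ (pr ι).asIdeal) = (l : ℕ) := by
    rw [← hN, Ideal.absNorm_apply, Submodule.cardQuot_apply]
  have hs : Ideal.Quotient.mk (pr ι).asIdeal (s : 𝓞 K) ≠ 0 := by
    rw [Ne, Ideal.Quotient.eq_zero_iff_mem]
    exact s.2
  letI := Ideal.Quotient.field (pr ι).asIdeal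
  have h1 : (1 : 𝓞 K ⧸ (pr ι).asIdeal) ≠ 0 := one_ne_zero
  obtain ⟨m, hm⟩ := AddSubgroup.mem_zmultiples_iff.mp (mem_zmultiples_of_prime_card hcard h1
    (g' := Ideal.Quotient.mk (pr ι).asIdeal a * (Ideal.Quotient.mk (pr ι).asIdeal (s : 𝓞 K))⁻¹))
  rw [zsmul_one] at hm
  refine ⟨m, ?_⟩
  have h2 : a - (s : 𝓞 K) * (m : 𝓞 K) ∈ (pr ι).asIdeal := by
    rw [← Ideal.Quotient.eq_zero_iff_mem, map_sub, map_mul, map_intCast, hm, mul_comm,
      mul_assoc, inv_mul_cancel₀ hs, mul_one, sub_self]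
  rw [mem_pr] at h2
  have h3 : ‖ι ((s : 𝓞 K) : K)‖ = 1 := notMem_pr.mp s.2
  have h4 : ((a - (s : 𝓞 K) * (m : 𝓞 K) : 𝓞 K) : K) = ((s : 𝓞 K) : K) * (y - m) := by
    have h5 : ((a - (s : 𝓞 K) * (m : 𝓞 K) : 𝓞 K) : K) = (a : K) - ((s : 𝓞 K) : K) * (m : K) := by
      push_cast
      rfl
    rw [h5, mul_sub]
    congr 1
    rw [mul_comm]
    exact has.symm
  rw [h4, map_mul, norm_mul, h3, one_mul] at h2
  exact h2

/-- The local field of a place of prime norm `l` unramified over `l` is `ℚ_l`. -/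
theorem fixed_of_norm_prime {S : Finset Nat.Primes} {V : Subgroup GQ} (hV : (famS S).IsOpen V)
    [NumberField (fld V)] {l : Nat.Primes} (hl : l ∉ S) (g : GQ)
    (hN : Ideal.absNorm (pr (emb (fld V) l g)).asIdeal = (l : ℕ)) (δ : Gl l) (x : fld V) :
    δ (emb (fld V) l g x) = emb (fld V) l g x := by
  set ι := emb (fld V) l g with hι
  have hl1 : 1 < ((l : ℕ) : ℝ) := by exact_mod_cast l.2.one_lt
  have hl0 : (0 : ℝ) < ((l : ℕ) : ℝ) := by linarith
  have key : ∀ (k : ℕ) (x : fld V), ‖ι x‖ ≤ 1 → ∃ m : ℤ,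
      ‖ι (x - m)‖ ≤ ((l : ℕ) : ℝ) ^ (-(k : ℤ)) := by
    intro k
    induction k with
    | zero => intro x hx; exact ⟨0, by simpa using hx⟩
    | succ k ih =>
      intro x hx
      obtain ⟨m, hm⟩ := ih x hx
      have hlK : (((l : ℕ) : fld V)) ^ k ≠ 0 :=
        pow_ne_zero _ (Nat.cast_ne_zero.mpr l.2.ne_zero)
      have hlk : ‖ι ((((l : ℕ) : fld V)) ^ k)‖ = ((l : ℕ) : ℝ) ^ (-(k : ℤ)) := by
        rw [map_pow, map_natCast, norm_pow, norm_nat, zpow_neg, zpow_natCast, inv_pow]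
      have hpos : (0 : ℝ) < ((l : ℕ) : ℝ) ^ (-(k : ℤ)) := zpow_pos hl0 _
      have hz : ‖ι ((x - m) / (((l : ℕ) : fld V)) ^ k)‖ ≤ 1 := by
        rw [map_div₀, norm_div, hlk, div_le_one hpos]
        exact hm
      obtain ⟨m', hm'⟩ := exists_int_near hN hz
      refine ⟨m + (l : ℕ) ^ k * m', ?_⟩
      set z := (x - m) / (((l : ℕ) : fld V)) ^ k with hzdef
      have h1 : x - ((m + (l : ℕ) ^ k * m' : ℤ) : fld V) = (((l : ℕ) : fld V)) ^ k * (z - m') := by
        rw [hzdef]
        push_cast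
        field_simp
        ring
      rw [h1, map_mul, norm_mul, hlk]
      have h2 : ‖ι (z - m')‖ ≤ ((l : ℕ) : ℝ) ^ (-(1 : ℤ)) := by
        by_cases h0 : z - (m' : fld V) = 0
        · rw [h0, map_zero, norm_zero]
          exact (zpow_pos hl0 _).le
        · obtain ⟨n, hn⟩ := exists_norm_emb hV hl g (z - m') h0
          rw [← hι] at hn
          rw [hn]
          rw [hn] at hm'
          apply zpow_le_zpow_right₀ hl1.le
          have h3 : -n < 0 := by
            by_contra hcon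
            push Not at hcon
            have := one_le_zpow₀ hl1.le hcon
            linarith
          omega
      calc _ ≤ ((l : ℕ) : ℝ) ^ (-(k : ℤ)) * ((l : ℕ) : ℝ) ^ (-(1 : ℤ)) :=
            mul_le_mul_of_nonneg_left h2 hpos.le
        _ = _ := by
          rw [← zpow_add₀ hl0.ne']
          congr 1
          push_cast
          ring
  have main : ∀ x : fld V, ‖ι x‖ ≤ 1 → δ (ι x) = ι x := by
    intro x hx
    rw [← sub_eq_zero, ← norm_eq_zero]
    apply le_antisymm _ (norm_nonneg _)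
    apply le_of_forall_pos_lt_add
    intro ε hε
    obtain ⟨k, hk⟩ := exists_pow_lt_of_lt_one hε (inv_lt_one_of_one_lt₀ hl1)
    obtain ⟨m, hm⟩ := key k x hx
    rw [zero_add]
    have h1 : δ (ι x) - ι x = δ (ι (x - m)) - ι (x - m) := by
      rw [map_sub, map_sub, map_intCast, map_intCast]
      ring
    have h2 : ‖ι (x - m)‖ < ε := by
      refine hm.trans_lt ?_
      rw [zpow_neg, zpow_natCast, ← inv_pow]
      exact hk
    rw [h1, sub_eq_add_neg]
    refine (norm_add_le_max' _ _).trans_lt (max_lt ?_ ?_)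
    · rw [norm_gal]; exact h2
    · rw [norm_neg]; exact h2
  -- general elements
  by_cases hx : ‖ι x‖ ≤ 1
  · exact main x hx
  · have hx0 : ι x ≠ 0 := by
      intro h
      rw [h, norm_zero] at hx
      exact hx zero_le_one
    have h1 : ‖ι x⁻¹‖ ≤ 1 := by
      rw [map_inv₀, norm_inv]
      exact inv_le_one_of_one_le₀ (not_le.mp hx).le
    have h2 := main x⁻¹ h1
    rw [map_inv₀, map_inv₀] at h2
    exact inv_injective h2

end Fermat.Agent.GCFT
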