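import Fermat.Agent.GCFT.LocB

/-!
# `μ_p`-valued classes on the local induced modules are symbols
-/

set_option autoImplicit false
set_option linter.style.haveILetI false
set_option linter.unusedSectionVars false

namespace Fermat.Agent.GCFT

open Fermat.Agent.Coh Fermat.Agent.LocalCFT Fermat.Agent.PLog Fermat.Agent.GalD
open Fermat.Agent.GlobalCFT (XV)
open Fermat.Agent.PT (muQ muL jl jZ toTor invL invU coe_toTor coe_jZ nsmul_jl jl_comm fr)
open ExtCitation (cycloChar pPrime)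

/-- The field of algebraic numbers. -/
local notation "Qb" => AlgebraicClosure ℚ
/-- The absolute Galois group. -/
local notation "GQ" => (AlgebraicClosure ℚ ≃ₐ[ℚ] AlgebraicClosure ℚ)

variable {S : Finset Nat.Primes} {U V : Subgroup GQ} {p : ℕ} [hp : Fact p.Prime]

/-- the local characters -/
noncomputable def psiL (hp2 : p ≠ 2) (l : Nat.Primes) (n : ℕ) : Chr (LF (l : ℕ)) (ZMod (p ^ n)) :=
  ⟨fun δ => PadicInt.toZModPow n (dQ p (rl l δ)), by
    obtain ⟨W, hW, h⟩ := dc_sm (p := p) (l := (l : ℕ)) hp2 n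
    refine ⟨W, hW, fun g u hu => ?_⟩
    change PadicInt.toZModPow n (dQ p (rl l (g * u))) = PadicInt.toZModPow n (dQ p (rl l g))
    rw [map_mul, dQ_mul hp2, map_add, dQ_rl l u, (CFData.toZModPow_eq_zero_iff n _).mpr (h u hu),
      add_zero], fun g h => by
    change PadicInt.toZModPow n (dQ p (rl l (g * h))) = PadicInt.toZModPow n (dQ p (rl l g)) +
      PadicInt.toZModPow n (dQ p (rl l h))
    rw [map_mul, dQ_mul hp2, map_add]⟩

theorem psiL_apply (hp2 : p ≠ 2) (l : Nat.Primes) (n : ℕ) (δ : Gl l) :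
    psiL hp2 l n δ = PadicInt.toZModPow n (dQ p (rl l δ)) := rfl

theorem psiD_eq_psiL (hp2 : p ≠ 2) {l : Nat.Primes} (T : Subgroup (Gl l)) (n : ℕ) (δ : T) :
    psiD (cycCF (l : ℕ) p hp2) T n δ = psiL hp2 l n δ := psiD_apply hp2 T n δ

theorem stb_of_normal (hU : U.Normal) (l : Nat.Primes) (x : GQ) :
    stb (rl l) U x = U.comap (rl l) := by
  ext δ
  rw [mem_stb, Subgroup.mem_comap]
  constructor
  · intro h
    have := hU.conj_mem _ h x
    have e : x * (x⁻¹ * rl l δ * x) * x⁻¹ = rl l δ := by group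
    rwa [e] at this
  · intro h
    have := hU.conj_mem _ h x⁻¹
    rwa [inv_inv] at this

theorem smul_iff_of_normal (hU : U.Normal) (l : Nat.Primes) (x : GQ) (δ : Gl l) :
    rl l δ • (x : GQ ⧸ U) = x ↔ δ ∈ U.comap (rl l) := by
  rw [← mem_stb_iff, stb_of_normal hU]

theorem toInd_mem' {l : Nat.Primes} {f : GQ → Additive (Om l)ˣ}
    (hf : f ∈ XV (rl l) (LU (l : ℕ)) U) :
    toInd (U := U) f ∈ H0 (indL (rl l) U (LU (l : ℕ))) := by
  intro δ
  funext c
  obtain ⟨x, rfl⟩ := QuotientGroup.mk_surjective c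
  rw [indL_apply, MulAction.Quotient.smul_coe, smul_eq_mul, toInd_mk hf, toInd_mk hf, ← hf.1,
    mul_inv_cancel_left]

/-- the `μ_p`-valued cocycles with values in the units -/
theorem jInd_mem {l : Nat.Primes} {z : Gl l × Gl l → (GQ ⧸ U → ZMod p)}
    (hz : z ∈ Z2 (LF (l : ℕ)) ((indRep U (muQ p)).comp (rl l))) :
    (fun q c => jl p l (z q c)) ∈ Z2 (LF (l : ℕ)) (indL (rl l) U (LU (l : ℕ))) := by
  refine post_Z2 (τ := indL (rl l) U (LU (l : ℕ))) ((jl p l).compLeft (GQ ⧸ U)) (fun g v => ?_) hz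
  funext c
  exact jl_comm p l g (v ((rl l g)⁻¹ • c))

/-- evaluation at a coset -/
theorem ev_mem (hU : U.Normal) {l : Nat.Primes} {z : Gl l × Gl l → (GQ ⧸ U → ZMod p)}
    (hz : z ∈ Z2 (LF (l : ℕ)) ((indRep U (muQ p)).comp (rl l))) (x : GQ) :
    (fun q : ↥(U.comap (rl l)) × ↥(U.comap (rl l)) => z ((q.1 : Gl l), (q.2 : Gl l)) (x : GQ ⧸ U)) ∈
      Z2 ((LF (l : ℕ)).res (U.comap (rl l))) (rep (muL p l) (U.comap (rl l))) := by
  refine ⟨?_, fun g h j => ?_⟩
  · obtain ⟨W, hW, h⟩ := hz.1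
    exact ⟨_, ⟨W, hW, rfl⟩, fun g g' u hu v hv => congrFun (h g g' u hu v hv) _⟩
  · have h1 := congrFun (hz.2 (g : Gl l) (h : Gl l) (j : Gl l)) (x : GQ ⧸ U)
    have h2 : (rl l (g : Gl l))⁻¹ • (x : GQ ⧸ U) = x := by
      rw [inv_smul_eq_iff, eq_comm, smul_iff_of_normal hU]
      exact g.2
    change z (_, _) _ + z (_, _) _ = muQ p (rl l (g : Gl l)) (z ((h : Gl l), (j : Gl l))
      ((rl l (g : Gl l))⁻¹ • (x : GQ ⧸ U))) + z (_, _) _ at h1
    rw [h2] at h1
    exact h1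

/-- the local solution at a point -/
theorem exists_point (hp2 : p ≠ 2) (hU : U.Normal) (hUo : IsOpen (U : Set GQ)) {l : Nat.Primes}
    {z : Gl l × Gl l → (GQ ⧸ U → ZMod p)}
    (hz : z ∈ Z2 (LF (l : ℕ)) ((indRep U (muQ p)).comp (rl l))) {n r : ℕ}
    (hn : n = (cycCF (l : ℕ) p hp2).f (U.comap (rl l)) + (r + 1)) (x : GQ) :
    ∃ F ∈ XV (rl l) (LU (l : ℕ)) U, ∃ c : ↥(U.comap (rl l)) → Additive (Om l)ˣ,
      ((LF (l : ℕ)).res (U.comap (rl l))).Sm1 c ∧ ∀ g h : ↥(U.comap (rl l)),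
        jl p l (z ((g : Gl l), (h : Gl l)) (x : GQ ⧸ U)) =
          carry (psiL hp2 l n g) (psiL hp2 l n h) • F x +
            (LU (l : ℕ) (g : Gl l) (c h) - c (g * h) + c g) := by
  subst hn
  have hT : (LF (l : ℕ)).IsOpen (U.comap (rl l)) := PT.rl_cont hUo
  have ht : p • H2.mk ((LF (l : ℕ)).res (U.comap (rl l))) (rep (LU (l : ℕ)) (U.comap (rl l)))
      (jZ ⟨_, ev_mem hU hz x⟩) = 0 := PT.mk_jZ_mem _
  obtain ⟨a, ha⟩ := exists_sy_psi (cycCF (l : ℕ) p hp2) hT r _ ht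
  obtain ⟨c, hc, hcob⟩ := H2.mk_eq_mk.mp ha.symm
  obtain ⟨F, hF, hFx, -⟩ := exists_XV_single (rl l) (LU (l : ℕ)) U x (a : Additive (Om l)ˣ)
    (fun δ hδ => by
      rw [stb_of_normal hU] at hδ
      exact (mem_FF (LU (l : ℕ))).mp a.2 δ hδ)
  refine ⟨F, hF, c, hc, fun g h => ?_⟩
  have h1 := hcob g h
  rw [hFx]
  rw [symZ_apply, psiD_eq_psiL, psiD_eq_psiL] at h1
  exact h1

/-- **Local classes are symbols.** -/
theorem exists_local_F (hp2 : p ≠ 2) (hU : U.Normal) (hUo : IsOpen (U : Set GQ)) {l : Nat.Primes}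
    {z : Gl l × Gl l → (GQ ⧸ U → ZMod p)}
    (hz : z ∈ Z2 (LF (l : ℕ)) ((indRep U (muQ p)).comp (rl l))) {n r : ℕ}
    (hn : n = (cycCF (l : ℕ) p hp2).f (U.comap (rl l)) + (r + 1)) :
    ∃ F ∈ XV (rl l) (LU (l : ℕ)) U, ∃ b : Gl l → (GQ ⧸ U → Additive (Om l)ˣ),
      (LF (l : ℕ)).Sm1 b ∧ ∀ g h, (fun c => jl p l (z (g, h) c)) =
        carry (psiL hp2 l n g) (psiL hp2 l n h) • toInd F +
          (indL (rl l) U (LU (l : ℕ)) g (b h) - b (g * h) + b g) := by
  classical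
  have hfi := finiteIndex_of_isOpen hUo
  choose Fs hFs cs hcs hcob using fun x => exists_point hp2 hU hUo hz hn x
  set F : GQ → Additive (Om l)ˣ := fun y => Fs (GlobalCFT.cl (rl l) U y).out y with hFdef
  have hF : F ∈ XV (rl l) (LU (l : ℕ)) U := by
    refine ⟨fun δ y => ?_, fun u hu y => ?_⟩
    · have h1 : GlobalCFT.cl (rl l) U (rl l δ * y) = GlobalCFT.cl (rl l) U y := by
        symm
        rw [GlobalCFT.cl_eq_iff]
        exact ⟨δ, 1, U.one_mem, by rw [mul_one]⟩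
      simp only [hFdef]
      rw [h1]
      exact (hFs _).1 δ y
    · have h1 : GlobalCFT.cl (rl l) U (y * u) = GlobalCFT.cl (rl l) U y := by
        symm
        rw [GlobalCFT.cl_eq_iff]
        exact ⟨1, u, hu, by rw [map_one, one_mul]⟩
      simp only [hFdef]
      rw [h1]
      exact (hFs _).2 u hu y
  have hFout : ∀ q : GlobalCFT.Pl (rl l) U, F q.out = Fs q.out q.out := by
    intro q
    have h1 : GlobalCFT.cl (rl l) U q.out = q := Quotient.out_eq q
    simp only [hFdef]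
    rw [h1]
  have hZ : (fun (q : Gl l × Gl l) c => jl p l (z q c)) -
      (symZ (psiL hp2 l n) ⟨toInd F, toInd_mem' hF⟩ :
        ↥(Z2 (LF (l : ℕ)) (indL (rl l) U (LU (l : ℕ))))).1 ∈
        Z2 (LF (l : ℕ)) (indL (rl l) U (LU (l : ℕ))) := sub_mem (jInd_mem hz) (Subtype.prop _)
  have hlev : ∃ W ∈ LF (l : ℕ), ∀ w ∈ W, ∀ c : GQ ⧸ U, rl l w • c = c := by
    obtain ⟨W, hW, hle⟩ := PT.rl_cont (l := l) hUo
    refine ⟨W, hW, fun w hw c => ?_⟩
    obtain ⟨x, rfl⟩ := QuotientGroup.mk_surjective c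
    exact (smul_iff_of_normal hU l x w).mpr (hle hw)
  obtain ⟨b, hb, hcobb⟩ := semi2r hlev hZ
    (Set.range fun q : GlobalCFT.Pl (rl l) U => ((q.out : GQ) : GQ ⧸ U)) (fun c => by
      obtain ⟨y, rfl⟩ := QuotientGroup.mk_surjective c
      set q := GlobalCFT.cl (rl l) U y with hq
      have h1 : GlobalCFT.cl (rl l) U q.out = GlobalCFT.cl (rl l) U y := Quotient.out_eq q
      obtain ⟨δ, u, hu, h2⟩ := (GlobalCFT.cl_eq_iff (rl l) U).mp h1
      refine ⟨_, ⟨q, rfl⟩, δ, ?_⟩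
      rw [MulAction.Quotient.smul_coe, smul_eq_mul, eq_comm, QuotientGroup.eq, h2,
        inv_mul_cancel_left]
      exact hu) (by
      rintro _ ⟨q, rfl⟩
      set x : GQ := q.out with hx
      refine ⟨fun g => if h : g ∈ U.comap (rl l) then cs x ⟨g, h⟩ else 0, ?_, ?_⟩
      · obtain ⟨_, ⟨W, hW, rfl⟩, hcW⟩ := hcs x
        refine ⟨W, hW, fun g hg w hw hwc => ?_⟩
        have h1 := (smul_iff_of_normal hU l x g).mp hg
        have h2 := (smul_iff_of_normal hU l x w).mp hwc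
        simp only
        rw [dif_pos (mul_mem h1 h2), dif_pos h1]
        exact hcW ⟨g, h1⟩ ⟨w, h2⟩ hw
      · intro g h hg hh
        have h1 := (smul_iff_of_normal hU l x g).mp hg
        have h2 := (smul_iff_of_normal hU l x h).mp hh
        have h3 := hcob x ⟨g, h1⟩ ⟨h, h2⟩
        have h4 : toInd (U := U) F (x : GQ ⧸ U) = Fs x x := (toInd_mk hF x).trans (hFout q)
        simp only
        rw [dif_pos (mul_mem h1 h2), dif_pos h1, dif_pos h2]
        change jl p l (z (g, h) (x : GQ ⧸ U)) - carry (psiL hp2 l n g) (psiL hp2 l n h) •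
          toInd (U := U) F (x : GQ ⧸ U) = _
        rw [h4, h3, add_sub_cancel_left]
        rfl)
  refine ⟨F, hF, b, hb, fun g h => ?_⟩
  rw [← hcobb g h]
  change _ = _ + ((fun c => jl p l (z (g, h) c)) - carry (psiL hp2 l n g) (psiL hp2 l n h) •
    toInd F)
  rw [add_sub_cancel]

end Fermat.Agent.GCFT
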