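import Fermat.Agent.GCFT.Q0a

/-!
# From local to global symbols
-/

set_option autoImplicit false
set_option linter.style.haveILetI false
set_option linter.unusedSectionVars false

namespace Fermat.Agent.GCFT

open Fermat.Agent.Coh Fermat.Agent.LocalCFT Fermat.Agent.PLog Fermat.Agent.GalD
open Fermat.Agent.GlobalCFT (XV)
open Fermat.Agent.PT (muQ muL jl jZ toTor invL invU coe_toTor coe_jZ nsmul_jl jl_comm fr stabL
  stabHom mem_stabL)
open ExtCitation (cycloChar pPrime)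

/-- The field of algebraic numbers. -/
local notation "Qb" => AlgebraicClosure ℚ
/-- The absolute Galois group. -/
local notation "GQ" => (AlgebraicClosure ℚ ≃ₐ[ℚ] AlgebraicClosure ℚ)

variable {S : Finset Nat.Primes} {U V : Subgroup GQ} {p : ℕ} [hp : Fact p.Prime]

/-- the invariant of a trace -/
theorem inv_tr (hp2 : p ≠ 2) {l : Nat.Primes} [Fintype (GQ ⧸ U)]
    {z : Gl l × Gl l → (GQ ⧸ U → ZMod p)} {F : GQ → Additive (Om l)ˣ}
    (hF : F ∈ XV (rl l) (LU (l : ℕ)) U) {b : Gl l → (GQ ⧸ U → Additive (Om l)ˣ)}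
    (hb : (LF (l : ℕ)).Sm1 b) {n r : ℕ} (hcob : ∀ g h, (fun c => jl p l (z (g, h) c)) =
        carry (psiL hp2 l n g) (psiL hp2 l n h) • toInd F +
          (indL (rl l) U (LU (l : ℕ)) g (b h) - b (g * h) + b g))
    (hn : n = (cycCF (l : ℕ) p hp2).f ⊤ + (r + 1))
    (hf' : (fun q => ∑ c, z q c) ∈ Z2 (LF (l : ℕ)) (muL p l)) :
    ∃ w : ℤ_[p], v0 (l : ℕ) p hp2 (trL F hF) = (p : ℤ_[p]) ^ (n - 1) * w ∧
      invL hp2 l (H2.mk (LF (l : ℕ)) (muL p l) ⟨_, hf'⟩) = PadicInt.toZMod w := by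
  refine invL_of_sym hp2 ⟨_, hf'⟩ hn (trL F hF) ?_
  rw [sym_apply, H2.mk_eq_mk]
  refine ⟨fun δ => sumL (k := ℤ) U (b δ), ?_, fun δ ε => ?_⟩
  · obtain ⟨W, hW, hbW⟩ := hb
    exact ⟨_, ⟨W, hW, rfl⟩, fun g u hu => congrArg (sumL (k := ℤ) U) (hbW g u hu)⟩
  · have h1 := congrArg (sumL (k := ℤ) U) (hcob (δ : Gl l) (ε : Gl l))
    rw [map_add, map_add, map_sub, map_nsmul, sumL_act] at h1
    have h2 : sumL (k := ℤ) U (fun c => jl p l (z ((δ : Gl l), (ε : Gl l)) c)) =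
        jl p l (∑ c, z ((δ : Gl l), (ε : Gl l)) c) := (map_sum (jl p l) _ _).symm
    rw [h2] at h1
    rw [symZ_apply, psiD_eq_psiL, psiD_eq_psiL]
    exact h1

/-- the idele with given components at `S` and trivial divisor -/
noncomputable def iF (hU : (famS S).IsOpen U) (F : ∀ l : Nat.Primes, GQ → Additive (Om l)ˣ)
    (hF : ∀ l ∈ S, F l ∈ XV (rl l) (LU ((l : Nat.Primes) : ℕ)) U) : ↥(FF (repI S) U) :=
  mkFF hU (fun l g => (F l g).toMul) 0
    (fun l hl δ g => congrArg uval ((hF l hl).1 δ g))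
    (fun l hl g u hu => congrArg uval ((hF l hl).2 u hu g))
    (fun _ _ _ _ => rfl) (fun _ _ _ _ _ => rfl) (by simp)

theorem iF_fst (hU : (famS S).IsOpen U) (F : ∀ l : Nat.Primes, GQ → Additive (Om l)ˣ)
    (hF : ∀ l ∈ S, F l ∈ XV (rl l) (LU ((l : Nat.Primes) : ℕ)) U) {l : Nat.Primes} (hl : l ∈ S) :
    (iF hU F hF).1.1.1 l = F l := by
  funext g
  apply uval_injective
  exact cS_mkFF hU _ _ _ _ _ _ _ hl g

theorem iF_snd (hU : (famS S).IsOpen U) (F : ∀ l : Nat.Primes, GQ → Additive (Om l)ˣ)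
    (hF : ∀ l ∈ S, F l ∈ XV (rl l) (LU ((l : Nat.Primes) : ℕ)) U) : (iF hU F hF).1.1.2 = 0 := by
  classical
  funext l g
  change (if l ∈ S then (0 : ℤ) else (0 : Nat.Primes → GQ → ℤ) l g) = 0
  rw [Pi.zero_apply, Pi.zero_apply, ite_self]

theorem V0_iF (hp2 : p ≠ 2) [Fintype (GQ ⧸ U)] (hU : (famS S).IsOpen U)
    (F : ∀ l : Nat.Primes, GQ → Additive (Om l)ˣ)
    (hF : ∀ l ∈ S, F l ∈ XV (rl l) (LU ((l : Nat.Primes) : ℕ)) U) :
    V0 S hp2 (nmr (repI S) le_top hU (iF hU F hF)) =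
      ∑ l : S, v0 ((l.1 : Nat.Primes) : ℕ) p hp2 (trL (F l.1) (hF l.1 l.2)) := by
  have h1 : ∀ l : S, lc (nmr (repI S) le_top hU (iF hU F hF)) l.2 = trL (F l.1) (hF l.1 l.2) := by
    intro l
    rw [lc_nmr hU _ l.2]
    apply Subtype.ext
    rw [coe_trL, coe_trL, iF_fst hU F hF l.2]
  have h2 : V0d (p := p) S (nmr (repI S) le_top hU (iF hU F hF)) = 0 := by
    rw [V0d_apply]
    refine (finsum_congr fun l => ?_).trans finsum_zero
    have h3 : cD (nmr (repI S) le_top hU (iF hU F hF)) l 1 = 0 := by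
      rw [cD_nmr_top hU]
      refine Finset.sum_eq_zero fun c _ => ?_
      exact congrFun (congrFun (iF_snd hU F hF) l) _
    rw [h3, Int.cast_zero, zero_mul]
  rw [V0_apply, h2, add_zero]
  exact Finset.sum_congr rfl fun l _ => by rw [h1]

/-- invariant elements of `KS` from invariant ideles -/
theorem exists_x0 (hpS : pPrime p ∈ S) (a : ↥(FF (repI S) U))
    (ha : (a : IS S) ∈ LinearMap.range (iKS S)) :
    ∃ x₀ : ↥(FF (repK S) U), iKS S x₀ = a := by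
  obtain ⟨x, hx⟩ := ha
  refine ⟨⟨x, (mem_FF (repK S)).mpr fun g hg => ?_⟩, hx⟩
  apply iKS_injective ⟨_, hpS⟩
  rw [iKS_comm, hx, (mem_FF (repI S)).mp a.2 g hg]

/-- Decomposition of an idele of valuation divisible by `p ^ n`. -/
theorem exists_decomp' (hp2 : p ≠ 2) (hpS : pPrime p ∈ S) (hU : (famS S).IsOpen U) {n j : ℕ}
    (hj : n = (gCF S hp2 hpS).f U + j) (A : ↥(FF (repI S) U))
    (hA : (p : ℤ_[p]) ^ n ∣ V0 S hp2 (nmr (repI S) le_top hU A)) :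
    ∃ (A₁ : ↥(FF (repI S) ((gCF S hp2 hpS).lay U j))) (x₀ : ↥(FF (repK S) U)),
      iKS S x₀ = (A - nmr (repI S) ((gCF S hp2 hpS).lay_le U j)
        ((gCF S hp2 hpS).lay_isOpen hU j) A₁ : ↥(FF (repI S) U)) := by
  rw [← sym_C_iff hp2 hpS hU, hj] at hA
  obtain ⟨b, hb⟩ := exists_nmr_of_sym (gCF S hp2 hpS) hU j _ hA
  obtain ⟨A₁, rfl⟩ := mkC_surjective ⟨_, hpS⟩ ((gCF S hp2 hpS).lay_isOpen hU j) b
  rw [nmr_mkC] at hb
  refine ⟨A₁, exists_x0 hpS _ ?_⟩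
  rw [← mkC_eq_zero, map_sub, hb, sub_self]

theorem pow_nsmul_sym {k Γ M : Type*} [CommRing k] [Group Γ] [AddCommGroup M] [Module k M]
    {𝓤 : Fam Γ} {ρ : Representation k Γ M} {m : ℕ} [NeZero m] (χ : Chr 𝓤 (ZMod m))
    (a : ↥(H0 ρ)) : m • sym ρ χ a = 0 := by
  rw [← sym_nsmul_left]
  have : m • χ = 0 := Chr.ext fun g => by
    rw [Chr.nsmul_apply, nsmul_eq_mul, ZMod.natCast_self, zero_mul, Chr.zero_apply]
  rw [this, sym_zero_left]

end Fermat.Agent.GCFT
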