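import Fermat.Agent.GCFT.Q0b

/-!
# From local to global symbols, continued
-/

set_option autoImplicit false
set_option linter.style.haveILetI false
set_option linter.unusedSectionVars false

namespace Fermat.Agent.GCFT

open Fermat.Agent.Coh Fermat.Agent.LocalCFT Fermat.Agent.PLog Fermat.Agent.GalD
open Fermat.Agent.GlobalCFT (XV)
open Fermat.Agent.PT (muQ muL jl jZ toTor invL invU coe_toTor coe_jZ nsmul_jl jl_comm fr stabL
  stabHom mem_stabL)
open ExtCitation (cycloChar pPrime)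

/-- The field of algebraic numbers. -/
local notation "Qb" => AlgebraicClosure ℚ
/-- The absolute Galois group. -/
local notation "GQ" => (AlgebraicClosure ℚ ≃ₐ[ℚ] AlgebraicClosure ℚ)

variable {S : Finset Nat.Primes} {U V : Subgroup GQ} {p : ℕ} [hp : Fact p.Prime]

omit hp in
theorem aux_smul {M : Type*} [AddCommGroup M] (p k : ℕ) (j x u v w : M)
    (h1 : j = k • x + (u - v + w)) (hj : p • j = 0) :
    k • (p • x) = -(p • u) - (-(p • v)) + (-(p • w)) := by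
  rw [h1, smul_add, smul_comm, add_eq_zero_iff_eq_neg] at hj
  rw [hj, smul_add, smul_sub]
  abel

theorem nsmul_sym_A (hp2 : p ≠ 2) (hpS : pPrime p ∈ S) (hUn : U.Normal) (hU : (famS S).IsOpen U)
    {n : ℕ}
    (F : ∀ l : Nat.Primes, GQ → Additive (Om l)ˣ)
    (hF : ∀ l ∈ S, F l ∈ XV (rl l) (LU ((l : Nat.Primes) : ℕ)) U)
    (z : ∀ l : Nat.Primes, Gl l × Gl l → (GQ ⧸ U → ZMod p))
    (b : ∀ l : Nat.Primes, Gl l → (GQ ⧸ U → Additive (Om l)ˣ))
    (hb : ∀ l ∈ S, (LF ((l : Nat.Primes) : ℕ)).Sm1 (b l))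
    (hcob : ∀ l ∈ S, ∀ g h, (fun c => jl p l (z l (g, h) c)) =
        carry (psiL hp2 l n g) (psiL hp2 l n h) • toInd (F l) +
          (indL (rl l) U (LU ((l : Nat.Primes) : ℕ)) g (b l h) - b l (g * h) + b l g)) :
    p • sym (rep (repI S) U) (psiD (gCF S hp2 hpS) U n) (iF hU F hF) = 0 := by
  rw [← map_nsmul, sym_apply, H2.mk_eq_zero]
  have hval : ∀ q : U × U, (symZ (ρ := rep (repI S) U) (psiD (gCF S hp2 hpS) U n)
      (p • iF hU F hF) : U × U → IS S) q =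
      carry (psiD (gCF S hp2 hpS) U n q.1) (psiD (gCF S hp2 hpS) U n q.2) •
        (p • ((iF hU F hF : ↥(FF (repI S) U)) : IS S)) := fun q => rfl
  obtain ⟨a, ha, -, hac⟩ := GlobalCFT.semilocal_two hU
    (symZ (ρ := rep (repI S) U) (psiD (gCF S hp2 hpS) U n) (p • iF hU F hF)) (fun q => by
      rw [hval, ← mul_smul]
      change (carry (psiD (gCF S hp2 hpS) U n q.1) (psiD (gCF S hp2 hpS) U n q.2) * p) •
        (iF hU F hF).1.1.2 = 0
      rw [iF_snd, smul_zero]) (fun l hl x => by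
      obtain ⟨W, hW, hbW⟩ := hb l hl
      refine ⟨fun δ => -(p • b l δ (x : GQ ⧸ U)), ⟨_, ⟨W, hW, rfl⟩, fun g u hu => ?_⟩,
        fun δ ε => ?_⟩
      · have h1 := congrFun (hbW (g : Gl l) u hu) (x : GQ ⧸ U)
        exact congrArg (fun y => -(p • y)) h1
      · have h1 := congrFun (hcob l hl (δ : Gl l) (ε : Gl l)) (x : GQ ⧸ U)
        have hδ : (rl l (δ : Gl l))⁻¹ • (x : GQ ⧸ U) = x := by
          rw [inv_smul_eq_iff, eq_comm, smul_iff_of_normal hUn, ← stb_of_normal hUn l x]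
          exact mem_stabL.mp δ.2
        change jl p l (z l ((δ : Gl l), (ε : Gl l)) (x : GQ ⧸ U)) =
          carry (psiL hp2 l n δ) (psiL hp2 l n ε) • toInd (U := U) (F l) (x : GQ ⧸ U) +
            (LU (l : ℕ) (δ : Gl l) (b l ε ((rl l (δ : Gl l))⁻¹ • (x : GQ ⧸ U))) -
              b l ((δ : Gl l) * ε) (x : GQ ⧸ U) + b l δ (x : GQ ⧸ U)) at h1
        rw [hδ, toInd_mk (hF l hl)] at h1
        have h3 : ∀ δ : stabL l x U, psiD (gCF S hp2 hpS) U n (stabHom l x U δ) =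
            psiL hp2 l n δ := by
          intro δ
          change PadicInt.toZModPow n (dQ p (x⁻¹ * rl l δ * x)) = _
          rw [dQ_conj hp2, psiL_apply]
        rw [hval]
        change carry (psiD (gCF S hp2 hpS) U n (stabHom l x U δ))
          (psiD (gCF S hp2 hpS) U n (stabHom l x U ε)) • (p • (iF hU F hF).1.1.1 l x) =
            LU (l : ℕ) (δ : Gl l) (-(p • b l ε (x : GQ ⧸ U))) -
              (-(p • b l ((δ : Gl l) * ε) (x : GQ ⧸ U))) + (-(p • b l δ (x : GQ ⧸ U)))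
        rw [h3, h3, iF_fst hU F hF hl, map_neg, map_nsmul]
        exact aux_smul p _ _ _ _ _ _ h1 (nsmul_jl p l _))
  exact ⟨a, ha, hac⟩

theorem nsmul_sym_x0 (hp2 : p ≠ 2) (hpS : pPrime p ∈ S)
    (hU : (famS S).IsOpen U) {n j : ℕ} (hj : n = (gCF S hp2 hpS).f U + j)
    (F : ∀ l : Nat.Primes, GQ → Additive (Om l)ˣ)
    (hF : ∀ l ∈ S, F l ∈ XV (rl l) (LU ((l : Nat.Primes) : ℕ)) U)
    (hA : p • sym (rep (repI S) U) (psiD (gCF S hp2 hpS) U n) (iF hU F hF) = 0)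
    (A₁ : ↥(FF (repI S) ((gCF S hp2 hpS).lay U j))) (x₀ : ↥(FF (repK S) U))
    (hx : iKS S x₀ = (iF hU F hF - nmr (repI S) ((gCF S hp2 hpS).lay_le U j)
        ((gCF S hp2 hpS).lay_isOpen hU j) A₁ : ↥(FF (repI S) U))) :
    p • sym (rep (repK S) U) (psiD (gCF S hp2 hpS) U n) x₀ = 0 := by
  have hS : S.Nonempty := ⟨_, hpS⟩
  refine inj_K (p := p) (n := n) (hp.out.odd_of_ne_two hp2) hS hU _ ?_ ?_
  · rw [smul_comm, pow_nsmul_sym, smul_zero]
  · have h1 := Mor.mapH2_sym ((SESres (sesC hS) U).iMor ((famS S).res U))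
      (psiD (gCF S hp2 hpS) U n) (psiD (gCF S hp2 hpS) U n) (fun _ => rfl) x₀
      (iF hU F hF - nmr (repI S) ((gCF S hp2 hpS).lay_le U j)
        ((gCF S hp2 hpS).lay_isOpen hU j) A₁) hx.symm
    have h2 := sym_nmr_eq_zero (gCF S hp2 hpS) hU j (repI S) A₁
    rw [← hj] at h2
    rw [map_nsmul, h1, map_sub, h2, sub_zero, hA]

/-- lifting to `μ_p` -/
theorem exists_m (hp2 : p ≠ 2) (hpS : pPrime p ∈ S) (hU : (famS S).IsOpen U) {n j : ℕ}
    (hj : n = (gCF S hp2 hpS).f U + j)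
    (F : ∀ l : Nat.Primes, GQ → Additive (Om l)ˣ)
    (hF : ∀ l ∈ S, F l ∈ XV (rl l) (LU ((l : Nat.Primes) : ℕ)) U)
    (A₁ : ↥(FF (repI S) ((gCF S hp2 hpS).lay U j))) (x₀ : ↥(FF (repK S) U))
    (hx : iKS S x₀ = (iF hU F hF - nmr (repI S) ((gCF S hp2 hpS).lay_le U j)
        ((gCF S hp2 hpS).lay_isOpen hU j) A₁ : ↥(FF (repI S) U)))
    (hp0 : p • sym (rep (repK S) U) (psiD (gCF S hp2 hpS) U n) x₀ = 0) :
    ∃ (m : ↥(Z2 ((famS S).res U) (rep (muQ p) U))) (r : U → KS S), ((famS S).res U).Sm1 r ∧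
      ∀ g h : U, carry (psiD (gCF S hp2 hpS) U n g) (psiD (gCF S hp2 hpS) U n h) • (x₀ : KS S) =
        jK hpS ((m : U × U → ZMod p) (g, h)) + (repK S (g : GQ) (r h) - r (g * h) + r g) := by
  have h2 := sym_nmr_eq_zero (gCF S hp2 hpS) hU j (repI S) A₁
  rw [← hj, sym_apply, H2.mk_eq_zero] at h2
  obtain ⟨e, he, hec⟩ := h2
  exact exists_mu_lift hpS hU (symZ (ρ := rep (repK S) U) (psiD (gCF S hp2 hpS) U n) x₀)
    (fun g => - e g) (he.post fun a => -a) (fun g h => by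
    have h3 := congrArg (fun a : IS S => a.1.2) (hec g h)
    change carry (psiD (gCF S hp2 hpS) U n g) (psiD (gCF S hp2 hpS) U n h) •
      (nmr (repI S) ((gCF S hp2 hpS).lay_le U j) ((gCF S hp2 hpS).lay_isOpen hU j) A₁).1.1.2 =
        (repI S (g : GQ) (e h) - e (g * h) + e g).1.2 at h3
    have h4 : iKS S ((symZ (ρ := rep (repK S) U) (psiD (gCF S hp2 hpS) U n) x₀ :
        U × U → KS S) (g, h)) = carry (psiD (gCF S hp2 hpS) U n g) (psiD (gCF S hp2 hpS) U n h) •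
          iKS S x₀ := map_nsmul _ _ _
    rw [h4, hx]
    change carry (psiD (gCF S hp2 hpS) U n g) (psiD (gCF S hp2 hpS) U n h) •
      ((iF hU F hF).1.1.2 - (nmr (repI S) ((gCF S hp2 hpS).lay_le U j)
        ((gCF S hp2 hpS).lay_isOpen hU j) A₁).1.1.2) = _
    rw [iF_snd, zero_sub, smul_neg, h3]
    have h5 : repI S (g : GQ) (-e h) - -e (g * h) + -e g =
        -(repI S (g : GQ) (e h) - e (g * h) + e g) := by rw [map_neg]; abel
    rw [h5]
    rfl) hp0

end Fermat.Agent.GCFT
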