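import Fermat.Agent.GCFT.Q0c

/-!
# The cokernel of localisation for `H²(U, μ_p)`
-/

set_option autoImplicit false
set_option linter.style.haveILetI false
set_option linter.unusedSectionVars false

namespace Fermat.Agent.GCFT

open Fermat.Agent.Coh Fermat.Agent.LocalCFT Fermat.Agent.PLog Fermat.Agent.GalD
open Fermat.Agent.GlobalCFT (XV)
open Fermat.Agent.PT (muQ muL jl jZ toTor invL invU coe_toTor coe_jZ nsmul_jl jl_comm fr stabL
  stabHom mem_stabL jl_injective exists_jl)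
open ExtCitation (cycloChar pPrime)

/-- The field of algebraic numbers. -/
local notation "Qb" => AlgebraicClosure ℚ
/-- The absolute Galois group. -/
local notation "GQ" => (AlgebraicClosure ℚ ≃ₐ[ℚ] AlgebraicClosure ℚ)

section general

variable {k : Type*} [CommRing k] {Γ : Type*} [Group Γ] {M : Type*} [AddCommGroup M]
  [Module k M] {𝓤 : Fam Γ} {U : Subgroup Γ} {ρ : Representation k Γ M}

theorem cob_of_sh (hU : 𝓤.IsOpen U) (z : ↥(Z2 𝓤 (indRep U ρ))) (b : U → M)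
    (hb : (𝓤.res U).Sm1 b)
    (h : ∀ g h : U, (z : Γ × Γ → (Γ ⧸ U → M)) ((g : Γ), (h : Γ)) ((1 : Γ) : Γ ⧸ U) =
      ρ g (b h) - b (g * h) + b g) :
    ∃ t : Γ → (Γ ⧸ U → M), 𝓤.Sm1 t ∧
      ∀ g h, (z : Γ × Γ → (Γ ⧸ U → M)) (g, h) = indRep U ρ g (t h) - t (g * h) + t g := by
  have h1 : H2.mk 𝓤 (indRep U ρ) z = 0 := by
    apply sh_H2_injective hU
    rw [map_zero, Mor.mapH2_mk, H2.mk_eq_zero]
    exact ⟨b, hb, h⟩
  exact H2.mk_eq_zero.mp h1

theorem exists_ind_inv (𝓤 : Fam Γ) (x₀ : ↥(H0 (rep ρ U))) :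
    ∃ x : ↥(H0 (indRep U ρ)), ∀ y : Γ, (x : Γ ⧸ U → M) (y : Γ ⧸ U) = ρ y x₀ := by
  obtain ⟨x, hx⟩ := sh_H0_surjective (𝓤 := 𝓤) (ρ := ρ) (U := U) x₀
  refine ⟨x, fun y => ?_⟩
  have h1 : (x : Γ ⧸ U → M) ((1 : Γ) : Γ ⧸ U) = x₀ := congrArg Subtype.val hx
  have h2 := congrFun (x.2 y) (y : Γ ⧸ U)
  rw [indRep_apply, MulAction.Quotient.smul_coe, smul_eq_mul, inv_mul_cancel, h1] at h2
  exact h2.symm

/-- arithmetic of torsion cochains -/
theorem aux_tor {A : Type*} [AddCommGroup A] (p : ℕ) (j u v w : A) (h1 : j = u - v + w)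
    (hj : p • j = 0) : p • v = p • u + p • w := by
  rw [h1, smul_add, smul_sub] at hj
  rw [← sub_eq_zero, ← neg_eq_zero, ← hj]
  abel

theorem aux_tor2 {A : Type*} [AddCommGroup A] (p : ℕ) (b u γ : A)
    (h : p • b = p • u - p • γ) : p • (b - (u - γ)) = 0 := by
  rw [smul_sub, h, smul_sub, sub_self]

end general

variable {S : Finset Nat.Primes} {U V : Subgroup GQ} {p : ℕ} [hp : Fact p.Prime]

/-- the global characters -/
noncomputable def psiG (hp2 : p ≠ 2) (hpS : pPrime p ∈ S) (n : ℕ) :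
    Chr (famS S) (ZMod (p ^ n)) :=
  ⟨fun g => PadicInt.toZModPow n (dQ p g), by
    obtain ⟨W, hW, h⟩ := dQ_sm hp2 hpS n
    refine ⟨W, hW, fun g u hu => ?_⟩
    change PadicInt.toZModPow n (dQ p (g * u)) = PadicInt.toZModPow n (dQ p g)
    rw [dQ_mul hp2, map_add, (CFData.toZModPow_eq_zero_iff n _).mpr (h u hu),
      add_zero], fun g h => by
    change PadicInt.toZModPow n (dQ p (g * h)) = PadicInt.toZModPow n (dQ p g) +
      PadicInt.toZModPow n (dQ p h)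
    rw [dQ_mul hp2, map_add]⟩

theorem psiG_rl (hp2 : p ≠ 2) (hpS : pPrime p ∈ S) (n : ℕ) (l : Nat.Primes) (δ : Gl l) :
    psiG hp2 hpS n (rl l δ) = psiL hp2 l n δ := rfl

theorem psiG_coe (hp2 : p ≠ 2) (hpS : pPrime p ∈ S) (n : ℕ) (g : U) :
    psiG hp2 hpS n g = psiD (gCF S hp2 hpS) U n g := rfl

/-- evaluation of ideles at the distinguished place above `l` -/
noncomputable def evl (S : Finset Nat.Primes) (l : Nat.Primes) : IS S →+ Additive (Om l)ˣ where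
  toFun a := a.1.1 l 1
  map_zero' := rfl
  map_add' _ _ := rfl

theorem evl_rl {l : Nat.Primes} (hl : l ∈ S) (δ : Gl l) (a : IS S) :
    evl S l (repI S (rl l δ) a) = LU (l : ℕ) δ (evl S l a) := by
  change a.1.1 l (1 * rl l δ) = _
  rw [one_mul, ← mul_one (rl l δ), a.2.1 l hl δ 1]
  rfl

/-- localisation of idele valued coboundaries -/
theorem loc_cob {l : Nat.Primes} (hl : l ∈ S) {t : GQ → (GQ ⧸ U → IS S)} (ht : (famS S).Sm1 t) :
    (LF (l : ℕ)).Sm1 (fun δ => fun c : GQ ⧸ U => evl S l (t (rl l δ) c)) ∧ ∀ δ ε : Gl l,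
      (fun c => evl S l ((indRep U (repI S) (rl l δ) (t (rl l ε)) - t (rl l δ * rl l ε) +
        t (rl l δ)) c)) =
        indL (rl l) U (LU (l : ℕ)) δ (fun c => evl S l (t (rl l ε) c)) -
          (fun c => evl S l (t (rl l (δ * ε)) c)) + fun c => evl S l (t (rl l δ) c) := by
  constructor
  · obtain ⟨W, hW, h⟩ := ht
    obtain ⟨W', hW', hle⟩ := PT.rl_cont (l := l) hW.2.1
    refine ⟨W', hW', fun g u hu => ?_⟩
    funext c
    have h1 := congrFun (h (rl l g) (rl l u) (hle hu)) c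
    rw [← map_mul] at h1
    exact congrArg (evl S l) h1
  · intro δ ε
    funext c
    change evl S l (repI S (rl l δ) (t (rl l ε) ((rl l δ)⁻¹ • c)) - t (rl l δ * rl l ε) c +
      t (rl l δ) c) = LU (l : ℕ) δ (evl S l (t (rl l ε) ((rl l δ)⁻¹ • c))) -
        evl S l (t (rl l (δ * ε)) c) + evl S l (t (rl l δ) c)
    rw [map_add, map_sub, evl_rl hl, map_mul]

/-- from units back to `μ_p` -/
theorem jl_cob {l : Nat.Primes} (hUo : IsOpen (U : Set GQ)) {g : Gl l × Gl l → (GQ ⧸ U → ZMod p)}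
    (hg : g ∈ Z2 (LF (l : ℕ)) ((indRep U (muQ p)).comp (rl l)))
    {b : Gl l → (GQ ⧸ U → Additive (Om l)ˣ)} (hb : (LF (l : ℕ)).Sm1 b)
    (hcob : ∀ δ ε, (fun c => jl p l (g (δ, ε) c)) =
      indL (rl l) U (LU (l : ℕ)) δ (b ε) - b (δ * ε) + b δ) :
    g ∈ B2 (LF (l : ℕ)) ((indRep U (muQ p)).comp (rl l)) := by
  classical
  have hfi := finiteIndex_of_isOpen hUo
  have hcore : IsOpen (U.normalCore : Set GQ) := Subgroup.isOpen_of_isClosed_of_finiteIndex _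
      (U.normalCore_isClosed (Subgroup.isClosed_of_isOpen U hUo))
  have hlev : ∃ W ∈ LF (l : ℕ), ∀ w ∈ W, ∀ c : GQ ⧸ U, rl l w • c = c := by
    obtain ⟨W, hW, hle⟩ := PT.rl_cont (l := l) hcore
    refine ⟨W, hW, fun w hw c => ?_⟩
    obtain ⟨x, rfl⟩ := QuotientGroup.mk_surjective c
    have h1 : rl l w ∈ U.normalCore := hle hw
    rw [MulAction.Quotient.smul_coe, smul_eq_mul, eq_comm, QuotientGroup.eq, ← mul_assoc]
    have h2 := h1 x⁻¹
    rwa [inv_inv] at h2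
  obtain ⟨Wb, hWb, hbW⟩ := hb
  obtain ⟨a, ha, hac⟩ := semi2 (𝓥 := LF (l : ℕ)) (rl l) U hlev (muL p l) g hg (fun x => by
    obtain ⟨y, hy⟩ := GlobalCFT.h90_local l (stb (rl l) U x) (fun δ => p • b δ (x : GQ ⧸ U))
      ⟨_, ⟨Wb, hWb, rfl⟩, fun δ w hw =>
        congrArg (fun v => p • v) (congrFun (hbW (δ : Gl l) (w : Gl l) hw) (x : GQ ⧸ U))⟩
      (fun δ ε => by
        have h1 := congrFun (hcob (δ : Gl l) (ε : Gl l)) (x : GQ ⧸ U)
        have hδ : (rl l (δ : Gl l))⁻¹ • (x : GQ ⧸ U) = x := by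
          rw [inv_smul_eq_iff, eq_comm]
          exact mem_stb_iff.mp δ.2
        change jl p l (g ((δ : Gl l), (ε : Gl l)) (x : GQ ⧸ U)) =
          LU (l : ℕ) (δ : Gl l) (b ε ((rl l (δ : Gl l))⁻¹ • (x : GQ ⧸ U))) -
              b ((δ : Gl l) * ε) (x : GQ ⧸ U) + b δ (x : GQ ⧸ U) at h1
        rw [hδ] at h1
        change p • b ((δ : Gl l) * ε) (x : GQ ⧸ U) = LU (l : ℕ) (δ : Gl l)
          (p • b ε (x : GQ ⧸ U)) + p • b δ (x : GQ ⧸ U)
        rw [map_nsmul]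
        exact aux_tor p _ _ _ _ h1 (nsmul_jl p l _))
    obtain ⟨γ, hγ⟩ : ∃ γ : Additive (Om l)ˣ, p • γ = y := by
      obtain ⟨z, hz⟩ := IsAlgClosed.exists_pow_nat_eq (uval y) hp.out.pos
      refine ⟨umk z (fun h => uval_ne_zero y ?_), uval_injective ?_⟩
      · rw [← hz, h, zero_pow hp.out.ne_zero]
      · rw [uval_nsmul, uval_umk, hz]
    have hJ : ∀ v : Additive (Om l)ˣ, ∃ a : ZMod p, p • v = 0 → jl p l a = v := by
      intro v
      by_cases h : p • v = 0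
      · obtain ⟨a, ha⟩ := exists_jl p l v h
        exact ⟨a, fun _ => ha⟩
      · exact ⟨0, fun h' => absurd h' h⟩
    choose J hJ using hJ
    obtain ⟨Wγ, hWγ, hγW⟩ := unitsRep_smooth (k := ℚ_[(l : ℕ)]) (Ω := Om l) γ
    refine ⟨fun δ => J (b δ (x : GQ ⧸ U) - (LU (l : ℕ) δ γ - γ)), ⟨Wb ⊓ Wγ,
      (LF (l : ℕ)).inf_mem _ hWb _ hWγ, fun δ _ w _ hw => ?_⟩, fun δ hδ ε hε => ?_⟩
    · have h1 := congrFun (hbW δ w hw.1) (x : GQ ⧸ U)
      simp only
      rw [h1, map_mul, Module.End.mul_apply, hγW w hw.2]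
    · have hp0 : ∀ δ ∈ stb (rl l) U x, p • (b δ (x : GQ ⧸ U) - (LU (l : ℕ) δ γ - γ)) = 0 := by
        intro δ hδ
        have h1 := hy ⟨δ, hδ⟩
        rw [← hγ] at h1
        change p • b δ (x : GQ ⧸ U) = LU (l : ℕ) δ (p • γ) - p • γ at h1
        rw [map_nsmul] at h1
        exact aux_tor2 p _ _ _ h1
      apply jl_injective p l
      have h1 := congrFun (hcob δ ε) (x : GQ ⧸ U)
      have hδ' : (rl l δ)⁻¹ • (x : GQ ⧸ U) = x := by
        rw [inv_smul_eq_iff, eq_comm]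
        exact mem_stb_iff.mp hδ
      change jl p l (g (δ, ε) (x : GQ ⧸ U)) =
        LU (l : ℕ) δ (b ε ((rl l δ)⁻¹ • (x : GQ ⧸ U))) -
            b (δ * ε) (x : GQ ⧸ U) + b δ (x : GQ ⧸ U) at h1
      rw [hδ'] at h1
      have h2 : ∀ a, jl p l (muL p l δ a) = LU (l : ℕ) δ (jl p l a) := jl_comm p l δ
      rw [map_add, map_sub, h2, hJ _ (hp0 δ hδ), hJ _ (hp0 ε hε), hJ _ (hp0 _ (mul_mem hδ hε)), h1,
        map_sub, map_sub, map_mul, Module.End.mul_apply]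
      abel)
  exact ⟨a, ha, funext fun q => (hac q.1 q.2).symm⟩

end Fermat.Agent.GCFT
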