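import Fermat.Agent.GCFT.Q0d
import Fermat.Agent.PT.Nondeg

/-!
# The cokernel of localisation for `H²(U, μ_p)`, conclusion
-/

set_option autoImplicit false
set_option linter.style.haveILetI false
set_option linter.unusedSectionVars false

namespace Fermat.Agent.GCFT

open Fermat.Agent.Coh Fermat.Agent.LocalCFT Fermat.Agent.PLog Fermat.Agent.GalD
open Fermat.Agent.GlobalCFT (XV)
open Fermat.Agent.PT (muQ muL jl jZ toTor invL invU coe_toTor coe_jZ nsmul_jl jl_comm fr stabL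
  stabHom mem_stabL jl_injective exists_jl)
open ExtCitation (cycloChar pPrime)

/-- The field of algebraic numbers. -/
local notation "Qb" => AlgebraicClosure ℚ
/-- The absolute Galois group. -/
local notation "GQ" => (AlgebraicClosure ℚ ≃ₐ[ℚ] AlgebraicClosure ℚ)

variable {S : Finset Nat.Primes} {U V : Subgroup GQ} {p : ℕ} [hp : Fact p.Prime]

/-- roots of unity as ideles -/
noncomputable def iJ (hpS : pPrime p ∈ S) : ZMod p →+ IS S :=
  (iKS S).toAddMonoidHom.comp (jK hpS)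

theorem iJ_apply (hpS : pPrime p ∈ S) (a : ZMod p) : iJ hpS a = iKS S (jK hpS a) := rfl

theorem iJ_comm (hpS : pPrime p ∈ S) (g : GQ) (a : ZMod p) :
    iJ hpS (muQ p g a) = repI S g (iJ hpS a) := by
  rw [iJ_apply, iJ_apply, jK_comm, iKS_comm]

theorem aux_alg {A : Type*} [AddCommGroup A] {T : A →+ A} {M a s1 s2 s3 e1 e2 e3 r1 r2 r3 : A}
    (h : a = M + (T r1 - r2 + r3) + (T s1 - s2 + s3)) :
    M + (T e1 - e2 + e3) - a =
      T (e1 - r1 - s1) - (e2 - r2 - s2) + (e3 - r3 - s3) := by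
  rw [h, map_sub, map_sub]
  abel

/-- the global class -/
theorem exists_global_f (hp2 : p ≠ 2) (hpS : pPrime p ∈ S) (hU : (famS S).IsOpen U) {n j : ℕ}
    (hj : n = (gCF S hp2 hpS).f U + j)
    (A : ↥(FF (repI S) U)) (A₁ : ↥(FF (repI S) ((gCF S hp2 hpS).lay U j))) (x₀ : ↥(FF (repK S) U))
    (hx : iKS S x₀ = (A - nmr (repI S) ((gCF S hp2 hpS).lay_le U j)
        ((gCF S hp2 hpS).lay_isOpen hU j) A₁ : ↥(FF (repI S) U)))
    (m : ↥(Z2 ((famS S).res U) (rep (muQ p) U))) (r : U → KS S) (hr : ((famS S).res U).Sm1 r)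
    (hm : ∀ g h : U, carry (psiD (gCF S hp2 hpS) U n g) (psiD (gCF S hp2 hpS) U n h) • (x₀ : KS S) =
        jK hpS ((m : U × U → ZMod p) (g, h)) + (repK S (g : GQ) (r h) - r (g * h) + r g)) :
    ∃ (f : ↥(Z2 (famS S) (indRep U (muQ p)))) (xF : ↥(H0 (indRep U (repI S))))
      (t : GQ → (GQ ⧸ U → IS S)), (famS S).Sm1 t ∧
      (∀ y : GQ, (xF : GQ ⧸ U → IS S) (y : GQ ⧸ U) = repI S y A) ∧
      ∀ g h, (fun c => iJ hpS ((f : GQ × GQ → (GQ ⧸ U → ZMod p)) (g, h) c)) =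
        carry (psiG hp2 hpS n g) (psiG hp2 hpS n h) • (xF : GQ ⧸ U → IS S) +
          (indRep U (repI S) g (t h) - t (g * h) + t g) := by
  obtain ⟨y, hy⟩ := sh_H2_surjective hU (H2.mk ((famS S).res U) (rep (muQ p) U) m)
  obtain ⟨f, rfl⟩ := H2.mk_surjective y
  rw [Mor.mapH2_mk, H2.mk_eq_mk] at hy
  obtain ⟨e, he, hec⟩ := hy
  obtain ⟨xF, hxF⟩ := exists_ind_inv (famS S) A
  have h2 := sym_nmr_eq_zero (gCF S hp2 hpS) hU j (repI S) A₁
  rw [← hj, sym_apply, H2.mk_eq_zero] at h2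
  obtain ⟨s, hs, hsc⟩ := h2
  have hmem : (fun (q : GQ × GQ) (c : GQ ⧸ U) =>
      iJ hpS ((f : GQ × GQ → (GQ ⧸ U → ZMod p)) q c)) ∈
        Z2 (famS S) (indRep U (repI S)) := by
    refine post_Z2 (τ := indRep U (repI S))
      ((iJ hpS).compLeft (GQ ⧸ U)) (fun g v => ?_) f.2
    funext c
    exact iJ_comm hpS g (v (g⁻¹ • c))
  obtain ⟨t, ht, htc⟩ := cob_of_sh hU (⟨_, hmem⟩ - symZ (psiG hp2 hpS n) xF)
    (fun g => iJ hpS (e g) - iKS S (r g) - s g)
    (((he.post fun a => iJ hpS a).post₂ (hr.post (iKS S)) (· - ·)).post₂ hs (· - ·))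
    (fun g h => by
      have e1 := hec g h
      change (f : GQ × GQ → (GQ ⧸ U → ZMod p)) ((g : GQ), (h : GQ)) ((1 : GQ) : GQ ⧸ U) =
        (m : U × U → ZMod p) (g, h) + (muQ p (g : GQ) (e h) - e (g * h) + e g) at e1
      have e2 := hsc g h
      change carry (psiD (gCF S hp2 hpS) U n g) (psiD (gCF S hp2 hpS) U n h) •
        ((nmr (repI S) ((gCF S hp2 hpS).lay_le U j) ((gCF S hp2 hpS).lay_isOpen hU j) A₁ :
          ↥(FF (repI S) U)) : IS S) = repI S (g : GQ) (s h) - s (g * h) + s g at e2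
      have e3 := congrArg (iKS S) (hm g h)
      rw [map_nsmul, hx, map_add, map_add, map_sub, iKS_comm] at e3
      change carry (psiD (gCF S hp2 hpS) U n g) (psiD (gCF S hp2 hpS) U n h) • ((A : IS S) -
        ((nmr (repI S) ((gCF S hp2 hpS).lay_le U j) ((gCF S hp2 hpS).lay_isOpen hU j) A₁ :
          ↥(FF (repI S) U)) : IS S)) = _ at e3
      rw [smul_sub, e2, sub_eq_iff_eq_add] at e3
      have e5 := congrArg (iJ hpS) e1
      rw [map_add, map_add, map_sub, iJ_comm] at e5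
      change iJ hpS ((f : GQ × GQ → (GQ ⧸ U → ZMod p)) ((g : GQ), (h : GQ))
        ((1 : GQ) : GQ ⧸ U)) - carry (psiG hp2 hpS n g) (psiG hp2 hpS n h) •
          (xF : GQ ⧸ U → IS S) ((1 : GQ) : GQ ⧸ U) = repI S (g : GQ)
            (iJ hpS (e h) - iKS S (r h) - s h) -
            (iJ hpS (e (g * h)) - iKS S (r (g * h)) - s (g * h)) +
            (iJ hpS (e g) - iKS S (r g) - s g)
      rw [hxF, map_one, Module.End.one_apply, psiG_coe, psiG_coe, e5]
      exact aux_alg (T := (repI S (g : GQ)).toAddMonoidHom) e3)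
  refine ⟨f, xF, t, ht, hxF, fun g h => ?_⟩
  have h1 := htc g h
  change (fun c => iJ hpS ((f : GQ × GQ → (GQ ⧸ U → ZMod p)) (g, h) c)) -
    carry (psiG hp2 hpS n g) (psiG hp2 hpS n h) • (xF : GQ ⧸ U → IS S) = _ at h1
  rw [← h1]
  abel

theorem evl_iJ (hpS : pPrime p ∈ S) {l : Nat.Primes} (hl : l ∈ S) (a : ZMod p) :
    evl S l (iJ hpS a) = jl p l a := by
  rw [iJ_apply]
  exact (iKS_fst hl 1 _).trans (lK_jK_one hpS l a)

/-- comparison at a place of `S` -/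
theorem loc_step (hp2 : p ≠ 2) (hpS : pPrime p ∈ S) (hUo : IsOpen (U : Set GQ)) {n : ℕ}
    (A : ↥(FF (repI S) U)) {f : GQ × GQ → (GQ ⧸ U → ZMod p)}
    (hf : f ∈ Z2 (famS S) (indRep U (muQ p))) (xF : ↥(H0 (indRep U (repI S))))
    {t : GQ → (GQ ⧸ U → IS S)} (ht : (famS S).Sm1 t)
    (hxF : ∀ y : GQ, (xF : GQ ⧸ U → IS S) (y : GQ ⧸ U) = repI S y A)
    (h : ∀ g h, (fun c => iJ hpS (f (g, h) c)) =
        carry (psiG hp2 hpS n g) (psiG hp2 hpS n h) • (xF : GQ ⧸ U → IS S) +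
          (indRep U (repI S) g (t h) - t (g * h) + t g)) {l : Nat.Primes} (hl : l ∈ S)
    {z : Gl l × Gl l → (GQ ⧸ U → ZMod p)}
    (hz : z ∈ Z2 (LF (l : ℕ)) ((indRep U (muQ p)).comp (rl l)))
    {F : GQ → Additive (Om l)ˣ} (hF : F ∈ XV (rl l) (LU (l : ℕ)) U) (hAF : A.1.1.1 l = F)
    {b : Gl l → (GQ ⧸ U → Additive (Om l)ˣ)} (hb : (LF (l : ℕ)).Sm1 b)
    (hcob : ∀ g h, (fun c => jl p l (z (g, h) c)) =
        carry (psiL hp2 l n g) (psiL hp2 l n h) • toInd F +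
          (indL (rl l) U (LU (l : ℕ)) g (b h) - b (g * h) + b g)) :
    (fun q : Gl l × Gl l => f (rl l q.1, rl l q.2)) - z ∈
      B2 (LF (l : ℕ)) ((indRep U (muQ p)).comp (rl l)) := by
  obtain ⟨h1, h2⟩ := loc_cob (U := U) hl ht
  have hfl : (fun q : Gl l × Gl l => f (rl l q.1, rl l q.2)) ∈
      Z2 (LF (l : ℕ)) ((indRep U (muQ p)).comp (rl l)) := by
    refine ⟨hf.1.comp (rl l) fun W hW => PT.rl_cont hW.2.1, fun g h j => ?_⟩
    simp only [map_mul]
    exact hf.2 _ _ _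
  refine jl_cob hUo (sub_mem hfl hz)
    (b := fun δ => (fun c : GQ ⧸ U => evl S l (t (rl l δ) c)) - b δ) (h1.post₂ hb (· - ·))
    (fun δ ε => ?_)
  have hx : (fun c => evl S l ((xF : GQ ⧸ U → IS S) c)) = toInd (U := U) F := by
    funext c
    obtain ⟨y, rfl⟩ := QuotientGroup.mk_surjective c
    rw [hxF, toInd_mk hF, ← hAF]
    change A.1.1.1 l (1 * y) = _
    rw [one_mul]
  have e1 : (fun c => jl p l (f (rl l δ, rl l ε) c)) =
      carry (psiL hp2 l n δ) (psiL hp2 l n ε) • toInd (U := U) F +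
      (indL (rl l) U (LU (l : ℕ)) δ (fun c => evl S l (t (rl l ε) c)) -
          (fun c => evl S l (t (rl l (δ * ε)) c)) + fun c => evl S l (t (rl l δ) c)) := by
    rw [← h2 δ ε, ← hx]
    funext c
    have e2 := congrArg (evl S l) (congrFun (h (rl l δ) (rl l ε)) c)
    rw [evl_iJ hpS hl] at e2
    rw [e2, psiG_rl, psiG_rl]
    change evl S l (carry (psiL hp2 l n δ) (psiL hp2 l n ε) • (xF : GQ ⧸ U → IS S) c + _) =
      carry (psiL hp2 l n δ) (psiL hp2 l n ε) • evl S l ((xF : GQ ⧸ U → IS S) c) + _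
    rw [map_add, map_nsmul]
  have e3 : (fun c => jl p l (((fun q : Gl l × Gl l => f (rl l q.1, rl l q.2)) - z) (δ, ε) c)) =
      (fun c => jl p l (f (rl l δ, rl l ε) c)) - (fun c => jl p l (z (δ, ε) c)) := by
    funext c
    exact map_sub (jl p l) _ _
  rw [e3, e1, hcob, map_sub]
  abel

end Fermat.Agent.GCFT
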