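import Fermat.Agent.GCFT.Q0e

/-!
# The cokernel of localisation for `H²(U, μ_p)`: the theorem (Q0)
-/

set_option autoImplicit false
set_option linter.style.haveILetI false
set_option linter.unusedSectionVars false

namespace Fermat.Agent.GCFT

open Fermat.Agent.Coh Fermat.Agent.LocalCFT Fermat.Agent.PLog Fermat.Agent.GalD
open Fermat.Agent.GlobalCFT (XV)
open Fermat.Agent.PT (muQ muL jl jZ toTor invL invU coe_toTor coe_jZ nsmul_jl jl_comm fr stabL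
  stabHom mem_stabL jl_injective exists_jl)
open ExtCitation (cycloChar pPrime)

/-- The field of algebraic numbers. -/
local notation "Qb" => AlgebraicClosure ℚ
/-- The absolute Galois group. -/
local notation "GQ" => (AlgebraicClosure ℚ ≃ₐ[ℚ] AlgebraicClosure ℚ)

variable {S : Finset Nat.Primes} {U V : Subgroup GQ} {p : ℕ} [hp : Fact p.Prime]

/-- sums of values of cocycles -/
theorem sum_mem_Z2 [Fintype (GQ ⧸ U)] {l : Nat.Primes} {z : Gl l × Gl l → (GQ ⧸ U → ZMod p)}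
    (hz : z ∈ Z2 (LF (l : ℕ)) ((indRep U (muQ p)).comp (rl l))) :
    (fun q => ∑ c, z q c) ∈ Z2 (LF (l : ℕ)) (muL p l) := by
  refine ⟨hz.1.post fun v => ∑ c, v c, fun g h j => ?_⟩
  have h1 := congrArg (fun v : GQ ⧸ U → ZMod p => ∑ c, v c) (hz.2 g h j)
  simp only [Pi.add_apply, Finset.sum_add_distrib] at h1
  rw [h1]
  congr 1
  exact sumLin_comm (k := ZMod p) (ρ := muQ p) U (rl l g) (z (h, j))

/-- **(Q0)** -/
theorem q0_fr (hp2 : p ≠ 2) (hpS : pPrime p ∈ S) (hUS : U ∈ famS S) [U.FiniteIndex] :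
    (fr p hp2 S hpS).Q0 U := by
  classical
  intro z hz hsum
  letI : Fintype (GQ ⧸ U) := PT.Frame.fq U
  have hU : (famS S).IsOpen U := Fam.isOpen_of_mem hUS
  have hUn : U.Normal := hUS.1
  have hUo : IsOpen (U : Set GQ) := hUS.2.1
  obtain ⟨j, n, hj, hn1, hn2⟩ : ∃ j n, n = (gCF S hp2 hpS).f U + j ∧
      (∀ l ∈ S, ∃ r, n = (cycCF ((l : Nat.Primes) : ℕ) p hp2).f (U.comap (rl l)) + (r + 1)) ∧
      (∀ l ∈ S, ∃ r, n = (cycCF ((l : Nat.Primes) : ℕ) p hp2).f ⊤ + (r + 1)) := by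
    set N := ∑ l ∈ S, ((cycCF ((l : Nat.Primes) : ℕ) p hp2).f (U.comap (rl l)) +
            (cycCF ((l : Nat.Primes) : ℕ) p hp2).f ⊤ + 1) with hN
    have h1 : ∀ l ∈ S, (cycCF ((l : Nat.Primes) : ℕ) p hp2).f (U.comap (rl l)) +
        (cycCF ((l : Nat.Primes) : ℕ) p hp2).f ⊤ + 1 ≤ N := fun l hl =>
      Finset.single_le_sum (f := fun l : Nat.Primes => (cycCF (l : ℕ) p hp2).f (U.comap (rl l)) +
        (cycCF (l : ℕ) p hp2).f ⊤ + 1) (fun _ _ => Nat.zero_le _) hl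
    refine ⟨N, (gCF S hp2 hpS).f U + N, rfl, fun l hl => ⟨(gCF S hp2 hpS).f U + N -
              (cycCF ((l : Nat.Primes) : ℕ) p hp2).f (U.comap (rl l)) - 1, ?_⟩, fun l hl =>
      ⟨(gCF S hp2 hpS).f U + N - (cycCF ((l : Nat.Primes) : ℕ) p hp2).f ⊤ - 1, ?_⟩⟩
    · have := h1 l hl
      omega
    · have := h1 l hl
      omega
  have hn0 : 1 ≤ n := by
    obtain ⟨r, hr⟩ := hn2 _ hpS
    omega
  -- extension of the local data
  let z' : ∀ l : Nat.Primes, Gl l × Gl l → (GQ ⧸ U → ZMod p) :=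
    fun l => if h : l ∈ S then z (⟨l, h⟩ : ↥S) else 0
  have hz'z : ∀ l (h : l ∈ S), z' l = z (⟨l, h⟩ : ↥S) := fun l h => dif_pos h
  have hz' : ∀ l ∈ S, z' l ∈ Z2 (LF ((l : Nat.Primes) : ℕ)) ((indRep U (muQ p)).comp (rl l)) := by
    intro l hl
    rw [hz'z l hl]
    exact hz (⟨l, hl⟩ : ↥S)
  have key : ∀ l : Nat.Primes, ∃ (F : GQ → Additive (Om l)ˣ)
      (b : Gl l → (GQ ⧸ U → Additive (Om l)ˣ)), l ∈ S →
        (F ∈ XV (rl l) (LU (l : ℕ)) U ∧ (LF (l : ℕ)).Sm1 b ∧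
          ∀ g h, (fun c => jl p l (z' l (g, h) c)) =
          carry (psiL hp2 l n g) (psiL hp2 l n h) • toInd F +
            (indL (rl l) U (LU (l : ℕ)) g (b h) - b (g * h) + b g)) := by
    intro l
    by_cases hl : l ∈ S
    · obtain ⟨r, hr⟩ := hn1 l hl
      obtain ⟨F, hF, b, hb, hcob⟩ := exists_local_F hp2 hUn hUo (hz' l hl) hr
      exact ⟨F, b, fun _ => ⟨hF, hb, hcob⟩⟩
    · exact ⟨0, 0, fun h => absurd h hl⟩
  choose F b hFb using key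
  have hF : ∀ l ∈ S, F l ∈ XV (rl l) (LU ((l : Nat.Primes) : ℕ)) U := fun l hl => (hFb l hl).1
  have hb : ∀ l ∈ S, (LF ((l : Nat.Primes) : ℕ)).Sm1 (b l) := fun l hl => (hFb l hl).2.1
  have hcob := fun l hl => (hFb l hl).2.2
  -- the global valuation
  have h1 : ∀ l : S, ∃ w : ℤ_[p], v0 ((l.1 : Nat.Primes) : ℕ) p hp2 (trL (F l.1) (hF l.1 l.2)) =
      (p : ℤ_[p]) ^ (n - 1) * w ∧
      (fr p hp2 S hpS).iv l (fun q => PT.Frame.tr (k := ZMod p) U (z l q)) =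
        PadicInt.toZMod w := by
    intro l
    have hf' := sum_mem_Z2 (hz' l.1 l.2)
    obtain ⟨r, hr⟩ := hn2 l.1 l.2
    obtain ⟨w, hw, hi⟩ := inv_tr hp2 (hF l.1 l.2) (hb l.1 l.2) (hcob l.1 l.2) hr hf'
    refine ⟨w, hw, ?_⟩
    have h2 : (fun q => PT.Frame.tr (k := ZMod p) U (z l q)) =
        fun q : Gl l.1 × Gl l.1 => ∑ c, z' l.1 q c := by
      funext q
      rw [hz'z l.1 l.2]
      rfl
    rw [h2, PT.Frame.iv_eq hf']
    exact hi
  choose w hw hi using h1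
  have h2 : (p : ℤ_[p]) ∣ ∑ l : S, w l := by
    rw [← CFData.toZMod_eq_zero_iff, map_sum, ← hsum]
    exact Finset.sum_congr rfl fun l _ => (hi l).symm
  have hV : (p : ℤ_[p]) ^ n ∣ V0 S hp2 (nmr (repI S) le_top hU (iF hU F hF)) := by
    rw [V0_iF hp2 hU F hF, Finset.sum_congr rfl fun l _ => hw l, ← Finset.mul_sum]
    have h5 : (p : ℤ_[p]) ^ n = (p : ℤ_[p]) ^ (n - 1) * p := by
      rw [← pow_succ, Nat.sub_add_cancel hn0]
    rw [h5]
    exact mul_dvd_mul_left _ h2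
  obtain ⟨A₁, x₀, hx⟩ := exists_decomp' hp2 hpS hU hj (iF hU F hF) hV
  have hA := nsmul_sym_A hp2 hpS hUn hU F hF z' b hb hcob
  have hp0 := nsmul_sym_x0 hp2 hpS hU hj F hF hA A₁ x₀ hx
  obtain ⟨m, r, hr, hm⟩ := exists_m hp2 hpS hU hj F hF A₁ x₀ hx hp0
  obtain ⟨f, xF, t, ht, hxF, hft⟩ := exists_global_f hp2 hpS hU hj _ A₁ x₀ hx m r hr hm
  refine ⟨f, f.2, fun v => ?_⟩
  have h3 := loc_step hp2 hpS hUo (iF hU F hF) f.2 xF ht hxF hft v.2 (hz' v.1 v.2) (hF v.1 v.2)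
    (iF_fst hU F hF v.2) (hb v.1 v.2) (hcob v.1 v.2)
  rw [hz'z v.1 v.2] at h3
  exact h3

end Fermat.Agent.GCFT
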