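import Fermat.Agent.GCFT.Theta

/-!
# Invariant ideles: constructors, roots near one, pure divisors
-/

set_option autoImplicit false

namespace Fermat.Agent.GCFT

open Fermat.Agent.Coh NumberField IsDedekindDomain Module

/-- The field of algebraic numbers. -/
local notation "Qb" => AlgebraicClosure ℚ
/-- The absolute Galois group. -/
local notation "GQ" => (AlgebraicClosure ℚ ≃ₐ[ℚ] AlgebraicClosure ℚ)

variable {S : Finset Nat.Primes} {U : Subgroup GQ}

/-- component at `l ∈ S` -/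
def cS (a : ↥(FF (repI S) U)) (l : Nat.Primes) (g : GQ) : Om l := ((a.1.1.1 l g).toMul : Om l)

/-- component at `l ∉ S` -/
def cD (a : ↥(FF (repI S) U)) (l : Nat.Primes) (g : GQ) : ℤ := a.1.1.2 l g

theorem ext_FF {a b : ↥(FF (repI S) U)} (h1 : ∀ l ∈ S, ∀ g, cS a l g = cS b l g)
    (h2 : ∀ l, l ∉ S → ∀ g, cD a l g = cD b l g) : a = b := by
  apply Subtype.ext
  apply Subtype.ext
  obtain ⟨a1, a2, a3, a4, a5, a6⟩ := a.1.2
  obtain ⟨b1, b2, b3, b4, b5, b6⟩ := b.1.2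
  apply Prod.ext
  · funext l g
    by_cases hl : l ∈ S
    · apply Additive.toMul.injective
      exact Units.ext (h1 l hl g)
    · rw [a2 l hl, b2 l hl]
  · funext l g
    by_cases hl : l ∈ S
    · rw [a4 l hl, b4 l hl]
    · exact h2 l hl g

theorem cS_ne_zero (a : ↥(FF (repI S) U)) (l : Nat.Primes) (g : GQ) : cS a l g ≠ 0 :=
  Units.ne_zero _

theorem cS_add (a b : ↥(FF (repI S) U)) (l : Nat.Primes) (g : GQ) :
    cS (a + b) l g = cS a l g * cS b l g := rfl

theorem cD_add (a b : ↥(FF (repI S) U)) (l : Nat.Primes) (g : GQ) :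
    cD (a + b) l g = cD a l g + cD b l g := rfl

theorem cS_zero (l : Nat.Primes) (g : GQ) : cS (0 : ↥(FF (repI S) U)) l g = 1 := rfl

theorem cD_zero (l : Nat.Primes) (g : GQ) : cD (0 : ↥(FF (repI S) U)) l g = 0 := rfl

theorem cS_neg (a : ↥(FF (repI S) U)) (l : Nat.Primes) (g : GQ) :
    cS (-a) l g = (cS a l g)⁻¹ := Units.val_inv_eq_inv_val _

theorem cD_neg (a : ↥(FF (repI S) U)) (l : Nat.Primes) (g : GQ) :
    cD (-a) l g = -cD a l g := rfl

theorem cS_sub (a b : ↥(FF (repI S) U)) (l : Nat.Primes) (g : GQ) :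
    cS (a - b) l g = cS a l g / cS b l g := by
  rw [sub_eq_add_neg, cS_add, cS_neg, div_eq_mul_inv]

theorem cD_sub (a b : ↥(FF (repI S) U)) (l : Nat.Primes) (g : GQ) :
    cD (a - b) l g = cD a l g - cD b l g := by
  rw [sub_eq_add_neg, cD_add, cD_neg, sub_eq_add_neg]

theorem cS_nsmul (n : ℕ) (a : ↥(FF (repI S) U)) (l : Nat.Primes) (g : GQ) :
    cS (n • a) l g = cS a l g ^ n := by
  induction n with
  | zero => rw [zero_smul, cS_zero, pow_zero]
  | succ n ih => rw [succ_nsmul, cS_add, ih, pow_succ]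

theorem cD_nsmul (n : ℕ) (a : ↥(FF (repI S) U)) (l : Nat.Primes) (g : GQ) :
    cD (n • a) l g = n * cD a l g := by
  induction n with
  | zero => rw [zero_smul, cD_zero]; simp
  | succ n ih => rw [succ_nsmul, cD_add, ih]; push_cast; ring

theorem cS_rl (a : ↥(FF (repI S) U)) {l : Nat.Primes} (hl : l ∈ S) (δ : Gl l) (g : GQ) :
    cS a l (rl l δ * g) = δ (cS a l g) := by
  rw [cS, a.1.2.1 l hl δ g]
  rfl

theorem cD_rl (a : ↥(FF (repI S) U)) {l : Nat.Primes} (δ : Gl l) (g : GQ) :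
    cD a l (rl l δ * g) = cD a l g := a.1.2.2.2.1 l δ g

theorem cS_mul (a : ↥(FF (repI S) U)) (l : Nat.Primes) (g : GQ) {u : GQ} (hu : u ∈ U) :
    cS a l (g * u) = cS a l g := by
  have h := (mem_FF (repI S)).mp a.2 u hu
  have h2 := congrArg (fun b : IS S => ((b.1.1 l g).toMul : Om l)) h
  exact h2

theorem cD_mul (a : ↥(FF (repI S) U)) (l : Nat.Primes) (g : GQ) {u : GQ} (hu : u ∈ U) :
    cD a l (g * u) = cD a l g := by
  have h := (mem_FF (repI S)).mp a.2 u hu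
  have h2 := congrArg (fun b : IS S => (b.1.2 l g)) h
  exact h2

theorem finite_cD (a : ↥(FF (repI S) U)) : {l : Nat.Primes | ∃ g, cD a l g ≠ 0}.Finite := by
  refine a.1.2.2.2.2.2.1.subset ?_
  rintro l ⟨g, hg⟩ h
  exact hg (congrFun h g)

open Classical in
/-- constructor of invariant ideles -/
noncomputable def mkFF (hU : (famS S).IsOpen U) (a : ∀ l : Nat.Primes, GQ → (Om l)ˣ)
    (φ : Nat.Primes → GQ → ℤ)
    (ha : ∀ l ∈ S, ∀ (δ : Gl l) g, (a l (rl l δ * g) : Om l) = δ (a l g))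
    (ha' : ∀ l ∈ S, ∀ g, ∀ u ∈ U, (a l (g * u) : Om l) = a l g)
    (hφ : ∀ l, l ∉ S → ∀ (δ : Gl l) g, φ l (rl l δ * g) = φ l g)
    (hφ' : ∀ l, l ∉ S → ∀ g, ∀ u ∈ U, φ l (g * u) = φ l g)
    (hfin : {l : Nat.Primes | ∃ g, φ l g ≠ 0}.Finite) : ↥(FF (repI S) U) :=
  ⟨⟨(fun l g => if l ∈ S then Additive.ofMul (a l g) else 0,
      fun l g => if l ∈ S then 0 else φ l g), by
    refine ⟨fun l hl δ g => ?_, fun l hl => ?_, fun l δ g => ?_, fun l hl => ?_, ?_, ?_⟩
    · change (if l ∈ S then Additive.ofMul (a l (rl l δ * g)) else 0) = repOm l δ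
        (if l ∈ S then Additive.ofMul (a l g) else 0)
      rw [if_pos hl, if_pos hl]
      apply Additive.toMul.injective
      exact Units.ext (ha l hl δ g)
    · funext g
      exact if_neg hl
    · change (if l ∈ S then 0 else φ l (rl l δ * g)) = if l ∈ S then 0 else φ l g
      by_cases hl : l ∈ S
      · rw [if_pos hl, if_pos hl]
      · rw [if_neg hl, if_neg hl, hφ l hl]
    · funext g
      exact if_pos hl
    · refine hfin.subset ?_
      intro l hl
      by_contra hcon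
      apply hl
      simp only [Set.mem_ofPred_eq, not_exists, not_not] at hcon
      funext g
      change (if l ∈ S then 0 else φ l g) = 0
      rw [hcon g, ite_self]
    · obtain ⟨W, hW, hWU⟩ := hU
      refine ⟨W, hW, fun u hu l g => ⟨?_, ?_⟩⟩
      · change (if l ∈ S then Additive.ofMul (a l (g * u)) else 0) =
          (if l ∈ S then Additive.ofMul (a l g) else 0)
        by_cases hl : l ∈ S
        · rw [if_pos hl, if_pos hl]
          exact congrArg Additive.ofMul (Units.ext (ha' l hl g u (hWU hu)))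
        · rw [if_neg hl, if_neg hl]
      · change (if l ∈ S then 0 else φ l (g * u)) = if l ∈ S then 0 else φ l g
        by_cases hl : l ∈ S
        · rw [if_pos hl, if_pos hl]
        · rw [if_neg hl, if_neg hl, hφ' l hl g u (hWU hu)]⟩, by
    rw [mem_FF]
    intro u hu
    apply Subtype.ext
    apply Prod.ext
    · funext l g
      change (if l ∈ S then Additive.ofMul (a l (g * u)) else 0) =
          (if l ∈ S then Additive.ofMul (a l g) else 0)
      by_cases hl : l ∈ S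
      · rw [if_pos hl, if_pos hl]
        exact congrArg Additive.ofMul (Units.ext (ha' l hl g u hu))
      · rw [if_neg hl, if_neg hl]
    · funext l g
      change (if l ∈ S then 0 else φ l (g * u)) = if l ∈ S then 0 else φ l g
      by_cases hl : l ∈ S
      · rw [if_pos hl, if_pos hl]
      · rw [if_neg hl, if_neg hl, hφ' l hl g u hu]⟩

theorem cS_mkFF (hU : (famS S).IsOpen U) (a : ∀ l : Nat.Primes, GQ → (Om l)ˣ)
    (φ : Nat.Primes → GQ → ℤ) (ha ha' hφ hφ' hfin) {l : Nat.Primes} (hl : l ∈ S) (g : GQ) :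
    cS (mkFF hU a φ ha ha' hφ hφ' hfin) l g = a l g := by
  change (((if l ∈ S then Additive.ofMul (a l g) else 0 : Additive (Om l)ˣ).toMul : (Om l)ˣ) :
    Om l) = _
  rw [if_pos hl]
  rfl

theorem cD_mkFF (hU : (famS S).IsOpen U) (a : ∀ l : Nat.Primes, GQ → (Om l)ˣ)
    (φ : Nat.Primes → GQ → ℤ) (ha ha' hφ hφ' hfin) {l : Nat.Primes} (hl : l ∉ S) (g : GQ) :
    cD (mkFF hU a φ ha ha' hφ hφ' hfin) l g = φ l g := if_neg hl

/-- the pure divisor attached to a function -/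
noncomputable def pD (hU : (famS S).IsOpen U) (φ : Nat.Primes → GQ → ℤ)
    (hφ : ∀ l, l ∉ S → ∀ (δ : Gl l) g, φ l (rl l δ * g) = φ l g)
    (hφ' : ∀ l, l ∉ S → ∀ g, ∀ u ∈ U, φ l (g * u) = φ l g)
    (hfin : {l : Nat.Primes | ∃ g, φ l g ≠ 0}.Finite) : ↥(FF (repI S) U) :=
  mkFF hU (fun _ _ => 1) φ (fun l _ δ _ => (map_one δ).symm) (fun _ _ _ _ _ => rfl) hφ hφ' hfin

theorem cS_pD (hU : (famS S).IsOpen U) (φ : Nat.Primes → GQ → ℤ) (hφ hφ' hfin)
    {l : Nat.Primes} (hl : l ∈ S) (g : GQ) : cS (pD hU φ hφ hφ' hfin) l g = 1 :=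
  cS_mkFF hU _ _ _ _ _ _ _ hl g

theorem cD_pD (hU : (famS S).IsOpen U) (φ : Nat.Primes → GQ → ℤ) (hφ hφ' hfin)
    {l : Nat.Primes} (hl : l ∉ S) (g : GQ) : cD (pD hU φ hφ hφ' hfin) l g = φ l g :=
  cD_mkFF hU _ _ _ _ _ _ _ hl g

/-- an idele near one at `S` and trivial outside is an `n`-th power -/
theorem exists_root_idele {n : ℕ} (hn : 0 < n) : ∃ η : Nat.Primes → ℝ, (∀ l, 0 < η l ∧ η l ≤ 1) ∧
    ∀ (S : Finset Nat.Primes) (U : Subgroup GQ) (_ : (famS S).IsOpen U) (a : ↥(FF (repI S) U)),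
      (∀ l ∈ S, ∀ g, ‖cS a l g - 1‖ < η l) → (∀ l, l ∉ S → ∀ g, cD a l g = 0) →
      ∃ b : ↥(FF (repI S) U), n • b = a := by
  choose r hr0 hr1 hinj hex using fun l => exists_near_root l hn
  refine ⟨fun l => r l ^ n, fun l => ⟨pow_pos (hr0 l) n, pow_le_one₀ (hr0 l).le (hr1 l)⟩, ?_⟩
  intro S U hU a ha ha0
  classical
  have hch : ∀ (l : Nat.Primes) (g : GQ), ∃ h : (Om l)ˣ, l ∈ S →
      ((h : Om l) ^ n = cS a l g ∧ ‖(h : Om l) - 1‖ < r l) := by
    intro l g
    by_cases hl : l ∈ S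
    · obtain ⟨h, h1, h2⟩ := hex l _ (ha l hl g)
      have h0 : h ≠ 0 := by
        rintro rfl
        rw [zero_pow hn.ne'] at h1
        exact cS_ne_zero a l g h1.symm
      exact ⟨Units.mk0 h h0, fun _ => ⟨h1, h2⟩⟩
    · exact ⟨1, fun h => absurd h hl⟩
  choose h hh using hch
  refine ⟨mkFF hU h 0 ?_ ?_ (fun _ _ _ _ => rfl) (fun _ _ _ _ _ => rfl) (by simp), ?_⟩
  · intro l hl δ g
    apply hinj l _ _ (hh l _ hl).2
    · have h1 : δ (h l g : Om l) - 1 = δ ((h l g : Om l) - 1) := by rw [map_sub, map_one]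
      rw [h1, norm_gal]
      exact (hh l g hl).2
    · rw [(hh l _ hl).1, ← map_pow, (hh l g hl).1, cS_rl a hl]
  · intro l hl g u hu
    apply hinj l _ _ (hh l _ hl).2 (hh l g hl).2
    rw [(hh l _ hl).1, (hh l g hl).1, cS_mul a l g hu]
  · apply ext_FF
    · intro l hl g
      rw [cS_nsmul, cS_mkFF _ _ _ _ _ _ _ _ hl]
      exact (hh l g hl).1
    · intro l hl g
      rw [cD_nsmul, cD_mkFF _ _ _ _ _ _ _ _ hl, ha0 l hl g]
      simp

/-- the pure part of an idele -/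
noncomputable def pureI (hU : (famS S).IsOpen U) (a : ↥(FF (repI S) U)) : ↥(FF (repI S) U) :=
  pD hU (cD a) (fun _ _ δ g => cD_rl a δ g) (fun _ _ g _ hu => cD_mul a _ g hu) (finite_cD a)

theorem cS_pureI (hU : (famS S).IsOpen U) (a : ↥(FF (repI S) U)) {l : Nat.Primes} (hl : l ∈ S)
    (g : GQ) : cS (pureI hU a) l g = 1 := cS_pD hU _ _ _ _ hl g

theorem cD_pureI (hU : (famS S).IsOpen U) (a : ↥(FF (repI S) U)) {l : Nat.Primes} (hl : l ∉ S)
    (g : GQ) : cD (pureI hU a) l g = cD a l g := cD_pD hU _ _ _ _ hl g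

theorem pureI_sub (hU : (famS S).IsOpen U) (a b : ↥(FF (repI S) U)) :
    pureI hU (a - b) = pureI hU a - pureI hU b := by
  apply ext_FF
  · intro l hl g
    rw [cS_sub, cS_pureI hU _ hl, cS_pureI hU _ hl, cS_pureI hU _ hl, div_one]
  · intro l hl g
    rw [cD_sub, cD_pureI hU _ hl, cD_pureI hU _ hl, cD_pureI hU _ hl, cD_sub]

end Fermat.Agent.GCFT
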