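import Fermat.Agent.GCFT.RayNorm

/-!
# The universal norm index inequality for the ideles of level `S`
-/

set_option autoImplicit false
set_option linter.style.haveILetI false

namespace Fermat.Agent.GCFT

open Fermat.Agent.Coh NumberField IsDedekindDomain Module

/-- The field of algebraic numbers. -/
local notation "Qb" => AlgebraicClosure ℚ
/-- The absolute Galois group. -/
local notation "GQ" => (AlgebraicClosure ℚ ≃ₐ[ℚ] AlgebraicClosure ℚ)

variable {S : Finset Nat.Primes} {U₁ U₂ : Subgroup GQ} (h : U₁ ≤ U₂)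
  (hU₁ : (famS S).IsOpen U₁) (hU₂ : (famS S).IsOpen U₂)

theorem fld_mono (h : U₁ ≤ U₂) : fld U₂ ≤ fld U₁ := fun _ hx =>
  mem_fld.mpr fun u hu => mem_fld.mp hx u (h hu)

/-- the algebra structure of nested fixed fields -/
@[reducible]
noncomputable def algF (h : U₁ ≤ U₂) : Algebra (fld U₂) (fld U₁) :=
  (IntermediateField.inclusion (fld_mono h)).toRingHom.toAlgebra

theorem coe_algF (h : U₁ ≤ U₂) (x : fld U₂) :
    letI := algF h
    ((algebraMap (fld U₂) (fld U₁) x : fld U₁) : Qb) = x := rfl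

theorem finrank_algF (h : U₁ ≤ U₂) (hU₁ : IsOpen (U₁ : Set GQ)) (hU₂ : IsOpen (U₂ : Set GQ)) :
    letI := algF h
    finrank (fld U₂) (fld U₁) = U₁.relIndex U₂ := by
  letI := algF h
  have : IsScalarTower ℚ (fld U₂) (fld U₁) := IsScalarTower.of_algebraMap_eq fun x => rfl
  have h1 := finrank_mul_finrank ℚ (fld U₂) (fld U₁)
  rw [finrank_fld hU₁, finrank_fld hU₂, ← Subgroup.relIndex_mul_index h, mul_comm] at h1
  have h2 : U₂.index ≠ 0 := (finiteIndex_of_isOpen hU₂).index_ne_zero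
  exact Nat.eq_of_mul_eq_mul_right (Nat.pos_of_ne_zero h2) h1

theorem mem_below (h : U₁ ≤ U₂) [NumberField (fld U₁)] [NumberField (fld U₂)] {l : Nat.Primes}
    (g : GQ) :
    letI := algF h
    below (K := fld U₂) (pr (emb (fld U₁) l g)) = pr (emb (fld U₂) l g) := by
  letI := algF h
  apply HeightOneSpectrum.ext
  ext a
  exact Iff.rfl

theorem below_asIdeal (h : U₁ ≤ U₂) [NumberField (fld U₁)] [NumberField (fld U₂)]
    (w : HeightOneSpectrum (𝓞 (fld U₁))) :
    letI := algF h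
    (below (K := fld U₂) w).asIdeal = w.asIdeal.comap (algebraMap (𝓞 (fld U₂)) (𝓞 (fld U₁))) :=
  rfl

/-- primes above `S` -/
theorem finite_bad (S : Finset Nat.Primes) (U : Subgroup GQ) [NumberField (fld U)] :
    {w : HeightOneSpectrum (𝓞 (fld U)) | ∃ l ∈ S, ((l : ℕ) : 𝓞 (fld U)) ∈ w.asIdeal}.Finite := by
  have hI : Ideal.span {((PS S : ℕ) : 𝓞 (fld U))} ≠ 0 := by
    rw [Ne, Ideal.zero_eq_bot, Ideal.span_singleton_eq_bot, Nat.cast_eq_zero, PS]
    exact Finset.prod_ne_zero_iff.mpr fun l _ => l.2.ne_zero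
  refine (Ideal.finite_factors hI).subset ?_
  rintro w ⟨l, hl, hw⟩
  change w.asIdeal ∣ _
  rw [Ideal.dvd_span_singleton]
  obtain ⟨M, hM⟩ : (l : ℕ) ∣ PS S := Finset.dvd_prod_of_mem _ hl
  rw [hM, Nat.cast_mul]
  exact Ideal.mul_mem_right _ _ hw

variable {A : Type*} [AddCommGroup A] [Finite A] (θ : ↥(FF (repI S) U₂) →+ A)
  (hK : ∀ a : ↥(FF (repI S) U₂), (a : IS S) ∈ LinearMap.range (iKS S) → θ a = 0)
  (hN : ∀ b, θ (nmr (repI S) h hU₁ b) = 0)

include hK hN hU₂ in
/-- **The universal norm index inequality** -/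
theorem card_le_relIndex (hθ : Function.Surjective θ) : Nat.card A ≤ U₁.relIndex U₂ := by
  classical
  haveI := numberField_fld (isOpen_of_famS hU₁)
  haveI := numberField_fld (isOpen_of_famS hU₂)
  letI := algF h
  rw [← finrank_algF h (isOpen_of_famS hU₁) (isOpen_of_famS hU₂)]
  have hcard : Nat.card A = Nat.card (Multiplicative A) := rfl
  rw [hcard]
  obtain ⟨k, hk0, hk⟩ := theta_ray h hU₁ hU₂ θ hK hN
  refine second_inequality (K' := fld U₁) (Theta hU₂ θ)
    (Ideal.span {((PS S : ℕ) : 𝓞 (fld U₂)) ^ k}) (fun r hr x hx hrx _ => hk r hr x hx hrx) ?_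
    (finite_bad S U₁).toFinset ?_
  · intro q
    obtain ⟨a, ha⟩ := hθ q.toAdd
    obtain ⟨J, hJ, hc, hJa⟩ := theta_surj h hU₁ hU₂ θ hK hN a
    refine ⟨⟨J, mem_nonZeroDivisors_of_ne_zero hJ⟩, cop_coprime hc k, ?_⟩
    change Theta hU₂ θ J = _
    rw [Theta_of_cop hU₂ θ hJ hc, hJa, ha]
    rfl
  · intro w hw hwp
    rw [Set.Finite.mem_toFinset] at hw
    set l : Nat.Primes := ⟨_, hwp⟩ with hl
    have hlw : ((l : ℕ) : 𝓞 (fld U₁)) ∈ w.asIdeal := Ideal.absNorm_mem w.asIdeal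
    have hlS : l ∉ S := fun h => hw ⟨l, h, hlw⟩
    have hv : ∀ g, pr (emb (fld U₁) l g) = w →
        pr (emb (fld U₂) l g) = below (K := fld U₂) w := by
      intro g hg
      rw [← mem_below h g, hg]
    have h1 := nmr_dI h hU₁ hU₂ hlS w rfl (below (K := fld U₂) w) hv
    have hcop : Cop S U₂ (below (K := fld U₂) w).asIdeal := by
      intro l' hl' g hle
      apply hw
      refine ⟨l', hl', ?_⟩
      have h2 : ((l' : ℕ) : 𝓞 (fld U₂)) ∈ (below (K := fld U₂) w).asIdeal := by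
        rw [eq_of_le hle]
        exact natCast_mem_pr _
      rw [below_asIdeal h, Ideal.mem_comap, map_natCast] at h2
      exact h2
    rw [Theta_of_cop hU₂ θ (below (K := fld U₂) w).ne_bot hcop, ← h1, hN, ofAdd_zero]
    rfl

end Fermat.Agent.GCFT
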