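import Fermat.Agent.GCFT.RaySurj2

/-!
# Norms of prime divisors
-/

set_option autoImplicit false
set_option linter.style.haveILetI false

namespace Fermat.Agent.GCFT

open Fermat.Agent.Coh NumberField IsDedekindDomain Module

/-- The field of algebraic numbers. -/
local notation "Qb" => AlgebraicClosure ℚ
/-- The absolute Galois group. -/
local notation "GQ" => (AlgebraicClosure ℚ ≃ₐ[ℚ] AlgebraicClosure ℚ)

variable {S : Finset Nat.Primes} {U₁ U₂ : Subgroup GQ} (h : U₁ ≤ U₂)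
  (hU₁ : (famS S).IsOpen U₁) (hU₂ : (famS S).IsOpen U₂)

/-- representatives of the cosets -/
noncomputable def secr (U₁ U₂ : Subgroup GQ) (x : U₂ ⧸ U₁.subgroupOf U₂) : GQ :=
  ((sec (U₁.subgroupOf U₂) x : U₂) : GQ)

theorem secr_mem (x : U₂ ⧸ U₁.subgroupOf U₂) : secr U₁ U₂ x ∈ U₂ :=
  (sec (U₁.subgroupOf U₂) x : U₂).2

theorem mk_secr (x : U₂ ⧸ U₁.subgroupOf U₂) :
    (((⟨secr U₁ U₂ x, secr_mem x⟩ : U₂) : U₂ ⧸ U₁.subgroupOf U₂)) = x := mk_sec _ x

theorem cD_nmr (b : ↥(FF (repI S) U₁)) (l : Nat.Primes) (g : GQ) :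
    letI := relFintype hU₁ U₂
    cD (nmr (repI S) h hU₁ b) l g = ∑ x : U₂ ⧸ U₁.subgroupOf U₂, cD b l (g * secr U₁ U₂ x) := by
  letI := relFintype hU₁ U₂
  have h1 := coe_nmr (repI S) h hU₁ b (secr U₁ U₂) fun x => ⟨secr_mem x, mk_secr x⟩
  have h2 : ∀ (s : Finset (U₂ ⧸ U₁.subgroupOf U₂)),
      (∑ x ∈ s, repI S (secr U₁ U₂ x) (b : IS S) : IS S).1.2 l g =
        ∑ x ∈ s, cD b l (g * secr U₁ U₂ x) := by
    classical
    intro s
    induction s using Finset.induction_on with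
    | empty => rfl
    | insert i s hi ih => rw [Finset.sum_insert hi, Finset.sum_insert hi, ← ih]; rfl
  rw [← h2, ← h1]
  rfl

theorem cS_nmr (b : ↥(FF (repI S) U₁)) (l : Nat.Primes) (g : GQ) :
    letI := relFintype hU₁ U₂
    cS (nmr (repI S) h hU₁ b) l g = ∏ x : U₂ ⧸ U₁.subgroupOf U₂, cS b l (g * secr U₁ U₂ x) := by
  letI := relFintype hU₁ U₂
  have h1 := coe_nmr (repI S) h hU₁ b (secr U₁ U₂) fun x => ⟨secr_mem x, mk_secr x⟩
  have h2 : ∀ (s : Finset (U₂ ⧸ U₁.subgroupOf U₂)),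
      ((((∑ x ∈ s, repI S (secr U₁ U₂ x) (b : IS S) : IS S).1.1 l g).toMul : (Om l)ˣ) : Om l) =
        ∏ x ∈ s, cS b l (g * secr U₁ U₂ x) := by
    classical
    intro s
    induction s using Finset.induction_on with
    | empty => rfl
    | insert i s hi ih => rw [Finset.sum_insert hi, Finset.prod_insert hi, ← ih]; rfl
  rw [← h2, ← h1]
  rfl

theorem nmr_dI [NumberField (fld U₁)] [NumberField (fld U₂)] {l : Nat.Primes} (hl : l ∉ S)
    (w : HeightOneSpectrum (𝓞 (fld U₁))) (hw : Ideal.absNorm w.asIdeal = (l : ℕ))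
    (v : HeightOneSpectrum (𝓞 (fld U₂)))
    (hv : ∀ g, pr (emb (fld U₁) l g) = w → pr (emb (fld U₂) l g) = v) :
    nmr (repI S) h hU₁ (dI hU₁ w.asIdeal w.ne_bot) = dI hU₂ v.asIdeal v.ne_bot := by
  classical
  letI := relFintype hU₁ U₂
  have hlw : ((l : ℕ) : 𝓞 (fld U₁)) ∈ w.asIdeal := by
    rw [← hw]
    exact Ideal.absNorm_mem w.asIdeal
  obtain ⟨g₀, hg₀⟩ := exists_pr_eq w hlw
  have hlv : ((l : ℕ) : 𝓞 (fld U₂)) ∈ v.asIdeal := by
    rw [← hv g₀ hg₀]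
    exact natCast_mem_pr _
  apply ext_FF
  · intro l' hl' g
    rw [cS_nmr, cS_dI]
    apply Finset.prod_eq_one
    intro x _
    exact cS_dI hU₁ _ _ _ _
  intro l' hl' g
  rw [cD_nmr, cD_dI hU₂ _ _ hl', mulI_prime]
  have hterm : ∀ x : U₂ ⧸ U₁.subgroupOf U₂, cD (dI hU₁ w.asIdeal w.ne_bot) l'
      (g * secr U₁ U₂ x) = if pr (emb (fld U₁) l' (g * secr U₁ U₂ x)) = w then 1 else 0 := by
    intro x
    rw [cD_dI hU₁ _ _ hl', mulI_prime]
  rw [Finset.sum_congr rfl fun x _ => hterm x]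
  by_cases hll : l' = l
  swap
  · rw [if_neg]
    · apply Finset.sum_eq_zero
      intro x _
      rw [if_neg]
      intro h1
      apply hll
      apply eq_of_mem_prime (v := w) _ hlw
      rw [← h1]
      exact natCast_mem_pr _
    · intro h1
      apply hll
      apply eq_of_mem_prime (v := v) _ hlv
      rw [← h1]
      exact natCast_mem_pr _
  subst hll
  by_cases hg : pr (emb (fld U₂) l' g) = v
  swap
  · rw [if_neg hg]
    apply Finset.sum_eq_zero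
    intro x _
    rw [if_neg]
    intro h1
    apply hg
    rw [← hv _ h1, pr_emb_mul l' g (secr_mem x)]
  rw [if_pos hg]
  obtain ⟨δ, u, hu, hgu⟩ := exists_eq_of_pr_eq (isOpen_of_famS hU₂) ((hv g₀ hg₀).trans hg.symm)
  have hpr : pr (emb (fld U₁) l' (g * u⁻¹)) = w := by
    have h1 : g * u⁻¹ = rl l' δ * g₀ := by rw [hgu, mul_inv_cancel_right]
    rw [h1, pr_emb_rl, hg₀]
  set x₀ : U₂ ⧸ U₁.subgroupOf U₂ := (((⟨u⁻¹, U₂.inv_mem hu⟩ : U₂) : U₂ ⧸ U₁.subgroupOf U₂))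
    with hx₀
  have hmem : ∀ x : U₂ ⧸ U₁.subgroupOf U₂, x = x₀ ↔ u * secr U₁ U₂ x ∈ U₁ := by
    intro x
    conv_lhs => rw [← mk_secr x]
    rw [hx₀, eq_comm, QuotientGroup.eq, Subgroup.mem_subgroupOf]
    change (u⁻¹)⁻¹ * secr U₁ U₂ x ∈ U₁ ↔ _
    rw [inv_inv]
  rw [Finset.sum_eq_single x₀]
  · rw [if_pos]
    have h1 := (hmem x₀).mp rfl
    have h2 : g * secr U₁ U₂ x₀ = (g * u⁻¹) * (u * secr U₁ U₂ x₀) := by group
    rw [h2, pr_emb_mul l' _ h1, hpr]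
  · intro x _ hx
    rw [if_neg]
    intro h1
    apply hx
    rw [hmem]
    obtain ⟨δ', u₁, hu₁, h2⟩ := exists_eq_of_pr_eq (isOpen_of_famS hU₁) (hpr.trans h1.symm)
    have h3 : u * secr U₁ U₂ x = ((g * u⁻¹)⁻¹ * rl l' δ' * (g * u⁻¹)) * u₁ := by
      have h4 : secr U₁ U₂ x = g⁻¹ * (rl l' δ' * (g * u⁻¹) * u₁) := by
        rw [← h2]
        group
      rw [h4]
      group
    rw [h3]
    refine U₁.mul_mem ?_ hu₁
    apply mem_of_fixes (isOpen_of_famS hU₁)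
    intro y hy
    have h5 := fixed_of_norm_prime hU₁ hl (g * u⁻¹) (by rw [hpr]; exact hw) δ'
      ⟨y, mem_fld.mpr hy⟩
    rw [emb_apply, ← il_rl] at h5
    have h6 := (il l').toRingHom.injective h5
    change rl l' δ' ((g * u⁻¹) y) = (g * u⁻¹) y at h6
    rw [AlgEquiv.mul_apply, AlgEquiv.mul_apply, h6, ← AlgEquiv.mul_apply, inv_mul_cancel,
      AlgEquiv.one_apply]
  · intro h1
    exact absurd (Finset.mem_univ _) h1

end Fermat.Agent.GCFT
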