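import Fermat.Agent.GCFT.RayTheta

/-!
# Surjectivity of the ray class character on ideals
-/

set_option autoImplicit false

namespace Fermat.Agent.GCFT

open Fermat.Agent.Coh NumberField IsDedekindDomain Module

/-- The field of algebraic numbers. -/
local notation "Qb" => AlgebraicClosure ℚ
/-- The absolute Galois group. -/
local notation "GQ" => (AlgebraicClosure ℚ ≃ₐ[ℚ] AlgebraicClosure ℚ)

theorem eq_of_mem_prime {K : Type*} [Field K] [NumberField K] {v : HeightOneSpectrum (𝓞 K)}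
    {l l' : Nat.Primes} (h : ((l : ℕ) : 𝓞 K) ∈ v.asIdeal) (h' : ((l' : ℕ) : 𝓞 K) ∈ v.asIdeal) :
    l = l' := by
  by_contra hne
  have hne' : (l : ℕ) ≠ (l' : ℕ) := fun h => hne (Subtype.ext h)
  obtain ⟨a, b, hab⟩ := Nat.isCoprime_iff_coprime.mpr ((Nat.coprime_primes l.2 l'.2).mpr hne')
  apply v.isPrime.ne_top
  rw [Ideal.eq_top_iff_one]
  have h4 : (1 : 𝓞 K) = (a : 𝓞 K) * ((l : ℕ) : 𝓞 K) + (b : 𝓞 K) * ((l' : ℕ) : 𝓞 K) := by
    have := congrArg (fun z : ℤ => (z : 𝓞 K)) hab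
    push_cast at this
    exact this.symm
  rw [h4]
  exact add_mem (Ideal.mul_mem_left _ _ h) (Ideal.mul_mem_left _ _ h')

theorem eq_of_le {K : Type*} [Field K] [NumberField K] {v w : HeightOneSpectrum (𝓞 K)}
    (h : v.asIdeal ≤ w.asIdeal) : v = w := by
  apply HeightOneSpectrum.ext
  exact v.isMaximal.eq_of_le w.isPrime.ne_top h

variable {S : Finset Nat.Primes} (U : Subgroup GQ) [NumberField (fld U)]

open Classical in
theorem mulI_prime (v : HeightOneSpectrum (𝓞 (fld U))) (l : Nat.Primes) (g : GQ) :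
    mulI U v.asIdeal l g = if pr (emb (fld U) l g) = v then 1 else 0 := by
  split_ifs with h
  · rw [mulI, h]
    have hfin := FiniteMultiplicity.of_prime_left v.prime v.ne_bot
    have : multiplicity v.asIdeal v.asIdeal = 1 := by
      exact multiplicity_self
    rw [this]
    rfl
  · rw [mulI_eq_zero_iff U v.ne_bot]
    intro h1
    exact h (eq_of_le h1).symm

theorem mulI_one (l : Nat.Primes) (g : GQ) : mulI U 1 l g = 0 := by
  rw [mulI, mult_one]
  rfl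

theorem mulI_pow {I : Ideal (𝓞 (fld U))} (hI : I ≠ 0) (n : ℕ) (l : Nat.Primes) (g : GQ) :
    mulI U (I ^ n) l g = n * mulI U I l g := by
  induction n with
  | zero => rw [pow_zero, mulI_one]; simp
  | succ n ih => rw [pow_succ, mulI_mul U (pow_ne_zero _ hI) hI, ih]; push_cast; ring

theorem mulI_prod {ι : Type*} (s : Finset ι) (f : ι → Ideal (𝓞 (fld U))) (hf : ∀ i ∈ s, f i ≠ 0)
    (l : Nat.Primes) (g : GQ) : mulI U (∏ i ∈ s, f i) l g = ∑ i ∈ s, mulI U (f i) l g := by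
  classical
  induction s using Finset.induction_on with
  | empty => rw [Finset.prod_empty, Finset.sum_empty, mulI_one]
  | insert i s hi ih =>
    rw [Finset.prod_insert hi, Finset.sum_insert hi, mulI_mul U (hf i (Finset.mem_insert_self i s))
      (Finset.prod_ne_zero_iff.mpr fun j hj => hf j (Finset.mem_insert_of_mem hj)), ih fun j hj =>
      hf j (Finset.mem_insert_of_mem hj)]

variable {U}

/-- every nonnegative invariant divisor is the divisor of an ideal -/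
theorem exists_ideal_of_divisor (hU : (famS S).IsOpen U) (φ : Nat.Primes → GQ → ℤ)
    (hφ : ∀ l, l ∉ S → ∀ (δ : Gl l) g, φ l (rl l δ * g) = φ l g)
    (hφ' : ∀ l, l ∉ S → ∀ g, ∀ u ∈ U, φ l (g * u) = φ l g)
    (hfin : {l : Nat.Primes | ∃ g, φ l g ≠ 0}.Finite) (h0 : ∀ l, l ∉ S → ∀ g, 0 ≤ φ l g) :
    ∃ J : Ideal (𝓞 (fld U)), J ≠ 0 ∧ Cop S U J ∧ ∀ l, l ∉ S → ∀ g, mulI U J l g = φ l g := by
  classical
  have hUo := isOpen_of_famS hU
  have := finiteIndex_of_isOpen hUo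
  have hfq : Finite (GQ ⧸ U) := inferInstance
  let : Fintype (GQ ⧸ U) := Fintype.ofFinite _
  -- the multiplicities
  have hm : ∃ m : HeightOneSpectrum (𝓞 (fld U)) → ℕ, ∀ l, l ∉ S → ∀ g,
      (m (pr (emb (fld U) l g)) : ℤ) = φ l g := by
    refine ⟨fun v => if h : ∃ x : Nat.Primes × GQ, x.1 ∉ S ∧ pr (emb (fld U) x.1 x.2) = v then
      (φ h.choose.1 h.choose.2).toNat else 0, fun l hl g => ?_⟩
    have h : ∃ x : Nat.Primes × GQ, x.1 ∉ S ∧
        pr (emb (fld U) x.1 x.2) = pr (emb (fld U) l g) := ⟨(l, g), hl, rfl⟩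
    change ((if h : ∃ x : Nat.Primes × GQ, x.1 ∉ S ∧
        pr (emb (fld U) x.1 x.2) = pr (emb (fld U) l g) then
      (φ h.choose.1 h.choose.2).toNat else 0 : ℕ) : ℤ) = φ l g
    rw [dif_pos h]
    obtain ⟨h1, h2⟩ := h.choose_spec
    set l' := h.choose.1
    set g' := h.choose.2
    have h3 : l' = l := by
      apply eq_of_mem_prime (v := pr (emb (fld U) l g)) _ (natCast_mem_pr _)
      rw [← h2]
      exact natCast_mem_pr _
    rw [Int.toNat_of_nonneg (h0 _ h1 _)]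
    have h4 : ∀ (l₁ : Nat.Primes) (g₁ : GQ), l₁ = l →
        pr (emb (fld U) l₁ g₁) = pr (emb (fld U) l g) → φ l₁ g₁ = φ l g := by
      intro l₁ g₁ he h5
      subst he
      obtain ⟨δ, u, hu, h6⟩ := exists_eq_of_pr_eq hUo h5
      rw [h6, hφ' _ hl _ u hu, hφ _ hl]
    exact h4 l' g' h3 h2
  obtain ⟨m, hm⟩ := hm
  -- the support
  set supp : Finset Nat.Primes := hfin.toFinset.filter (fun l => l ∉ S) with hsupp
  set T : Finset (HeightOneSpectrum (𝓞 (fld U))) :=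
    (supp ×ˢ (Finset.univ : Finset (GQ ⧸ U))).image
      (fun x => pr (emb (fld U) x.1 (Quotient.out x.2))) with hT
  have hTmem : ∀ v ∈ T, ∃ l g, l ∉ S ∧ pr (emb (fld U) l g) = v := by
    intro v hv
    obtain ⟨⟨l, c⟩, hx, rfl⟩ := Finset.mem_image.mp hv
    rw [Finset.mem_product] at hx
    exact ⟨l, _, (Finset.mem_filter.mp hx.1).2, rfl⟩
  have hTsupp : ∀ l, l ∉ S → ∀ g, φ l g ≠ 0 → pr (emb (fld U) l g) ∈ T := by
    intro l hl g hg
    refine Finset.mem_image.mpr ⟨(l, (g : GQ ⧸ U)), ?_, ?_⟩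
    · rw [Finset.mem_product]
      exact ⟨Finset.mem_filter.mpr ⟨hfin.mem_toFinset.mpr ⟨g, hg⟩, hl⟩, Finset.mem_univ _⟩
    · obtain ⟨u, hu⟩ := QuotientGroup.mk_out_eq_mul U g
      change pr (emb (fld U) l (Quotient.out (g : GQ ⧸ U))) = _
      rw [hu, pr_emb_mul l g u.2]
  set J : Ideal (𝓞 (fld U)) := ∏ v ∈ T, v.asIdeal ^ m v with hJ
  have hne : ∀ v ∈ T, v.asIdeal ^ m v ≠ 0 := fun v _ => pow_ne_zero _ v.ne_bot
  have hJ0 : J ≠ 0 := Finset.prod_ne_zero_iff.mpr hne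
  have hmul : ∀ l g, mulI U J l g = if pr (emb (fld U) l g) ∈ T then
      (m (pr (emb (fld U) l g)) : ℤ) else 0 := by
    intro l g
    rw [hJ, mulI_prod U T _ hne]
    rw [← Finset.sum_ite_eq T (pr (emb (fld U) l g)) (fun v => (m v : ℤ))]
    refine Finset.sum_congr rfl fun v _ => ?_
    rw [mulI_pow U v.ne_bot, mulI_prime]
    split_ifs <;> simp
  refine ⟨J, hJ0, fun l hl g => ?_, fun l hl g => ?_⟩
  · rw [← mulI_eq_zero_iff U hJ0, hmul, if_neg]
    intro hT1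
    obtain ⟨l', g', hl', h1⟩ := hTmem _ hT1
    have h2 : l' = l := by
      apply eq_of_mem_prime (v := pr (emb (fld U) l g)) _ (natCast_mem_pr _)
      rw [← h1]
      exact natCast_mem_pr _
    exact hl' (h2 ▸ hl)
  · rw [hmul]
    split_ifs with h1
    · exact hm l hl g
    · by_contra hcon
      exact h1 (hTsupp l hl g (Ne.symm hcon))

theorem exists_pos_le {ι : Type*} [Finite ι] (f : ι → ℝ) (hf : ∀ i, 0 < f i) :
    ∃ η : ℝ, 0 < η ∧ ∀ i, η ≤ f i := by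
  let := Fintype.ofFinite ι
  rcases isEmpty_or_nonempty ι with h | h
  · exact ⟨1, one_pos, fun i => (h.false i).elim⟩
  · obtain ⟨i, hi⟩ := Finite.exists_min f
    exact ⟨f i, hf i, hi⟩

omit [NumberField (fld U)] in
/-- approximation of an invariant idele by a principal one -/
theorem exists_kI_near (hU : (famS S).IsOpen U) (a : ↥(FF (repI S) U)) (η : Nat.Primes → ℝ)
    (hη : ∀ l, 0 < η l ∧ η l ≤ 1) :
    ∃ (x : fld U) (_ : x ≠ 0), ∀ l ∈ S, ∀ g, ‖cS a l g / emb (fld U) l g x - 1‖ < η l := by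
  have hUo := isOpen_of_famS hU
  have := finiteIndex_of_isOpen hUo
  have hfq : Finite (GQ ⧸ U) := inferInstance
  obtain ⟨η', hη'0, hη'⟩ := exists_pos_le (ι := {l // l ∈ S} × (GQ ⧸ U))
    (fun i => η i.1 * ‖cS a i.1 (Quotient.out i.2)‖)
    (fun i => mul_pos (hη _).1 (norm_pos_iff.mpr (cS_ne_zero a _ _)))
  have hη'' : ∀ l ∈ S, ∀ g, η' ≤ η l * ‖cS a l g‖ := by
    intro l hl g
    have h1 := hη' (⟨l, hl⟩, (g : GQ ⧸ U))
    obtain ⟨u, hu⟩ := QuotientGroup.mk_out_eq_mul U g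
    change η' ≤ η l * ‖cS a l (Quotient.out (g : GQ ⧸ U))‖ at h1
    rwa [hu, cS_mul a l g u.2] at h1
  obtain ⟨x, hx, hx'⟩ := exists_approx hUo S (fun l g => cS a l g)
    (fun l hl δ g => cS_rl a hl δ g) (fun l _ g u hu => cS_mul a l g hu) hη'0
  rcases S.eq_empty_or_nonempty with hS | ⟨l₀, hl₀⟩
  · subst hS
    exact ⟨1, one_ne_zero, fun l hl => absurd hl (Finset.notMem_empty l)⟩
  have hnorm : ∀ l ∈ S, ∀ g, ‖il l (g x)‖ = ‖cS a l g‖ := by
    intro l hl g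
    have h1 : ‖il l (g x) - cS a l g‖ < ‖cS a l g‖ := by
      refine (hx' l hl g).trans_le ((hη'' l hl g).trans ?_)
      exact mul_le_of_le_one_left (norm_nonneg _) (hη l).2
    have h2 := IsUltrametricDist.norm_add_eq_max_of_norm_ne_norm h1.ne
    rw [sub_add_cancel, max_eq_right h1.le] at h2
    exact h2
  have hx0 : x ≠ 0 := by
    rintro rfl
    have := hnorm l₀ hl₀ 1
    rw [map_zero, map_zero, norm_zero] at this
    exact cS_ne_zero a l₀ 1 (norm_eq_zero.mp this.symm)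
  refine ⟨⟨x, mem_fld.mpr hx⟩, fun h => hx0 (congrArg Subtype.val h), fun l hl g => ?_⟩
  rw [emb_apply]
  have h3 : il l (g x) ≠ 0 := by rwa [Ne, map_eq_zero, map_eq_zero]
  have h4 : cS a l g / il l (g x) - 1 = (cS a l g - il l (g x)) / il l (g x) := by
    rw [sub_div, div_self h3]
  change ‖cS a l g / il l (g x) - 1‖ < η l
  rw [h4, norm_div, div_lt_iff₀ (norm_pos_iff.mpr h3), norm_sub_rev, hnorm l hl g]
  exact (hx' l hl g).trans_le (hη'' l hl g)

theorem cop_coprime {J : Ideal (𝓞 (fld U))} (hJ : Cop S U J) (k : ℕ) :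
    IsCoprime J (Ideal.span {((PS S : ℕ) : 𝓞 (fld U)) ^ k}) := by
  rw [Ideal.isCoprime_iff_sup_eq]
  by_contra hcon
  obtain ⟨P, hP, hle⟩ := Ideal.exists_le_maximal _ hcon
  have hJP : J ≤ P := le_sup_left.trans hle
  have hMP : ((PS S : ℕ) : 𝓞 (fld U)) ^ k ∈ P :=
    (le_sup_right.trans hle) (Ideal.mem_span_singleton_self _)
  have h1 : ((PS S : ℕ) : 𝓞 (fld U)) ∈ P := hP.isPrime.mem_of_pow_mem k hMP
  have h2 : ∃ l ∈ S, ((l : ℕ) : 𝓞 (fld U)) ∈ P := by
    rw [PS, Nat.cast_prod] at h1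
    obtain ⟨l, hl, h⟩ := (hP.isPrime.prod_mem_iff).mp h1
    exact ⟨l, hl, h⟩
  obtain ⟨l, hl, hlP⟩ := h2
  have hP0 : P ≠ ⊥ := by
    rintro rfl
    rw [Ideal.mem_bot, Nat.cast_eq_zero] at hlP
    exact l.2.ne_zero hlP
  obtain ⟨g, hg⟩ := exists_pr_eq (⟨P, hP.isPrime, hP0⟩ : HeightOneSpectrum (𝓞 (fld U))) hlP
  apply hJ l hl g
  rw [hg]
  exact hJP


end Fermat.Agent.GCFT
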