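import Fermat.Agent.GCFT.RaySurj

/-!
# Surjectivity of the ray class character on ideals, conclusion
-/

set_option autoImplicit false

namespace Fermat.Agent.GCFT

open Fermat.Agent.Coh NumberField IsDedekindDomain Module

/-- The absolute Galois group. -/
local notation "GQ" => (AlgebraicClosure ℚ ≃ₐ[ℚ] AlgebraicClosure ℚ)

variable {S : Finset Nat.Primes}

theorem relIndex_ne_zero {U₁ U₂ : Subgroup GQ} (hU₁ : (famS S).IsOpen U₁) :
    U₁.relIndex U₂ ≠ 0 := by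
  have := hU₁.finiteIndex
  have := Subgroup.instFiniteIndex_subgroupOf U₁ U₂
  exact Subgroup.FiniteIndex.index_ne_zero

theorem abs_aux {n : ℕ} (hn : n ≠ 0) (z : ℤ) : 0 ≤ z + n * |z| := by
  have h3 : (1 : ℤ) ≤ n := by exact_mod_cast Nat.one_le_iff_ne_zero.mpr hn
  have h4 := abs_nonneg z
  have h5 := neg_abs_le z
  nlinarith

theorem exists_ideal_pure {U : Subgroup GQ} [NumberField (fld U)] (hU : (famS S).IsOpen U)
    {n : ℕ} (hn : n ≠ 0) (a : ↥(FF (repI S) U)) :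
    ∃ (J : Ideal (𝓞 (fld U))) (hJ : J ≠ 0) (c : ↥(FF (repI S) U)), Cop S U J ∧
      dI hU J hJ = pureI hU a + n • c := by
  have hfin : {l : Nat.Primes | ∃ g, |cD a l g| ≠ 0}.Finite := by
    refine (finite_cD a).subset ?_
    rintro l ⟨g, hg⟩
    exact ⟨g, fun h => hg (by rw [h, abs_zero])⟩
  have hfin2 : {l : Nat.Primes | ∃ g, cD a l g + n * |cD a l g| ≠ 0}.Finite := by
    refine (finite_cD a).subset ?_
    rintro l ⟨g, hg⟩
    exact ⟨g, fun h => hg (by rw [h, abs_zero, mul_zero, add_zero])⟩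
  obtain ⟨J, hJ0, hJ, hJm⟩ := exists_ideal_of_divisor hU
    (fun l g => cD a l g + n * |cD a l g|) (fun l _ δ g => by rw [cD_rl])
    (fun l _ g u hu => by rw [cD_mul a l g hu])
    hfin2 (fun l _ g => abs_aux hn _)
  refine ⟨J, hJ0, pD hU (fun l g => |cD a l g|)
    (fun l _ δ g => by rw [cD_rl])
    (fun l _ g u hu => by rw [cD_mul a l g hu]) hfin, hJ, ?_⟩
  apply ext_FF
  · intro l hl g
    rw [cS_dI, cS_add, cS_nsmul, cS_pureI hU _ hl, cS_pD _ _ _ _ _ hl, one_pow, one_mul]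
  · intro l hl g
    rw [cD_dI hU _ _ hl, hJm l hl g, cD_add, cD_nsmul, cD_pureI hU _ hl,
      cD_pD _ _ _ _ _ hl]

section theta

variable {U₁ U₂ : Subgroup GQ} (h : U₁ ≤ U₂) (hU₁ : (famS S).IsOpen U₁)
  (hU₂ : (famS S).IsOpen U₂) {A : Type*} [AddCommGroup A] (θ : ↥(FF (repI S) U₂) →+ A)
  (hK : ∀ a : ↥(FF (repI S) U₂), (a : IS S) ∈ LinearMap.range (iKS S) → θ a = 0)
  (hN : ∀ b, θ (nmr (repI S) h hU₁ b) = 0) [NumberField (fld U₂)]

include hK hN in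
theorem theta_surj (a : ↥(FF (repI S) U₂)) : ∃ J : Ideal (𝓞 (fld U₂)), ∃ hJ : J ≠ 0,
    Cop S U₂ J ∧ θ (dI hU₂ J hJ) = θ a := by
  obtain ⟨η, hη, H⟩ := theta_near h hU₁ hU₂ θ hN
  obtain ⟨x, hx, hxa⟩ := exists_kI_near hU₂ a η hη
  obtain ⟨a', ha'⟩ : ∃ a', a' = a - kI hU₂ x hx := ⟨_, rfl⟩
  have h1 : θ a' = θ a := by rw [ha', map_sub, theta_kI hU₂ θ hK, sub_zero]
  have h2 : θ a' = θ (pureI hU₂ a') := by
    apply H
    intro l hl g
    rw [ha', cS_sub, cS_kI hU₂ x hx hl]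
    exact hxa l hl g
  obtain ⟨J, hJ, c, hc, h3⟩ := exists_ideal_pure hU₂ (relIndex_ne_zero (U₂ := U₂) hU₁) a'
  refine ⟨J, hJ, hc, ?_⟩
  rw [h3, map_add, theta_nsmul h hU₁ θ hN, add_zero, ← h2, h1]

end theta

end Fermat.Agent.GCFT
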