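import Fermat.Agent.GCFT.Ray

/-!
# Characters of the invariant ideles and ray classes
-/

set_option autoImplicit false

namespace Fermat.Agent.GCFT

open Fermat.Agent.Coh NumberField IsDedekindDomain Module

/-- The field of algebraic numbers. -/
local notation "Qb" => AlgebraicClosure ℚ
/-- The absolute Galois group. -/
local notation "GQ" => (AlgebraicClosure ℚ ≃ₐ[ℚ] AlgebraicClosure ℚ)

variable {S : Finset Nat.Primes} {U : Subgroup GQ}

/-- principal ideles -/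
noncomputable def kI (hU : (famS S).IsOpen U) (x : fld U) (hx : x ≠ 0) : ↥(FF (repI S) U) :=
  ⟨iKS S (toKS hU x.2 (fun h => hx (Subtype.ext h))), by
    rw [mem_FF]
    intro u hu
    rw [← iKS_comm]
    congr 1
    apply Subtype.ext
    apply Additive.toMul.injective
    apply Units.ext
    exact mem_fld.mp x.2 u hu⟩

theorem cS_kI (hU : (famS S).IsOpen U) (x : fld U) (hx : x ≠ 0) {l : Nat.Primes} (hl : l ∈ S)
    (g : GQ) : cS (kI hU x hx) l g = emb (fld U) l g x := by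
  change ((((diagFun S _).1 l g).toMul : (Om l)ˣ) : Om l) = _
  rw [diagFun_fst hl]
  rfl

theorem cD_kI (hU : (famS S).IsOpen U) [NumberField (fld U)] (x : fld U) (hx : x ≠ 0)
    {l : Nat.Primes} (hl : l ∉ S)
    (g : GQ) : cD (kI hU x hx) l g = oi (pr (emb (fld U) l g)) x := by
  change ((diagFun S _).2 l g) = _
  rw [diagFun_snd_not hl]
  apply divl_eq
  exact norm_eq_of_unramified (fun x hx => exists_norm_emb hU hl g x hx) hx

theorem cD_kI_int (hU : (famS S).IsOpen U) [NumberField (fld U)] (x : 𝓞 (fld U)) (hx : x ≠ 0)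
    (hx' : (x : fld U) ≠ 0)
    {l : Nat.Primes} (hl : l ∉ S)
    (g : GQ) : cD (kI hU (x : fld U) hx') l g = mulI U (Ideal.span {x}) l g := by
  rw [cD_kI hU _ _ hl, oi_eq_mult _ hx, mulI]

theorem cS_dI (hU : (famS S).IsOpen U) [NumberField (fld U)] (I : Ideal (𝓞 (fld U))) (hI : I ≠ 0)
    (l : Nat.Primes) (g : GQ) : cS (dI hU I hI) l g = 1 := rfl

theorem cD_dI (hU : (famS S).IsOpen U) [NumberField (fld U)] (I : Ideal (𝓞 (fld U))) (hI : I ≠ 0)
    {l : Nat.Primes} (hl : l ∉ S) (g : GQ) : cD (dI hU I hI) l g = mulI U I l g :=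
  divI_snd_not S U hl I g

theorem pureI_kI (hU : (famS S).IsOpen U) [NumberField (fld U)] (x : 𝓞 (fld U)) (hx : x ≠ 0)
    (hx' : (x : fld U) ≠ 0) (hs : Ideal.span {x} ≠ 0) :
    pureI hU (kI hU (x : fld U) hx') = dI hU (Ideal.span {x}) hs := by
  apply ext_FF
  · intro l hl g
    rw [cS_pureI hU _ hl, cS_dI]
  · intro l hl g
    rw [cD_pureI hU _ hl, cD_kI_int hU x hx hx' hl, cD_dI hU _ _ hl]

/-- the product of the primes in `S` -/
noncomputable def PS (S : Finset Nat.Primes) : ℕ := ∏ l ∈ S, (l : ℕ)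

theorem norm_le_of_mem_span {K : Type*} [Field K] [NumberField K] {l : Nat.Primes}
    (hl : l ∈ S) (ι : K →+* Om l) {k : ℕ} {r : 𝓞 K}
    (hr : r ∈ Ideal.span {((PS S : ℕ) : 𝓞 K) ^ k}) : ‖ι (r : K)‖ ≤ (((l : ℕ) : ℝ)⁻¹) ^ k := by
  obtain ⟨c, rfl⟩ := Ideal.mem_span_singleton'.mp hr
  obtain ⟨M, hM⟩ : (l : ℕ) ∣ PS S := Finset.dvd_prod_of_mem _ hl
  have h1 : ‖ι (((PS S : ℕ) : 𝓞 K) : K)‖ ≤ ((l : ℕ) : ℝ)⁻¹ := by
    rw [hM]
    have : ((((l : ℕ) * M : ℕ) : 𝓞 K) : K) = ((l : ℕ) : K) * (((M : ℕ) : 𝓞 K) : K) := by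
      push_cast
      rfl
    rw [this, map_mul, norm_mul, map_natCast, norm_nat]
    exact mul_le_of_le_one_right (by positivity) (norm_emb_int_le ι _)
  have h2 : ((c * ((PS S : ℕ) : 𝓞 K) ^ k : 𝓞 K) : K) = (c : K) * ((((PS S : ℕ) : 𝓞 K) : K)) ^ k := by
    push_cast
    rfl
  rw [h2, map_mul, map_pow, norm_mul, norm_pow]
  calc _ ≤ 1 * ‖ι (((PS S : ℕ) : 𝓞 K) : K)‖ ^ k :=
        mul_le_mul_of_nonneg_right (norm_emb_int_le ι _) (by positivity)
    _ ≤ _ := by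
      rw [one_mul]
      exact pow_le_pow_left₀ (norm_nonneg _) h1 k

section theta

variable {U₁ U₂ : Subgroup GQ} (h : U₁ ≤ U₂) (hU₁ : (famS S).IsOpen U₁)
  (hU₂ : (famS S).IsOpen U₂) {A : Type*} [AddCommGroup A] (θ : ↥(FF (repI S) U₂) →+ A)
  (hK : ∀ a : ↥(FF (repI S) U₂), (a : IS S) ∈ LinearMap.range (iKS S) → θ a = 0)
  (hN : ∀ b, θ (nmr (repI S) h hU₁ b) = 0)

include hN in
theorem theta_nsmul (a : ↥(FF (repI S) U₂)) : θ (U₁.relIndex U₂ • a) = 0 := by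
  have ha : (a : IS S) ∈ FF (repI S) U₁ := by
    rw [mem_FF]
    intro g hg
    exact (mem_FF (repI S)).mp a.2 g (h hg)
  rw [← nmr_of_mem (repI S) h hU₁ a ⟨a.1, ha⟩ rfl]
  exact hN _

include hK in
theorem theta_kI (x : fld U₂) (hx : x ≠ 0) : θ (kI hU₂ x hx) = 0 := hK _ ⟨_, rfl⟩

include hN in
theorem theta_near : ∃ η : Nat.Primes → ℝ, (∀ l, 0 < η l ∧ η l ≤ 1) ∧
    ∀ a : ↥(FF (repI S) U₂), (∀ l ∈ S, ∀ g, ‖cS a l g - 1‖ < η l) →
      θ a = θ (pureI hU₂ a) := by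
  have hfi : U₁.relIndex U₂ ≠ 0 := by
    have := hU₁.finiteIndex
    have := Subgroup.instFiniteIndex_subgroupOf U₁ U₂
    exact Subgroup.FiniteIndex.index_ne_zero
  obtain ⟨η, hη, H⟩ := exists_root_idele (Nat.pos_of_ne_zero hfi)
  refine ⟨η, hη, fun a ha => ?_⟩
  obtain ⟨b, hb⟩ := H S U₂ hU₂ (a - pureI hU₂ a) (by
    intro l hl g
    rw [cS_sub, cS_pureI hU₂ _ hl, div_one]
    exact ha l hl g) (by
    intro l hl g
    rw [cD_sub, cD_pureI hU₂ _ hl, sub_self])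
  have h1 := theta_nsmul h hU₁ θ hN b
  rw [hb, map_sub, sub_eq_zero] at h1
  exact h1

include hK hN in
theorem theta_ray [NumberField (fld U₂)] : ∃ k : ℕ, k ≠ 0 ∧
    ∀ r ∈ Ideal.span {((PS S : ℕ) : 𝓞 (fld U₂)) ^ k}, ∀ x : 𝓞 (fld U₂), x ≠ 0 → r + x ≠ 0 →
      Theta hU₂ θ (Ideal.span {r + x}) = Theta hU₂ θ (Ideal.span {x}) := by
  obtain ⟨η, hη, H⟩ := theta_near h hU₁ hU₂ θ hN
  -- the exponent
  obtain ⟨k, hk0, hk⟩ : ∃ k : ℕ, k ≠ 0 ∧ ∀ l ∈ S, (((l : ℕ) : ℝ)⁻¹) ^ k < η l := by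
    have h1 : ∀ l : Nat.Primes, ∃ k : ℕ, (((l : ℕ) : ℝ)⁻¹) ^ k < η l := by
      intro l
      have hl : 1 < ((l : ℕ) : ℝ) := by exact_mod_cast l.2.one_lt
      exact exists_pow_lt_of_lt_one (hη l).1 (inv_lt_one_of_one_lt₀ hl)
    choose k hk using h1
    refine ⟨S.sup k + 1, Nat.succ_ne_zero _, fun l hl => ?_⟩
    have hl1 : 1 < ((l : ℕ) : ℝ) := by exact_mod_cast l.2.one_lt
    refine lt_of_le_of_lt ?_ (hk l)
    exact pow_le_pow_of_le_one (by positivity) (inv_le_one_of_one_le₀ hl1.le)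
      ((Finset.le_sup hl).trans (Nat.le_succ _))
  refine ⟨k, hk0, fun r hr x hx hrx => ?_⟩
  have hr' : ∀ l ∈ S, ∀ g, r ∈ (pr (emb (fld U₂) l g)).asIdeal := by
    intro l hl g
    rw [mem_pr]
    refine (norm_le_of_mem_span hl _ hr).trans_lt ?_
    exact (hk l hl).trans_le (hη l).2
  by_cases hc : Cop S U₂ (Ideal.span {x})
  · have hc' : Cop S U₂ (Ideal.span {r + x}) := by
      intro l hl g h1
      apply hc l hl g
      rw [Ideal.span_singleton_le_iff_mem] at h1 ⊢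
      have := sub_mem h1 (hr' l hl g)
      rwa [add_sub_cancel_left] at this
    have hsx : Ideal.span {x} ≠ 0 := by rwa [Ne, Ideal.zero_eq_bot, Ideal.span_singleton_eq_bot]
    have hsrx : Ideal.span {r + x} ≠ 0 := by
      rwa [Ne, Ideal.zero_eq_bot, Ideal.span_singleton_eq_bot]
    have hx' : (x : fld U₂) ≠ 0 := by rwa [Ne, RingOfIntegers.coe_eq_zero_iff]
    have hrx' : ((r + x : 𝓞 (fld U₂)) : fld U₂) ≠ 0 := by
      rwa [Ne, RingOfIntegers.coe_eq_zero_iff]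
    rw [Theta_of_cop hU₂ θ hsrx hc', Theta_of_cop hU₂ θ hsx hc, ← pureI_kI hU₂ _ hrx hrx' hsrx,
      ← pureI_kI hU₂ _ hx hx' hsx]
    congr 2
    rw [← sub_eq_zero, ← map_sub, ← pureI_sub, ← H, map_sub, theta_kI hU₂ θ hK,
      theta_kI hU₂ θ hK, sub_zero]
    intro l hl g
    rw [cS_sub, cS_kI hU₂ _ _ hl, cS_kI hU₂ _ _ hl]
    have h1 : ‖emb (fld U₂) l g (x : fld U₂)‖ = 1 := by
      apply notMem_pr.mp
      have := hc l hl g
      rwa [Ideal.span_singleton_le_iff_mem] at this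
    have h2 : emb (fld U₂) l g (x : fld U₂) ≠ 0 := by
      rw [Ne, map_eq_zero]
      exact hx'
    have h3 : ((r + x : 𝓞 (fld U₂)) : fld U₂) = (r : fld U₂) + (x : fld U₂) := rfl
    rw [h3, map_add, add_div, div_self h2, add_sub_cancel_right, norm_div, h1, div_one]
    exact (norm_le_of_mem_span hl _ hr).trans_lt (hk l hl)
  · have hc' : ¬ Cop S U₂ (Ideal.span {r + x}) := by
      intro hc'
      apply hc
      intro l hl g h1
      apply hc' l hl g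
      rw [Ideal.span_singleton_le_iff_mem] at h1 ⊢
      exact add_mem (hr' l hl g) h1
    rw [Theta_of_not_cop hU₂ θ hc, Theta_of_not_cop hU₂ θ hc']

end theta

end Fermat.Agent.GCFT
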