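import Fermat.Agent.GCFT.InvL

/-!
# Global reciprocity for `H²(G_S, μ_p)`
-/

set_option autoImplicit false
set_option linter.style.haveILetI false
set_option linter.unusedSectionVars false

namespace Fermat.Agent.GCFT

open Fermat.Agent.Coh Fermat.Agent.LocalCFT Fermat.Agent.PLog Fermat.Agent.GalD
open Fermat.Agent.PT (muQ muL jl jZ toTor invL invU coe_toTor coe_jZ nsmul_jl jl_comm fr stabL
  stabHom mem_stabL)
open ExtCitation (cycloChar pPrime)

/-- The field of algebraic numbers. -/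
local notation "Qb" => AlgebraicClosure ℚ
/-- The absolute Galois group. -/
local notation "GQ" => (AlgebraicClosure ℚ ≃ₐ[ℚ] AlgebraicClosure ℚ)

variable {S : Finset Nat.Primes} {U V : Subgroup GQ} {p : ℕ} [hp : Fact p.Prime]

/-- a conjugate of the localisation map -/
noncomputable def rlx (l : Nat.Primes) (x : GQ) : Gl l →* GQ where
  toFun δ := x⁻¹ * rl l δ * x
  map_one' := by simp
  map_mul' δ ε := by simp [mul_assoc]

theorem rlx_apply (l : Nat.Primes) (x : GQ) (δ : Gl l) : rlx l x δ = x⁻¹ * rl l δ * x := rfl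

theorem rlx_cont (l : Nat.Primes) (x : GQ) : ∀ W ∈ famS S, ∃ W' ∈ LF (l : ℕ),
    W' ≤ W.comap (rlx l x) := by
  intro W hW
  obtain ⟨W', hW', hle⟩ := PT.rl_cont (l := l) hW.2.1
  refine ⟨W', hW', fun δ hδ => ?_⟩
  have h1 := hle hδ
  have := hW.1.conj_mem _ h1 x⁻¹
  rw [inv_inv] at this
  exact this

/-- the local cocycle at `(l, x)` -/
theorem locx_mem (l : Nat.Primes) (x : GQ) {f : GQ × GQ → ZMod p} (hf : f ∈ Z2 (famS S) (muQ p)) :
    (fun q : Gl l × Gl l => muQ p x (f (rlx l x q.1, rlx l x q.2))) ∈ Z2 (LF (l : ℕ)) (muL p l) := by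
  refine ⟨(hf.1.comp (rlx l x) (rlx_cont l x)).post _, fun g h j => ?_⟩
  simp only [map_mul]
  rw [← map_add, hf.2, map_add]
  congr 1
  change muQ p x (muQ p (x⁻¹ * rl l g * x) _) = muQ p (rl l g) (muQ p x _)
  rw [← Module.End.mul_apply, ← Module.End.mul_apply, ← map_mul, ← map_mul]
  congr 2
  group

/-- `p`-torsion cocycles of the local Galois group are symbols -/
theorem exists_local_sym (hp2 : p ≠ 2) {l : Nat.Primes} {f : Gl l × Gl l → ZMod p}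
    (hf : f ∈ Z2 (LF (l : ℕ)) (muL p l)) {n r : ℕ}
    (hn : n = (cycCF (l : ℕ) p hp2).f ⊤ + (r + 1)) :
    ∃ (b : ↥(FF (LU (l : ℕ)) (⊤ : Subgroup (Gl l))))
      (c : ↥(⊤ : Subgroup (Gl l)) → Additive (Om l)ˣ), ((LF (l : ℕ)).res ⊤).Sm1 c ∧
      ∀ g h : ↥(⊤ : Subgroup (Gl l)), jl p l (f (g, h)) =
        carry (psiD (cycCF (l : ℕ) p hp2) ⊤ n g) (psiD (cycCF (l : ℕ) p hp2) ⊤ n h) •
          (b : Additive (Om l)ˣ) + (LU (l : ℕ) (g : Gl l) (c h) - c (g * h) + c g) := by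
  subst hn
  have ht : p • H2.mk ((LF (l : ℕ)).res ⊤) (rep (LU (l : ℕ)) ⊤)
      (jZ ((Mor.res (LF (l : ℕ)) (muL p l) ⊤).mapZ2 ⟨f, hf⟩)) = 0 := PT.mk_jZ_mem _
  obtain ⟨b, hb⟩ := exists_sy_psi (cycCF (l : ℕ) p hp2) (Fam.isOpen_top _) r _ ht
  obtain ⟨c, hc, h⟩ := H2.mk_eq_mk.mp hb.symm
  exact ⟨b, c, hc, fun g h' => h g h'⟩

/-- the class in `H²(U, KS)` of a `μ_p`-valued cocycle -/
noncomputable def kZ (hpS : pPrime p ∈ S) (U : Subgroup GQ) {f : GQ × GQ → ZMod p}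
    (hf : f ∈ Z2 (famS S) (muQ p)) : ↥(Z2 ((famS S).res U) (rep (repK S) U)) :=
  ⟨fun q => jK hpS (f ((q.1 : GQ), (q.2 : GQ))),
    post_Z2 (ρ := rep (muQ p) U) (τ := rep (repK S) U) (jK hpS) (fun g v => jK_comm hpS g v)
      ((Mor.res (famS S) (muQ p) U).mapZ2 ⟨f, hf⟩).2⟩

theorem coe_kZ (hpS : pPrime p ∈ S) (U : Subgroup GQ) {f : GQ × GQ → ZMod p}
    (hf : f ∈ Z2 (famS S) (muQ p)) (q : U × U) :
    (kZ hpS U hf : U × U → KS S) q = jK hpS (f ((q.1 : GQ), (q.2 : GQ))) := rfl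

/-- The class dies on a deep layer of the cyclotomic `ℤ_p`-extension. -/
theorem kZ_lay (hp2 : p ≠ 2) (hpS : pPrime p ∈ S) {f : GQ × GQ → ZMod p}
    (hf : f ∈ Z2 (famS S) (muQ p)) {n : ℕ}
    (hn : ∀ l ∈ S, (cycCF ((l : Nat.Primes) : ℕ) p hp2).f ⊤ + 1 ≤ n)
    (hV : (famS S).IsOpen V) (hVn : ∀ v ∈ V, (p : ℤ_[p]) ^ n ∣ dQ p v) :
    H2.mk ((famS S).res V) (rep (repK S) V) (kZ hpS V hf) = 0 := by
  have hS : S.Nonempty := ⟨_, hpS⟩
  refine inj_K (p := p) (n := 1) (hp.out.odd_of_ne_two hp2) hS hV _ ?_ ?_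
  · rw [pow_one, ← map_nsmul]
    have : p • kZ hpS V hf = 0 := Subtype.ext (funext fun q => nsmul_jK hpS _)
    rw [this, map_zero]
  · change H2.mk ((famS S).res V) (rep (repI S) V)
      (((SESres (sesC hS) V).iMor ((famS S).res V)).mapZ2 (kZ hpS V hf)) = 0
    rw [H2.mk_eq_zero]
    have hval : ∀ q, ((((SESres (sesC hS) V).iMor ((famS S).res V)).mapZ2 (kZ hpS V hf) :
        ↥(Z2 ((famS S).res V) (rep (repI S) V))) : V × V → IS S) q =
        iKS S (jK hpS (f ((q.1 : GQ), (q.2 : GQ)))) := fun q => rfl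
    obtain ⟨a, ha, -, hcob⟩ := GlobalCFT.semilocal_two hV
      (((SESres (sesC hS) V).iMor ((famS S).res V)).mapZ2 (kZ hpS V hf)) (fun q => by
        rw [hval]
        exact iKS_jK_snd hpS _) (fun l hl x => by
        obtain ⟨r, hr⟩ : ∃ r, n = (cycCF (l : ℕ) p hp2).f ⊤ + (r + 1) :=
          ⟨n - (cycCF (l : ℕ) p hp2).f ⊤ - 1, by have := hn l hl; omega⟩
        obtain ⟨b, c, hc, hcb⟩ := exists_local_sym hp2 (locx_mem l x hf) hr
        refine ⟨fun δ => c ⟨δ, Subgroup.mem_top _⟩, ?_, fun δ ε => ?_⟩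
        · obtain ⟨_, ⟨W, hW, rfl⟩, hcW⟩ := hc
          exact ⟨_, ⟨W, hW, rfl⟩, fun g u hu => hcW ⟨g, Subgroup.mem_top _⟩ ⟨u, Subgroup.mem_top _⟩
            hu⟩
        · rw [hval]
          change (iKS S (jK hpS (f (rlx l x δ, rlx l x ε)))).1.1 l x = _
          rw [iKS_fst hl, lK_jK]
          have h1 := hcb ⟨δ, Subgroup.mem_top _⟩ ⟨ε, Subgroup.mem_top _⟩
          have h2 : ∀ δ : stabL l x V, psiD (cycCF (l : ℕ) p hp2) ⊤ n ⟨δ, Subgroup.mem_top _⟩ = 0 := by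
            intro δ
            rw [psiD_apply, CFData.toZModPow_eq_zero_iff]
            change (p : ℤ_[p]) ^ n ∣ dQ p (rl l δ)
            rw [← dQ_conj hp2 x]
            exact hVn _ (mem_stabL.mp δ.2)
          rw [h2, h2] at h1
          have h3 : carry (0 : ZMod (p ^ n)) 0 = 0 := by simp [carry]
          rw [h3, zero_smul, zero_add] at h1
          exact h1)
    exact ⟨a, ha, hcob⟩

end Fermat.Agent.GCFT
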