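import Fermat.Agent.GCFT.RayFinal


/-!
# `p`-th roots of elements of `KS`
-/

set_option autoImplicit false
set_option linter.style.haveILetI false

namespace Fermat.Agent.GCFT

open Fermat.Agent.Coh NumberField IsDedekindDomain Module

/-- The field of algebraic numbers. -/
local notation "Qb" => AlgebraicClosure ℚ
/-- The absolute Galois group. -/
local notation "GQ" => (AlgebraicClosure ℚ ≃ₐ[ℚ] AlgebraicClosure ℚ)

/-- the prime of a number field attached to a valuation ring -/
noncomputable def prA (A : ValuationSubring Qb) {q : Nat.Primes} (hA : A.LiesOverPrime (q : ℕ))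
    (F : IntermediateField ℚ Qb) [NumberField F] : HeightOneSpectrum (𝓞 F) where
  asIdeal :=
    { carrier := {a | A.valuation ((a : F) : Qb) < 1}
      zero_mem' := by
        change A.valuation (((0 : 𝓞 F) : F) : Qb) < 1
        simp
      add_mem' := fun {a b} ha hb => by
        change A.valuation (((a + b : 𝓞 F) : F) : Qb) < 1
        have h1 : (((a + b : 𝓞 F) : F) : Qb) = ((a : F) : Qb) + ((b : F) : Qb) := rfl
        rw [h1]
        exact (A.valuation.map_add _ _).trans_lt (max_lt ha hb)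
      smul_mem' := fun a b hb => by
        change A.valuation (((a * b : 𝓞 F) : F) : Qb) < 1
        have h1 : (((a * b : 𝓞 F) : F) : Qb) = ((a : F) : Qb) * ((b : F) : Qb) := rfl
        rw [h1, map_mul]
        have h2 : A.valuation ((a : F) : Qb) ≤ 1 := by
          rw [A.valuation_le_one_iff]
          exact GaloisBasics.integralClosure_le_valuationSubring A
            ((RingOfIntegers.isIntegral_coe a).map F.val.toRingHom.toIntAlgHom)
        calc A.valuation ((a : F) : Qb) * A.valuation ((b : F) : Qb)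
            ≤ 1 * A.valuation ((b : F) : Qb) := mul_le_mul_left h2 _
          _ < 1 := by rw [one_mul]; exact hb }
  isPrime := by
    constructor
    · intro h
      have h1 := (Ideal.eq_top_iff_one _).mp h
      change A.valuation (((1 : 𝓞 F) : F) : Qb) < 1 at h1
      simp at h1
    · intro a b hab
      change A.valuation (((a * b : 𝓞 F) : F) : Qb) < 1 at hab
      have h1 : (((a * b : 𝓞 F) : F) : Qb) = ((a : F) : Qb) * ((b : F) : Qb) := rfl
      rw [h1, map_mul] at hab
      by_contra hcon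
      rw [not_or] at hcon
      have h2 : ∀ c : 𝓞 F, ¬ A.valuation ((c : F) : Qb) < 1 → A.valuation ((c : F) : Qb) = 1 := by
        intro c hc
        apply le_antisymm _ (not_lt.mp hc)
        rw [A.valuation_le_one_iff]
        exact GaloisBasics.integralClosure_le_valuationSubring A
          ((RingOfIntegers.isIntegral_coe c).map F.val.toRingHom.toIntAlgHom)
      rw [h2 a hcon.1, h2 b hcon.2, one_mul] at hab
      exact lt_irrefl _ hab
  ne_bot := by
    intro h
    have h0 : A.valuation ((((q : ℕ) : 𝓞 F) : F) : Qb) < 1 := by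
      have h2 : ((((q : ℕ) : 𝓞 F) : F) : Qb) = ((q : ℕ) : Qb) := by simp
      rw [h2]
      exact hA
    have h1 : ((q : ℕ) : 𝓞 F) ∈ (⊥ : Ideal (𝓞 F)) := h.le h0
    rw [Ideal.mem_bot, Nat.cast_eq_zero] at h1
    exact q.2.ne_zero h1

theorem mem_prA {A : ValuationSubring Qb} {q : Nat.Primes} (hA : A.LiesOverPrime (q : ℕ))
    {F : IntermediateField ℚ Qb} [NumberField F] {a : 𝓞 F} :
    a ∈ (prA A hA F).asIdeal ↔ A.valuation ((a : F) : Qb) < 1 := Iff.rfl

theorem valA_eq_one {A : ValuationSubring Qb} {q : Nat.Primes} (hA : A.LiesOverPrime (q : ℕ))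
    {F : IntermediateField ℚ Qb} [NumberField F] {a : 𝓞 F} (ha : a ∉ (prA A hA F).asIdeal) :
    A.valuation ((a : F) : Qb) = 1 := by
  apply le_antisymm _ (not_lt.mp ha)
  rw [A.valuation_le_one_iff]
  exact GaloisBasics.integralClosure_le_valuationSubring A
    ((RingOfIntegers.isIntegral_coe a).map F.val.toRingHom.toIntAlgHom)

/-- valuation one for the prime implies valuation one for the valuation ring -/
theorem valA_eq_one' {A : ValuationSubring Qb} {q : Nat.Primes} (hA : A.LiesOverPrime (q : ℕ))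
    {F : IntermediateField ℚ Qb} [NumberField F] {x : F}
    (hx : (prA A hA F).valuation F x = 1) : A.valuation (x : Qb) = 1 := by
  obtain ⟨a, s, has⟩ := (prA A hA F).exists_primeCompl_mul_eq_of_integer x hx.le
  have hs : A.valuation (((s : 𝓞 F) : F) : Qb) = 1 := valA_eq_one hA s.2
  have ha : a ∉ (prA A hA F).asIdeal := by
    rw [← HeightOneSpectrum.valuation_lt_one_iff_mem (K := F)]
    have h1 := congrArg ((prA A hA F).valuation F) has
    rw [map_mul, hx, one_mul] at h1
    have h2 : (prA A hA F).valuation F (algebraMap (𝓞 F) F (s : 𝓞 F)) = 1 := by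
      apply le_antisymm ((prA A hA F).valuation_le_one _)
      rw [← not_lt, HeightOneSpectrum.valuation_lt_one_iff_mem]
      exact s.2
    rw [not_lt]
    change 1 ≤ (prA A hA F).valuation F (algebraMap (𝓞 F) F a)
    rw [← h1]
    exact h2.ge
  have h3 := congrArg (fun z : F => A.valuation (z : Qb)) has
  change A.valuation ((x * ((s : 𝓞 F) : F) : F) : Qb) = A.valuation (((a : 𝓞 F) : F) : Qb) at h3
  have h4 : ((x * ((s : 𝓞 F) : F) : F) : Qb) = (x : Qb) * (((s : 𝓞 F) : F) : Qb) := rfl
  rw [h4, map_mul, hs, mul_one, valA_eq_one hA ha] at h3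
  exact h3

variable {S : Finset Nat.Primes}

/-- inertia outside `S` fixes `p`-th roots of elements with divisor divisible by `p` -/
theorem root_fixed {p : ℕ} (hp : p.Prime) (hpS : ⟨p, hp⟩ ∈ S) (x : KS S)
    (hx : ∀ l, l ∉ S → ∀ g, (p : ℤ) ∣ divl l (x : Additive Qbˣ) g) {y : Qb}
    (hy : y ^ p = ((x : Additive Qbˣ).toMul : Qb)) {q : Nat.Primes} (hq : q ∉ S)
    {A : ValuationSubring Qb} (hA : A.LiesOverPrime (q : ℕ)) {σ : GQ}
    (hσ : σ ∈ A.inertiaSubgroupIn ℚ) : σ y = y := by
  obtain ⟨V, hV, hVx⟩ := x.2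
  have hVo : (famS S).IsOpen V := ⟨V, hV, le_rfl⟩
  have := numberField_fld (isOpen_of_famS hVo)
  set x' : Qb := ((x : Additive Qbˣ).toMul : Qb) with hx'
  have hx0 : x' ≠ 0 := Units.ne_zero _
  have hmem : x' ∈ fld V := mem_fld.mpr fun u hu => by
    have h1 := hVx u hu
    rw [hx', ← repQb_apply, h1]
  have hq0 : ((q : ℕ) : Qb) ≠ 0 := Nat.cast_ne_zero.mpr q.2.ne_zero
  -- the place
  obtain ⟨g, hg⟩ := exists_pr_eq (prA A hA (fld V)) (l := q) (by
    rw [mem_prA]
    have h2 : ((((q : ℕ) : 𝓞 (fld V)) : fld V) : Qb) = ((q : ℕ) : Qb) := by simp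
    rw [h2]
    exact hA)
  obtain ⟨m, hm⟩ := hx q hq g
  have hnorm : ‖il q (g x')‖ = ((q : ℕ) : ℝ) ^ (-((p : ℤ) * m)) := by
    rw [← hm]
    exact norm_eq_divl hq x g
  have hql : (0 : ℝ) < ((q : ℕ) : ℝ) := by exact_mod_cast q.2.pos
  set w₀ : fld V := ⟨x', hmem⟩ / ((q : ℕ) : fld V) ^ ((p : ℤ) * m) with hw₀
  have hw₀c : (w₀ : Qb) = x' / ((q : ℕ) : Qb) ^ ((p : ℤ) * m) := by
    rw [hw₀]
    push_cast
    rfl
  have hn1 : ‖emb (fld V) q g w₀‖ = 1 := by
    rw [hw₀, map_div₀, map_zpow₀, map_natCast, norm_div, norm_zpow, norm_nat, emb_apply]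
    change ‖il q (g x')‖ / _ = 1
    rw [hnorm, inv_zpow, zpow_neg, div_self]
    exact inv_ne_zero (zpow_ne_zero _ hql.ne')
  have hv1 : (prA A hA (fld V)).valuation (fld V) w₀ = 1 := by
    rw [← hg]
    apply le_antisymm (val_le_iff.mpr hn1.le)
    have h1 : (pr (emb (fld V) q g)).valuation (fld V) w₀⁻¹ ≤ 1 := by
      rw [val_le_iff, map_inv₀, norm_inv, hn1, inv_one]
    rw [map_inv₀] at h1
    have h0 : w₀ ≠ 0 := by
      intro h
      rw [h, map_zero, norm_zero] at hn1
      exact zero_ne_one hn1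
    have h2 : 0 < (pr (emb (fld V) q g)).valuation (fld V) w₀ := by
      rw [zero_lt_iff, Ne, map_eq_zero]
      exact h0
    exact (inv_le_one₀ h2).mp h1
  have hA1 := valA_eq_one' hA hv1
  rw [hw₀c] at hA1
  -- the root
  set w : Qb := y / ((q : ℕ) : Qb) ^ m with hw
  have hwp : w ^ p = x' / ((q : ℕ) : Qb) ^ ((p : ℤ) * m) := by
    rw [hw, div_pow, hy, ← zpow_natCast (((q : ℕ) : Qb) ^ m) p, ← zpow_mul, mul_comm]
  have hw1 : A.valuation w = 1 := by
    rw [← hwp, map_pow] at hA1
    exact (LG.pow_eq_one_iff_of_ne_zero' hp.ne_zero).mp hA1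
  have hw0 : w ≠ 0 := by
    intro h
    rw [h, map_zero] at hw1
    exact zero_ne_one hw1
  have hσV : σ ∈ V := hV.2.2 q hq A hA hσ
  have hσwp : (σ w) ^ p = w ^ p := by
    rw [← map_pow, hwp, map_div₀, map_zpow₀, map_natCast, mem_fld.mp hmem σ hσV]
  have hpq : ¬ (q : ℕ) ∣ p := by
    intro h
    have h1 := (Nat.prime_dvd_prime_iff_eq q.2 hp).mp h
    exact hq ((Subtype.ext h1 : q = ⟨p, hp⟩) ▸ hpS)
  have hres : A.valuation (σ w - w) < 1 := EC.inertia_residue hσ hw1.le
  have hζ : σ w / w = 1 := by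
    refine LG.root_eq_of_congr q.2 hA hpq ?_ (one_pow p) ?_
    · rw [div_pow, hσwp, div_self (pow_ne_zero _ hw0)]
    · rw [div_sub_one hw0, map_div₀, hw1, div_one]
      exact hres
  have hσw : σ w = w := (div_eq_one_iff_eq hw0).mp hζ
  have hyw : y = w * ((q : ℕ) : Qb) ^ m := by
    rw [hw, div_mul_cancel₀ _ (zpow_ne_zero _ hq0)]
  rw [hyw, map_mul, hσw, map_zpow₀, map_natCast]

theorem divl_translate (l : Nat.Primes) (x : Additive Qbˣ) (g h : GQ) :
    divl l (repQb h x) g = divl l x (g * h) := rfl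

/-- elements of `KS` with divisor divisible by `p` are `p`-th powers in `KS` -/
theorem exists_root {p : ℕ} (hp : p.Prime) (hpS : ⟨p, hp⟩ ∈ S) (x : KS S)
    (hx : ∀ l, l ∉ S → ∀ g, (p : ℤ) ∣ divl l (x : Additive Qbˣ) g) : ∃ y : KS S, p • y = x := by
  obtain ⟨y, hy⟩ := IsAlgClosed.exists_pow_nat_eq ((x : Additive Qbˣ).toMul : Qb) hp.pos
  have hy0 : y ≠ 0 := by
    rintro rfl
    rw [zero_pow hp.ne_zero] at hy
    exact Units.ne_zero _ hy.symm
  -- the stabilizer of `y`
  set H : Subgroup GQ := (IntermediateField.adjoin ℚ {y}).fixingSubgroup with hH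
  have hfd : FiniteDimensional ℚ (IntermediateField.adjoin ℚ {y}) :=
    IntermediateField.adjoin.finiteDimensional (Algebra.IsAlgebraic.isAlgebraic y).isIntegral
  have hHo : IsOpen (H : Set GQ) := IntermediateField.fixingSubgroup_isOpen _
  have hmemH : ∀ g : GQ, g y = y → g ∈ H := by
    intro g hg
    rw [hH, IntermediateField.mem_fixingSubgroup_iff]
    intro z hz
    induction hz using IntermediateField.adjoin_induction with
    | mem z hz => rw [Set.mem_singleton_iff.mp hz]; exact hg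
    | algebraMap r => exact g.commutes r
    | add a b _ _ ha hb => rw [map_add, ha, hb]
    | inv a _ ha => rw [map_inv₀, ha]
    | mul a b _ _ ha hb => rw [map_mul, ha, hb]
  have hHf : H.FiniteIndex := finiteIndex_of_isOpen hHo
  have hcore : H.normalCore ∈ famS S := by
    refine ⟨inferInstance, Subgroup.isOpen_of_isClosed_of_finiteIndex _
      (H.normalCore_isClosed (Subgroup.isClosed_of_isOpen H hHo)), ?_⟩
    intro q hq A hA σ hσ b
    apply hmemH
    -- `b σ b⁻¹ y = y`
    have h1 : σ (b⁻¹ y) = b⁻¹ y := by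
      refine root_fixed hp hpS (repK S b⁻¹ x) (fun l hl g => ?_) ?_ hq hA hσ
      · change (p : ℤ) ∣ divl l (repQb b⁻¹ (x : Additive Qbˣ)) g
        rw [divl_translate]
        exact hx l hl _
      · rw [← map_pow, hy]
        rfl
    rw [AlgEquiv.mul_apply, AlgEquiv.mul_apply, h1, ← AlgEquiv.mul_apply, mul_inv_cancel,
      AlgEquiv.one_apply]
  refine ⟨⟨Additive.ofMul (Units.mk0 y hy0), H.normalCore, hcore, fun u hu => ?_⟩, ?_⟩
  · apply Additive.toMul.injective
    apply Units.ext
    change u y = y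
    have h1 := H.normalCore_le hu
    rw [hH, IntermediateField.mem_fixingSubgroup_iff] at h1
    exact h1 y (IntermediateField.mem_adjoin_simple_self ℚ y)
  · apply Subtype.ext
    apply Additive.toMul.injective
    apply Units.ext
    rw [← hy]
    change (((Units.mk0 y hy0) ^ p : Qbˣ) : Qb) = y ^ p
    rw [Units.val_pow_eq_pow_val]
    rfl

end Fermat.Agent.GCFT
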