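import Fermat.Agent.GCFT.CharProd
import Fermat.Agent.ExtVan.PrimeExist
import Fermat.Agent.ExtVan.RayBound3

/-!
# The universal norm index inequality (analytic form)
-/

set_option autoImplicit false

namespace Fermat.Agent.GCFT

open scoped nonZeroDivisors Topology
open Finset NumberField Module Filter IsDedekindDomain Fermat.Agent.ExtVan

section Series

variable {K : Type*} [Field K] [NumberField K]

/-- the terms of the L-series of a multiplicative function -/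
noncomputable def lt' (χ : Ideal (𝓞 K) →*₀ ℂ) (s : ℝ) : Ideal (𝓞 K) →*₀ ℂ where
  toFun I := χ I * (((Ideal.absNorm I : ℝ) ^ (-s) : ℝ) : ℂ)
  map_zero' := by rw [map_zero, zero_mul]
  map_one' := by
    rw [map_one, Ideal.one_eq_top, Ideal.absNorm_top]
    simp
  map_mul' I J := by
    rw [map_mul, map_mul, Nat.cast_mul, Real.mul_rpow (Nat.cast_nonneg _) (Nat.cast_nonneg _)]
    push_cast
    ring

theorem lt'_apply (χ : Ideal (𝓞 K) →*₀ ℂ) (s : ℝ) (I : Ideal (𝓞 K)) :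
    lt' χ s I = χ I * (((Ideal.absNorm I : ℝ) ^ (-s) : ℝ) : ℂ) := rfl

theorem norm_lt'_le {χ : Ideal (𝓞 K) →*₀ ℂ} (hχ : ∀ I, ‖χ I‖ ≤ 1) (s : ℝ) (I : Ideal (𝓞 K)) :
    ‖lt' χ s I‖ ≤ (Ideal.absNorm I : ℝ) ^ (-s) := by
  rw [lt'_apply, norm_mul, Complex.norm_real, Real.norm_eq_abs, abs_of_nonneg (by positivity)]
  exact mul_le_of_le_one_left (by positivity) (hχ I)

theorem summable_lt' {χ : Ideal (𝓞 K) →*₀ ℂ} (hχ : ∀ I, ‖χ I‖ ≤ 1) {s : ℝ} (hs1 : 1 < s)
    (hs2 : s ≤ 2) : Summable fun I => ‖lt' χ s I‖ :=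
  Summable.of_nonneg_of_le (fun _ => norm_nonneg _) (norm_lt'_le hχ s) (summable_all hs1 hs2)

theorem tsum_lt' (χ : Ideal (𝓞 K) →*₀ ℂ) (s : ℝ) : ∑' I, lt' χ s I = Tt χ s := by
  have h0 : Function.support (fun I : Ideal (𝓞 K) => lt' χ s I) ⊆
      ((Ideal (𝓞 K))⁰ : Set (Ideal (𝓞 K))) := by
    intro I hI
    refine mem_nonZeroDivisors_of_ne_zero ?_
    rintro rfl
    exact hI (map_zero _)
  rw [← tsum_subtype_eq_of_support_subset h0, Tt]
  rfl

theorem euler_norm' {χ : Ideal (𝓞 K) →*₀ ℂ} (hχ : ∀ I, ‖χ I‖ ≤ 1) {s : ℝ} (hs1 : 1 < s)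
    (hs2 : s ≤ 2) :
    HasProd (fun v : HeightOneSpectrum (𝓞 K) => ‖1 - χ v.asIdeal * ea s v‖⁻¹) ‖Tt χ s‖ := by
  have h := (euler_hasProd (summable_lt' hχ hs1 hs2)).norm
  rw [tsum_lt'] at h
  have h2 : (fun v : HeightOneSpectrum (𝓞 K) => ‖(1 - lt' χ s v.asIdeal)⁻¹‖) =
      fun v => ‖1 - χ v.asIdeal * ea s v‖⁻¹ := by
    funext v
    rw [norm_inv, lt'_apply]
    rfl
  rw [h2] at h
  exact h

theorem norm_Tt_le {χ : Ideal (𝓞 K) →*₀ ℂ} (hχ : ∀ I, ‖χ I‖ ≤ 1) {s : ℝ} (hs1 : 1 < s)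
    (hs2 : s ≤ 2) : ‖Tt χ s‖ ≤ Zi K s := by
  rw [Tt, Zi]
  have hZ := Zi_summable (K := K) hs1 hs2
  refine tsum_of_norm_bounded hZ.hasSum fun I => ?_
  exact norm_lt'_le hχ s I

end Series

section Main

variable {K K' : Type*} [Field K] [NumberField K] [Field K'] [NumberField K'] [Algebra K K']
variable {Q : Type*} [CommGroup Q] [Finite Q]

theorem wz_cases {Q : Type*} (x : WithZero Q) : x = 0 ∨ ∃ q : Q, x = (q : WithZero Q) := by
  rcases x with _ | q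
  · exact Or.inl rfl
  · exact Or.inr ⟨q, rfl⟩

/-- the composite of an ideal character with a character of its value group -/
noncomputable def chi (Θ : Ideal (𝓞 K) →*₀ WithZero Q) (ψ : Q →* ℂˣ) : Ideal (𝓞 K) →*₀ ℂ :=
  (WithZero.lift' ((Units.coeHom ℂ).comp ψ)).comp Θ

omit [NumberField K] [Finite Q] in
theorem chi_of_eq_coe {Θ : Ideal (𝓞 K) →*₀ WithZero Q} (ψ : Q →* ℂˣ) {I : Ideal (𝓞 K)} {q : Q}
    (h : Θ I = (q : WithZero Q)) : chi Θ ψ I = (ψ q : ℂ) := by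
  rw [chi, MonoidWithZeroHom.comp_apply, h, WithZero.lift'_coe]
  rfl

omit [NumberField K] [Finite Q] in
theorem chi_of_eq_zero {Θ : Ideal (𝓞 K) →*₀ WithZero Q} (ψ : Q →* ℂˣ) {I : Ideal (𝓞 K)}
    (h : Θ I = 0) : chi Θ ψ I = 0 := by
  rw [chi, MonoidWithZeroHom.comp_apply, h, map_zero]

omit [NumberField K] in
theorem norm_chi_le (Θ : Ideal (𝓞 K) →*₀ WithZero Q) (ψ : Q →* ℂˣ) (I : Ideal (𝓞 K)) :
    ‖chi Θ ψ I‖ ≤ 1 := by
  rcases wz_cases (Θ I) with h | ⟨q, h⟩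
  · rw [chi_of_eq_zero ψ h, norm_zero]
    exact zero_le_one
  · rw [chi_of_eq_coe ψ h, norm_char]

variable [Fintype (Q →* ℂˣ)]

theorem one_le_prod_inv (Θ : Ideal (𝓞 K) →*₀ WithZero Q) {s : ℝ} (hs1 : 1 < s)
    (v : HeightOneSpectrum (𝓞 K)) :
    1 ≤ ∏ ψ : Q →* ℂˣ, ‖1 - chi Θ ψ v.asIdeal * ea s v‖⁻¹ := by
  have ha0 := ea_pos s v
  have ha1 := ea_le_half hs1.le v
  rcases wz_cases (Θ v.asIdeal) with h | ⟨q, h⟩
  · have : ∀ ψ : Q →* ℂˣ, ‖1 - chi Θ ψ v.asIdeal * ea s v‖⁻¹ = 1 := by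
      intro ψ
      rw [chi_of_eq_zero ψ h, zero_mul, sub_zero, norm_one, inv_one]
    simp only [this, Finset.prod_const_one, le_refl]
  · have h1 : ∏ ψ : Q →* ℂˣ, ‖1 - chi Θ ψ v.asIdeal * ea s v‖⁻¹ =
        (∏ ψ : Q →* ℂˣ, ‖1 - (ψ q : ℂ) * (ea s v : ℝ)‖)⁻¹ := by
      rw [← Finset.prod_inv_distrib]
      refine Finset.prod_congr rfl fun ψ _ => ?_
      rw [chi_of_eq_coe ψ h]
    rw [h1]
    have h2 := prod_norm_le_one q ha0.le (by linarith : ea s v < 1)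
    have h3 : 0 < ∏ ψ : Q →* ℂˣ, ‖1 - (ψ q : ℂ) * (ea s v : ℝ)‖ := by
      refine Finset.prod_pos fun ψ _ => ?_
      rw [norm_pos_iff, sub_ne_zero]
      intro h4
      have h5 : ‖(ψ q : ℂ) * (ea s v : ℝ)‖ = ea s v := by
        rw [norm_mul, norm_char, one_mul, Complex.norm_real, Real.norm_eq_abs, abs_of_pos ha0]
      rw [← h4, norm_one] at h5
      linarith
    exact (one_le_inv₀ h3).mpr h2

/-- primes with trivial class are controlled by the product of all L-series -/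
theorem prod_trivial_le (Θ : Ideal (𝓞 K) →*₀ WithZero Q) {s : ℝ} (hs1 : 1 < s) (hs2 : s ≤ 2)
    (T : Finset (HeightOneSpectrum (𝓞 K))) (hT : ∀ v ∈ T, Θ v.asIdeal = 1) :
    (∏ v ∈ T, (1 - ea s v)⁻¹) ^ Nat.card Q ≤ ∏ ψ : Q →* ℂˣ, ‖Tt (chi Θ ψ) s‖ := by
  classical
  have h1 : ∀ ψ : Q →* ℂˣ, Tendsto (fun T : Finset (HeightOneSpectrum (𝓞 K)) =>
      ∏ v ∈ T, ‖1 - chi Θ ψ v.asIdeal * ea s v‖⁻¹) atTop (𝓝 ‖Tt (chi Θ ψ) s‖) := by
    intro ψ
    have := euler_norm' (norm_chi_le Θ ψ) hs1 hs2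
    rwa [HasProd, SummationFilter.unconditional_filter] at this
  have h2 := tendsto_finsetProd (Finset.univ : Finset (Q →* ℂˣ)) fun ψ _ => h1 ψ
  refine ge_of_tendsto h2 ?_
  filter_upwards [eventually_ge_atTop T] with T' hT'
  rw [Finset.prod_comm, ← Finset.prod_sdiff hT']
  have h3 : 1 ≤ ∏ v ∈ T' \ T, ∏ ψ : Q →* ℂˣ, ‖1 - chi Θ ψ v.asIdeal * ea s v‖⁻¹ :=
    Finset.prod_induction _ (fun x : ℝ => 1 ≤ x)
      (fun a b ha hb => one_le_mul_of_one_le_of_one_le ha hb) le_rfl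
      (fun v _ => one_le_prod_inv Θ hs1 v)
  have h4 : ∏ v ∈ T, ∏ ψ : Q →* ℂˣ, ‖1 - chi Θ ψ v.asIdeal * ea s v‖⁻¹ =
      (∏ v ∈ T, (1 - ea s v)⁻¹) ^ Nat.card Q := by
    rw [← Finset.prod_pow]
    refine Finset.prod_congr rfl fun v hv => ?_
    have ha1 := ea_le_half hs1.le v
    have h5 : ∀ ψ : Q →* ℂˣ, ‖1 - chi Θ ψ v.asIdeal * ea s v‖⁻¹ = (1 - ea s v)⁻¹ := by
      intro ψ
      rw [chi_of_eq_coe ψ ((hT v hv).trans WithZero.coe_one.symm), map_one, Units.val_one, one_mul]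
      have h6 : (1 : ℂ) - (ea s v : ℂ) = ((1 - ea s v : ℝ) : ℂ) := by push_cast; ring
      rw [h6, Complex.norm_real, Real.norm_eq_abs, abs_of_nonneg (by linarith)]
    simp only [h5, Finset.prod_const, Finset.card_univ]
    rw [← Nat.card_eq_fintype_card, card_dual]
  rw [h4]
  have h5 : 0 ≤ (∏ v ∈ T, (1 - ea s v)⁻¹) ^ Nat.card Q := by
    refine pow_nonneg (Finset.prod_nonneg fun v _ => ?_) _
    have := one_le_efac hs1.le v
    linarith
  exact le_mul_of_one_le_left h5 h3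

end Main

section Fibre

variable {K K' : Type*} [Field K] [NumberField K] [Field K'] [NumberField K'] [Algebra K K']

/-- the number of primes above a prime is at most the degree -/
theorem card_above_le (v : HeightOneSpectrum (𝓞 K)) (T : Finset (HeightOneSpectrum (𝓞 K')))
    (hT : ∀ w ∈ T, w.asIdeal.comap (algebraMap (𝓞 K) (𝓞 K')) = v.asIdeal) :
    T.card ≤ finrank K K' := by
  classical
  have hv := v.isMaximal
  have h1 : T.image (fun w => w.asIdeal) ⊆ IsDedekindDomain.primesOverFinset v.asIdeal (𝓞 K') := by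
    intro P hP
    obtain ⟨w, hw, rfl⟩ := Finset.mem_image.mp hP
    rw [IsDedekindDomain.mem_primesOverFinset_iff v.ne_bot]
    exact ⟨w.isPrime, ⟨(hT w hw).symm⟩⟩
  have h2 : T.card = (T.image (fun w => w.asIdeal)).card := by
    rw [Finset.card_image_of_injective]
    intro a b h
    exact HeightOneSpectrum.ext h
  rw [← Ideal.sum_ramification_inertia (𝓞 K') K K' v.ne_bot, h2, Finset.card_eq_sum_ones]
  refine (Finset.sum_le_sum_of_subset h1).trans (Finset.sum_le_sum fun P hP => ?_)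
  have hP' := (IsDedekindDomain.mem_primesOverFinset_iff v.ne_bot (𝓞 K')).mp hP
  have hPp := hP'.1
  have hPo := hP'.2
  have h3 : 0 < Ideal.ramificationIdx' v.asIdeal P := Nat.pos_of_ne_zero
    (Ideal.IsDedekindDomain.ramificationIdx'_ne_zero_of_liesOver P v.ne_bot)
  have h4 : 0 < Ideal.inertiaDeg' v.asIdeal P := Ideal.inertiaDeg'_pos v.asIdeal P
  exact Nat.mul_pos h3 h4

/-- a prime of prime norm has the same norm as the prime below -/
theorem absNorm_below {w : HeightOneSpectrum (𝓞 K')} (hw : (Ideal.absNorm w.asIdeal).Prime)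
    {v : HeightOneSpectrum (𝓞 K)} (hv : w.asIdeal.comap (algebraMap (𝓞 K) (𝓞 K')) = v.asIdeal) :
    Ideal.absNorm w.asIdeal = Ideal.absNorm v.asIdeal := by
  have hfw : Finite (𝓞 K' ⧸ w.asIdeal) := Ideal.finiteQuotientOfFreeOfNeBot _ w.ne_bot
  have hfv : Finite (𝓞 K ⧸ v.asIdeal) := Ideal.finiteQuotientOfFreeOfNeBot _ v.ne_bot
  let f : 𝓞 K ⧸ v.asIdeal →+* 𝓞 K' ⧸ w.asIdeal :=
    Ideal.quotientMap w.asIdeal (algebraMap (𝓞 K) (𝓞 K')) hv.ge
  have hf : Function.Injective f := Ideal.quotientMap_injective' hv.le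
  have h1 : Nat.card (𝓞 K ⧸ v.asIdeal) ∣ Nat.card (𝓞 K' ⧸ w.asIdeal) := by
    have h2 := AddSubgroup.card_addSubgroup_dvd_card f.toAddMonoidHom.range
    have h3 : Nat.card f.toAddMonoidHom.range = Nat.card (𝓞 K ⧸ v.asIdeal) :=
      Nat.card_congr (AddMonoidHom.ofInjective (f := f.toAddMonoidHom) hf).toEquiv.symm
    rwa [h3] at h2
  have h4 : Ideal.absNorm v.asIdeal ∣ Ideal.absNorm w.asIdeal := by
    rw [Ideal.absNorm_apply, Ideal.absNorm_apply, Submodule.cardQuot_apply,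
      Submodule.cardQuot_apply]
    exact h1
  have h5 := two_le_absNorm v
  rcases (Nat.dvd_prime hw).mp h4 with h6 | h6
  · omega
  · exact h6.symm

end Fibre

section Final

variable {K K' : Type*} [Field K] [NumberField K] [Field K'] [NumberField K'] [Algebra K K']
variable {Q : Type*} [CommGroup Q] [Finite Q]

/-- the prime below -/
noncomputable def below (w : HeightOneSpectrum (𝓞 K')) : HeightOneSpectrum (𝓞 K) where
  asIdeal := w.asIdeal.comap (algebraMap (𝓞 K) (𝓞 K'))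
  isPrime := w.isPrime.comap _
  ne_bot := by
    exact Ideal.IsIntegral.comap_ne_bot (R := 𝓞 K) w.ne_bot

theorem prod_above_le {s : ℝ} (hs1 : 1 < s) (W : Finset (HeightOneSpectrum (𝓞 K')))
    (hW : ∀ w ∈ W, Ideal.absNorm w.asIdeal = Ideal.absNorm (below (K := K) w).asIdeal) :
    ∃ T : Finset (HeightOneSpectrum (𝓞 K)), (∀ v ∈ T, ∃ w ∈ W, below (K := K) w = v) ∧
      ∏ w ∈ W, (1 - ea s w)⁻¹ ≤ (∏ v ∈ T, (1 - ea s v)⁻¹) ^ finrank K K' := by
  classical
  refine ⟨W.image (below (K := K)), fun v hv => Finset.mem_image.mp hv, ?_⟩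
  rw [← Finset.prod_fiberwise_of_maps_to
      (fun w hw => Finset.mem_image_of_mem (below (K := K)) hw),
    ← Finset.prod_pow]
  refine Finset.prod_le_prod (fun v _ => Finset.prod_nonneg fun w _ => ?_) fun v hv => ?_
  · have := one_le_efac hs1.le w
    linarith
  · have h1 : ∏ w ∈ W with below (K := K) w = v, (1 - ea s w)⁻¹ =
        ((1 - ea s v)⁻¹) ^ (W.filter (fun w => below (K := K) w = v)).card := by
      rw [← Finset.prod_const]
      refine Finset.prod_congr rfl fun w hw => ?_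
      obtain ⟨h2, h3⟩ := Finset.mem_filter.mp hw
      rw [ea, ea, hW w h2, h3]
    rw [h1]
    refine pow_le_pow_right₀ (one_le_efac hs1.le v) ?_
    refine card_above_le v _ fun w hw => ?_
    obtain ⟨h2, h3⟩ := Finset.mem_filter.mp hw
    rw [← h3]
    rfl

/-- **The universal norm index inequality**, analytic form. -/
theorem second_inequality (Θ : Ideal (𝓞 K) →*₀ WithZero Q) (𝔪 : Ideal (𝓞 K))
    (hray : ∀ r ∈ 𝔪, ∀ x : 𝓞 K, x ≠ 0 → r + x ≠ 0 → SameSign (r + x) x →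
      Θ (Ideal.span {r + x}) = Θ (Ideal.span {x}))
    (hsurj : ∀ q : Q, ∃ J : (Ideal (𝓞 K))⁰, IsCoprime (J : Ideal (𝓞 K)) 𝔪 ∧
      Θ (J : Ideal (𝓞 K)) = (q : WithZero Q))
    (Bad : Finset (HeightOneSpectrum (𝓞 K')))
    (hnorm : ∀ w : HeightOneSpectrum (𝓞 K'), w ∉ Bad → (Ideal.absNorm w.asIdeal).Prime →
      Θ (below (K := K) w).asIdeal = 1) :
    Nat.card Q ≤ finrank K K' := by
  classical
  have : Fintype (Q →* ℂˣ) := Fintype.ofFinite _
  by_contra hlt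
  push Not at hlt
  set n := finrank K K' with hn
  set N := Nat.card Q with hN
  have hN0 : 0 < N := Nat.card_pos
  -- bounds of the L-series of nontrivial characters
  have hb : ∀ ψ : Q →* ℂˣ, ∃ C : ℝ, 0 < C ∧ (ψ ≠ 1 → ∀ᶠ s : ℝ in 𝓝[>] 1,
      ‖Tt (chi Θ ψ) s‖ ≤ C) := by
    intro ψ
    by_cases hψ : ψ = 1
    · exact ⟨1, one_pos, fun h => absurd hψ h⟩
    · obtain ⟨q, hq⟩ : ∃ q, ψ q ≠ 1 := by
        by_contra hcon
        push Not at hcon
        exact hψ (MonoidHom.ext hcon)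
      obtain ⟨J, hJ, hJq⟩ := hsurj q
      obtain ⟨C, hC⟩ := ray_series_bound (chi Θ ψ) (norm_chi_le Θ ψ) 𝔪 (by
        intro r hr x hx hrx hss
        rw [chi, MonoidWithZeroHom.comp_apply, MonoidWithZeroHom.comp_apply,
          hray r hr x hx hrx hss]) J hJ (by
        rw [chi_of_eq_coe ψ hJq]
        intro h
        exact hq (Units.ext h))
      refine ⟨|C| + 1, by positivity, fun _ => ?_⟩
      filter_upwards [hC] with s hs
      exact hs.trans ((le_abs_self C).trans (by linarith))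
  choose Cψ hCψ0 hCψ using hb
  set P : ℝ := ∏ ψ ∈ Finset.univ.erase (1 : Q →* ℂˣ), Cψ ψ with hP
  have hP0 : 0 < P := Finset.prod_pos fun ψ _ => hCψ0 ψ
  obtain ⟨C₂, hC₂0, hC₂⟩ := exceptional_bound Bad
  obtain ⟨c, C, hc, hC, hZ⟩ := exists_Zi_bounds K
  obtain ⟨c', C', hc', hC', hZ'⟩ := exists_Zi_bounds K'
  have hall : ∀ᶠ s : ℝ in 𝓝[>] 1, ∀ ψ : Q →* ℂˣ, ψ ≠ 1 → ‖Tt (chi Θ ψ) s‖ ≤ Cψ ψ := by
    rw [Filter.eventually_all]
    intro ψ
    by_cases hψ : ψ = 1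
    · exact Filter.Eventually.of_forall fun s h => absurd hψ h
    · filter_upwards [hCψ ψ hψ] with s hs _ using hs
  -- key inequality
  have key : ∀ᶠ s : ℝ in 𝓝[>] 1,
      c' / (s - 1) ≤ C₂ * ((P * (C / (s - 1))) ^ (1 / (N : ℝ))) ^ n := by
    filter_upwards [hall, hZ, hZ', eventually_Ioc] with s h1 h2 h3 hs12
    obtain ⟨hs1, hs2⟩ := hs12
    have hs0 : 0 < s - 1 := by linarith
    have hprod : ∏ ψ : Q →* ℂˣ, ‖Tt (chi Θ ψ) s‖ ≤ P * (C / (s - 1)) := by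
      rw [← Finset.prod_erase_mul _ _ (Finset.mem_univ (1 : Q →* ℂˣ))]
      refine mul_le_mul ?_ ((norm_Tt_le (norm_chi_le Θ 1) hs1 hs2).trans h2.2) (norm_nonneg _)
        hP0.le
      exact Finset.prod_le_prod (fun ψ _ => norm_nonneg _) fun ψ hψ =>
        h1 ψ (Finset.mem_erase.mp hψ).1
    refine h3.1.trans ?_
    have h4 := euler_zeta (K := K') hs1 hs2
    rw [HasProd, SummationFilter.unconditional_filter] at h4
    refine le_of_tendsto' h4 fun W => ?_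
    rw [← Finset.prod_filter_mul_prod_filter_not W
      (fun w => w ∈ Bad ∨ ¬ (Ideal.absNorm w.asIdeal).Prime)]
    refine mul_le_mul (hC₂ s hs1 hs2 _ fun w hw => (Finset.mem_filter.mp hw).2) ?_
      (Finset.prod_nonneg fun w _ => by have := one_le_efac hs1.le w; linarith) hC₂0.le
    set W' := W.filter (fun w => ¬ (w ∈ Bad ∨ ¬ (Ideal.absNorm w.asIdeal).Prime)) with hW'
    have hW'1 : ∀ w ∈ W', w ∉ Bad ∧ (Ideal.absNorm w.asIdeal).Prime := by
      intro w hw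
      obtain ⟨h5, h6⟩ := Finset.mem_filter.mp hw
      push Not at h6
      exact h6
    obtain ⟨T, hT1, hT2⟩ := prod_above_le (K := K) hs1 W' fun w hw =>
      absNorm_below (hW'1 w hw).2 rfl
    refine hT2.trans ?_
    have hTnn : 0 ≤ ∏ v ∈ T, (1 - ea s v)⁻¹ :=
      Finset.prod_nonneg fun v _ => by have := one_le_efac hs1.le v; linarith
    refine pow_le_pow_left₀ hTnn ?_ _
    have h5 := prod_trivial_le Θ hs1 hs2 T (by
      intro v hv
      obtain ⟨w, hw, rfl⟩ := hT1 v hv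
      exact hnorm w (hW'1 w hw).1 (hW'1 w hw).2)
    have h6 : ∏ v ∈ T, (1 - ea s v)⁻¹ = ((∏ v ∈ T, (1 - ea s v)⁻¹) ^ N) ^ (1 / (N : ℝ)) := by
      rw [← Real.rpow_natCast, ← Real.rpow_mul hTnn, mul_one_div_cancel (by positivity),
        Real.rpow_one]
    rw [h6]
    exact Real.rpow_le_rpow (by positivity) (h5.trans hprod) (by positivity)
  -- contradiction as s → 1
  set α : ℝ := (n : ℝ) / (N : ℝ) with hα
  have hα1 : 0 < 1 - α := by
    rw [sub_pos, hα, div_lt_one (by positivity)]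
    exact_mod_cast hlt
  set D : ℝ := C₂ * (P * C) ^ α with hD
  have key2 : ∀ᶠ s : ℝ in 𝓝[>] 1, c' ≤ D * (s - 1) ^ (1 - α) := by
    filter_upwards [key, eventually_Ioc] with s h1 hs12
    obtain ⟨hs1, hs2⟩ := hs12
    have hs0 : 0 < s - 1 := by linarith
    rw [div_le_iff₀ hs0] at h1
    refine h1.trans (le_of_eq ?_)
    have e1 : ((P * (C / (s - 1))) ^ (1 / (N : ℝ))) ^ n = (P * C) ^ α * (s - 1) ^ (-α) := by
      rw [← Real.rpow_natCast, ← Real.rpow_mul (by positivity), ← mul_div_assoc,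
        Real.div_rpow (by positivity) hs0.le, Real.rpow_neg hs0.le, div_eq_mul_inv]
      have e3 : 1 / (N : ℝ) * (n : ℝ) = α := by rw [hα]; ring
      rw [e3]
    have e2 : (s - 1) ^ (1 - α) = (s - 1) ^ (-α) * (s - 1) := by
      have e0 : 1 - α = -α + 1 := by ring
      rw [e0, Real.rpow_add hs0, Real.rpow_one]
    rw [e1, e2, hD]
    ring
  have hlim : Tendsto (fun s : ℝ => D * (s - 1) ^ (1 - α)) (𝓝[>] 1) (𝓝 (D * 0)) := by
    refine Tendsto.const_mul D ?_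
    have h1 : Tendsto (fun s : ℝ => s - 1) (𝓝[>] 1) (𝓝 0) := by
      have : Tendsto (fun s : ℝ => s - 1) (𝓝 1) (𝓝 (1 - 1)) :=
        (continuous_id.sub continuous_const).tendsto 1
      rw [sub_self] at this
      exact this.mono_left nhdsWithin_le_nhds
    have h2 := h1.rpow_const (p := 1 - α) (Or.inr hα1.le)
    rwa [Real.zero_rpow hα1.ne'] at h2
  have h3 : c' ≤ D * 0 := ge_of_tendsto hlim key2
  linarith

end Final

end Fermat.Agent.GCFT
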