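import Fermat.Agent.GCFT.PF

/-!
# Functions supported on one double coset; unramified places
-/

set_option autoImplicit false
set_option linter.style.haveILetI false

namespace Fermat.Agent.GCFT

open Fermat.Agent.Coh Fermat.Agent.LocalCFT Fermat.Agent.PLog Fermat.Agent.GalD
open Fermat.Agent.GlobalCFT (XV)

/-- The field of algebraic numbers. -/
local notation "Qb" => AlgebraicClosure ℚ
/-- The absolute Galois group. -/
local notation "GQ" => (AlgebraicClosure ℚ ≃ₐ[ℚ] AlgebraicClosure ℚ)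

/-- a function supported on one double coset -/
theorem exists_XV_single {G Γ M : Type*} [Group G] [Group Γ] [AddCommGroup M] (r : G →* Γ)
    (ρ : Representation ℤ G M) (U : Subgroup Γ) (x : Γ) (a : M)
    (ha : ∀ δ ∈ stb r U x, ρ δ a = a) :
    ∃ f ∈ XV r ρ U, f x = a ∧ ∀ y, (¬ ∃ δ : G, ∃ u ∈ U, y = r δ * x * u) → f y = 0 := by
  classical
  have key : ∀ y : Γ, ∃ δ : G, (∃ δ : G, ∃ u ∈ U, y = r δ * x * u) → ∃ u ∈ U, y = r δ * x * u := by
    intro y
    by_cases h : ∃ δ : G, ∃ u ∈ U, y = r δ * x * u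
    · obtain ⟨δ, h'⟩ := h
      exact ⟨δ, fun _ => h'⟩
    · exact ⟨1, fun h' => absurd h' h⟩
  choose s hs using key
  let f : Γ → M := fun y => if ∃ δ : G, ∃ u ∈ U, y = r δ * x * u then ρ (s y) a else 0
  have hf : ∀ (δ : G) (u : Γ), u ∈ U → f (r δ * x * u) = ρ δ a := by
    intro δ u hu
    have h0 : ∃ δ' : G, ∃ u' ∈ U, r δ * x * u = r δ' * x * u' := ⟨δ, u, hu, rfl⟩
    obtain ⟨u', hu', h1⟩ := hs _ h0
    change (if ∃ δ' : G, ∃ u' ∈ U, r δ * x * u = r δ' * x * u' then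
      ρ (s (r δ * x * u)) a else 0) = _
    rw [if_pos h0]
    have h2 : δ⁻¹ * s (r δ * x * u) ∈ stb r U x := by
      rw [mem_stb, map_mul, map_inv]
      have h3 : x⁻¹ * ((r δ)⁻¹ * r (s (r δ * x * u))) * x = u * u'⁻¹ := by
        have h4 : r (s (r δ * x * u)) * x = r δ * x * u * u'⁻¹ := by
          rw [eq_mul_inv_iff_mul_eq]
          exact h1.symm
        calc _ = x⁻¹ * (r δ)⁻¹ * (r (s (r δ * x * u)) * x) := by group
          _ = u * u'⁻¹ := by rw [h4]; group
      rw [h3]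
      exact U.mul_mem hu (U.inv_mem hu')
    have h3 := ha _ h2
    rw [map_mul, Module.End.mul_apply] at h3
    have h4 := congrArg (ρ δ) h3
    rw [← Module.End.mul_apply, ← map_mul, mul_inv_cancel, map_one] at h4
    exact h4
  refine ⟨f, ⟨fun δ y => ?_, fun u hu y => ?_⟩, ?_, fun y hy => if_neg hy⟩
  · by_cases hy : ∃ δ' : G, ∃ u ∈ U, y = r δ' * x * u
    · obtain ⟨δ', u, hu, rfl⟩ := hy
      have h1 : r δ * (r δ' * x * u) = r (δ * δ') * x * u := by rw [map_mul]; group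
      rw [h1, hf _ _ hu, hf _ _ hu, map_mul]
      rfl
    · have hy' : ¬ ∃ δ' : G, ∃ u ∈ U, r δ * y = r δ' * x * u := by
        rintro ⟨δ', u, hu, h⟩
        refine hy ⟨δ⁻¹ * δ', u, hu, ?_⟩
        rw [map_mul, map_inv, mul_assoc, mul_assoc, ← mul_assoc (r δ'), ← h, inv_mul_cancel_left]
      rw [show f (r δ * y) = 0 from if_neg hy', show f y = 0 from if_neg hy, map_zero]
  · by_cases hy : ∃ δ' : G, ∃ u ∈ U, y = r δ' * x * u
    · obtain ⟨δ', u', hu', rfl⟩ := hy
      rw [mul_assoc, hf _ _ (U.mul_mem hu' hu), hf _ _ hu']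
    · have hy' : ¬ ∃ δ' : G, ∃ u' ∈ U, y * u = r δ' * x * u' := by
        rintro ⟨δ', u', hu', h⟩
        refine hy ⟨δ', u' * u⁻¹, U.mul_mem hu' (U.inv_mem hu), ?_⟩
        rw [← mul_assoc, ← h, mul_inv_cancel_right]
      rw [show f (y * u) = 0 from if_neg hy', show f y = 0 from if_neg hy]
  · have h := hf 1 1 U.one_mem
    rwa [map_one, one_mul, mul_one, map_one, Module.End.one_apply] at h

variable {S : Finset Nat.Primes} {U : Subgroup GQ} {p : ℕ} [hp : Fact p.Prime]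

theorem stb_open {l : Nat.Primes} (hU : IsOpen (U : Set GQ)) (x : GQ) :
    (LF (l : ℕ)).IsOpen (stb (rl l) U x) := by
  have hfi := finiteIndex_of_isOpen hU
  have hcore : IsOpen (U.normalCore : Set GQ) := Subgroup.isOpen_of_isClosed_of_finiteIndex _
      (U.normalCore_isClosed (Subgroup.isClosed_of_isOpen U hU))
  refine (PT.rl_cont (l := l) hcore).mono fun δ hδ => ?_
  have h1 : rl l δ ∈ U.normalCore := hδ
  have h2 := h1 x⁻¹
  rw [inv_inv] at h2
  exact h2

/-- At an unramified place the value group is generated by `l`. -/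
theorem norm_int_of_stb (hU : (famS S).IsOpen U) {l : Nat.Primes} (hl : l ∉ S) (x : GQ)
    (a : ↥(FF (LU (l : ℕ)) (stb (rl l) U x))) :
    ∃ k : ℤ, ‖uval (a : Additive (Om l)ˣ)‖ = ((l : ℕ) : ℝ) ^ (-k) := by
  classical
  obtain ⟨f, hf, hfx, -⟩ := exists_XV_single (rl l) (LU (l : ℕ)) U x (a : Additive (Om l)ˣ)
    (fun δ hδ => (mem_FF (LU (l : ℕ))).mp a.2 δ hδ)
  let F : ∀ l' : Nat.Primes, GQ → Om l' := Function.update (fun _ _ => 0) l (fun g => uval (f g))
  have hF : F l = fun g => uval (f g) := Function.update_self _ _ _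
  obtain ⟨y, hyU, hy⟩ := exists_approx (isOpen_of_famS hU) {l} F (by
      intro l' hl' δ g
      obtain rfl := Finset.mem_singleton.mp hl'
      rw [hF]
      change uval (f (rl l' δ * g)) = δ (uval (f g))
      rw [hf.1]
      rfl) (by
      intro l' hl' g u hu
      obtain rfl := Finset.mem_singleton.mp hl'
      rw [hF]
      change uval (f (g * u)) = uval (f g)
      rw [hf.2 u hu]) (η := ‖uval (a : Additive (Om l)ˣ)‖) (norm_pos_iff.mpr (uval_ne_zero _))
  have h1 := hy l (Finset.mem_singleton_self l) x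
  rw [hF] at h1
  change ‖il l (x y) - uval (f x)‖ < _ at h1
  rw [hfx] at h1
  have h2 : ‖il l (x y)‖ = ‖uval (a : Additive (Om l)ˣ)‖ := by
    have h3 : il l (x y) = (il l (x y) - uval (a : Additive (Om l)ˣ)) +
        uval (a : Additive (Om l)ˣ) := by ring
    rw [h3]
    exact (IsUltrametricDist.norm_add_eq_max_of_norm_ne_norm h1.ne).trans (max_eq_right h1.le)
  have hy0 : y ≠ 0 := by
    rintro rfl
    rw [map_zero, map_zero, norm_zero] at h2
    exact uval_ne_zero _ (norm_eq_zero.mp h2.symm)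
  obtain ⟨k, hk⟩ := exists_norm_emb hU hl x ⟨y, mem_fld.mpr hyU⟩ (fun h => hy0
    (congrArg Subtype.val h))
  exact ⟨k, h2.symm.trans hk⟩

theorem dvd_dQ_of_stb (hp2 : p ≠ 2) (hU : (famS S).IsOpen U) {l : Nat.Primes} (hl : l ∉ S)
    (hlp : (l : ℕ) ≠ p) (x : GQ) {n : ℕ}
    (hn : (p : ℤ_[p]) ^ n ∣ ((stb (rl l) U x).index : ℤ_[p]) * lamP p l) {δ : Gl l}
    (hδ : δ ∈ stb (rl l) U x) : (p : ℤ_[p]) ^ n ∣ dQ p (rl l δ) := by
  have hW := stb_open (l := l) (isOpen_of_famS hU) x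
  set W := stb (rl l) U x with hWdef
  obtain ⟨a, ha⟩ := (cycCF (l : ℕ) p hp2).v_ex W hW
  have h1 := cycCF_v hp2 W hW a
  obtain ⟨k, hk⟩ := norm_int_of_stb hU hl x a
  have h2 : VU hW a = k * W.index := by
    apply VU_unique
    rw [hk, ← zpow_natCast, ← zpow_mul]
    congr 1
    ring
  rw [v0_of_ne hp2 hlp, VU_nmr le_top hW top_open, h2] at h1
  have h3 : (p : ℤ_[p]) ^ n ∣ (p : ℤ_[p]) ^ (cycCF (l : ℕ) p hp2).f W *
      (cycCF (l : ℕ) p hp2).v W a := by
    rw [h1]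
    rw [lamP, dif_pos (coprime_of_ne hlp)] at hn
    push_cast
    rw [mul_assoc]
    exact hn.mul_left _
  have h4 : n ≤ (cycCF (l : ℕ) p hp2).f W := by
    by_contra hlt
    push Not at hlt
    have h5 := (pow_dvd_pow (p : ℤ_[p]) (Nat.succ_le_of_lt hlt)).trans h3
    rw [Nat.succ_eq_add_one, pow_succ, mul_dvd_mul_iff_left (CFData.pow_ne (p := p) _)] at h5
    exact ha h5
  have h5 := (cycCF (l : ℕ) p hp2).f_dvd W hW δ hδ
  rw [cycCF_d] at h5
  rw [dQ_rl]
  exact (pow_dvd_pow _ h4).trans h5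

end Fermat.Agent.GCFT
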