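import Fermat.Agent.GCFT.PlaceGal
import Fermat.Agent.GCFT.SecondIneq
import Fermat.Agent.Coh.Rel

/-!
# Divisors of ideals as elements of the idele module
-/

set_option autoImplicit false

namespace Fermat.Agent.GCFT

open Fermat.Agent.Coh NumberField IsDedekindDomain Module

/-- The field of algebraic numbers. -/
local notation "Qb" => AlgebraicClosure ℚ
/-- The absolute Galois group. -/
local notation "GQ" => (AlgebraicClosure ℚ ≃ₐ[ℚ] AlgebraicClosure ℚ)

section General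

variable {K : Type*} [Field K] [NumberField K]

theorem mult_mul (v : HeightOneSpectrum (𝓞 K)) {I J : Ideal (𝓞 K)} (hI : I ≠ 0) (hJ : J ≠ 0) :
    multiplicity v.asIdeal (I * J) = multiplicity v.asIdeal I + multiplicity v.asIdeal J :=
  multiplicity_mul v.prime (FiniteMultiplicity.of_prime_left v.prime (mul_ne_zero hI hJ))

theorem oi_eq_mult (v : HeightOneSpectrum (𝓞 K)) {x : 𝓞 K} (hx : x ≠ 0) :
    oi v (x : K) = (multiplicity v.asIdeal (Ideal.span {x}) : ℤ) := by
  apply oi_eq_of_exp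
  rw [← v.intValuation_eq_exp_neg_multiplicity hx]
  exact v.valuation_of_algebraMap x

theorem mult_pos_iff (v : HeightOneSpectrum (𝓞 K)) {I : Ideal (𝓞 K)} (hI : I ≠ 0) :
    0 < multiplicity v.asIdeal I ↔ I ≤ v.asIdeal := by
  rw [← Ideal.dvd_iff_le]
  have hfin := FiniteMultiplicity.of_prime_left v.prime hI
  constructor
  · intro h
    exact (dvd_pow_self _ h.ne').trans (pow_multiplicity_dvd _ _)
  · intro h
    rw [Nat.pos_iff_ne_zero]
    intro h0
    have h1 : v.asIdeal ^ 1 ∣ I := by rwa [pow_one]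
    have h2 := hfin.le_multiplicity_of_pow_dvd h1
    omega

theorem mult_one (v : HeightOneSpectrum (𝓞 K)) : multiplicity v.asIdeal (1 : Ideal (𝓞 K)) = 0 := by
  by_contra h
  have h1 := (mult_pos_iff v (one_ne_zero)).mp (Nat.pos_of_ne_zero h)
  rw [Ideal.one_eq_top, top_le_iff] at h1
  exact v.isPrime.ne_top h1

end General

variable (S : Finset Nat.Primes) (U : Subgroup GQ) [NumberField (fld U)]

/-- the multiplicity of the place attached to `(l, g)` in an ideal -/
noncomputable def mulI (I : Ideal (𝓞 (fld U))) (l : Nat.Primes) (g : GQ) : ℤ :=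
  (multiplicity (pr (emb (fld U) l g)).asIdeal I : ℤ)

theorem mulI_mul {I J : Ideal (𝓞 (fld U))} (hI : I ≠ 0) (hJ : J ≠ 0) (l : Nat.Primes) (g : GQ) :
    mulI U (I * J) l g = mulI U I l g + mulI U J l g := by
  rw [mulI, mult_mul _ hI hJ]
  push_cast
  rfl

theorem mulI_nonneg (I : Ideal (𝓞 (fld U))) (l : Nat.Primes) (g : GQ) : 0 ≤ mulI U I l g :=
  Int.natCast_nonneg _

theorem mulI_rl (I : Ideal (𝓞 (fld U))) (l : Nat.Primes) (δ : Gl l) (g : GQ) :
    mulI U I l (rl l δ * g) = mulI U I l g := by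
  rw [mulI, pr_emb_rl, mulI]

theorem mulI_mul_right (I : Ideal (𝓞 (fld U))) (l : Nat.Primes) (g : GQ) {u : GQ} (hu : u ∈ U) :
    mulI U I l (g * u) = mulI U I l g := by
  rw [mulI, pr_emb_mul l g hu, mulI]

theorem mulI_eq_zero_iff {I : Ideal (𝓞 (fld U))} (hI : I ≠ 0) (l : Nat.Primes) (g : GQ) :
    mulI U I l g = 0 ↔ ¬ I ≤ (pr (emb (fld U) l g)).asIdeal := by
  rw [← mult_pos_iff _ hI, mulI]
  omega

open Classical in
/-- the divisor of an ideal -/
noncomputable def divI (I : Ideal (𝓞 (fld U))) :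
    (∀ l : Nat.Primes, GQ → Additive (Om l)ˣ) × (Nat.Primes → GQ → ℤ) :=
  (0, fun l g => if l ∈ S then 0 else mulI U I l g)

theorem divI_snd {l : Nat.Primes} (hl : l ∈ S) (I : Ideal (𝓞 (fld U))) (g : GQ) :
    (divI S U I).2 l g = 0 := if_pos hl

theorem divI_snd_not {l : Nat.Primes} (hl : l ∉ S) (I : Ideal (𝓞 (fld U))) (g : GQ) :
    (divI S U I).2 l g = mulI U I l g := if_neg hl

theorem natCast_mem_pr {K : Type*} [Field K] [NumberField K] {l : Nat.Primes} (ι : K →+* Om l) :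
    ((l : ℕ) : 𝓞 K) ∈ (pr ι).asIdeal := by
  have hl : 1 < ((l : ℕ) : ℝ) := by exact_mod_cast l.2.one_lt
  rw [mem_pr]
  have : (((l : ℕ) : 𝓞 K) : K) = ((l : ℕ) : K) := by simp
  rw [this, map_natCast, norm_nat]
  exact inv_lt_one_of_one_lt₀ hl

theorem finite_mulI {I : Ideal (𝓞 (fld U))} (hI : I ≠ 0) :
    {l : Nat.Primes | ∃ g, mulI U I l g ≠ 0}.Finite := by
  have hN : Ideal.absNorm I ≠ 0 := by
    rw [Ne, Ideal.absNorm_eq_zero_iff]
    exact hI
  have hfin : {l : Nat.Primes | (l : ℕ) ∣ Ideal.absNorm I}.Finite := by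
    have h3 : ((Ideal.absNorm I).primeFactors : Set ℕ).Finite := Finset.finite_toSet _
    refine Set.Finite.of_finite_image (f := fun l : Nat.Primes => (l : ℕ)) (h3.subset ?_)
      (fun a _ b _ h => Subtype.ext h)
    rintro _ ⟨l, hl, rfl⟩
    exact Nat.mem_primeFactors.mpr ⟨l.2, hl, hN⟩
  refine hfin.subset ?_
  rintro l ⟨g, hg⟩
  have h1 : I ≤ (pr (emb (fld U) l g)).asIdeal := by
    by_contra hcon
    exact hg ((mulI_eq_zero_iff U hI l g).mpr hcon)
  have h2 : ((Ideal.absNorm I : ℕ) : 𝓞 (fld U)) ∈ (pr (emb (fld U) l g)).asIdeal :=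
    h1 (Ideal.absNorm_mem I)
  by_contra hcon
  have h3 : Nat.Coprime (l : ℕ) (Ideal.absNorm I) := (Nat.Prime.coprime_iff_not_dvd l.2).mpr hcon
  obtain ⟨a, b, hab⟩ := Nat.isCoprime_iff_coprime.mpr h3
  apply (pr (emb (fld U) l g)).isPrime.ne_top
  rw [Ideal.eq_top_iff_one]
  have h4 : (1 : 𝓞 (fld U)) = (a : 𝓞 (fld U)) * ((l : ℕ) : 𝓞 (fld U)) +
      (b : 𝓞 (fld U)) * ((Ideal.absNorm I : ℕ) : 𝓞 (fld U)) := by
    have := congrArg (fun z : ℤ => (z : 𝓞 (fld U))) hab
    push_cast at this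
    exact this.symm
  rw [h4]
  exact add_mem (Ideal.mul_mem_left _ _ (natCast_mem_pr _)) (Ideal.mul_mem_left _ _ h2)

variable {S U}

theorem divI_mem (hU : (famS S).IsOpen U) {I : Ideal (𝓞 (fld U))} (hI : I ≠ 0) :
    divI S U I ∈ IS S := by
  refine ⟨fun l hl => zero_mem _, fun l hl => rfl, fun l δ g => ?_, fun l hl => ?_, ?_, ?_⟩
  · by_cases hl : l ∈ S
    · rw [divI_snd S U hl, divI_snd S U hl]
    · rw [divI_snd_not S U hl, divI_snd_not S U hl, mulI_rl]
  · funext g
    exact divI_snd S U hl I g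
  · refine (finite_mulI U hI).subset fun l hl => ?_
    simp only [Set.mem_ofPred_eq] at hl ⊢
    by_contra hcon
    push Not at hcon
    apply hl
    funext g
    by_cases hlS : l ∈ S
    · exact divI_snd S U hlS I g
    · rw [divI_snd_not S U hlS, hcon]
      rfl
  · obtain ⟨W, hW, hWU⟩ := hU
    refine ⟨W, hW, fun u hu l g => ⟨rfl, ?_⟩⟩
    by_cases hl : l ∈ S
    · rw [divI_snd S U hl, divI_snd S U hl]
    · rw [divI_snd_not S U hl, divI_snd_not S U hl, mulI_mul_right U I l g (hWU hu)]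

/-- the divisor of an ideal as an invariant idele -/
noncomputable def dI (hU : (famS S).IsOpen U) (I : Ideal (𝓞 (fld U))) (hI : I ≠ 0) :
    ↥(FF (repI S) U) :=
  ⟨⟨divI S U I, divI_mem hU hI⟩, by
    rw [mem_FF]
    intro u hu
    apply Subtype.ext
    apply Prod.ext
    · rfl
    · funext l g
      change (divI S U I).2 l (g * u) = (divI S U I).2 l g
      by_cases hl : l ∈ S
      · rw [divI_snd S U hl, divI_snd S U hl]
      · rw [divI_snd_not S U hl, divI_snd_not S U hl, mulI_mul_right U I l g hu]⟩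

theorem dI_mul (hU : (famS S).IsOpen U) {I J : Ideal (𝓞 (fld U))} (hI : I ≠ 0) (hJ : J ≠ 0) :
    dI hU (I * J) (mul_ne_zero hI hJ) = dI hU I hI + dI hU J hJ := by
  apply Subtype.ext
  apply Subtype.ext
  apply Prod.ext
  · exact (add_zero _).symm
  · funext l g
    change (divI S U (I * J)).2 l g = (divI S U I).2 l g + (divI S U J).2 l g
    by_cases hl : l ∈ S
    · rw [divI_snd S U hl, divI_snd S U hl, divI_snd S U hl, add_zero]
    · rw [divI_snd_not S U hl, divI_snd_not S U hl, divI_snd_not S U hl, mulI_mul U hI hJ]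

theorem dI_one (hU : (famS S).IsOpen U) : dI hU 1 one_ne_zero = 0 := by
  apply Subtype.ext
  apply Subtype.ext
  apply Prod.ext
  · rfl
  · funext l g
    change (divI S U 1).2 l g = 0
    by_cases hl : l ∈ S
    · exact divI_snd S U hl _ g
    · rw [divI_snd_not S U hl, mulI, mult_one]
      rfl

variable (S U) in
/-- ideals prime to `S` -/
def Cop (I : Ideal (𝓞 (fld U))) : Prop := ∀ l ∈ S, ∀ g, ¬ I ≤ (pr (emb (fld U) l g)).asIdeal

theorem cop_mul {I J : Ideal (𝓞 (fld U))} : Cop S U (I * J) ↔ Cop S U I ∧ Cop S U J := by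
  constructor
  · intro h
    exact ⟨fun l hl g hI => h l hl g (Ideal.mul_le_left.trans hI),
      fun l hl g hJ => h l hl g (Ideal.mul_le_right.trans hJ)⟩
  · rintro ⟨h1, h2⟩ l hl g h
    rcases (pr (emb (fld U) l g)).isPrime.mul_le.mp h with h3 | h3
    · exact h1 l hl g h3
    · exact h2 l hl g h3

theorem cop_one : Cop S U 1 := fun l _ g h => by
  rw [Ideal.one_eq_top, top_le_iff] at h
  exact (pr (emb (fld U) l g)).isPrime.ne_top h

open Classical in
/-- the ideal character attached to a homomorphism on invariant ideles -/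
noncomputable def Theta {A : Type*} [AddCommGroup A] (hU : (famS S).IsOpen U)
    (θ : ↥(FF (repI S) U) →+ A) : Ideal (𝓞 (fld U)) →*₀ WithZero (Multiplicative A) where
  toFun I := if h : I ≠ 0 ∧ Cop S U I then
    ((Multiplicative.ofAdd (θ (dI hU I h.1)) : Multiplicative A) : WithZero (Multiplicative A))
    else 0
  map_zero' := dif_neg fun h => h.1 rfl
  map_one' := by
    rw [dif_pos ⟨one_ne_zero, cop_one⟩, dI_one, map_zero, ofAdd_zero]
    rfl
  map_mul' I J := by
    by_cases hI : I ≠ 0 ∧ Cop S U I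
    · by_cases hJ : J ≠ 0 ∧ Cop S U J
      · rw [dif_pos hI, dif_pos hJ, dif_pos ⟨mul_ne_zero hI.1 hJ.1, cop_mul.mpr ⟨hI.2, hJ.2⟩⟩,
          dI_mul hU hI.1 hJ.1, map_add, ofAdd_add, WithZero.coe_mul]
      · rw [dif_neg hJ, mul_zero, dif_neg]
        rintro ⟨h1, h2⟩
        exact hJ ⟨right_ne_zero_of_mul h1, (cop_mul.mp h2).2⟩
    · rw [dif_neg hI, zero_mul, dif_neg]
      rintro ⟨h1, h2⟩
      exact hI ⟨left_ne_zero_of_mul h1, (cop_mul.mp h2).1⟩

theorem Theta_of_cop {A : Type*} [AddCommGroup A] (hU : (famS S).IsOpen U)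
    (θ : ↥(FF (repI S) U) →+ A) {I : Ideal (𝓞 (fld U))} (hI : I ≠ 0) (hc : Cop S U I) :
    Theta hU θ I = ((Multiplicative.ofAdd (θ (dI hU I hI)) : Multiplicative A) :
      WithZero (Multiplicative A)) := dif_pos ⟨hI, hc⟩

theorem Theta_of_not_cop {A : Type*} [AddCommGroup A] (hU : (famS S).IsOpen U)
    (θ : ↥(FF (repI S) U) →+ A) {I : Ideal (𝓞 (fld U))} (hc : ¬ Cop S U I) :
    Theta hU θ I = 0 := dif_neg fun h => hc h.2

end Fermat.Agent.GCFT
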