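import Fermat.Agent.GCFT.LocTr

/-!
# The cyclotomic valuation on ideles
-/

set_option autoImplicit false
set_option linter.style.haveILetI false

namespace Fermat.Agent.GCFT

open Fermat.Agent.Coh Fermat.Agent.LocalCFT Fermat.Agent.PLog Fermat.Agent.GalD
open Fermat.Agent.GlobalCFT (XV)

/-- The field of algebraic numbers. -/
local notation "Qb" => AlgebraicClosure ℚ
/-- The absolute Galois group. -/
local notation "GQ" => (AlgebraicClosure ℚ ≃ₐ[ℚ] AlgebraicClosure ℚ)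

theorem coe_nmr_top {k : Type*} [CommRing k] {Γ : Type*} [Group Γ] {M : Type*} [AddCommGroup M]
    [Module k M] {𝓤 : Fam Γ} {ρ : Representation k Γ M} {U : Subgroup Γ} (hU : 𝓤.IsOpen U)
    [Fintype (Γ ⧸ U)] (b : ↥(FF ρ U)) :
    (nmr ρ (le_top : U ≤ ⊤) hU b : M) = ∑ c : Γ ⧸ U, ρ c.out b := by
  letI := relFintype hU ⊤
  let F : (⊤ : Subgroup Γ) ⧸ U.subgroupOf ⊤ → Γ ⧸ U := fun x => (((x.out : (⊤ : Subgroup Γ)) : Γ) :
    Γ ⧸ U)
  have hF : Function.Bijective F := by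
    constructor
    · intro x y hxy
      have h1 := QuotientGroup.eq.mp hxy
      rw [← QuotientGroup.out_eq' x, ← QuotientGroup.out_eq' y, QuotientGroup.eq,
        Subgroup.mem_subgroupOf]
      exact h1
    · intro c
      obtain ⟨g, rfl⟩ := QuotientGroup.mk_surjective c
      refine ⟨((⟨g, Subgroup.mem_top g⟩ : (⊤ : Subgroup Γ)) :
        (⊤ : Subgroup Γ) ⧸ U.subgroupOf ⊤), ?_⟩
      change ((((((⟨g, Subgroup.mem_top g⟩ : (⊤ : Subgroup Γ)) :
        (⊤ : Subgroup Γ) ⧸ U.subgroupOf ⊤).out : (⊤ : Subgroup Γ)) : Γ)) : Γ ⧸ U) = (g : Γ ⧸ U)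
      rw [QuotientGroup.eq]
      have h2 := QuotientGroup.out_eq' ((⟨g, Subgroup.mem_top g⟩ : (⊤ : Subgroup Γ)) :
        (⊤ : Subgroup Γ) ⧸ U.subgroupOf ⊤)
      rw [QuotientGroup.eq, Subgroup.mem_subgroupOf] at h2
      exact h2
  let E := Equiv.ofBijective F hF
  have hE : ∀ x, E x = F x := fun _ => rfl
  rw [coe_nmr ρ le_top hU b (fun x => (E x).out) (fun x => ⟨Subgroup.mem_top _, ?_⟩)]
  · exact Fintype.sum_equiv E _ _ fun x => rfl
  · have h3 : (((E x).out : Γ) : Γ ⧸ U) = (((x.out : (⊤ : Subgroup Γ)) : Γ) : Γ ⧸ U) :=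
      (QuotientGroup.out_eq' (E x)).trans (hE x)
    conv_rhs => rw [← QuotientGroup.out_eq' x]
    rw [QuotientGroup.eq, Subgroup.mem_subgroupOf]
    exact QuotientGroup.eq.mp h3

variable {S : Finset Nat.Primes} {U : Subgroup GQ} {p : ℕ} [hp : Fact p.Prime]

theorem fst_mem_XV (a : ↥(FF (repI S) U)) {l : Nat.Primes} (hl : l ∈ S) :
    a.1.1.1 l ∈ XV (rl l) (LU (l : ℕ)) U := by
  refine ⟨fun δ x => ?_, fun v hv x => ?_⟩
  · rw [a.1.2.1 l hl δ x]
    rfl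
  · exact congrArg (fun b : IS S => b.1.1 l x) ((mem_FF (repI S)).mp a.2 v hv)

/-- the local component at the top level -/
noncomputable def lc (a : ↥(FF (repI S) (⊤ : Subgroup GQ))) {l : Nat.Primes} (hl : l ∈ S) :
    ↥(FF (LU (l : ℕ)) (⊤ : Subgroup (Gl l))) :=
  ⟨a.1.1.1 l 1, by
    rw [mem_FF]
    intro δ _
    rw [← (fst_mem_XV a hl).1, mul_one, ← one_mul (rl l δ)]
    exact (fst_mem_XV a hl).2 _ (Subgroup.mem_top _) 1⟩

variable (p) in
/-- the logarithm of a prime -/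
noncomputable def lamP (l : Nat.Primes) : ℤ_[p] :=
  open Classical in if h : (l : ℕ).Coprime p then lam (unitNat h) else 0

variable (S) in
/-- the divisor part of the valuation -/
noncomputable def V0d : ↥(FF (repI S) (⊤ : Subgroup GQ)) →+ ℤ_[p] where
  toFun a := ∑ᶠ l : Nat.Primes, (cD a l 1 : ℤ_[p]) * lamP p l
  map_zero' := by
    refine (finsum_congr fun l => ?_).trans finsum_zero
    rw [cD_zero, Int.cast_zero, zero_mul]
  map_add' a b := by
    have h : ∀ a : ↥(FF (repI S) (⊤ : Subgroup GQ)),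
        (Function.support fun l => (cD a l 1 : ℤ_[p]) * lamP p l).Finite := by
      intro a
      refine (finite_cD a).subset fun l hl => ⟨1, fun h0 => hl ?_⟩
      change (cD a l 1 : ℤ_[p]) * lamP p l = 0
      rw [h0, Int.cast_zero, zero_mul]
    rw [← finsum_add_distrib (h a) (h b)]
    apply finsum_congr
    intro l
    rw [cD_add]
    push_cast
    ring

variable (S) in
/-- the cyclotomic valuation on ideles -/
noncomputable def V0 (hp2 : p ≠ 2) : ↥(FF (repI S) (⊤ : Subgroup GQ)) →+ ℤ_[p] where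
  toFun a := ∑ l : S, v0 (l.1 : ℕ) p hp2 (lc a l.2) + V0d S a
  map_zero' := by
    have h : ∀ l : S, v0 (l.1 : ℕ) p hp2 (lc (0 : ↥(FF (repI S) (⊤ : Subgroup GQ))) l.2) = 0 := by
      intro l
      have : lc (0 : ↥(FF (repI S) (⊤ : Subgroup GQ))) l.2 = 0 := rfl
      rw [this, map_zero]
    rw [Finset.sum_eq_zero fun l _ => h l, map_zero, add_zero]
  map_add' a b := by
    have h : ∀ l : S, v0 (l.1 : ℕ) p hp2 (lc (a + b) l.2) =
        v0 (l.1 : ℕ) p hp2 (lc a l.2) + v0 (l.1 : ℕ) p hp2 (lc b l.2) := by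
      intro l
      rw [← map_add]
      rfl
    rw [Finset.sum_congr rfl fun l _ => h l, Finset.sum_add_distrib, map_add]
    ring

theorem V0_apply (hp2 : p ≠ 2) (a : ↥(FF (repI S) (⊤ : Subgroup GQ))) :
    V0 S hp2 a = ∑ l : S, v0 (l.1 : ℕ) p hp2 (lc a l.2) + V0d S a := rfl

theorem V0d_apply (a : ↥(FF (repI S) (⊤ : Subgroup GQ))) :
    V0d (p := p) S a = ∑ᶠ l : Nat.Primes, (cD a l 1 : ℤ_[p]) * lamP p l := rfl

theorem lc_nmr [Fintype (GQ ⧸ U)] (hU : (famS S).IsOpen U) (a : ↥(FF (repI S) U))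
    {l : Nat.Primes} (hl : l ∈ S) :
    lc (nmr (repI S) le_top hU a) hl = trL (a.1.1.1 l) (fst_mem_XV a hl) := by
  apply Subtype.ext
  rw [coe_trL]
  change ((nmr (repI S) (le_top : U ≤ ⊤) hU a : ↥(FF (repI S) (⊤ : Subgroup GQ))) : IS S).1.1 l 1 = _
  rw [coe_nmr_top hU]
  have h2 : ∀ (s : Finset (GQ ⧸ U)),
      (∑ c ∈ s, repI S c.out (a : IS S) : IS S).1.1 l 1 = ∑ c ∈ s, a.1.1.1 l c.out := by
    classical
    intro s
    induction s using Finset.induction_on with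
    | empty => rfl
    | insert i s hi ih =>
      rw [Finset.sum_insert hi, Finset.sum_insert hi, ← ih]
      change a.1.1.1 l (1 * i.out) + _ = _
      rw [one_mul]
  exact h2 _

theorem cD_nmr_top [Fintype (GQ ⧸ U)] (hU : (famS S).IsOpen U) (a : ↥(FF (repI S) U))
    (l : Nat.Primes) :
    cD (nmr (repI S) le_top hU a) l 1 = ∑ c : GQ ⧸ U, cD a l c.out := by
  change ((nmr (repI S) (le_top : U ≤ ⊤) hU a : ↥(FF (repI S) (⊤ : Subgroup GQ))) : IS S).1.2 l 1 = _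
  rw [coe_nmr_top hU]
  have h2 : ∀ (s : Finset (GQ ⧸ U)),
      (∑ c ∈ s, repI S c.out (a : IS S) : IS S).1.2 l 1 = ∑ c ∈ s, cD a l c.out := by
    classical
    intro s
    induction s using Finset.induction_on with
    | empty => rfl
    | insert i s hi ih =>
      rw [Finset.sum_insert hi, Finset.sum_insert hi, ← ih]
      change a.1.1.2 l (1 * i.out) + _ = _
      rw [one_mul]
      rfl
  exact h2 _

/-- powers of `l` as invariant function -/
noncomputable def powF (l : Nat.Primes) (φ : GQ → ℤ) (g : GQ) : Additive (Om l)ˣ :=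
  φ g • (Pl (l : ℕ) : Additive (Om l)ˣ)

theorem powF_mem {l : Nat.Primes} {φ : GQ → ℤ} (h1 : ∀ (δ : Gl l) x, φ (rl l δ * x) = φ x)
    (h2 : ∀ u ∈ U, ∀ x, φ (x * u) = φ x) : powF l φ ∈ XV (rl l) (LU (l : ℕ)) U := by
  refine ⟨fun δ x => ?_, fun v hv x => ?_⟩
  · rw [powF, powF, h1, map_zsmul, (mem_FF (LU (l : ℕ))).mp (Pl (l : ℕ)).2 δ (Subgroup.mem_top _)]
  · rw [powF, powF, h2 v hv]

theorem v0_powF (hp2 : p ≠ 2) {l : Nat.Primes} (hlp : (l : ℕ) ≠ p) [Fintype (GQ ⧸ U)]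
    {φ : GQ → ℤ} (h : powF l φ ∈ XV (rl l) (LU (l : ℕ)) U) :
    v0 (l : ℕ) p hp2 (trL (powF l φ) h) = ((∑ c : GQ ⧸ U, φ c.out : ℤ) : ℤ_[p]) * lamP p l := by
  have h1 : trL (powF l φ) h = (∑ c : GQ ⧸ U, φ c.out : ℤ) • Pl (l : ℕ) := by
    apply Subtype.ext
    rw [coe_trL]
    have h2 : (((∑ c : GQ ⧸ U, φ c.out : ℤ) • Pl (l : ℕ) : ↥(FF (LU (l : ℕ)) ⊤)) :
        Additive (Om l)ˣ) = (∑ c : GQ ⧸ U, φ c.out : ℤ) • (Pl (l : ℕ) : Additive (Om l)ˣ) := rfl
    rw [h2]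
    exact (Finset.sum_smul (f := fun c : GQ ⧸ U => φ c.out) (s := Finset.univ)
      (x := (Pl (l : ℕ) : Additive (Om l)ˣ))).symm
  rw [h1, v0_of_ne hp2 hlp, lamP, dif_pos (coprime_of_ne hlp)]
  congr 2
  have h2 := map_zsmul (VUhom (l := (l : ℕ)) top_open) (∑ c : GQ ⧸ U, φ c.out : ℤ) (Pl (l : ℕ))
  rw [VUhom_apply, VUhom_apply, VU_Pl, smul_eq_mul, mul_one] at h2
  exact h2

/-- Divisibility of the global valuation of norms. -/
theorem dvd_V0_nmr (hp2 : p ≠ 2) (hpS : ⟨p, hp.out⟩ ∈ S) (hU : (famS S).IsOpen U) {n : ℕ}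
    (hn : ∀ u ∈ U, (p : ℤ_[p]) ^ n ∣ dQ p u) (a : ↥(FF (repI S) U)) :
    (p : ℤ_[p]) ^ n ∣ V0 S hp2 (nmr (repI S) le_top hU a) := by
  have hfi := hU.finiteIndex
  letI : Fintype (GQ ⧸ U) := Fintype.ofFinite _
  rw [V0_apply]
  apply dvd_add
  · apply Finset.dvd_sum
    intro l _
    rw [lc_nmr hU a l.2]
    exact dvd_v0_trL hp2 (isOpen_of_famS hU) hn _ _
  · rw [V0d_apply]
    refine finsum_induction (fun x => (p : ℤ_[p]) ^ n ∣ x) (dvd_zero _) (fun _ _ => dvd_add) ?_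
    intro l
    by_cases hl : l ∈ S
    · have h0 : cD (nmr (repI S) (le_top : U ≤ ⊤) hU a) l 1 = 0 :=
        congrFun ((nmr (repI S) (le_top : U ≤ ⊤) hU a).1.2.2.2.2.1 l hl) 1
      rw [h0, Int.cast_zero, zero_mul]
      exact dvd_zero _
    · have hlp : (l : ℕ) ≠ p := by
        rintro h
        apply hl
        have : l = ⟨p, hp.out⟩ := Subtype.ext h
        rw [this]
        exact hpS
      have hmem := powF_mem (U := U) (l := l) (φ := cD a l) (fun δ x => cD_rl a δ x)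
        (fun u hu x => cD_mul a l x hu)
      rw [cD_nmr_top hU, ← v0_powF hp2 hlp hmem]
      exact dvd_v0_trL hp2 (isOpen_of_famS hU) hn _ _

end Fermat.Agent.GCFT
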